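/-
GATE-C / C1 (PROFCOH), helper78.  Cohomology of a group `G` relative to a directed family `𝒰` of
finite-index subgroups ("level system"), computed on LEVEL-CONSTANT inhomogeneous cochains.
This is the generic form of the prelude's `continuousH1S`, `continuousH2S`, `continuousH2`.
Mathlib only.
-/
import Mathlib

set_option autoImplicit false

open CategoryTheory

noncomputable section

namespace Fermat.Agent.GC.Prof

universe u

/-- A *level system* on a group: a nonempty family of subgroups, directed downwards, such that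
every member contains a normal member of finite index.  (Think: the open subgroups of a profinite
quotient of `G`.) -/
structure LevelSystem (G : Type u) [Group G] where
  /-- the members ("open subgroups") -/
  sets : Set (Subgroup G)
  nonempty : sets.Nonempty
  directed : ∀ U ∈ sets, ∀ V ∈ sets, ∃ W ∈ sets, W ≤ U ⊓ V
  normal_below : ∀ U ∈ sets, ∃ V ∈ sets, V ≤ U ∧ V.Normal ∧ V.FiniteIndex

namespace LevelSystem

variable {G : Type u} [Group G] (𝒰 : LevelSystem G)

/-- Below any two members there is a normal finite-index member. -/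
lemma exists_normal_le_inf {U V : Subgroup G} (hU : U ∈ 𝒰.sets) (hV : V ∈ 𝒰.sets) :
    ∃ W ∈ 𝒰.sets, W ≤ U ∧ W ≤ V ∧ W.Normal ∧ W.FiniteIndex := by
  obtain ⟨W, hW, hWle⟩ := 𝒰.directed U hU V hV
  obtain ⟨W', hW', hle, hn, hf⟩ := 𝒰.normal_below W hW
  exact ⟨W', hW', hle.trans (hWle.trans inf_le_left), hle.trans (hWle.trans inf_le_right), hn, hf⟩

lemma exists_normal : ∃ W ∈ 𝒰.sets, W.Normal ∧ W.FiniteIndex := by
  obtain ⟨U, hU⟩ := 𝒰.nonempty
  obtain ⟨W, hW, -, hn, hf⟩ := 𝒰.normal_below U hU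
  exact ⟨W, hW, hn, hf⟩

lemma finiteIndex_of_mem {U : Subgroup G} (hU : U ∈ 𝒰.sets) : U.FiniteIndex := by
  obtain ⟨V, -, hle, -, hf⟩ := 𝒰.normal_below U hU
  exact Subgroup.finiteIndex_of_le hle

/-- Below finitely many members there is a normal finite-index member. -/
lemma exists_normal_le_finite {ι : Type*} (s : Set ι) (hs : s.Finite) (U : ι → Subgroup G)
    (hU : ∀ i ∈ s, U i ∈ 𝒰.sets) :
    ∃ W ∈ 𝒰.sets, (∀ i ∈ s, W ≤ U i) ∧ W.Normal ∧ W.FiniteIndex := by
  induction s, hs using Set.Finite.induction_on with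
  | empty =>
    obtain ⟨W, hW, hn, hf⟩ := 𝒰.exists_normal
    exact ⟨W, hW, by simp, hn, hf⟩
  | @insert a s _ _ ih =>
    obtain ⟨W, hW, hle, -, -⟩ := ih (fun i hi => hU i (Set.mem_insert_of_mem _ hi))
    obtain ⟨W', hW', h1, h2, hn, hf⟩ := 𝒰.exists_normal_le_inf hW (hU a (Set.mem_insert _ _))
    refine ⟨W', hW', ?_, hn, hf⟩
    intro i hi
    rcases hi with rfl | hi
    · exact h2
    · exact h1.trans (hle i hi)

end LevelSystem

variable {k G : Type u} [CommRing k] [Group G] (𝒰 : LevelSystem G)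

/-- A representation is `𝒰`-discrete if every vector is fixed by some member of `𝒰`. -/
class IsDiscrete (M : Rep.{u} k G) : Prop where
  exists_fix : ∀ m : M, ∃ U ∈ 𝒰.sets, ∀ s ∈ U, M.ρ s m = m

/-- A function on `Gⁿ` is level-constant if it is invariant under right translation by `Uⁿ` for
some member `U` of the level system. -/
def IsLC {n : ℕ} {X : Type*} (f : (Fin n → G) → X) : Prop :=
  ∃ U ∈ 𝒰.sets, ∀ g s : Fin n → G, (∀ i, s i ∈ U) → f (g * s) = f g

namespace IsLC

variable {𝒰} {n : ℕ} {X Y : Type*}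

lemma mono_level {f : (Fin n → G) → X} {U V : Subgroup G} (hVU : V ≤ U)
    (h : ∀ g s : Fin n → G, (∀ i, s i ∈ U) → f (g * s) = f g) :
    ∀ g s : Fin n → G, (∀ i, s i ∈ V) → f (g * s) = f g :=
  fun g s hs => h g s fun i => hVU (hs i)

lemma const (x : X) : IsLC 𝒰 (fun _ : Fin n → G => x) := by
  obtain ⟨U, hU⟩ := 𝒰.nonempty
  exact ⟨U, hU, fun _ _ _ => rfl⟩

lemma comp {f : (Fin n → G) → X} (hf : IsLC 𝒰 f) (φ : X → Y) : IsLC 𝒰 (φ ∘ f) := by
  obtain ⟨U, hU, h⟩ := hf
  exact ⟨U, hU, fun g s hs => by simp only [Function.comp_apply, h g s hs]⟩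

lemma map₂ {Z : Type*} {f : (Fin n → G) → X} {f' : (Fin n → G) → Y} (hf : IsLC 𝒰 f)
    (hf' : IsLC 𝒰 f') (φ : X → Y → Z) : IsLC 𝒰 (fun g => φ (f g) (f' g)) := by
  obtain ⟨U, hU, h⟩ := hf
  obtain ⟨U', hU', h'⟩ := hf'
  obtain ⟨W, hW, hWle⟩ := 𝒰.directed U hU U' hU'
  refine ⟨W, hW, fun g s hs => ?_⟩
  beta_reduce
  rw [h g s fun i => (hWle.trans inf_le_left) (hs i), h' g s fun i => (hWle.trans inf_le_right) (hs i)]

lemma add [Add X] {f f' : (Fin n → G) → X} (hf : IsLC 𝒰 f) (hf' : IsLC 𝒰 f') :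
    IsLC 𝒰 (f + f') := hf.map₂ hf' (· + ·)

lemma of_subsingleton_dom (f : (Fin 0 → G) → X) : IsLC 𝒰 f := by
  obtain ⟨U, hU⟩ := 𝒰.nonempty
  exact ⟨U, hU, fun g s _ => congrArg f (Subsingleton.elim _ _)⟩

/-- A level-constant function takes finitely many values. -/
lemma finite_range {f : (Fin n → G) → X} (hf : IsLC 𝒰 f) : (Set.range f).Finite := by
  obtain ⟨U, hU, h⟩ := hf
  have := 𝒰.finiteIndex_of_mem hU
  have : Finite (G ⧸ U) := Subgroup.finite_quotient_of_finiteIndex
  -- `f` factors through `(Fin n → G ⧸ U)`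
  let q : (Fin n → G) → (Fin n → G ⧸ U) := fun g i => (g i : G ⧸ U)
  have hq : ∀ g g', q g = q g' → f g = f g' := by
    intro g g' hgg'
    have : g' = g * (g⁻¹ * g') := by simp
    rw [this]
    refine (h g _ fun i => ?_).symm
    have := congrFun hgg' i
    simp only [q] at this
    rw [Pi.mul_apply, Pi.inv_apply]
    exact QuotientGroup.eq.1 this
  have : Set.range f ⊆ Set.range (fun x : Fin n → G ⧸ U => f (fun i => Quotient.out (x i))) := by
    rintro _ ⟨g, rfl⟩
    refine ⟨q g, ?_⟩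
    apply hq
    funext i
    simp [q]
  exact (Set.finite_range _).subset this

end IsLC

/-! ### The differential preserves level-constant cochains (discrete coefficients) -/

section Differential

variable {𝒰}

/-- Contracting two adjacent entries of `g * s` with `s ∈ Vⁿ⁺¹`, `V` normal, changes the contraction
of `g` by an element of `Vⁿ` on the right. -/
lemma contractNth_mul_mem {n : ℕ} (V : Subgroup G) [V.Normal] (j : Fin (n + 1))
    (g s : Fin (n + 1) → G) (hs : ∀ i, s i ∈ V) (i : Fin n) :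
    ((Fin.contractNth j (· * ·) g)⁻¹ * Fin.contractNth j (· * ·) (g * s)) i ∈ V := by
  simp only [Pi.mul_apply, Pi.inv_apply, Fin.contractNth]
  split_ifs with h1 h2
  · simpa using hs _
  · have : (g i.castSucc * g i.succ)⁻¹ * (g i.castSucc * s i.castSucc * (g i.succ * s i.succ)) =
        ((g i.succ)⁻¹ * s i.castSucc * (g i.succ)⁻¹⁻¹) * s i.succ := by group
    rw [this]
    exact V.mul_mem (Subgroup.Normal.conj_mem inferInstance _ (hs _) _) (hs _)
  · simpa using hs _

lemma IsLC.apply_contractNth {n : ℕ} {X : Type*} {f : (Fin n → G) → X} {V : Subgroup G} [V.Normal]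
    (h : ∀ g s : Fin n → G, (∀ i, s i ∈ V) → f (g * s) = f g) (j : Fin (n + 1))
    (g s : Fin (n + 1) → G) (hs : ∀ i, s i ∈ V) :
    f (Fin.contractNth j (· * ·) (g * s)) = f (Fin.contractNth j (· * ·) g) := by
  have := h (Fin.contractNth j (· * ·) g) _ (contractNth_mul_mem V j g s hs)
  rwa [mul_inv_cancel_left] at this

/-- For a level-constant cochain with values in a discrete representation there is a normal
finite-index level `V` such that `f` is constant on `Vⁿ`-cosets and all values are fixed by `V`. -/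
lemma IsLC.exists_level (M : Rep.{u} k G) [IsDiscrete 𝒰 M] {n : ℕ} {f : (Fin n → G) → M}
    (hf : IsLC 𝒰 f) :
    ∃ V ∈ 𝒰.sets, V.Normal ∧ V.FiniteIndex ∧
      (∀ g s : Fin n → G, (∀ i, s i ∈ V) → f (g * s) = f g) ∧
      ∀ s ∈ V, ∀ g, M.ρ s (f g) = f g := by
  have hfin := hf.finite_range
  obtain ⟨U, hU, h⟩ := hf
  choose W hW hWfix using fun m : M => IsDiscrete.exists_fix (𝒰 := 𝒰) m
  obtain ⟨V₀, hV₀, hle, -, -⟩ := 𝒰.exists_normal_le_finite (Set.range f) hfin W (fun m _ => hW m)
  obtain ⟨V, hV, hVU, hVV₀, hn, hfi⟩ := 𝒰.exists_normal_le_inf hU hV₀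
  refine ⟨V, hV, hn, hfi, IsLC.mono_level hVU h, fun s hs g => ?_⟩
  exact hWfix (f g) s (hle (f g) ⟨g, rfl⟩ (hVV₀ hs))

/-- The inhomogeneous differential preserves level-constant cochains with discrete coefficients. -/
lemma IsLC.d (M : Rep.{u} k G) [IsDiscrete 𝒰 M] {n : ℕ} {f : (Fin n → G) → M} (hf : IsLC 𝒰 f) :
    IsLC 𝒰 (inhomogeneousCochains.d M n f) := by
  obtain ⟨V, hV, hn, -, hlc, hfix⟩ := hf.exists_level M
  refine ⟨V, hV, fun g s hs => ?_⟩
  simp only [inhomogeneousCochains.d_hom_apply]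
  congr 1
  · have h1 : (fun i : Fin n => (g * s) i.succ) = (fun i => g i.succ) * (fun i => s i.succ) := rfl
    rw [h1, hlc _ _ (fun i => hs _), Pi.mul_apply, map_mul, Module.End.mul_apply, hfix _ (hs 0)]
  · refine Finset.sum_congr rfl fun j _ => ?_
    rw [IsLC.apply_contractNth hlc j g s hs]

end Differential

/-! ### The complex of level-constant cochains -/

variable (M : Rep.{u} k G)

/-- The submodule of level-constant `n`-cochains. -/
def lcSub (n : ℕ) : Submodule k ((Fin n → G) → M) where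
  carrier := {f | IsLC 𝒰 f}
  add_mem' hf hf' := hf.add hf'
  zero_mem' := IsLC.const (0 : M)
  smul_mem' c _ hf := hf.comp (c • ·)

lemma mem_lcSub_iff {n : ℕ} (f : (Fin n → G) → M) : f ∈ lcSub 𝒰 M n ↔ IsLC 𝒰 f := Iff.rfl

variable [IsDiscrete 𝒰 M]

/-- The differential restricted to level-constant cochains. -/
def lcD (n : ℕ) : lcSub 𝒰 M n →ₗ[k] lcSub 𝒰 M (n + 1) :=
  ((inhomogeneousCochains.d M n).hom.comp (lcSub 𝒰 M n).subtype).codRestrict (lcSub 𝒰 M (n + 1))
    fun f => IsLC.d M f.2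

@[simp]
lemma lcD_coe (n : ℕ) (f : lcSub 𝒰 M n) :
    ((lcD 𝒰 M n f : lcSub 𝒰 M (n + 1)) : (Fin (n + 1) → G) → M) =
      inhomogeneousCochains.d M n (f : (Fin n → G) → M) := rfl

lemma lcD_comp_lcD (n : ℕ) : (lcD 𝒰 M (n + 1)).comp (lcD 𝒰 M n) = 0 := by
  ext f : 1
  apply Subtype.ext
  have := congr($(groupCohomology.inhomogeneousCochains.d_comp_d (n := n) M) (f : (Fin n → G) → M))
  simpa using this

/-- The complex of level-constant inhomogeneous cochains. -/
def lcCochains : CochainComplex (ModuleCat.{u} k) ℕ :=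
  CochainComplex.of (fun n => ModuleCat.of k (lcSub 𝒰 M n))
    (fun n => ModuleCat.ofHom (lcD 𝒰 M n)) fun n => by
      rw [← ModuleCat.ofHom_comp, lcD_comp_lcD]; rfl

/-- The inclusion of level-constant cochains into all cochains. -/
def lcCochainsι : lcCochains 𝒰 M ⟶ groupCohomology.inhomogeneousCochains M :=
  CochainComplex.ofHom (fun n => ModuleCat.ofHom (lcSub 𝒰 M n).subtype) fun n => by
    simp only [lcCochains, CochainComplex.of_d]
    rfl

/-- Level-constant ("continuous") cohomology of a discrete representation. -/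
def Hlc (n : ℕ) : ModuleCat.{u} k := (lcCochains 𝒰 M).homology n

/-- The comparison map to abstract group cohomology. -/
def HlcToH (n : ℕ) : Hlc 𝒰 M n ⟶ groupCohomology M n :=
  HomologicalComplex.homologyMap (lcCochainsι 𝒰 M) n

end Fermat.Agent.GC.Prof
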