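/-
GATE-C / C1 (PROFCOH) leaf (L1), helper78.  Functoriality of the level-constant cochain complex in
the coefficients, and the long exact cohomology sequence of a short exact sequence of discrete
representations.
-/
import Fermat.Agent.GC.Prof.Basic

set_option autoImplicit false

open CategoryTheory

noncomputable section

namespace Fermat.Agent.GC.Prof

universe u

variable {k G : Type u} [CommRing k] [Group G] (𝒰 : LevelSystem G)

section Map

variable {M N P : Rep.{u} k G} [IsDiscrete 𝒰 M] [IsDiscrete 𝒰 N] [IsDiscrete 𝒰 P]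

/-- Post-composition with a morphism of representations, on level-constant cochains. -/
def lcMapLin (φ : M ⟶ N) (n : ℕ) : lcSub 𝒰 M n →ₗ[k] lcSub 𝒰 N n :=
  ((φ.hom.toLinearMap.compLeft (Fin n → G)).comp (lcSub 𝒰 M n).subtype).codRestrict _
    (fun f => f.2.comp φ.hom)

omit [IsDiscrete 𝒰 M] [IsDiscrete 𝒰 N] in
@[simp]
lemma lcMapLin_coe (φ : M ⟶ N) (n : ℕ) (f : lcSub 𝒰 M n) (g : Fin n → G) :
    ((lcMapLin 𝒰 φ n f : lcSub 𝒰 N n) : (Fin n → G) → N) g = φ.hom ((f : (Fin n → G) → M) g) :=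
  rfl

lemma d_comp_hom (φ : M ⟶ N) (n : ℕ) (f : (Fin n → G) → M) :
    inhomogeneousCochains.d N n (fun g => φ.hom (f g)) =
      fun g => φ.hom (inhomogeneousCochains.d M n f g) := by
  have := congr($((groupCohomology.cochainsMap (MonoidHom.id G) φ).comm n (n + 1)) f)
  simp only [CochainComplex.of_d, ModuleCat.hom_comp, LinearMap.comp_apply] at this
  exact this

lemma lcMapLin_comm (φ : M ⟶ N) (n : ℕ) :
    (lcD 𝒰 N n).comp (lcMapLin 𝒰 φ n) = (lcMapLin 𝒰 φ (n + 1)).comp (lcD 𝒰 M n) := by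
  ext f : 1
  apply Subtype.ext
  exact d_comp_hom φ n _

/-- The morphism of level-constant cochain complexes induced by a morphism of representations. -/
def lcMap (φ : M ⟶ N) : lcCochains 𝒰 M ⟶ lcCochains 𝒰 N :=
  CochainComplex.ofHom (fun n => ModuleCat.ofHom (lcMapLin 𝒰 φ n)) fun n => by
    simp only [lcCochains, CochainComplex.of_d]
    rw [← ModuleCat.ofHom_comp, ← ModuleCat.ofHom_comp, lcMapLin_comm]

@[simp]
lemma lcMap_f (φ : M ⟶ N) (n : ℕ) : (lcMap 𝒰 φ).f n = ModuleCat.ofHom (lcMapLin 𝒰 φ n) := rfl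

lemma lcMap_id : lcMap 𝒰 (𝟙 M) = 𝟙 (lcCochains 𝒰 M) := by
  ext n f : 3
  rfl

lemma lcMap_comp (φ : M ⟶ N) (ψ : N ⟶ P) : lcMap 𝒰 (φ ≫ ψ) = lcMap 𝒰 φ ≫ lcMap 𝒰 ψ := by
  ext n f : 3
  rfl

lemma lcMap_zero : lcMap 𝒰 (0 : M ⟶ N) = 0 := by
  ext n f : 3
  rfl

/-- Functoriality of `Hlc` in the coefficients. -/
def HlcMap (φ : M ⟶ N) (n : ℕ) : Hlc 𝒰 M n ⟶ Hlc 𝒰 N n :=
  HomologicalComplex.homologyMap (lcMap 𝒰 φ) n

lemma HlcMap_id (n : ℕ) : HlcMap 𝒰 (𝟙 M) n = 𝟙 _ := by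
  simp [HlcMap, lcMap_id, Hlc]

lemma HlcMap_comp (φ : M ⟶ N) (ψ : N ⟶ P) (n : ℕ) :
    HlcMap 𝒰 (φ ≫ ψ) n = HlcMap 𝒰 φ n ≫ HlcMap 𝒰 ψ n := by
  rw [HlcMap, lcMap_comp, HomologicalComplex.homologyMap_comp]
  rfl

end Map

/-! ### Lifting level-constant cochains -/

variable {𝒰} in
/-- A level-constant cochain can be lifted through any surjection to a level-constant cochain. -/
lemma IsLC.exists_lift {n : ℕ} {A B : Type*} (π : A → B) (hπ : Function.Surjective π)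
    {f : (Fin n → G) → B} (hf : IsLC 𝒰 f) :
    ∃ f' : (Fin n → G) → A, IsLC 𝒰 f' ∧ ∀ g, π (f' g) = f g := by
  obtain ⟨U, hU, h⟩ := hf
  -- canonical representatives of `Uⁿ`-cosets
  let r : (Fin n → G) → (Fin n → G) := fun g i => Quotient.out (g i : G ⧸ U)
  have hr1 : ∀ g s : Fin n → G, (∀ i, s i ∈ U) → r (g * s) = r g := by
    intro g s hs
    funext i
    simp only [r, Pi.mul_apply]
    congr 1
    exact QuotientGroup.eq.2 (by simpa using hs i)
  have hr2 : ∀ g : Fin n → G, f (r g) = f g := by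
    intro g
    have : r g = g * (g⁻¹ * r g) := by simp
    rw [this]
    refine h g _ fun i => ?_
    rw [Pi.mul_apply, Pi.inv_apply]
    refine QuotientGroup.eq.1 ?_
    simp [r]
  refine ⟨fun g => Function.surjInv hπ (f (r g)), ⟨U, hU, fun g s hs => ?_⟩, fun g => ?_⟩
  · simp only [hr1 g s hs]
  · rw [Function.surjInv_eq hπ, hr2]

/-! ### The long exact sequence -/

section ShortExact

variable (X : ShortComplex (Rep.{u} k G))
  [IsDiscrete 𝒰 X.X₁] [IsDiscrete 𝒰 X.X₂] [IsDiscrete 𝒰 X.X₃]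

/-- The short complex of level-constant cochain complexes attached to a short complex of discrete
representations. -/
def lcShortComplex : ShortComplex (CochainComplex (ModuleCat.{u} k) ℕ) :=
  ShortComplex.mk (lcMap 𝒰 X.f) (lcMap 𝒰 X.g) (by rw [← lcMap_comp, X.zero, lcMap_zero])

variable {X} (hX : X.ShortExact)

include hX in
lemma lcShortComplex_shortExact : (lcShortComplex 𝒰 X).ShortExact := by
  have hinj : Function.Injective X.f.hom := (Rep.mono_iff_injective X.f).1 hX.mono_f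
  have hsurj : Function.Surjective X.g.hom := (Rep.epi_iff_surjective X.g).1 hX.epi_g
  have hex : ∀ y : X.X₂, X.g.hom y = 0 → ∃ x : X.X₁, X.f.hom x = y := by
    intro y hy
    have := (hX.exact.map (forget₂ (Rep k G) (ModuleCat k))).moduleCat_range_eq_ker
    have hy' : y ∈ LinearMap.ker (ModuleCat.Hom.hom
        (X.map (forget₂ (Rep.{u} k G) (ModuleCat k))).g) := hy
    rw [← this] at hy'
    exact hy'
  refine HomologicalComplex.shortExact_of_degreewise_shortExact _ fun i => ?_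
  refine { exact := ?_, mono_f := ?_, epi_g := ?_ }
  · rw [ShortComplex.moduleCat_exact_iff]
    intro f hf
    change lcSub 𝒰 X.X₂ i at f
    have hf' : ∀ g, X.g.hom ((f : (Fin i → G) → X.X₂) g) = 0 := fun g =>
      congrFun (congrArg Subtype.val hf) g
    choose f' hf'' using fun g => hex _ (hf' g)
    have hlc : IsLC 𝒰 f' := by
      obtain ⟨U, hU, h⟩ := f.2
      refine ⟨U, hU, fun g s hs => hinj ?_⟩
      rw [hf'', hf'', h g s hs]
    refine ⟨(⟨f', hlc⟩ : lcSub 𝒰 X.X₁ i), ?_⟩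
    apply Subtype.ext
    funext g
    exact hf'' g
  · rw [ModuleCat.mono_iff_injective]
    intro f f' hff'
    change lcSub 𝒰 X.X₁ i at f f'
    apply Subtype.ext
    funext g
    exact hinj (congrFun (congrArg Subtype.val hff') g)
  · rw [ModuleCat.epi_iff_surjective]
    intro f
    change lcSub 𝒰 X.X₃ i at f
    obtain ⟨f', hlc, hf'⟩ := IsLC.exists_lift (X.g.hom : X.X₂ → X.X₃) hsurj f.2
    refine ⟨(⟨f', hlc⟩ : lcSub 𝒰 X.X₂ i), ?_⟩
    apply Subtype.ext
    funext g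
    exact hf' g

/-- The connecting homomorphism `Hlc i (X₃) ⟶ Hlc j (X₁)`. -/
def Hlcδ (i j : ℕ) (hij : i + 1 = j) : Hlc 𝒰 X.X₃ i ⟶ Hlc 𝒰 X.X₁ j :=
  (lcShortComplex_shortExact 𝒰 hX).δ i j hij

/-- Exactness of `Hlc i X₃ ⟶ Hlc j X₁ ⟶ Hlc j X₂`. -/
lemma Hlc_exact₁ (i j : ℕ) (hij : i + 1 = j) :
    (ShortComplex.mk (Hlcδ 𝒰 hX i j hij) (HlcMap 𝒰 X.f j)
      ((lcShortComplex_shortExact 𝒰 hX).δ_comp i j hij)).Exact :=
  (lcShortComplex_shortExact 𝒰 hX).homology_exact₁ i j hij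

include hX in
/-- Exactness of `Hlc i X₁ ⟶ Hlc i X₂ ⟶ Hlc i X₃`. -/
lemma Hlc_exact₂ (i : ℕ) :
    (ShortComplex.mk (HlcMap 𝒰 X.f i) (HlcMap 𝒰 X.g i)
      (by rw [← HlcMap_comp, X.zero, HlcMap, lcMap_zero, HomologicalComplex.homologyMap_zero]; rfl)).Exact :=
  (lcShortComplex_shortExact 𝒰 hX).homology_exact₂ i

/-- Exactness of `Hlc i X₂ ⟶ Hlc i X₃ ⟶ Hlc j X₁`. -/
lemma Hlc_exact₃ (i j : ℕ) (hij : i + 1 = j) :
    (ShortComplex.mk (HlcMap 𝒰 X.g i) (Hlcδ 𝒰 hX i j hij)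
      ((lcShortComplex_shortExact 𝒰 hX).comp_δ i j hij)).Exact :=
  (lcShortComplex_shortExact 𝒰 hX).homology_exact₃ i j hij

end ShortExact

end Fermat.Agent.GC.Prof
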