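/-
GATE-C / C1 (PROFCOH), helper78.  Element-level API for `Hlc`: classes of level-constant cocycles
(`HlcMk`), vanishing criteria, functoriality and the connecting homomorphism on representatives.
-/
import Fermat.Agent.GC.Prof.LES

set_option autoImplicit false

open CategoryTheory

noncomputable section

namespace Fermat.Agent.GC.Prof

universe u

variable {k G : Type u} [CommRing k] [Group G] (𝒰 : LevelSystem G)
variable (M : Rep.{u} k G) [IsDiscrete 𝒰 M]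

/-- Level-constant `n`-cocycles. -/
def lcZ (n : ℕ) : Submodule k (lcSub 𝒰 M n) := LinearMap.ker (lcD 𝒰 M n)

lemma lcCochains_d (n : ℕ) : (lcCochains 𝒰 M).d n (n + 1) = ModuleCat.ofHom (lcD 𝒰 M n) := by
  simp [lcCochains]

/-- The cycle attached to a level-constant cocycle. -/
def lcCyclesMk {n : ℕ} (f : lcSub 𝒰 M n) (hf : lcD 𝒰 M n f = 0) : (lcCochains 𝒰 M).cycles n :=
  (lcCochains 𝒰 M).cyclesMk f (n + 1) (by simp) (by rw [lcCochains_d]; exact hf)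

lemma iCycles_lcCyclesMk {n : ℕ} (f : lcSub 𝒰 M n) (hf : lcD 𝒰 M n f = 0) :
    (lcCochains 𝒰 M).iCycles n (lcCyclesMk 𝒰 M f hf) = f :=
  (lcCochains 𝒰 M).i_cyclesMk (i := n) f (n + 1) (by simp) (by rw [lcCochains_d]; exact hf)

/-- The class of a level-constant cocycle. -/
def HlcMk {n : ℕ} (f : lcSub 𝒰 M n) (hf : lcD 𝒰 M n f = 0) : Hlc 𝒰 M n :=
  (lcCochains 𝒰 M).homologyπ n (lcCyclesMk 𝒰 M f hf)

lemma lcCyclesMk_iCycles {n : ℕ} (z : (lcCochains 𝒰 M).cycles n)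
    (hf : lcD 𝒰 M n ((lcCochains 𝒰 M).iCycles n z) = 0) :
    lcCyclesMk 𝒰 M ((lcCochains 𝒰 M).iCycles n z) hf = z := by
  have hmono : Function.Injective ((lcCochains 𝒰 M).iCycles n) :=
    (ModuleCat.mono_iff_injective _).1 inferInstance
  apply hmono
  exact iCycles_lcCyclesMk 𝒰 M _ hf

lemma lcD_iCycles {n : ℕ} (z : (lcCochains 𝒰 M).cycles n) :
    lcD 𝒰 M n ((lcCochains 𝒰 M).iCycles n z) = 0 := by
  have := congr($((lcCochains 𝒰 M).iCycles_d n (n + 1)) z)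
  rw [lcCochains_d] at this
  exact this

/-- Every class in `Hlc` is the class of a level-constant cocycle. -/
lemma Hlc_exists_mk {n : ℕ} (x : Hlc 𝒰 M n) :
    ∃ (f : lcSub 𝒰 M n) (hf : lcD 𝒰 M n f = 0), HlcMk 𝒰 M f hf = x := by
  obtain ⟨z, rfl⟩ := (ModuleCat.epi_iff_surjective ((lcCochains 𝒰 M).homologyπ n)).1 inferInstance x
  refine ⟨(lcCochains 𝒰 M).iCycles n z, lcD_iCycles 𝒰 M z, ?_⟩
  exact congrArg _ (lcCyclesMk_iCycles 𝒰 M z _)

/-- In positive degree, a class vanishes iff the cocycle is the coboundary of a level-constant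
cochain. -/
lemma HlcMk_succ_eq_zero_iff {n : ℕ} (f : lcSub 𝒰 M (n + 1)) (hf : lcD 𝒰 M (n + 1) f = 0) :
    HlcMk 𝒰 M f hf = 0 ↔ ∃ b : lcSub 𝒰 M n, lcD 𝒰 M n b = f := by
  have hex : (ShortComplex.mk ((lcCochains 𝒰 M).toCycles n (n + 1))
      ((lcCochains 𝒰 M).homologyπ (n + 1))
      ((lcCochains 𝒰 M).toCycles_comp_homologyπ n (n + 1))).Exact :=
    ShortComplex.exact_of_g_is_cokernel _ ((lcCochains 𝒰 M).homologyIsCokernel n (n + 1) (by simp))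
  rw [ShortComplex.moduleCat_exact_iff] at hex
  have hmono : Function.Injective ((lcCochains 𝒰 M).iCycles (n + 1)) :=
    (ModuleCat.mono_iff_injective _).1 inferInstance
  have hti : ∀ b : lcSub 𝒰 M n, (lcCochains 𝒰 M).iCycles (n + 1)
      ((lcCochains 𝒰 M).toCycles n (n + 1) b) = lcD 𝒰 M n b := by
    intro b
    have := congr($((lcCochains 𝒰 M).toCycles_i n (n + 1)) b)
    rw [lcCochains_d] at this
    exact this
  constructor
  · intro h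
    obtain ⟨b, hb⟩ := hex (lcCyclesMk 𝒰 M f hf) h
    refine ⟨b, ?_⟩
    have h1 := hti b
    have h2 : (lcCochains 𝒰 M).toCycles n (n + 1) b = lcCyclesMk 𝒰 M f hf := hb
    rw [h2, iCycles_lcCyclesMk] at h1
    exact h1.symm
  · rintro ⟨b, rfl⟩
    have : lcCyclesMk 𝒰 M (lcD 𝒰 M n b) hf = (lcCochains 𝒰 M).toCycles n (n + 1) b := by
      apply hmono
      exact (iCycles_lcCyclesMk 𝒰 M _ hf).trans (hti b).symm
    have h3 : HlcMk 𝒰 M (lcD 𝒰 M n b) hf =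
        (lcCochains 𝒰 M).homologyπ (n + 1) ((lcCochains 𝒰 M).toCycles n (n + 1) b) :=
      congrArg _ this
    rw [h3]
    exact congr($((lcCochains 𝒰 M).toCycles_comp_homologyπ n (n + 1)) b)

/-- In degree zero, a class vanishes iff the cocycle vanishes. -/
lemma HlcMk_zero_eq_zero_iff (f : lcSub 𝒰 M 0) (hf : lcD 𝒰 M 0 f = 0) :
    HlcMk 𝒰 M f hf = 0 ↔ f = 0 := by
  have hex : (ShortComplex.mk ((lcCochains 𝒰 M).toCycles 0 0)
      ((lcCochains 𝒰 M).homologyπ 0)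
      ((lcCochains 𝒰 M).toCycles_comp_homologyπ 0 0)).Exact :=
    ShortComplex.exact_of_g_is_cokernel _ ((lcCochains 𝒰 M).homologyIsCokernel 0 0 (by simp))
  rw [ShortComplex.moduleCat_exact_iff] at hex
  have hmono : Function.Injective ((lcCochains 𝒰 M).iCycles 0) :=
    (ModuleCat.mono_iff_injective _).1 inferInstance
  have hti : ∀ b : lcSub 𝒰 M 0, (lcCochains 𝒰 M).iCycles 0
      ((lcCochains 𝒰 M).toCycles 0 0 b) = 0 := by
    intro b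
    have := congr($((lcCochains 𝒰 M).toCycles_i 0 0) b)
    rw [(lcCochains 𝒰 M).shape 0 0 (by simp)] at this
    exact this
  constructor
  · intro h
    obtain ⟨b, hb⟩ := hex (lcCyclesMk 𝒰 M f hf) h
    have h1 := hti b
    have h2 : (lcCochains 𝒰 M).toCycles 0 0 b = lcCyclesMk 𝒰 M f hf := hb
    rw [h2, iCycles_lcCyclesMk] at h1
    exact h1
  · rintro rfl
    have : lcCyclesMk 𝒰 M (0 : lcSub 𝒰 M 0) hf = 0 := by
      apply hmono
      exact (iCycles_lcCyclesMk 𝒰 M _ hf).trans (map_zero _).symm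
    have h3 : HlcMk 𝒰 M (0 : lcSub 𝒰 M 0) hf = (lcCochains 𝒰 M).homologyπ 0 0 :=
      congrArg _ this
    rw [h3, map_zero]
    rfl

/-! ### Linearity -/

lemma lcCyclesMk_add {n : ℕ} (f f' : lcSub 𝒰 M n) (hf : lcD 𝒰 M n f = 0) (hf' : lcD 𝒰 M n f' = 0) :
    lcCyclesMk 𝒰 M (f + f') (by rw [map_add, hf, hf', add_zero]) =
      lcCyclesMk 𝒰 M f hf + lcCyclesMk 𝒰 M f' hf' := by
  have hmono : Function.Injective ((lcCochains 𝒰 M).iCycles n) :=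
    (ModuleCat.mono_iff_injective _).1 inferInstance
  apply hmono
  refine (iCycles_lcCyclesMk 𝒰 M _ _).trans ?_
  refine Eq.trans ?_ (map_add _ _ _).symm
  exact congrArg₂ (· + ·) (iCycles_lcCyclesMk 𝒰 M f hf).symm (iCycles_lcCyclesMk 𝒰 M f' hf').symm

lemma lcCyclesMk_smul {n : ℕ} (c : k) (f : lcSub 𝒰 M n) (hf : lcD 𝒰 M n f = 0) :
    lcCyclesMk 𝒰 M (c • f) (by rw [map_smul, hf, smul_zero]) = c • lcCyclesMk 𝒰 M f hf := by
  have hmono : Function.Injective ((lcCochains 𝒰 M).iCycles n) :=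
    (ModuleCat.mono_iff_injective _).1 inferInstance
  apply hmono
  refine (iCycles_lcCyclesMk 𝒰 M _ _).trans ?_
  refine Eq.trans ?_ (map_smul _ _ _).symm
  exact congrArg (c • ·) (iCycles_lcCyclesMk 𝒰 M f hf).symm

/-- `HlcMk` as a linear map on level-constant cocycles. -/
def HlcMkₗ (n : ℕ) : lcZ 𝒰 M n →ₗ[k] Hlc 𝒰 M n where
  toFun z := HlcMk 𝒰 M z.1 z.2
  map_add' z z' := by
    change (lcCochains 𝒰 M).homologyπ n _ = (lcCochains 𝒰 M).homologyπ n _ +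
      (lcCochains 𝒰 M).homologyπ n _
    rw [← map_add]
    exact congrArg _ (lcCyclesMk_add 𝒰 M z.1 z'.1 z.2 z'.2)
  map_smul' c z := by
    change (lcCochains 𝒰 M).homologyπ n _ = c • (lcCochains 𝒰 M).homologyπ n _
    rw [← map_smul]
    exact congrArg _ (lcCyclesMk_smul 𝒰 M c z.1 z.2)

@[simp]
lemma HlcMkₗ_apply {n : ℕ} (z : lcZ 𝒰 M n) : HlcMkₗ 𝒰 M n z = HlcMk 𝒰 M z.1 z.2 := rfl

lemma HlcMkₗ_surjective (n : ℕ) : Function.Surjective (HlcMkₗ 𝒰 M n) := by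
  intro x
  obtain ⟨f, hf, rfl⟩ := Hlc_exists_mk 𝒰 M x
  exact ⟨⟨f, hf⟩, rfl⟩

lemma HlcMk_congr {n : ℕ} {f f' : lcSub 𝒰 M n} (h : f = f') (hf : lcD 𝒰 M n f = 0) :
    HlcMk 𝒰 M f hf = HlcMk 𝒰 M f' (h ▸ hf) := by
  subst h; rfl

lemma HlcMk_add {n : ℕ} (f f' : lcSub 𝒰 M n) (hf : lcD 𝒰 M n f = 0) (hf' : lcD 𝒰 M n f' = 0) :
    HlcMk 𝒰 M (f + f') (by rw [map_add, hf, hf', add_zero]) =
      HlcMk 𝒰 M f hf + HlcMk 𝒰 M f' hf' :=
  (HlcMkₗ 𝒰 M n).map_add ⟨f, hf⟩ ⟨f', hf'⟩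

lemma HlcMk_smul {n : ℕ} (c : k) (f : lcSub 𝒰 M n) (hf : lcD 𝒰 M n f = 0) :
    HlcMk 𝒰 M (c • f) (by rw [map_smul, hf, smul_zero]) = c • HlcMk 𝒰 M f hf :=
  (HlcMkₗ 𝒰 M n).map_smul c ⟨f, hf⟩

/-- Two cocycles define the same class iff they differ by a level-constant coboundary. -/
lemma HlcMk_succ_eq_iff {n : ℕ} (f f' : lcSub 𝒰 M (n + 1)) (hf : lcD 𝒰 M (n + 1) f = 0)
    (hf' : lcD 𝒰 M (n + 1) f' = 0) :
    HlcMk 𝒰 M f hf = HlcMk 𝒰 M f' hf' ↔ ∃ b : lcSub 𝒰 M n, lcD 𝒰 M n b = f - f' := by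
  have hd : lcD 𝒰 M (n + 1) (f - f') = 0 := by rw [map_sub, hf, hf', sub_zero]
  have key : HlcMk 𝒰 M f hf = HlcMk 𝒰 M (f - f') hd + HlcMk 𝒰 M f' hf' := by
    rw [← HlcMk_add]
    exact HlcMk_congr 𝒰 M (sub_add_cancel f f').symm hf
  rw [key, add_eq_right]
  exact HlcMk_succ_eq_zero_iff 𝒰 M (f - f') hd

/-! ### Functoriality and the connecting map on representatives -/

section Functoriality

variable {M} {N : Rep.{u} k G} [IsDiscrete 𝒰 N]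

lemma lcD_lcMapLin (φ : M ⟶ N) {n : ℕ} (f : lcSub 𝒰 M n) (hf : lcD 𝒰 M n f = 0) :
    lcD 𝒰 N n (lcMapLin 𝒰 φ n f) = 0 := by
  have := congr($(lcMapLin_comm 𝒰 φ n) f)
  simp only [LinearMap.comp_apply] at this
  rw [this, hf, map_zero]

lemma cyclesMap_lcCyclesMk (φ : M ⟶ N) {n : ℕ} (f : lcSub 𝒰 M n) (hf : lcD 𝒰 M n f = 0) :
    HomologicalComplex.cyclesMap (lcMap 𝒰 φ) n (lcCyclesMk 𝒰 M f hf) =
      lcCyclesMk 𝒰 N (lcMapLin 𝒰 φ n f) (lcD_lcMapLin 𝒰 φ f hf) := by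
  have hmono : Function.Injective ((lcCochains 𝒰 N).iCycles n) :=
    (ModuleCat.mono_iff_injective _).1 inferInstance
  apply hmono
  refine Eq.trans ?_ (iCycles_lcCyclesMk 𝒰 N _ _).symm
  have := congr($(HomologicalComplex.cyclesMap_i (lcMap 𝒰 φ) n) (lcCyclesMk 𝒰 M f hf))
  simp only [ModuleCat.hom_comp, LinearMap.comp_apply] at this
  refine this.trans ?_
  exact congrArg (lcMapLin 𝒰 φ n) (iCycles_lcCyclesMk 𝒰 M f hf)

lemma HlcMap_mk (φ : M ⟶ N) {n : ℕ} (f : lcSub 𝒰 M n) (hf : lcD 𝒰 M n f = 0) :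
    HlcMap 𝒰 φ n (HlcMk 𝒰 M f hf) =
      HlcMk 𝒰 N (lcMapLin 𝒰 φ n f) (lcD_lcMapLin 𝒰 φ f hf) := by
  have := congr($(HomologicalComplex.homologyπ_naturality (lcMap 𝒰 φ) n) (lcCyclesMk 𝒰 M f hf))
  simp only [ModuleCat.hom_comp, LinearMap.comp_apply] at this
  refine this.trans ?_
  exact congrArg _ (cyclesMap_lcCyclesMk 𝒰 φ f hf)

end Functoriality

section Delta

variable {X : ShortComplex (Rep.{u} k G)} (hX : X.ShortExact)
  [IsDiscrete 𝒰 X.X₁] [IsDiscrete 𝒰 X.X₂] [IsDiscrete 𝒰 X.X₃]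

omit [IsDiscrete 𝒰 X.X₃] in
include hX in
/-- If `f ∘ x = d y` then `x` is a cocycle. -/
lemma lcD_eq_zero_of_lcMapLin_eq_lcD {i : ℕ} (y : lcSub 𝒰 X.X₂ i) (x : lcSub 𝒰 X.X₁ (i + 1))
    (hx : lcMapLin 𝒰 X.f (i + 1) x = lcD 𝒰 X.X₂ i y) : lcD 𝒰 X.X₁ (i + 1) x = 0 := by
  have hinj : Function.Injective X.f.hom := (Rep.mono_iff_injective X.f).1 hX.mono_f
  have h1 := congr($(lcMapLin_comm 𝒰 X.f (i + 1)) x)
  simp only [LinearMap.comp_apply] at h1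
  rw [hx] at h1
  have h2 := congr($(lcD_comp_lcD 𝒰 X.X₂ i) y)
  simp only [LinearMap.comp_apply, LinearMap.zero_apply] at h2
  rw [h2] at h1
  apply Subtype.ext
  funext g
  apply hinj
  have := congrFun (congrArg Subtype.val h1) g
  change _ = X.f.hom 0
  rw [map_zero]
  exact this.symm

/-- The connecting homomorphism on representatives: if `z` is a cocycle with values in `X₃`,
`y` a level-constant lift of `z` to `X₂`, and `x` the cochain with `f ∘ x = d y`, then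
`δ [z] = [x]`. -/
theorem Hlcδ_mk {i : ℕ} (z : lcSub 𝒰 X.X₃ i) (hz : lcD 𝒰 X.X₃ i z = 0)
    (y : lcSub 𝒰 X.X₂ i) (hy : lcMapLin 𝒰 X.g i y = z)
    (x : lcSub 𝒰 X.X₁ (i + 1)) (hx : lcMapLin 𝒰 X.f (i + 1) x = lcD 𝒰 X.X₂ i y) :
    Hlcδ 𝒰 hX i (i + 1) rfl (HlcMk 𝒰 X.X₃ z hz) =
      HlcMk 𝒰 X.X₁ x (lcD_eq_zero_of_lcMapLin_eq_lcD 𝒰 hX y x hx) := by
  have hz' : ((forget₂ (ModuleCat k) Ab).map ((lcCochains 𝒰 X.X₃).d i (i + 1))) z = 0 := by
    rw [lcCochains_d]; exact hz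
  have hx' : ((forget₂ (ModuleCat k) Ab).map ((lcMap 𝒰 X.f).f (i + 1))) x =
      ((forget₂ (ModuleCat k) Ab).map ((lcCochains 𝒰 X.X₂).d i (i + 1))) y := by
    rw [lcCochains_d]; exact hx
  exact (lcShortComplex_shortExact 𝒰 hX).δ_apply i (i + 1) rfl z hz' y hy x hx' (i + 2) (by simp)

end Delta

end Fermat.Agent.GC.Prof
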