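/-
GATE-C / C1 (PROFCOH) leaf (L2) LOW, helper78.  Level-constant cohomology in degrees 0..3 in the
PLAIN-FUNCTION shapes `M`, `G → M`, `G × G → M`, `G × G × G → M` of Mathlib's low-degree API (and of
the prelude's `continuousH1S`, `continuousH2S`, `continuousH2`).
-/
import Fermat.Agent.GC.Prof.Concrete

set_option autoImplicit false
set_option linter.unusedSectionVars false

open CategoryTheory groupCohomology

noncomputable section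

namespace Fermat.Agent.GC.Prof

universe u

variable {k G : Type u} [CommRing k] [Group G] (𝒰 : LevelSystem G)

/-! ### Level-constant plain functions -/

/-- `f : G → X` is level-constant: right-invariant under some member of the level system.
(For `𝒰 = {F.fixingSubgroup | F unramified outside S}` this is the prelude's
`IsLevelConstantS₁`.) -/
def IsLC₁ {X : Type*} (f : G → X) : Prop :=
  ∃ U ∈ 𝒰.sets, ∀ g s, s ∈ U → f (g * s) = f g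

/-- `f : G × G → X` is level-constant (the prelude's `IsLevelConstantS₂`). -/
def IsLC₂ {X : Type*} (f : G × G → X) : Prop :=
  ∃ U ∈ 𝒰.sets, ∀ g g' s s', s ∈ U → s' ∈ U → f (g * s, g' * s') = f (g, g')

/-- `f : G × G × G → X` is level-constant. -/
def IsLC₃ {X : Type*} (f : G × G × G → X) : Prop :=
  ∃ U ∈ 𝒰.sets, ∀ g g' g'' s s' s'', s ∈ U → s' ∈ U → s'' ∈ U →
    f (g * s, g' * s', g'' * s'') = f (g, g', g'')

variable {𝒰}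

lemma isLC₁_iff {X : Type*} (f : (Fin 1 → G) → X) :
    IsLC 𝒰 f ↔ IsLC₁ 𝒰 (fun g => f (fun _ => g)) := by
  constructor
  · rintro ⟨U, hU, h⟩
    exact ⟨U, hU, fun g s hs => h (fun _ => g) (fun _ => s) fun _ => hs⟩
  · rintro ⟨U, hU, h⟩
    refine ⟨U, hU, fun g s hs => ?_⟩
    have h1 : g * s = fun _ => g 0 * s 0 := by
      funext i; rw [Subsingleton.elim i 0]; rfl
    have h2 : g = fun _ => g 0 := by
      funext i; rw [Subsingleton.elim i 0]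
    rw [h1]
    conv_rhs => rw [h2]
    exact h (g 0) (s 0) (hs 0)

lemma isLC₂_iff {X : Type*} (f : (Fin 2 → G) → X) :
    IsLC 𝒰 f ↔ IsLC₂ 𝒰 (fun p : G × G => f ![p.1, p.2]) := by
  constructor
  · rintro ⟨U, hU, h⟩
    refine ⟨U, hU, fun g g' s s' hs hs' => ?_⟩
    have := h ![g, g'] ![s, s'] (fun i => by fin_cases i <;> simpa)
    have h1 : (![g, g'] * ![s, s'] : Fin 2 → G) = ![g * s, g' * s'] := by
      funext i; fin_cases i <;> rfl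
    rw [h1] at this
    exact this
  · rintro ⟨U, hU, h⟩
    refine ⟨U, hU, fun g s hs => ?_⟩
    have h1 : g * s = ![g 0 * s 0, g 1 * s 1] := by
      funext i; fin_cases i <;> rfl
    have h2 : g = ![g 0, g 1] := by
      funext i; fin_cases i <;> rfl
    rw [h1]
    conv_rhs => rw [h2]
    exact h (g 0) (g 1) (s 0) (s 1) (hs 0) (hs 1)

lemma isLC₃_iff {X : Type*} (f : (Fin 3 → G) → X) :
    IsLC 𝒰 f ↔ IsLC₃ 𝒰 (fun p : G × G × G => f ![p.1, p.2.1, p.2.2]) := by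
  constructor
  · rintro ⟨U, hU, h⟩
    refine ⟨U, hU, fun g g' g'' s s' s'' hs hs' hs'' => ?_⟩
    have := h ![g, g', g''] ![s, s', s''] (fun i => by fin_cases i <;> simpa)
    have h1 : (![g, g', g''] * ![s, s', s''] : Fin 3 → G) = ![g * s, g' * s', g'' * s''] := by
      funext i; fin_cases i <;> rfl
    rw [h1] at this
    exact this
  · rintro ⟨U, hU, h⟩
    refine ⟨U, hU, fun g s hs => ?_⟩
    have h1 : g * s = ![g 0 * s 0, g 1 * s 1, g 2 * s 2] := by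
      funext i; fin_cases i <;> rfl
    have h2 : g = ![g 0, g 1, g 2] := by
      funext i; fin_cases i <;> rfl
    rw [h1]
    conv_rhs => rw [h2]
    exact h (g 0) (g 1) (g 2) (s 0) (s 1) (s 2) (hs 0) (hs 1) (hs 2)

lemma isLC₁_iff' {X : Type*} (f : G → X) :
    IsLC₁ 𝒰 f ↔ IsLC 𝒰 (fun x : Fin 1 → G => f (x 0)) :=
  (isLC₁_iff (fun x : Fin 1 → G => f (x 0))).symm

lemma isLC₂_iff' {X : Type*} (f : G × G → X) :
    IsLC₂ 𝒰 f ↔ IsLC 𝒰 (fun x : Fin 2 → G => f (x 0, x 1)) :=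
  (isLC₂_iff (fun x : Fin 2 → G => f (x 0, x 1))).symm

lemma isLC₃_iff' {X : Type*} (f : G × G × G → X) :
    IsLC₃ 𝒰 f ↔ IsLC 𝒰 (fun x : Fin 3 → G => f (x 0, x 1, x 2)) :=
  (isLC₃_iff (fun x : Fin 3 → G => f (x 0, x 1, x 2))).symm

namespace IsLC₁
variable {X Y : Type*}
lemma const (x : X) : IsLC₁ 𝒰 (fun _ : G => x) := (isLC₁_iff' _).2 (IsLC.const x)
lemma comp {f : G → X} (hf : IsLC₁ 𝒰 f) (φ : X → Y) : IsLC₁ 𝒰 (φ ∘ f) :=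
  (isLC₁_iff' _).2 (((isLC₁_iff' _).1 hf).comp φ)
lemma add [Add X] {f f' : G → X} (hf : IsLC₁ 𝒰 f) (hf' : IsLC₁ 𝒰 f') : IsLC₁ 𝒰 (f + f') :=
  (isLC₁_iff' _).2 (((isLC₁_iff' _).1 hf).add ((isLC₁_iff' _).1 hf'))
end IsLC₁

namespace IsLC₂
variable {X Y : Type*}
lemma const (x : X) : IsLC₂ 𝒰 (fun _ : G × G => x) := (isLC₂_iff' _).2 (IsLC.const x)
lemma comp {f : G × G → X} (hf : IsLC₂ 𝒰 f) (φ : X → Y) : IsLC₂ 𝒰 (φ ∘ f) :=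
  (isLC₂_iff' _).2 (((isLC₂_iff' _).1 hf).comp φ)
lemma add [Add X] {f f' : G × G → X} (hf : IsLC₂ 𝒰 f) (hf' : IsLC₂ 𝒰 f') : IsLC₂ 𝒰 (f + f') :=
  (isLC₂_iff' _).2 (((isLC₂_iff' _).1 hf).add ((isLC₂_iff' _).1 hf'))
end IsLC₂

namespace IsLC₃
variable {X Y : Type*}
lemma const (x : X) : IsLC₃ 𝒰 (fun _ : G × G × G => x) := (isLC₃_iff' _).2 (IsLC.const x)
lemma comp {f : G × G × G → X} (hf : IsLC₃ 𝒰 f) (φ : X → Y) : IsLC₃ 𝒰 (φ ∘ f) :=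
  (isLC₃_iff' _).2 (((isLC₃_iff' _).1 hf).comp φ)
lemma add [Add X] {f f' : G × G × G → X} (hf : IsLC₃ 𝒰 f) (hf' : IsLC₃ 𝒰 f') :
    IsLC₃ 𝒰 (f + f') :=
  (isLC₃_iff' _).2 (((isLC₃_iff' _).1 hf).add ((isLC₃_iff' _).1 hf'))
end IsLC₃

/-! ### Submodules of level-constant plain cochains -/

variable (𝒰) (M : Rep.{u} k G)

/-- Level-constant `1`-cochains `G → M` (prelude: `levelCochainsS₁`). -/
def lcCochains₁ : Submodule k (G → M) where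
  carrier := {f | IsLC₁ 𝒰 f}
  add_mem' hf hf' := hf.add hf'
  zero_mem' := IsLC₁.const (0 : M)
  smul_mem' c _ hf := hf.comp (c • ·)

/-- Level-constant `2`-cochains `G × G → M` (prelude: `levelCochainsS₂`). -/
def lcCochains₂ : Submodule k (G × G → M) where
  carrier := {f | IsLC₂ 𝒰 f}
  add_mem' hf hf' := hf.add hf'
  zero_mem' := IsLC₂.const (0 : M)
  smul_mem' c _ hf := hf.comp (c • ·)

/-- Level-constant `3`-cochains `G × G × G → M`. -/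
def lcCochains₃ : Submodule k (G × G × G → M) where
  carrier := {f | IsLC₃ 𝒰 f}
  add_mem' hf hf' := hf.add hf'
  zero_mem' := IsLC₃.const (0 : M)
  smul_mem' c _ hf := hf.comp (c • ·)

lemma mem_lcCochains₁_iff (f : G → M) : f ∈ lcCochains₁ 𝒰 M ↔ IsLC₁ 𝒰 f := Iff.rfl
lemma mem_lcCochains₂_iff (f : G × G → M) : f ∈ lcCochains₂ 𝒰 M ↔ IsLC₂ 𝒰 f := Iff.rfl
lemma mem_lcCochains₃_iff (f : G × G × G → M) : f ∈ lcCochains₃ 𝒰 M ↔ IsLC₃ 𝒰 f := Iff.rfl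

/-! ### Dictionary with the `Fin`-curried complex -/

/-- `lcSub 𝒰 M 0 ≃ M`. -/
def lcEquiv₀ : lcSub 𝒰 M 0 ≃ₗ[k] M where
  toFun f := (cochainsIso₀ M).hom f.1
  invFun m := ⟨(cochainsIso₀ M).inv m, IsLC.of_subsingleton_dom _⟩
  map_add' f f' := by simp
  map_smul' c f := by simp
  left_inv f := Subtype.ext (by simp)
  right_inv m := by simp

/-- `lcSub 𝒰 M 1 ≃ lcCochains₁ 𝒰 M`. -/
def lcEquiv₁ : lcSub 𝒰 M 1 ≃ₗ[k] lcCochains₁ 𝒰 M where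
  toFun f := ⟨(cochainsIso₁ M).hom f.1, (isLC₁_iff _).1 f.2⟩
  invFun f := ⟨(cochainsIso₁ M).inv f.1, (isLC₁_iff' _).1 f.2⟩
  map_add' f f' := Subtype.ext (by simp)
  map_smul' c f := Subtype.ext (by simp)
  left_inv f := Subtype.ext (by simp)
  right_inv f := Subtype.ext (by simp)

/-- `lcSub 𝒰 M 2 ≃ lcCochains₂ 𝒰 M`. -/
def lcEquiv₂ : lcSub 𝒰 M 2 ≃ₗ[k] lcCochains₂ 𝒰 M where
  toFun f := ⟨(cochainsIso₂ M).hom f.1, (isLC₂_iff _).1 f.2⟩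
  invFun f := ⟨(cochainsIso₂ M).inv f.1, (isLC₂_iff' _).1 f.2⟩
  map_add' f f' := Subtype.ext (by simp)
  map_smul' c f := Subtype.ext (by simp)
  left_inv f := Subtype.ext (by simp)
  right_inv f := Subtype.ext (by simp)

/-- `lcSub 𝒰 M 3 ≃ lcCochains₃ 𝒰 M`. -/
def lcEquiv₃ : lcSub 𝒰 M 3 ≃ₗ[k] lcCochains₃ 𝒰 M where
  toFun f := ⟨(cochainsIso₃ M).hom f.1, (isLC₃_iff _).1 f.2⟩
  invFun f := ⟨(cochainsIso₃ M).inv f.1, (isLC₃_iff' _).1 f.2⟩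
  map_add' f f' := Subtype.ext (by simp)
  map_smul' c f := Subtype.ext (by simp)
  left_inv f := Subtype.ext (by simp)
  right_inv f := Subtype.ext (by simp)

@[simp] lemma lcEquiv₀_apply (f : lcSub 𝒰 M 0) : lcEquiv₀ 𝒰 M f = f.1 default := rfl
@[simp] lemma lcEquiv₁_apply (f : lcSub 𝒰 M 1) (g : G) :
    (lcEquiv₁ 𝒰 M f : G → M) g = f.1 (fun _ => g) := rfl
@[simp] lemma lcEquiv₂_apply (f : lcSub 𝒰 M 2) (g h : G) :
    (lcEquiv₂ 𝒰 M f : G × G → M) (g, h) = f.1 ![g, h] := rfl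
@[simp] lemma lcEquiv₃_apply (f : lcSub 𝒰 M 3) (g h j : G) :
    (lcEquiv₃ 𝒰 M f : G × G × G → M) (g, h, j) = f.1 ![g, h, j] := rfl

variable [IsDiscrete 𝒰 M]

lemma lcEquiv₁_lcD (f : lcSub 𝒰 M 0) :
    (lcEquiv₁ 𝒰 M (lcD 𝒰 M 0 f) : G → M) = d₀₁ M (lcEquiv₀ 𝒰 M f) := by
  have := congr($(comp_d₀₁_eq M) f.1)
  rw [inhomogeneousCochains.d_def] at this
  exact this.symm

lemma lcEquiv₂_lcD (f : lcSub 𝒰 M 1) :
    (lcEquiv₂ 𝒰 M (lcD 𝒰 M 1 f) : G × G → M) = d₁₂ M (lcEquiv₁ 𝒰 M f : G → M) := by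
  have := congr($(comp_d₁₂_eq M) f.1)
  rw [inhomogeneousCochains.d_def] at this
  exact this.symm

lemma lcEquiv₃_lcD (f : lcSub 𝒰 M 2) :
    (lcEquiv₃ 𝒰 M (lcD 𝒰 M 2 f) : G × G × G → M) = d₂₃ M (lcEquiv₂ 𝒰 M f : G × G → M) := by
  have := congr($(comp_d₂₃_eq M) f.1)
  rw [inhomogeneousCochains.d_def] at this
  exact this.symm

/-! ### Cocycles and coboundaries in plain-function form -/

/-- Level-constant `1`-cocycles as a submodule of `G → M`. -/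
def lcCocycles₁ : Submodule k (G → M) := cocycles₁ M ⊓ lcCochains₁ 𝒰 M

/-- Level-constant `2`-cocycles as a submodule of `G × G → M` (prelude: `levelCocyclesS₂`). -/
def lcCocycles₂ : Submodule k (G × G → M) := cocycles₂ M ⊓ lcCochains₂ 𝒰 M

/-- Coboundaries of level-constant `1`-cochains (prelude: `levelCoboundariesS₂`). -/
def lcCoboundaries₂ : Submodule k (G × G → M) := (lcCochains₁ 𝒰 M).map (d₁₂ M).hom

/-- Coboundaries of level-constant `2`-cochains. -/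
def lcCoboundaries₃ : Submodule k (G × G × G → M) := (lcCochains₂ 𝒰 M).map (d₂₃ M).hom

lemma mem_lcCocycles₁_iff (f : G → M) : f ∈ lcCocycles₁ 𝒰 M ↔ f ∈ cocycles₁ M ∧ IsLC₁ 𝒰 f :=
  Iff.rfl

lemma mem_lcCocycles₂_iff (f : G × G → M) :
    f ∈ lcCocycles₂ 𝒰 M ↔ f ∈ cocycles₂ M ∧ IsLC₂ 𝒰 f := Iff.rfl

lemma mem_lcCoboundaries₂_iff (f : G × G → M) :
    f ∈ lcCoboundaries₂ 𝒰 M ↔ ∃ x : G → M, IsLC₁ 𝒰 x ∧ (d₁₂ M).hom x = f := by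
  simp only [lcCoboundaries₂, Submodule.mem_map, mem_lcCochains₁_iff]

lemma mem_lcCoboundaries₃_iff (f : G × G × G → M) :
    f ∈ lcCoboundaries₃ 𝒰 M ↔ ∃ x : G × G → M, IsLC₂ 𝒰 x ∧ (d₂₃ M).hom x = f := by
  simp only [lcCoboundaries₃, Submodule.mem_map, mem_lcCochains₂_iff]

/-- For discrete coefficients every `1`-coboundary is level-constant. -/
lemma coboundaries₁_le_lcCochains₁ : coboundaries₁ M ≤ lcCochains₁ 𝒰 M := by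
  rintro f ⟨m, rfl⟩
  obtain ⟨U, hU, hfix⟩ := IsDiscrete.exists_fix (𝒰 := 𝒰) (m : M)
  refine ⟨U, hU, fun g s hs => ?_⟩
  simp only [d₀₁_hom_apply, map_mul, Module.End.mul_apply, hfix s hs]

lemma coboundaries₁_le_lcCocycles₁ : coboundaries₁ M ≤ lcCocycles₁ 𝒰 M :=
  le_inf (coboundaries₁_le_cocycles₁ M) (coboundaries₁_le_lcCochains₁ 𝒰 M)

/-- For discrete coefficients, `d₁₂` of a level-constant cochain is level-constant. -/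
lemma d₁₂_mem_lcCochains₂ {x : G → M} (hx : IsLC₁ 𝒰 x) : (d₁₂ M).hom x ∈ lcCochains₂ 𝒰 M := by
  have h := lcEquiv₂_lcD 𝒰 M ((lcEquiv₁ 𝒰 M).symm ⟨x, hx⟩)
  rw [LinearEquiv.apply_symm_apply] at h
  rw [← h]
  exact (lcEquiv₂ 𝒰 M _).2

lemma d₂₃_mem_lcCochains₃ {x : G × G → M} (hx : IsLC₂ 𝒰 x) : (d₂₃ M).hom x ∈ lcCochains₃ 𝒰 M := by
  have h := lcEquiv₃_lcD 𝒰 M ((lcEquiv₂ 𝒰 M).symm ⟨x, hx⟩)
  rw [LinearEquiv.apply_symm_apply] at h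
  rw [← h]
  exact (lcEquiv₃ 𝒰 M _).2

lemma lcCoboundaries₂_le_lcCocycles₂ : lcCoboundaries₂ 𝒰 M ≤ lcCocycles₂ 𝒰 M := by
  rintro f ⟨x, hx, rfl⟩
  exact ⟨d₁₂_apply_mem_cocycles₂ x, d₁₂_mem_lcCochains₂ 𝒰 M hx⟩

/-! ### Cocycle conditions -/

lemma lcD_zero_eq_zero_iff (f : lcSub 𝒰 M 0) :
    lcD 𝒰 M 0 f = 0 ↔ lcEquiv₀ 𝒰 M f ∈ M.ρ.invariants := by
  rw [← d₀₁_ker_eq_invariants, LinearMap.mem_ker, ← lcEquiv₁_lcD]
  constructor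
  · intro h; rw [h]; rfl
  · intro h
    apply (lcEquiv₁ 𝒰 M).injective
    rw [map_zero]
    exact Subtype.ext h

lemma lcD_one_eq_zero_iff (f : lcSub 𝒰 M 1) :
    lcD 𝒰 M 1 f = 0 ↔ (lcEquiv₁ 𝒰 M f : G → M) ∈ cocycles₁ M := by
  rw [cocycles₁, LinearMap.mem_ker, ← lcEquiv₂_lcD]
  constructor
  · intro h; rw [h]; rfl
  · intro h
    apply (lcEquiv₂ 𝒰 M).injective
    rw [map_zero]
    exact Subtype.ext h

lemma lcD_two_eq_zero_iff (f : lcSub 𝒰 M 2) :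
    lcD 𝒰 M 2 f = 0 ↔ (lcEquiv₂ 𝒰 M f : G × G → M) ∈ cocycles₂ M := by
  rw [cocycles₂, LinearMap.mem_ker, ← lcEquiv₃_lcD]
  constructor
  · intro h; rw [h]; rfl
  · intro h
    apply (lcEquiv₃ 𝒰 M).injective
    rw [map_zero]
    exact Subtype.ext h

/-- Level-constant `1`-cocycles in `Fin`-curried form vs. plain form. -/
def lcZEquiv₁ : lcZ 𝒰 M 1 ≃ₗ[k] lcCocycles₁ 𝒰 M where
  toFun f := ⟨(lcEquiv₁ 𝒰 M f.1 : G → M),
    (lcD_one_eq_zero_iff 𝒰 M f.1).1 f.2, (lcEquiv₁ 𝒰 M f.1).2⟩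
  invFun z := ⟨(lcEquiv₁ 𝒰 M).symm ⟨z.1, z.2.2⟩,
    (lcD_one_eq_zero_iff 𝒰 M _).2 (by rw [LinearEquiv.apply_symm_apply]; exact z.2.1)⟩
  map_add' f f' := Subtype.ext (by simp)
  map_smul' c f := Subtype.ext (by simp)
  left_inv f := Subtype.ext (by simp)
  right_inv z := Subtype.ext (by simp)

/-- Level-constant `2`-cocycles in `Fin`-curried form vs. plain form. -/
def lcZEquiv₂ : lcZ 𝒰 M 2 ≃ₗ[k] lcCocycles₂ 𝒰 M where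
  toFun f := ⟨(lcEquiv₂ 𝒰 M f.1 : G × G → M),
    (lcD_two_eq_zero_iff 𝒰 M f.1).1 f.2, (lcEquiv₂ 𝒰 M f.1).2⟩
  invFun z := ⟨(lcEquiv₂ 𝒰 M).symm ⟨z.1, z.2.2⟩,
    (lcD_two_eq_zero_iff 𝒰 M _).2 (by rw [LinearEquiv.apply_symm_apply]; exact z.2.1)⟩
  map_add' f f' := Subtype.ext (by simp)
  map_smul' c f := Subtype.ext (by simp)
  left_inv f := Subtype.ext (by simp)
  right_inv z := Subtype.ext (by simp)

/-- Invariants vs. level-constant `0`-cocycles. -/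
def lcZEquiv₀ : lcZ 𝒰 M 0 ≃ₗ[k] M.ρ.invariants where
  toFun f := ⟨lcEquiv₀ 𝒰 M f.1, (lcD_zero_eq_zero_iff 𝒰 M f.1).1 f.2⟩
  invFun z := ⟨(lcEquiv₀ 𝒰 M).symm z.1,
    (lcD_zero_eq_zero_iff 𝒰 M _).2 (by rw [LinearEquiv.apply_symm_apply]; exact z.2)⟩
  map_add' f f' := Subtype.ext (map_add (lcEquiv₀ 𝒰 M) f.1 f'.1)
  map_smul' c f := Subtype.ext (map_smul (lcEquiv₀ 𝒰 M) c f.1)
  left_inv f := Subtype.ext ((lcEquiv₀ 𝒰 M).symm_apply_apply f.1)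
  right_inv z := Subtype.ext ((lcEquiv₀ 𝒰 M).apply_symm_apply z.1)

/-! ### `H⁰` -/

lemma HlcMkₗ_zero_injective : Function.Injective (HlcMkₗ 𝒰 M 0) := by
  rintro ⟨z, hz0⟩ ⟨z', hz0'⟩ h
  have hz : lcD 𝒰 M 0 z = 0 := hz0
  have hz' : lcD 𝒰 M 0 z' = 0 := hz0'
  have hd : lcD 𝒰 M 0 (z - z') = 0 := by rw [map_sub, hz, hz', sub_zero]
  have key : HlcMk 𝒰 M z hz = HlcMk 𝒰 M (z - z') hd + HlcMk 𝒰 M z' hz' := by
    rw [← HlcMk_add]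
    exact HlcMk_congr 𝒰 M (sub_add_cancel z z').symm hz
  have h' : HlcMk 𝒰 M z hz = HlcMk 𝒰 M z' hz' := h
  rw [key, add_eq_right] at h'
  exact Subtype.ext (sub_eq_zero.1 ((HlcMk_zero_eq_zero_iff 𝒰 M _ hd).1 h'))

/-- `Hlc 0` is the module of invariants. -/
def Hlc0Equiv : Hlc 𝒰 M 0 ≃ₗ[k] M.ρ.invariants :=
  (LinearEquiv.ofBijective (HlcMkₗ 𝒰 M 0)
    ⟨HlcMkₗ_zero_injective 𝒰 M, HlcMkₗ_surjective 𝒰 M 0⟩).symm.trans (lcZEquiv₀ 𝒰 M)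

/-! ### `H¹` -/

/-- The class of a level-constant `1`-cocycle `G → M`. -/
def Hlc1π : lcCocycles₁ 𝒰 M →ₗ[k] Hlc 𝒰 M 1 :=
  (HlcMkₗ 𝒰 M 1).comp (lcZEquiv₁ 𝒰 M).symm.toLinearMap

lemma Hlc1π_surjective : Function.Surjective (Hlc1π 𝒰 M) :=
  (HlcMkₗ_surjective 𝒰 M 1).comp (lcZEquiv₁ 𝒰 M).symm.surjective

lemma Hlc1π_eq_zero_iff (z : lcCocycles₁ 𝒰 M) :
    Hlc1π 𝒰 M z = 0 ↔ (z : G → M) ∈ coboundaries₁ M := by
  refine (HlcMk_succ_eq_zero_iff 𝒰 M ((lcZEquiv₁ 𝒰 M).symm z).1 ((lcZEquiv₁ 𝒰 M).symm z).2).trans ?_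
  have hz : (lcEquiv₁ 𝒰 M ((lcZEquiv₁ 𝒰 M).symm z).1 : G → M) = z :=
    congrArg Subtype.val ((lcZEquiv₁ 𝒰 M).apply_symm_apply z)
  constructor
  · rintro ⟨b, hb⟩
    refine ⟨lcEquiv₀ 𝒰 M b, ?_⟩
    rw [← lcEquiv₁_lcD, hb, hz]
  · rintro ⟨m, hm⟩
    refine ⟨(lcEquiv₀ 𝒰 M).symm m, ?_⟩
    apply (lcEquiv₁ 𝒰 M).injective
    apply Subtype.ext
    rw [lcEquiv₁_lcD, LinearEquiv.apply_symm_apply, hz]
    exact hm

lemma ker_Hlc1π :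
    LinearMap.ker (Hlc1π 𝒰 M) = (coboundaries₁ M).comap (lcCocycles₁ 𝒰 M).subtype := by
  ext z
  exact Hlc1π_eq_zero_iff 𝒰 M z

/-! ### `H²` -/

/-- The class of a level-constant `2`-cocycle `G × G → M`. -/
def Hlc2π : lcCocycles₂ 𝒰 M →ₗ[k] Hlc 𝒰 M 2 :=
  (HlcMkₗ 𝒰 M 2).comp (lcZEquiv₂ 𝒰 M).symm.toLinearMap

lemma Hlc2π_surjective : Function.Surjective (Hlc2π 𝒰 M) :=
  (HlcMkₗ_surjective 𝒰 M 2).comp (lcZEquiv₂ 𝒰 M).symm.surjective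

lemma Hlc2π_eq_zero_iff (z : lcCocycles₂ 𝒰 M) :
    Hlc2π 𝒰 M z = 0 ↔ (z : G × G → M) ∈ lcCoboundaries₂ 𝒰 M := by
  refine (HlcMk_succ_eq_zero_iff 𝒰 M ((lcZEquiv₂ 𝒰 M).symm z).1 ((lcZEquiv₂ 𝒰 M).symm z).2).trans ?_
  rw [mem_lcCoboundaries₂_iff]
  have hz : (lcEquiv₂ 𝒰 M ((lcZEquiv₂ 𝒰 M).symm z).1 : G × G → M) = z :=
    congrArg Subtype.val ((lcZEquiv₂ 𝒰 M).apply_symm_apply z)
  constructor
  · rintro ⟨b, hb⟩
    refine ⟨(lcEquiv₁ 𝒰 M b : G → M), (lcEquiv₁ 𝒰 M b).2, ?_⟩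
    rw [← lcEquiv₂_lcD, hb, hz]
  · rintro ⟨x, hx, hxz⟩
    refine ⟨(lcEquiv₁ 𝒰 M).symm ⟨x, hx⟩, ?_⟩
    apply (lcEquiv₂ 𝒰 M).injective
    apply Subtype.ext
    rw [lcEquiv₂_lcD, LinearEquiv.apply_symm_apply, hz]
    exact hxz

lemma ker_Hlc2π :
    LinearMap.ker (Hlc2π 𝒰 M) = (lcCoboundaries₂ 𝒰 M).comap (lcCocycles₂ 𝒰 M).subtype := by
  ext z
  exact Hlc2π_eq_zero_iff 𝒰 M z

/-- `H²` on level-constant cochains in plain-function form (the shape of the prelude's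
`continuousH2S`). -/
abbrev lcH2 : Type u :=
  ↥(lcCocycles₂ 𝒰 M) ⧸ (lcCoboundaries₂ 𝒰 M).comap (lcCocycles₂ 𝒰 M).subtype

/-- `Hlc 2` is the quotient of level-constant `2`-cocycles by coboundaries of level-constant
`1`-cochains. -/
def Hlc2Equiv : lcH2 𝒰 M ≃ₗ[k] Hlc 𝒰 M 2 :=
  (Submodule.quotEquivOfEq _ _ (ker_Hlc2π 𝒰 M).symm).trans
    (LinearMap.quotKerEquivOfSurjective (Hlc2π 𝒰 M) (Hlc2π_surjective 𝒰 M))

@[simp]
lemma Hlc2Equiv_mk (z : lcCocycles₂ 𝒰 M) :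
    Hlc2Equiv 𝒰 M (Submodule.Quotient.mk z) = Hlc2π 𝒰 M z := rfl

/-! ### Comparison with abstract group cohomology -/

lemma d_coe_eq_zero {n : ℕ} (f : lcSub 𝒰 M n) (hf : lcD 𝒰 M n f = 0) :
    inhomogeneousCochains.d M n (f : (Fin n → G) → M) = 0 :=
  congrArg Subtype.val hf

/-- The comparison map on representatives. -/
lemma HlcToH_mk {n : ℕ} (f : lcSub 𝒰 M n) (hf : lcD 𝒰 M n f = 0) :
    HlcToH 𝒰 M n (HlcMk 𝒰 M f hf) =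
      groupCohomology.π M n (cocyclesMk (f : (Fin n → G) → M) (d_coe_eq_zero 𝒰 M f hf)) := by
  have := congr($(HomologicalComplex.homologyπ_naturality (lcCochainsι 𝒰 M) n)
    (lcCyclesMk 𝒰 M f hf))
  simp only [ModuleCat.hom_comp, LinearMap.comp_apply] at this
  refine this.trans ?_
  congr 1
  have hmono : Function.Injective (iCocycles M n) :=
    (ModuleCat.mono_iff_injective _).1 inferInstance
  apply hmono
  rw [iCocycles_mk]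
  have h2 := congr($(HomologicalComplex.cyclesMap_i (lcCochainsι 𝒰 M) n) (lcCyclesMk 𝒰 M f hf))
  simp only [ModuleCat.hom_comp, LinearMap.comp_apply] at h2
  refine h2.trans ?_
  exact congrArg Subtype.val (iCycles_lcCyclesMk 𝒰 M f hf)

lemma lcD_lcEquiv₁_symm (z : lcCocycles₁ 𝒰 M) :
    lcD 𝒰 M 1 ((lcEquiv₁ 𝒰 M).symm ⟨z.1, z.2.2⟩) = 0 :=
  (lcD_one_eq_zero_iff 𝒰 M _).2 (by rw [LinearEquiv.apply_symm_apply]; exact z.2.1)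

lemma lcD_lcEquiv₂_symm (z : lcCocycles₂ 𝒰 M) :
    lcD 𝒰 M 2 ((lcEquiv₂ 𝒰 M).symm ⟨z.1, z.2.2⟩) = 0 :=
  (lcD_two_eq_zero_iff 𝒰 M _).2 (by rw [LinearEquiv.apply_symm_apply]; exact z.2.1)

lemma Hlc1π_apply (z : lcCocycles₁ 𝒰 M) :
    Hlc1π 𝒰 M z = HlcMk 𝒰 M ((lcEquiv₁ 𝒰 M).symm ⟨z.1, z.2.2⟩) (lcD_lcEquiv₁_symm 𝒰 M z) := rfl

lemma Hlc2π_apply (z : lcCocycles₂ 𝒰 M) :
    Hlc2π 𝒰 M z = HlcMk 𝒰 M ((lcEquiv₂ 𝒰 M).symm ⟨z.1, z.2.2⟩) (lcD_lcEquiv₂_symm 𝒰 M z) := rfl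

lemma HlcToH_Hlc1π (z : lcCocycles₁ 𝒰 M) :
    HlcToH 𝒰 M 1 (Hlc1π 𝒰 M z) = H1π M ⟨z.1, z.2.1⟩ := by
  rw [Hlc1π_apply, HlcToH_mk]
  have h2 := cocyclesMk₁_eq M ⟨z.1, z.2.1⟩
  change _ = groupCohomology.π M 1 ((isoCocycles₁ M).inv ⟨z.1, z.2.1⟩)
  rw [← h2]
  rfl

lemma HlcToH_Hlc2π (z : lcCocycles₂ 𝒰 M) :
    HlcToH 𝒰 M 2 (Hlc2π 𝒰 M z) = H2π M ⟨z.1, z.2.1⟩ := by
  rw [Hlc2π_apply, HlcToH_mk]
  have h2 := cocyclesMk₂_eq M ⟨z.1, z.2.1⟩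
  change _ = groupCohomology.π M 2 ((isoCocycles₂ M).inv ⟨z.1, z.2.1⟩)
  rw [← h2]
  rfl

/-- In degree one, level-constant cohomology injects into abstract group cohomology. -/
lemma HlcToH_one_injective : Function.Injective (HlcToH 𝒰 M 1) := by
  intro x y hxy
  obtain ⟨z, rfl⟩ := Hlc1π_surjective 𝒰 M x
  obtain ⟨z', rfl⟩ := Hlc1π_surjective 𝒰 M y
  rw [HlcToH_Hlc1π, HlcToH_Hlc1π, H1π_eq_iff] at hxy
  have h0 : Hlc1π 𝒰 M (z - z') = 0 := (Hlc1π_eq_zero_iff 𝒰 M (z - z')).2 hxy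
  rw [map_sub, sub_eq_zero] at h0
  exact h0

/-- The submodule of `H¹(G, M)` of classes of level-constant cocycles (the shape of the prelude's
`continuousH1S`). -/
def lcH1 : Submodule k (H1 M) :=
  ((lcCochains₁ 𝒰 M).comap (cocycles₁ M).subtype).map (H1π M).hom

lemma mem_lcH1_iff (x : H1 M) :
    x ∈ lcH1 𝒰 M ↔ ∃ c : cocycles₁ M, IsLC₁ 𝒰 (c : G → M) ∧ (H1π M).hom c = x := by
  simp only [lcH1, Submodule.mem_map, Submodule.mem_comap]; rfl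

lemma range_HlcToH_one : LinearMap.range (HlcToH 𝒰 M 1).hom = lcH1 𝒰 M := by
  ext x
  rw [mem_lcH1_iff]
  constructor
  · rintro ⟨y, rfl⟩
    obtain ⟨z, rfl⟩ := Hlc1π_surjective 𝒰 M y
    exact ⟨⟨z.1, z.2.1⟩, z.2.2, (HlcToH_Hlc1π 𝒰 M z).symm⟩
  · rintro ⟨c, hc, rfl⟩
    exact ⟨Hlc1π 𝒰 M ⟨c.1, c.2, hc⟩, HlcToH_Hlc1π 𝒰 M ⟨c.1, c.2, hc⟩⟩

/-- `Hlc 1` is the submodule of `H¹(G, M)` of classes of level-constant cocycles. -/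
def Hlc1Equiv : Hlc 𝒰 M 1 ≃ₗ[k] lcH1 𝒰 M :=
  (LinearEquiv.ofInjective (HlcToH 𝒰 M 1).hom (HlcToH_one_injective 𝒰 M)).trans
    (LinearEquiv.ofEq _ _ (range_HlcToH_one 𝒰 M))

@[simp]
lemma Hlc1Equiv_Hlc1π (z : lcCocycles₁ 𝒰 M) :
    (Hlc1Equiv 𝒰 M (Hlc1π 𝒰 M z) : H1 M) = H1π M ⟨z.1, z.2.1⟩ :=
  HlcToH_Hlc1π 𝒰 M z

end Fermat.Agent.GC.Prof
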