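/-
GATE-C / C1 (PROFCOH) leaf (L4) CHANGE OF GROUP, helper5.  On top of helper78's `Basic.lean`,
`LES.lean`.

A group homomorphism `f : G →* H` is *continuous* for level systems `𝒰` on `G` and `𝒱` on `H` if
the preimage of every member of `𝒱` contains a member of `𝒰`.  For such `f`, a discrete
representation `A` of `H`, a discrete representation `B` of `G` and a morphism
`φ : Rep.res f A ⟶ B` (a "compatible pair", exactly the data of Mathlib's
`groupCohomology.cochainsMap f φ`) we get `lcPull : lcCochains 𝒱 A ⟶ lcCochains 𝒰 B` and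
`HlcPull : Hlc 𝒱 A n ⟶ Hlc 𝒰 B n`, functorial, compatible with `HlcMap`, with the comparison
maps `HlcToH` to abstract group cohomology, and with the connecting homomorphisms `Hlcδ`.
Special cases: restriction `HlcRes` (`φ = 𝟙`), refinement of the level system (`f = id`),
pull-back level systems `LevelSystem.comap` (local Galois groups → global Galois group, open
subgroups).
-/
import Fermat.Agent.GC.Prof.Concrete

set_option autoImplicit false

open CategoryTheory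

noncomputable section

namespace Fermat.Agent.GC.Prof

universe u

/-! ### Continuous homomorphisms between groups with level systems -/

section Cont

variable {G H K : Type u} [Group G] [Group H] [Group K]

/-- `f : G →* H` is continuous for the level systems `𝒰` (on `G`) and `𝒱` (on `H`): the preimage
of every member of `𝒱` contains a member of `𝒰`. -/
def IsContHom (𝒰 : LevelSystem G) (𝒱 : LevelSystem H) (f : G →* H) : Prop :=
  ∀ V ∈ 𝒱.sets, ∃ U ∈ 𝒰.sets, U ≤ V.comap f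

lemma IsContHom.id (𝒰 : LevelSystem G) : IsContHom 𝒰 𝒰 (MonoidHom.id G) :=
  fun V hV => ⟨V, hV, le_rfl⟩

/-- Refinement: the identity is continuous from a finer level system to a coarser one. -/
lemma IsContHom.of_subset {𝒰 𝒰' : LevelSystem G} (h : 𝒰'.sets ⊆ 𝒰.sets) :
    IsContHom 𝒰 𝒰' (MonoidHom.id G) :=
  fun V hV => ⟨V, h hV, le_rfl⟩

lemma IsContHom.comp {𝒰 : LevelSystem G} {𝒱 : LevelSystem H} {𝒲 : LevelSystem K}
    {f : G →* H} {g : H →* K} (hg : IsContHom 𝒱 𝒲 g) (hf : IsContHom 𝒰 𝒱 f) :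
    IsContHom 𝒰 𝒲 (g.comp f) := by
  intro W hW
  obtain ⟨V, hV, hVW⟩ := hg W hW
  obtain ⟨U, hU, hUV⟩ := hf V hV
  exact ⟨U, hU, fun x hx => hVW (hUV hx)⟩

/-- The pull-back of a level system along a group homomorphism. -/
def LevelSystem.comap (f : G →* H) (𝒱 : LevelSystem H) : LevelSystem G where
  sets := (fun V : Subgroup H => V.comap f) '' 𝒱.sets
  nonempty := 𝒱.nonempty.image _
  directed := by
    rintro _ ⟨U, hU, rfl⟩ _ ⟨V, hV, rfl⟩
    obtain ⟨W, hW, hWle⟩ := 𝒱.directed U hU V hV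
    refine ⟨W.comap f, ⟨W, hW, rfl⟩, ?_⟩
    rw [← Subgroup.comap_inf]
    exact Subgroup.comap_mono hWle
  normal_below := by
    rintro _ ⟨U, hU, rfl⟩
    obtain ⟨V, hV, hle, hn, hfi⟩ := 𝒱.normal_below U hU
    refine ⟨V.comap f, ⟨V, hV, rfl⟩, Subgroup.comap_mono hle, inferInstance, ?_⟩
    constructor
    rw [Subgroup.index_comap]
    exact (Subgroup.instFiniteIndex_subgroupOf V f.range).index_ne_zero

lemma LevelSystem.mem_comap_sets (f : G →* H) (𝒱 : LevelSystem H) (U : Subgroup G) :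
    U ∈ (𝒱.comap f).sets ↔ ∃ V ∈ 𝒱.sets, V.comap f = U := Iff.rfl

lemma isContHom_comap (f : G →* H) (𝒱 : LevelSystem H) : IsContHom (𝒱.comap f) 𝒱 f :=
  fun V hV => ⟨V.comap f, ⟨V, hV, rfl⟩, le_rfl⟩

/-- `f` is continuous iff the level system on the source refines the pull-back level system. -/
lemma isContHom_iff_comap {𝒰 : LevelSystem G} {𝒱 : LevelSystem H} {f : G →* H} :
    IsContHom 𝒰 𝒱 f ↔ IsContHom 𝒰 (𝒱.comap f) (MonoidHom.id G) := by
  constructor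
  · rintro h _ ⟨V, hV, rfl⟩
    obtain ⟨U, hU, hle⟩ := h V hV
    exact ⟨U, hU, hle⟩
  · intro h V hV
    obtain ⟨U, hU, hle⟩ := h (V.comap f) ⟨V, hV, rfl⟩
    exact ⟨U, hU, hle⟩

/-- The push-forward of a level system along a surjective group homomorphism (e.g. the level
system `{UN/N}` on a quotient `G ⧸ N`). -/
def LevelSystem.map (f : G →* H) (hf : Function.Surjective f) (𝒰 : LevelSystem G) :
    LevelSystem H where
  sets := (fun U : Subgroup G => U.map f) '' 𝒰.sets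
  nonempty := 𝒰.nonempty.image _
  directed := by
    rintro _ ⟨U, hU, rfl⟩ _ ⟨V, hV, rfl⟩
    obtain ⟨W, hW, hWle⟩ := 𝒰.directed U hU V hV
    exact ⟨W.map f, ⟨W, hW, rfl⟩, le_inf (Subgroup.map_mono (hWle.trans inf_le_left))
      (Subgroup.map_mono (hWle.trans inf_le_right))⟩
  normal_below := by
    rintro _ ⟨U, hU, rfl⟩
    obtain ⟨V, hV, hle, hn, hfi⟩ := 𝒰.normal_below U hU
    refine ⟨V.map f, ⟨V, hV, rfl⟩, Subgroup.map_mono hle, hn.map f hf, ?_⟩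
    constructor
    exact fun h0 => hfi.index_ne_zero
      (Nat.eq_zero_of_zero_dvd (h0 ▸ Subgroup.index_map_dvd V hf))

lemma LevelSystem.mem_map_sets (f : G →* H) (hf : Function.Surjective f) (𝒰 : LevelSystem G)
    (V : Subgroup H) : V ∈ (𝒰.map f hf).sets ↔ ∃ U ∈ 𝒰.sets, U.map f = V := Iff.rfl

lemma isContHom_map (f : G →* H) (hf : Function.Surjective f) (𝒰 : LevelSystem G) :
    IsContHom 𝒰 (𝒰.map f hf) f := by
  rintro _ ⟨U, hU, rfl⟩
  exact ⟨U, hU, Subgroup.le_comap_map f U⟩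

variable {𝒰 : LevelSystem G} {𝒱 : LevelSystem H} {f : G →* H}

/-- Pre-composition with a continuous homomorphism preserves level-constancy. -/
lemma IsLC.precomp (hf : IsContHom 𝒰 𝒱 f) {n : ℕ} {X : Type*} {x : (Fin n → H) → X}
    (hx : IsLC 𝒱 x) : IsLC 𝒰 (fun g : Fin n → G => x (f ∘ g)) := by
  obtain ⟨V, hV, h⟩ := hx
  obtain ⟨U, hU, hUV⟩ := hf V hV
  refine ⟨U, hU, fun g s hs => ?_⟩
  have : (f ∘ (g * s)) = (f ∘ g) * (f ∘ s) := by
    funext i
    simp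
  beta_reduce
  rw [this]
  exact h _ _ fun i => hUV (hs i)

end Cont

/-! ### Pull-back of level-constant cochains along a compatible pair -/

variable {k G H K : Type u} [CommRing k] [Group G] [Group H] [Group K]
variable {𝒰 : LevelSystem G} {𝒱 : LevelSystem H} {𝒲 : LevelSystem K}

/-- The restriction of a discrete representation along a continuous homomorphism is discrete. -/
theorem IsDiscrete.res {f : G →* H} (hf : IsContHom 𝒰 𝒱 f) (A : Rep.{u} k H) [IsDiscrete 𝒱 A] :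
    IsDiscrete 𝒰 (Rep.res f A) where
  exists_fix m := by
    obtain ⟨V, hV, h⟩ := IsDiscrete.exists_fix (𝒰 := 𝒱) (M := A) m
    obtain ⟨U, hU, hUV⟩ := hf V hV
    exact ⟨U, hU, fun s hs => h (f s) (hUV hs)⟩

section Pull

variable {f : G →* H} (hf : IsContHom 𝒰 𝒱 f) {A : Rep.{u} k H} {B : Rep.{u} k G}
  (φ : Rep.res f A ⟶ B)

/-- The pull-back `x ↦ (g ↦ φ (x (f ∘ g)))` on level-constant cochains. -/
def lcPullLin (n : ℕ) : lcSub 𝒱 A n →ₗ[k] lcSub 𝒰 B n :=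
  ((φ.hom.toLinearMap.compLeft (Fin n → G) ∘ₗ
      LinearMap.funLeft k A (fun x : Fin n → G => f ∘ x)).comp (lcSub 𝒱 A n).subtype).codRestrict _
    (fun x => (IsLC.precomp hf x.2).comp φ.hom)

@[simp]
lemma lcPullLin_coe (n : ℕ) (x : lcSub 𝒱 A n) (g : Fin n → G) :
    ((lcPullLin hf φ n x : lcSub 𝒰 B n) : (Fin n → G) → B) g =
      φ.hom ((x : (Fin n → H) → A) (f ∘ g)) := rfl

/-- The pull-back along a compatible pair commutes with the inhomogeneous differentials. -/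
lemma d_pull (n : ℕ) (x : (Fin n → H) → A) :
    inhomogeneousCochains.d B n (fun g : Fin n → G => φ.hom (x (f ∘ g))) =
      fun g : Fin (n + 1) → G => φ.hom (inhomogeneousCochains.d A n x (f ∘ g)) := by
  have := congr($((groupCohomology.cochainsMap f φ).comm n (n + 1)) x)
  simp only [CochainComplex.of_d, ModuleCat.hom_comp, LinearMap.comp_apply] at this
  exact this

variable [IsDiscrete 𝒱 A] [IsDiscrete 𝒰 B]

lemma lcPullLin_comm (n : ℕ) :
    (lcD 𝒰 B n).comp (lcPullLin hf φ n) = (lcPullLin hf φ (n + 1)).comp (lcD 𝒱 A n) := by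
  ext x : 1
  apply Subtype.ext
  exact d_pull φ n _

/-- The morphism of level-constant cochain complexes induced by a continuous homomorphism
`f : G →* H` and a morphism `φ : Rep.res f A ⟶ B`. -/
def lcPull : lcCochains 𝒱 A ⟶ lcCochains 𝒰 B :=
  CochainComplex.ofHom (fun n => ModuleCat.ofHom (lcPullLin hf φ n)) fun n => by
    simp only [lcCochains, CochainComplex.of_d]
    rw [← ModuleCat.ofHom_comp, ← ModuleCat.ofHom_comp, lcPullLin_comm]

@[simp]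
lemma lcPull_f (n : ℕ) : (lcPull hf φ).f n = ModuleCat.ofHom (lcPullLin hf φ n) := rfl

/-- Compatibility with the inclusions into all cochains. -/
lemma lcPull_comp_lcCochainsι :
    lcPull hf φ ≫ lcCochainsι 𝒰 B = lcCochainsι 𝒱 A ≫ groupCohomology.cochainsMap f φ := by
  ext n x : 3
  rfl

/-- The map on level-constant cohomology induced by a compatible pair `(f, φ)`. -/
def HlcPull (n : ℕ) : Hlc 𝒱 A n ⟶ Hlc 𝒰 B n :=
  HomologicalComplex.homologyMap (lcPull hf φ) n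

/-- Compatibility of `HlcPull` with the comparison maps to abstract group cohomology. -/
lemma HlcPull_comp_HlcToH (n : ℕ) :
    HlcPull hf φ n ≫ HlcToH 𝒰 B n = HlcToH 𝒱 A n ≫ groupCohomology.map f φ n := by
  have h1 := HomologicalComplex.homologyMap_comp (lcPull hf φ) (lcCochainsι 𝒰 B) n
  have h2 := HomologicalComplex.homologyMap_comp (lcCochainsι 𝒱 A)
    (groupCohomology.cochainsMap f φ) n
  rw [lcPull_comp_lcCochainsι] at h1
  exact h1.symm.trans h2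

/-! #### On representatives -/

lemma lcD_lcPullLin {n : ℕ} (x : lcSub 𝒱 A n) (hx : lcD 𝒱 A n x = 0) :
    lcD 𝒰 B n (lcPullLin hf φ n x) = 0 := by
  have := congr($(lcPullLin_comm hf φ n) x)
  simp only [LinearMap.comp_apply] at this
  rw [this, hx, map_zero]

lemma cyclesMap_lcPull_lcCyclesMk {n : ℕ} (x : lcSub 𝒱 A n) (hx : lcD 𝒱 A n x = 0) :
    HomologicalComplex.cyclesMap (lcPull hf φ) n (lcCyclesMk 𝒱 A x hx) =
      lcCyclesMk 𝒰 B (lcPullLin hf φ n x) (lcD_lcPullLin hf φ x hx) := by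
  have hmono : Function.Injective ((lcCochains 𝒰 B).iCycles n) :=
    (ModuleCat.mono_iff_injective _).1 inferInstance
  apply hmono
  refine Eq.trans ?_ (iCycles_lcCyclesMk 𝒰 B _ _).symm
  have := congr($(HomologicalComplex.cyclesMap_i (lcPull hf φ) n) (lcCyclesMk 𝒱 A x hx))
  simp only [ModuleCat.hom_comp, LinearMap.comp_apply] at this
  refine this.trans ?_
  exact congrArg (lcPullLin hf φ n) (iCycles_lcCyclesMk 𝒱 A x hx)

/-- `HlcPull` on the class of a level-constant cocycle `x`: the class of `g ↦ φ (x (f ∘ g))`. -/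
lemma HlcPull_mk {n : ℕ} (x : lcSub 𝒱 A n) (hx : lcD 𝒱 A n x = 0) :
    HlcPull hf φ n (HlcMk 𝒱 A x hx) =
      HlcMk 𝒰 B (lcPullLin hf φ n x) (lcD_lcPullLin hf φ x hx) := by
  have := congr($(HomologicalComplex.homologyπ_naturality (lcPull hf φ) n) (lcCyclesMk 𝒱 A x hx))
  simp only [ModuleCat.hom_comp, LinearMap.comp_apply] at this
  refine this.trans ?_
  exact congrArg _ (cyclesMap_lcPull_lcCyclesMk hf φ x hx)

end Pull

/-! ### Functoriality -/

section Functoriality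

/-- For `f = id`, `lcPull` is the coefficient map `lcMap`. -/
lemma lcPull_id_eq_lcMap {A B : Rep.{u} k G} [IsDiscrete 𝒰 A] [IsDiscrete 𝒰 B] (φ : A ⟶ B) :
    lcPull (IsContHom.id 𝒰) (A := A) φ = lcMap 𝒰 φ := by
  ext n x : 3
  rfl

lemma lcPull_id {A : Rep.{u} k G} [IsDiscrete 𝒰 A] :
    lcPull (IsContHom.id 𝒰) (A := A) (𝟙 A) = 𝟙 (lcCochains 𝒰 A) := by
  ext n x : 3
  rfl

/-- `lcPull` only depends on the underlying maps (not on the proof of continuity). -/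
lemma lcPull_congr {f f' : G →* H} (hf : IsContHom 𝒰 𝒱 f) (hf' : IsContHom 𝒰 𝒱 f')
    {A : Rep.{u} k H} {B : Rep.{u} k G} [IsDiscrete 𝒱 A] [IsDiscrete 𝒰 B]
    {φ : Rep.res f A ⟶ B} {φ' : Rep.res f' A ⟶ B} (hff' : f = f')
    (hφ : φ.hom.toLinearMap = φ'.hom.toLinearMap) : lcPull hf φ = lcPull hf' φ' := by
  subst hff'
  ext n x : 3
  apply Subtype.ext
  funext g
  exact congr($hφ _)

/-- Composition of compatible pairs (same shape as Mathlib's `groupCohomology.cochainsMap_comp`). -/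
lemma lcPull_comp {f : H →* K} {g : G →* H} (hf : IsContHom 𝒱 𝒲 f) (hg : IsContHom 𝒰 𝒱 g)
    {A : Rep.{u} k K} {B : Rep.{u} k H} {C : Rep.{u} k G}
    [IsDiscrete 𝒲 A] [IsDiscrete 𝒱 B] [IsDiscrete 𝒰 C]
    (φ : Rep.res f A ⟶ B) (ψ : Rep.res g B ⟶ C) :
    lcPull (hf.comp hg) (A := A) ((Rep.resFunctor g).map φ ≫ ψ) = lcPull hf φ ≫ lcPull hg ψ := by
  ext n x : 3
  rfl

/-- Pre-composition with a coefficient map on the target group. -/
lemma lcMap_comp_lcPull {f : G →* H} (hf : IsContHom 𝒰 𝒱 f) {A' A : Rep.{u} k H}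
    {B : Rep.{u} k G} [IsDiscrete 𝒱 A'] [IsDiscrete 𝒱 A] [IsDiscrete 𝒰 B]
    (α : A' ⟶ A) (φ : Rep.res f A ⟶ B) :
    lcMap 𝒱 α ≫ lcPull hf φ = lcPull hf ((Rep.resFunctor f).map α ≫ φ) := by
  ext n x : 3
  rfl

/-- Post-composition with a coefficient map on the source group. -/
lemma lcPull_comp_lcMap {f : G →* H} (hf : IsContHom 𝒰 𝒱 f) {A : Rep.{u} k H}
    {B B' : Rep.{u} k G} [IsDiscrete 𝒱 A] [IsDiscrete 𝒰 B] [IsDiscrete 𝒰 B']
    (φ : Rep.res f A ⟶ B) (β : B ⟶ B') :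
    lcPull hf φ ≫ lcMap 𝒰 β = lcPull hf (φ ≫ β) := by
  ext n x : 3
  rfl

lemma HlcPull_id_eq_HlcMap {A B : Rep.{u} k G} [IsDiscrete 𝒰 A] [IsDiscrete 𝒰 B] (φ : A ⟶ B)
    (n : ℕ) : HlcPull (IsContHom.id 𝒰) (A := A) φ n = HlcMap 𝒰 φ n := by
  unfold HlcPull HlcMap
  rw [lcPull_id_eq_lcMap]

lemma HlcPull_id {A : Rep.{u} k G} [IsDiscrete 𝒰 A] (n : ℕ) :
    HlcPull (IsContHom.id 𝒰) (A := A) (𝟙 A) n = 𝟙 (Hlc 𝒰 A n) := by
  rw [HlcPull_id_eq_HlcMap, HlcMap_id]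

lemma HlcPull_congr {f f' : G →* H} (hf : IsContHom 𝒰 𝒱 f) (hf' : IsContHom 𝒰 𝒱 f')
    {A : Rep.{u} k H} {B : Rep.{u} k G} [IsDiscrete 𝒱 A] [IsDiscrete 𝒰 B]
    {φ : Rep.res f A ⟶ B} {φ' : Rep.res f' A ⟶ B} (hff' : f = f')
    (hφ : φ.hom.toLinearMap = φ'.hom.toLinearMap) (n : ℕ) : HlcPull hf φ n = HlcPull hf' φ' n := by
  unfold HlcPull
  rw [lcPull_congr hf hf' hff' hφ]

lemma HlcPull_comp {f : H →* K} {g : G →* H} (hf : IsContHom 𝒱 𝒲 f) (hg : IsContHom 𝒰 𝒱 g)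
    {A : Rep.{u} k K} {B : Rep.{u} k H} {C : Rep.{u} k G}
    [IsDiscrete 𝒲 A] [IsDiscrete 𝒱 B] [IsDiscrete 𝒰 C]
    (φ : Rep.res f A ⟶ B) (ψ : Rep.res g B ⟶ C) (n : ℕ) :
    HlcPull (hf.comp hg) (A := A) ((Rep.resFunctor g).map φ ≫ ψ) n =
      HlcPull hf φ n ≫ HlcPull hg ψ n := by
  have := HomologicalComplex.homologyMap_comp (lcPull hf φ) (lcPull hg ψ) n
  rw [← lcPull_comp] at this
  exact this

lemma HlcMap_comp_HlcPull {f : G →* H} (hf : IsContHom 𝒰 𝒱 f) {A' A : Rep.{u} k H}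
    {B : Rep.{u} k G} [IsDiscrete 𝒱 A'] [IsDiscrete 𝒱 A] [IsDiscrete 𝒰 B]
    (α : A' ⟶ A) (φ : Rep.res f A ⟶ B) (n : ℕ) :
    HlcMap 𝒱 α n ≫ HlcPull hf φ n = HlcPull hf ((Rep.resFunctor f).map α ≫ φ) n := by
  have := HomologicalComplex.homologyMap_comp (lcMap 𝒱 α) (lcPull hf φ) n
  rw [lcMap_comp_lcPull] at this
  exact this.symm

lemma HlcPull_comp_HlcMap {f : G →* H} (hf : IsContHom 𝒰 𝒱 f) {A : Rep.{u} k H}
    {B B' : Rep.{u} k G} [IsDiscrete 𝒱 A] [IsDiscrete 𝒰 B] [IsDiscrete 𝒰 B']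
    (φ : Rep.res f A ⟶ B) (β : B ⟶ B') (n : ℕ) :
    HlcPull hf φ n ≫ HlcMap 𝒰 β n = HlcPull hf (φ ≫ β) n := by
  have := HomologicalComplex.homologyMap_comp (lcPull hf φ) (lcMap 𝒰 β) n
  rw [lcPull_comp_lcMap] at this
  exact this.symm

end Functoriality

/-! ### Restriction -/

section Res

variable {f : G →* H} (hf : IsContHom 𝒰 𝒱 f)

/-- Restriction along a continuous homomorphism: `Hlc 𝒱 A n ⟶ Hlc 𝒰 (Rep.res f A) n`.
(The instance `IsDiscrete 𝒰 (Rep.res f A)` is provided by `IsDiscrete.res hf A`.) -/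
def HlcRes (A : Rep.{u} k H) [IsDiscrete 𝒱 A] [IsDiscrete 𝒰 (Rep.res f A)] (n : ℕ) :
    Hlc 𝒱 A n ⟶ Hlc 𝒰 (Rep.res f A) n :=
  HlcPull hf (𝟙 (Rep.res f A)) n

/-- Restriction on the class of a level-constant cocycle `x`: the class of `g ↦ x (f ∘ g)`. -/
lemma HlcRes_mk {A : Rep.{u} k H} [IsDiscrete 𝒱 A] [IsDiscrete 𝒰 (Rep.res f A)] {n : ℕ}
    (x : lcSub 𝒱 A n) (hx : lcD 𝒱 A n x = 0) :
    HlcRes hf A n (HlcMk 𝒱 A x hx) =
      HlcMk 𝒰 (Rep.res f A) (lcPullLin hf (𝟙 (Rep.res f A)) n x) (lcD_lcPullLin hf _ x hx) :=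
  HlcPull_mk hf _ x hx

/-- Every `HlcPull` is restriction followed by a coefficient map. -/
lemma HlcRes_comp_HlcMap {A : Rep.{u} k H} {B : Rep.{u} k G} [IsDiscrete 𝒱 A]
    [IsDiscrete 𝒰 (Rep.res f A)] [IsDiscrete 𝒰 B] (φ : Rep.res f A ⟶ B) (n : ℕ) :
    HlcRes hf A n ≫ HlcMap 𝒰 φ n = HlcPull hf φ n := by
  unfold HlcRes
  rw [HlcPull_comp_HlcMap, Category.id_comp]

/-- Restriction is natural in the coefficients. -/
lemma HlcMap_comp_HlcRes {A A' : Rep.{u} k H} [IsDiscrete 𝒱 A] [IsDiscrete 𝒱 A']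
    [IsDiscrete 𝒰 (Rep.res f A)] [IsDiscrete 𝒰 (Rep.res f A')] (α : A ⟶ A') (n : ℕ) :
    HlcMap 𝒱 α n ≫ HlcRes hf A' n = HlcRes hf A n ≫ HlcMap 𝒰 ((Rep.resFunctor f).map α) n := by
  unfold HlcRes
  rw [HlcMap_comp_HlcPull, HlcPull_comp_HlcMap, Category.id_comp, Category.comp_id]

/-- Restriction is compatible with the comparison maps to abstract group cohomology. -/
lemma HlcRes_comp_HlcToH (A : Rep.{u} k H) [IsDiscrete 𝒱 A] [IsDiscrete 𝒰 (Rep.res f A)]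
    (n : ℕ) :
    HlcRes hf A n ≫ HlcToH 𝒰 (Rep.res f A) n =
      HlcToH 𝒱 A n ≫ groupCohomology.map f (𝟙 (Rep.res f A)) n :=
  HlcPull_comp_HlcToH hf _ n

end Res

/-! ### Compatibility with the connecting homomorphisms -/

section Delta

variable {f : G →* H} (hf : IsContHom 𝒰 𝒱 f)
  {X : ShortComplex (Rep.{u} k H)} {Y : ShortComplex (Rep.{u} k G)}
  [IsDiscrete 𝒱 X.X₁] [IsDiscrete 𝒱 X.X₂] [IsDiscrete 𝒱 X.X₃]
  [IsDiscrete 𝒰 Y.X₁] [IsDiscrete 𝒰 Y.X₂] [IsDiscrete 𝒰 Y.X₃]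

/-- A compatible triple of morphisms `Rep.res f X.Xᵢ ⟶ Y.Xᵢ` between short complexes of discrete
representations of `H` and of `G` induces a morphism of the short complexes of level-constant
cochain complexes. -/
def lcShortComplexPull (τ₁ : Rep.res f X.X₁ ⟶ Y.X₁) (τ₂ : Rep.res f X.X₂ ⟶ Y.X₂)
    (τ₃ : Rep.res f X.X₃ ⟶ Y.X₃) (comm₁₂ : τ₁ ≫ Y.f = (Rep.resFunctor f).map X.f ≫ τ₂)
    (comm₂₃ : τ₂ ≫ Y.g = (Rep.resFunctor f).map X.g ≫ τ₃) :
    lcShortComplex 𝒱 X ⟶ lcShortComplex 𝒰 Y where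
  τ₁ := lcPull hf τ₁
  τ₂ := lcPull hf τ₂
  τ₃ := lcPull hf τ₃
  comm₁₂ := by
    show lcPull hf τ₁ ≫ lcMap 𝒰 Y.f = lcMap 𝒱 X.f ≫ lcPull hf τ₂
    rw [lcPull_comp_lcMap, lcMap_comp_lcPull, comm₁₂]
  comm₂₃ := by
    show lcPull hf τ₂ ≫ lcMap 𝒰 Y.g = lcMap 𝒱 X.g ≫ lcPull hf τ₃
    rw [lcPull_comp_lcMap, lcMap_comp_lcPull, comm₂₃]

/-- Compatibility of `HlcPull` with the connecting homomorphisms of the long exact sequences:
for short exact sequences `X` (of `H`-representations), `Y` (of `G`-representations) and a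
compatible triple `τᵢ : Rep.res f X.Xᵢ ⟶ Y.Xᵢ`, the square `δ ≫ τ₁ = τ₃ ≫ δ` commutes. -/
theorem Hlcδ_comp_HlcPull (hX : X.ShortExact) (hY : Y.ShortExact)
    (τ₁ : Rep.res f X.X₁ ⟶ Y.X₁) (τ₂ : Rep.res f X.X₂ ⟶ Y.X₂)
    (τ₃ : Rep.res f X.X₃ ⟶ Y.X₃) (comm₁₂ : τ₁ ≫ Y.f = (Rep.resFunctor f).map X.f ≫ τ₂)
    (comm₂₃ : τ₂ ≫ Y.g = (Rep.resFunctor f).map X.g ≫ τ₃) (i j : ℕ) (hij : i + 1 = j) :
    Hlcδ 𝒱 hX i j hij ≫ HlcPull hf τ₁ j = HlcPull hf τ₃ i ≫ Hlcδ 𝒰 hY i j hij :=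
  HomologicalComplex.HomologySequence.δ_naturality
    (lcShortComplexPull hf τ₁ τ₂ τ₃ comm₁₂ comm₂₃)
    (lcShortComplex_shortExact 𝒱 hX) (lcShortComplex_shortExact 𝒰 hY) i j hij

omit [IsDiscrete 𝒰 Y.X₁] [IsDiscrete 𝒰 Y.X₂] [IsDiscrete 𝒰 Y.X₃] in
/-- Restriction commutes with the connecting homomorphisms (the restricted short exact sequence
is `X.map (Rep.resFunctor f)`, exact by `hX.map_of_exact (Rep.resFunctor f)`). -/
theorem Hlcδ_comp_HlcRes (hX : X.ShortExact)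
    [h₁ : IsDiscrete 𝒰 (Rep.res f X.X₁)] [h₂ : IsDiscrete 𝒰 (Rep.res f X.X₂)]
    [h₃ : IsDiscrete 𝒰 (Rep.res f X.X₃)] (i j : ℕ) (hij : i + 1 = j) :
    Hlcδ 𝒱 hX i j hij ≫ HlcRes hf X.X₁ j =
      HlcRes hf X.X₃ i ≫
        @Hlcδ k G _ _ 𝒰 (X.map (Rep.resFunctor f)) h₁ h₂ h₃
          (hX.map_of_exact (Rep.resFunctor f)) i j hij :=
  @Hlcδ_comp_HlcPull k G H _ _ _ 𝒰 𝒱 f hf X (X.map (Rep.resFunctor f)) _ _ _ h₁ h₂ h₃ hX
    (hX.map_of_exact (Rep.resFunctor f)) (𝟙 _) (𝟙 _) (𝟙 _)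
    ((Category.id_comp ((Rep.resFunctor f).map X.f)).trans
      (Category.comp_id ((Rep.resFunctor f).map X.f)).symm)
    ((Category.id_comp ((Rep.resFunctor f).map X.g)).trans
      (Category.comp_id ((Rep.resFunctor f).map X.g)).symm) i j hij

end Delta

end Fermat.Agent.GC.Prof
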