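/-
GATE-C / C1 (PROFCOH), helper20: element-level description of the homology of an arbitrary cochain
complex of `k`-modules (generic; used for `groupCohomology _ n` and for `Hlc 𝒰 M n`, every `n`).

* `Elt.zSub K n`            : the submodule `ker (d : Kⁿ → Kⁿ⁺¹)` of `n`-cocycles;
* `Elt.hMk K n`             : the linear map `zSub K n → K.homology n` (class of a cocycle);
* `Elt.hMk_surjective`      : every homology class is the class of a cocycle;
* `Elt.hMk_eq_zero_iff_succ`: in degree `n + 1`, a class vanishes iff the cocycle is a coboundary;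
* `Elt.hMk_eq_zero_iff_zero`: in degree `0`, a class vanishes iff the cocycle is zero;
* `Elt.homologyMap_hMk`     : functoriality on classes.
Mathlib only.
-/
import Mathlib

set_option autoImplicit false

open CategoryTheory

noncomputable section

namespace Fermat.Agent.GC.Prof.Elt

universe v u

variable {k : Type u} [CommRing k] (K L : CochainComplex (ModuleCat.{v} k) ℕ)

/-- the submodule of `n`-cocycles of a cochain complex of modules -/
def zSub (n : ℕ) : Submodule k (K.X n) := LinearMap.ker (K.d n (n + 1)).hom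

theorem mem_zSub_iff (n : ℕ) (x : K.X n) : x ∈ zSub K n ↔ K.d n (n + 1) x = 0 := Iff.rfl

/-- the map from the kernel of the differential to the categorical cycles -/
def zMkHom (n : ℕ) : ModuleCat.of k (zSub K n) ⟶ K.cycles n :=
  K.liftCycles (ModuleCat.ofHom (zSub K n).subtype) (n + 1) (by simp) (by
    ext x
    exact x.2)

theorem zMkHom_i (n : ℕ) : zMkHom K n ≫ K.iCycles n = ModuleCat.ofHom (zSub K n).subtype := by
  simp [zMkHom]

theorem iCycles_zMkHom (n : ℕ) (x : zSub K n) : K.iCycles n (zMkHom K n x) = x.1 :=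
  congr($(zMkHom_i K n) x)

theorem iCycles_injective (n : ℕ) : Function.Injective (K.iCycles n) :=
  (ModuleCat.mono_iff_injective _).1 inferInstance

theorem d_iCycles (n : ℕ) (z : K.cycles n) : K.d n (n + 1) (K.iCycles n z) = 0 :=
  congr($(K.iCycles_d n (n + 1)) z)

theorem zMkHom_surjective (n : ℕ) : Function.Surjective (zMkHom K n) := by
  intro z
  refine ⟨⟨K.iCycles n z, d_iCycles K n z⟩, ?_⟩
  apply iCycles_injective K n
  rw [iCycles_zMkHom]

/-- the homology class of a cocycle -/
def hMk (n : ℕ) : zSub K n →ₗ[k] K.homology n := (zMkHom K n ≫ K.homologyπ n).hom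

theorem hMk_apply (n : ℕ) (x : zSub K n) : hMk K n x = K.homologyπ n (zMkHom K n x) := rfl

theorem homologyπ_surjective (n : ℕ) : Function.Surjective (K.homologyπ n) :=
  (ModuleCat.epi_iff_surjective _).1 inferInstance

/-- every homology class is the class of a cocycle -/
theorem hMk_surjective (n : ℕ) : Function.Surjective (hMk K n) := by
  intro x
  obtain ⟨z, rfl⟩ := homologyπ_surjective K n x
  obtain ⟨y, rfl⟩ := zMkHom_surjective K n z
  exact ⟨y, rfl⟩

theorem homologyπ_eq_zero_iff (i j : ℕ) (hi : (ComplexShape.up ℕ).prev j = i) (z : K.cycles j) :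
    K.homologyπ j z = 0 ↔ ∃ b : K.X i, K.toCycles i j b = z := by
  have hex : (ShortComplex.mk (K.toCycles i j) (K.homologyπ j)
      (K.toCycles_comp_homologyπ i j)).Exact :=
    ShortComplex.exact_of_g_is_cokernel _ (K.homologyIsCokernel i j hi)
  rw [ShortComplex.moduleCat_exact_iff] at hex
  constructor
  · intro h
    exact hex z h
  · rintro ⟨b, rfl⟩
    exact congr($(K.toCycles_comp_homologyπ i j) b)

/-- in degree `n + 1` the class of a cocycle vanishes iff it is a coboundary -/
theorem hMk_eq_zero_iff_succ (n : ℕ) (x : zSub K (n + 1)) :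
    hMk K (n + 1) x = 0 ↔ ∃ b : K.X n, K.d n (n + 1) b = x.1 := by
  rw [hMk_apply, homologyπ_eq_zero_iff K n (n + 1) (by simp)]
  constructor
  · rintro ⟨b, hb⟩
    refine ⟨b, ?_⟩
    have := congrArg (K.iCycles (n + 1)) hb
    rw [iCycles_zMkHom] at this
    rw [← this]
    exact congr($((K.toCycles_i n (n + 1)).symm) b)
  · rintro ⟨b, hb⟩
    refine ⟨b, ?_⟩
    apply iCycles_injective K (n + 1)
    rw [iCycles_zMkHom, ← hb]
    exact congr($(K.toCycles_i n (n + 1)) b)

/-- in degree `0` the class of a cocycle vanishes iff the cocycle is zero -/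
theorem hMk_eq_zero_iff_zero (x : zSub K 0) : hMk K 0 x = 0 ↔ x = 0 := by
  rw [hMk_apply, homologyπ_eq_zero_iff K 0 0 (by simp)]
  constructor
  · rintro ⟨b, hb⟩
    have := congrArg (K.iCycles 0) hb
    rw [iCycles_zMkHom] at this
    apply Subtype.ext
    rw [← this]
    have h0 : K.toCycles 0 0 ≫ K.iCycles 0 = 0 := by
      rw [K.toCycles_i 0 0]
      exact K.shape 0 0 (by simp)
    exact congr($h0 b)
  · rintro rfl
    refine ⟨0, ?_⟩
    simp

variable {K L}

theorem map_mem_zSub (φ : K ⟶ L) (n : ℕ) (x : zSub K n) : φ.f n x.1 ∈ zSub L n := by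
  rw [mem_zSub_iff]
  have h : (φ.f n ≫ L.d n (n + 1)) x.1 = (K.d n (n + 1) ≫ φ.f (n + 1)) x.1 :=
    congr($(φ.comm n (n + 1)) x.1)
  rw [ConcreteCategory.comp_apply, ConcreteCategory.comp_apply] at h
  rw [h, (mem_zSub_iff K n x.1).1 x.2, map_zero]

/-- functoriality on cocycles -/
def zMap (φ : K ⟶ L) (n : ℕ) : zSub K n →ₗ[k] zSub L n :=
  ((φ.f n).hom.comp (zSub K n).subtype).codRestrict (zSub L n) (map_mem_zSub φ n)

theorem zMap_coe (φ : K ⟶ L) (n : ℕ) (x : zSub K n) : (zMap φ n x : L.X n) = φ.f n x.1 := rfl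

/-- functoriality on classes -/
theorem homologyMap_hMk (φ : K ⟶ L) (n : ℕ) (x : zSub K n) :
    HomologicalComplex.homologyMap φ n (hMk K n x) = hMk L n (zMap φ n x) := by
  rw [hMk_apply, hMk_apply]
  have h1 : (K.homologyπ n ≫ HomologicalComplex.homologyMap φ n) (zMkHom K n x) =
      (HomologicalComplex.cyclesMap φ n ≫ L.homologyπ n) (zMkHom K n x) :=
    congr($(HomologicalComplex.homologyπ_naturality φ n) (zMkHom K n x))
  rw [ConcreteCategory.comp_apply, ConcreteCategory.comp_apply] at h1
  rw [h1]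
  congr 1
  apply iCycles_injective L n
  rw [iCycles_zMkHom, zMap_coe, ← iCycles_zMkHom K n x]
  have h2 : (HomologicalComplex.cyclesMap φ n ≫ L.iCycles n) (zMkHom K n x) =
      (K.iCycles n ≫ φ.f n) (zMkHom K n x) :=
    congr($(HomologicalComplex.cyclesMap_i φ n) (zMkHom K n x))
  rw [ConcreteCategory.comp_apply, ConcreteCategory.comp_apply] at h2
  exact h2

end Fermat.Agent.GC.Prof.Elt
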