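/-
GATE-C / C1 (PROFCOH) leaf (L8) CONE, helper10.  Abstract part: Mathlib + `HElt.lean` (helper20).

For a morphism `φ : C ⟶ D` of cochain complexes of `k`-modules (ℕ-indexed) we build the SHIFTED
mapping cone `cone φ = Cone(φ)[-1]`:
  `(cone φ)ⁿ = Cⁿ × Dⁿ⁻¹`   (`D⁻¹ := 0`, realised as `PUnit`; `shX D n` is `Dⁿ⁻¹`),
  `d (a, b) = (d a, φ a - d b)`          (`shD D (n+1) = -d`, `shD D 0 = 0`),
and its cohomology `Hc φ n` ("cohomology with compact supports" when `C` = global cochains,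
`D` = product of local cochains, `φ` = restriction).  SIGN CONVENTIONS: as displayed above;
the forgetful map is `[(a, b)] ↦ [a]`, the boundary map is `[b] ↦ [(0, b)]` (NO sign).

Element-level API (no category theory needed by consumers):
* `IsCocycle φ n a b`  (`isCocycle_succ_iff`: `d a = 0 ∧ φ a = d b`; `isCocycle_zero_iff`)
* `HcMk φ n a b h : Hc φ n`, `Hc_exists_mk`, `HcMk_add/_neg/_smul/_congr`
* `HcMk_one_eq_zero_iff`, `HcMk_succ_succ_eq_zero_iff`, `HcMk_zero_eq_zero_iff`, `HcMk_succ_eq_iff`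
* `HcToH φ n : Hc φ n ⟶ C.homology n`, `HcToH_mk`
* `HToHc φ n : D.homology n ⟶ Hc φ (n+1)`, `HToHc_hMk`
* the long exact sequence `0 → Hc⁰ → H⁰(C) → H⁰(D) → Hc¹ → H¹(C) → H¹(D) → Hc² → ⋯`:
  `HcToH_zero_injective`, `exact_HcToH_map`, `exact_map_HToHc`, `exact_HToHc_HcToH`.
Also: the short exact sequence of complexes `0 → D[-1] → cone φ → C → 0` (`sc_shortExact`).
-/
import Fermat.Agent.GC.Prof.HElt

set_option autoImplicit false

open CategoryTheory

noncomputable section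

namespace Fermat.Agent.GC.Prof.Cone

universe u v

variable {k : Type u} [CommRing k]

/-- Objects of the shifted complex `D[-1]`: `0` in degree `0`, `D.X n` in degree `n + 1`. -/
def shX (D : CochainComplex (ModuleCat.{v} k) ℕ) : ℕ → ModuleCat.{v} k
  | 0 => ModuleCat.of k PUnit.{v + 1}
  | n + 1 => D.X n

/-- Differential of the shifted complex: `-d`. -/
def shD (D : CochainComplex (ModuleCat.{v} k) ℕ) : ∀ n, shX D n ⟶ shX D (n + 1)
  | 0 => 0
  | n + 1 => -(D.d n (n + 1))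

lemma shD_comp (D : CochainComplex (ModuleCat.{v} k) ℕ) (n : ℕ) :
    shD D n ≫ shD D (n + 1) = 0 := by
  cases n with
  | zero => simp [shD]
  | succ n =>
    show (-D.d n (n + 1)) ≫ (-D.d (n + 1) (n + 1 + 1)) = 0
    rw [Preadditive.neg_comp, Preadditive.comp_neg, neg_neg, D.d_comp_d]

/-- The shifted complex `D[-1]`. -/
def shift (D : CochainComplex (ModuleCat.{v} k) ℕ) : CochainComplex (ModuleCat.{v} k) ℕ :=
  CochainComplex.of (shX D) (shD D) (shD_comp D)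

variable {C D : CochainComplex (ModuleCat.{v} k) ℕ} (φ : C ⟶ D)

/-- `φ` in degree `n`, with target written as a term of the shifted complex. -/
def φsh (n : ℕ) : C.X n ⟶ shX D (n + 1) := φ.f n

lemma φsh_comm (n : ℕ) : C.d n (n + 1) ≫ φsh φ (n + 1) + φsh φ n ≫ shD D (n + 1) = 0 := by
  show C.d n (n + 1) ≫ φ.f (n + 1) + φ.f n ≫ (-D.d n (n + 1)) = 0
  rw [Preadditive.comp_neg, φ.comm n (n + 1), add_neg_cancel]


/-- Degree `n` of the (shifted) mapping cone: pairs `(a, b)` with `a ∈ Cⁿ`, `b ∈ Dⁿ⁻¹`. -/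
abbrev coneX (C D : CochainComplex (ModuleCat.{v} k) ℕ) (n : ℕ) : ModuleCat.{v} k :=
  ModuleCat.of k (C.X n × shX D n)

/-- The differential of the cone as a linear map: `(a, b) ↦ (d a, φ a - d b)`. -/
def coneDLin (n : ℕ) : (C.X n × shX D n) →ₗ[k] (C.X (n + 1) × shX D (n + 1)) :=
  LinearMap.prod ((C.d n (n + 1)).hom ∘ₗ LinearMap.fst k _ _)
    ((φsh φ n).hom ∘ₗ LinearMap.fst k _ _ + (shD D n).hom ∘ₗ LinearMap.snd k _ _)

@[simp]
lemma coneDLin_apply (n : ℕ) (a : C.X n) (b : shX D n) :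
    coneDLin φ n (a, b) = (C.d n (n + 1) a, φsh φ n a + shD D n b) := rfl

lemma coneDLin_comp (n : ℕ) : coneDLin φ (n + 1) ∘ₗ coneDLin φ n = 0 := by
  refine LinearMap.ext fun x => ?_
  obtain ⟨a, b⟩ := x
  have h1 : C.d (n + 1) (n + 1 + 1) (C.d n (n + 1) a) = 0 := by
    rw [← ModuleCat.comp_apply, C.d_comp_d]; rfl
  have h2 : shD D (n + 1) (shD D n b) = 0 := by
    rw [← ModuleCat.comp_apply, shD_comp]; rfl
  have h3 : φsh φ (n + 1) (C.d n (n + 1) a) + shD D (n + 1) (φsh φ n a) = 0 := by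
    have := congr($(φsh_comm φ n) a)
    simpa using this
  simp only [LinearMap.comp_apply, coneDLin_apply, LinearMap.zero_apply, Prod.mk_eq_zero, h1,
    map_add, h2, add_zero, h3, and_self]

/-- The (shifted) mapping cone of `φ : C ⟶ D`: in degree `n` it is `Cⁿ × Dⁿ⁻¹` with
`d (a, b) = (d a, φ a - d b)`. Its cohomology is the "compactly supported" cohomology. -/
def cone : CochainComplex (ModuleCat.{v} k) ℕ :=
  CochainComplex.of (coneX C D) (fun n => ModuleCat.ofHom (coneDLin φ n)) fun n => by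
    rw [← ModuleCat.ofHom_comp, coneDLin_comp]; rfl


@[simp]
lemma cone_d (n : ℕ) : (cone φ).d n (n + 1) = ModuleCat.ofHom (coneDLin φ n) := by
  simp [cone]

@[simp]
lemma shift_d (D : CochainComplex (ModuleCat.{v} k) ℕ) (n : ℕ) :
    (shift D).d n (n + 1) = shD D n := by
  simp [shift]

/-- The inclusion `D[-1] ⟶ cone φ`, `b ↦ (0, b)`. -/
def ι : shift D ⟶ cone φ :=
  CochainComplex.ofHom (X := shift D) (Y := cone φ)
    (fun n => ModuleCat.ofHom (LinearMap.inr k (C.X n) (shX D n))) fun n => by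
      rw [shift_d, cone_d]
      ext b
      show coneDLin φ n ((0 : C.X n), (b : shX D n)) = ((0 : C.X (n + 1)), shD D n b)
      rw [coneDLin_apply, map_zero, map_zero, zero_add]

/-- The projection `cone φ ⟶ C`, `(a, b) ↦ a`. -/
def π : cone φ ⟶ C :=
  CochainComplex.ofHom (X := cone φ) (Y := C)
    (fun n => ModuleCat.ofHom (LinearMap.fst k (C.X n) (shX D n))) fun n => by
      rw [cone_d]
      ext x
      obtain ⟨a, b⟩ := x
      show C.d n (n + 1) a = (coneDLin φ n ((a : C.X n), (b : shX D n))).1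
      rw [coneDLin_apply]


@[simp]
lemma ι_f (n : ℕ) : (ι φ).f n = ModuleCat.ofHom (LinearMap.inr k (C.X n) (shX D n)) := rfl

@[simp]
lemma π_f (n : ℕ) : (π φ).f n = ModuleCat.ofHom (LinearMap.fst k (C.X n) (shX D n)) := rfl

lemma ι_comp_π : ι φ ≫ π φ = 0 := by
  ext n x
  rfl

/-- The short complex of complexes `D[-1] ⟶ cone φ ⟶ C`. -/
def sc : ShortComplex (CochainComplex (ModuleCat.{v} k) ℕ) :=
  ShortComplex.mk (ι φ) (π φ) (ι_comp_π φ)

/-- `0 ⟶ D[-1] ⟶ cone φ ⟶ C ⟶ 0` is a short exact sequence of complexes. -/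
theorem sc_shortExact : (sc φ).ShortExact :=
  HomologicalComplex.shortExact_of_degreewise_shortExact _ fun i =>
    { exact := by
        rw [ShortComplex.moduleCat_exact_iff_range_eq_ker]
        show LinearMap.range (LinearMap.inr k (C.X i) (shX D i)) =
          LinearMap.ker (LinearMap.fst k (C.X i) (shX D i))
        rw [LinearMap.range_inr, LinearMap.ker_fst]
      mono_f := by
        show Mono ((ι φ).f i)
        rw [ι_f]
        have h : Function.Injective (LinearMap.inr k (C.X i) (shX D i)) := LinearMap.inr_injective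
        exact (ModuleCat.mono_iff_injective
          (ModuleCat.ofHom (LinearMap.inr k (C.X i) (shX D i)))).2 h
      epi_g := by
        show Epi ((π φ).f i)
        rw [π_f]
        have h : Function.Surjective (LinearMap.fst k (C.X i) (shX D i)) :=
          LinearMap.fst_surjective
        exact (ModuleCat.epi_iff_surjective
          (ModuleCat.ofHom (LinearMap.fst k (C.X i) (shX D i)))).2 h }

/-! ### Elements of the cone -/

open Fermat.Agent.GC.Prof.Elt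

/-- The degree-`n` term of `cone φ` is (definitionally) the product `Cⁿ × Dⁿ⁻¹`. -/
def coneXEquiv (n : ℕ) : (cone φ).X n ≃ₗ[k] (C.X n × shX D n) := LinearEquiv.refl k _

lemma coneXEquiv_d (n : ℕ) (x : (cone φ).X n) :
    coneXEquiv φ (n + 1) ((cone φ).d n (n + 1) x) = coneDLin φ n (coneXEquiv φ n x) := by
  rw [cone_d]
  rfl

/-- The cocycle condition in `cone φ`: `d a = 0` and `φ a = d b` (for `n = 0`: `φ a = 0`). -/
def IsCocycle (n : ℕ) (a : C.X n) (b : shX D n) : Prop :=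
  C.d n (n + 1) a = 0 ∧ φsh φ n a + shD D n b = 0

lemma symm_mem_zSub_iff (n : ℕ) (a : C.X n) (b : shX D n) :
    (coneXEquiv φ n).symm (a, b) ∈ zSub (cone φ) n ↔ IsCocycle φ n a b := by
  rw [mem_zSub_iff, ← (coneXEquiv φ (n + 1)).map_eq_zero_iff, coneXEquiv_d,
    LinearEquiv.apply_symm_apply, coneDLin_apply, Prod.mk_eq_zero]
  rfl

/-- The cocycle `(a, b)` of `cone φ`. -/
def zMk (n : ℕ) (a : C.X n) (b : shX D n) (h : IsCocycle φ n a b) : zSub (cone φ) n :=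
  ⟨(coneXEquiv φ n).symm (a, b), (symm_mem_zSub_iff φ n a b).2 h⟩

lemma exists_zMk (n : ℕ) (z : zSub (cone φ) n) : ∃ a b h, zMk φ n a b h = z := by
  obtain ⟨z, hz⟩ := z
  obtain ⟨⟨a, b⟩, rfl⟩ := (coneXEquiv φ n).symm.surjective z
  exact ⟨a, b, (symm_mem_zSub_iff φ n a b).1 hz, rfl⟩


/-! ### Compactly supported cohomology and its classes -/

/-- "Compactly supported" cohomology of `φ : C ⟶ D`: the cohomology of the shifted cone. -/
abbrev Hc (n : ℕ) : ModuleCat.{v} k := (cone φ).homology n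

/-- The class of the cocycle `(a, b)`. -/
def HcMk (n : ℕ) (a : C.X n) (b : shX D n) (h : IsCocycle φ n a b) : Hc φ n :=
  hMk (cone φ) n (zMk φ n a b h)

/-- Every class of `Hc φ n` is the class of a cocycle `(a, b)`. -/
theorem Hc_exists_mk (n : ℕ) (x : Hc φ n) : ∃ a b h, HcMk φ n a b h = x := by
  obtain ⟨z, rfl⟩ := hMk_surjective (cone φ) n x
  obtain ⟨a, b, h, rfl⟩ := exists_zMk φ n z
  exact ⟨a, b, h, rfl⟩

/-- In degree `n + 1`, `[(a, b)] = 0` iff `(a, b) = (d a', φ a' - d b')` for some `(a', b')`. -/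
theorem HcMk_succ_eq_zero_iff (n : ℕ) (a : C.X (n + 1)) (b : shX D (n + 1))
    (h : IsCocycle φ (n + 1) a b) :
    HcMk φ (n + 1) a b h = 0 ↔
      ∃ (a' : C.X n) (b' : shX D n), C.d n (n + 1) a' = a ∧ φsh φ n a' + shD D n b' = b := by
  unfold HcMk
  rw [hMk_eq_zero_iff_succ]
  constructor
  · rintro ⟨x, hx⟩
    have h1 := congrArg (coneXEquiv φ (n + 1)) hx
    rw [coneXEquiv_d] at h1
    obtain ⟨⟨a', b'⟩, rfl⟩ := (coneXEquiv φ n).symm.surjective x
    rw [LinearEquiv.apply_symm_apply, coneDLin_apply] at h1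
    have h2 : coneXEquiv φ (n + 1) (zMk φ (n + 1) a b h).1 = (a, b) :=
      LinearEquiv.apply_symm_apply _ _
    rw [h2, Prod.mk.injEq] at h1
    exact ⟨a', b', h1.1, h1.2⟩
  · rintro ⟨a', b', h1, h2⟩
    refine ⟨(coneXEquiv φ n).symm (a', b'), ?_⟩
    apply (coneXEquiv φ (n + 1)).injective
    rw [coneXEquiv_d, LinearEquiv.apply_symm_apply, coneDLin_apply, h1, h2]
    exact (LinearEquiv.apply_symm_apply _ _).symm

/-- In degree `0`, `[(a, *)] = 0` iff `a = 0`. -/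
theorem HcMk_zero_eq_zero_iff (a : C.X 0) (b : shX D 0) (h : IsCocycle φ 0 a b) :
    HcMk φ 0 a b h = 0 ↔ a = 0 := by
  unfold HcMk
  rw [hMk_eq_zero_iff_zero]
  constructor
  · intro h0
    have h1 := congrArg (fun z : zSub (cone φ) 0 => (coneXEquiv φ 0 z.1).1) h0
    exact h1
  · rintro rfl
    apply Subtype.ext
    show (coneXEquiv φ 0).symm ((0 : C.X 0), b) = 0
    have hb : b = 0 := Subsingleton.elim (α := PUnit) _ _
    rw [hb]
    exact map_zero _

lemma HcMk_congr (n : ℕ) {a a' : C.X n} {b b' : shX D n} (h : IsCocycle φ n a b)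
    (ha : a = a') (hb : b = b') : HcMk φ n a b h = HcMk φ n a' b' (ha ▸ hb ▸ h) := by
  subst ha hb
  rfl

lemma IsCocycle.add {n : ℕ} {a a' : C.X n} {b b' : shX D n} (h : IsCocycle φ n a b)
    (h' : IsCocycle φ n a' b') : IsCocycle φ n (a + a') (b + b') := by
  refine ⟨by rw [map_add, h.1, h'.1, add_zero], ?_⟩
  rw [map_add, map_add, add_add_add_comm, h.2, h'.2, add_zero]

lemma IsCocycle.smul {n : ℕ} {a : C.X n} {b : shX D n} (c : k) (h : IsCocycle φ n a b) :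
    IsCocycle φ n (c • a) (c • b) := by
  refine ⟨by rw [map_smul, h.1, smul_zero], ?_⟩
  rw [map_smul, map_smul, ← smul_add, h.2, smul_zero]

lemma IsCocycle.neg {n : ℕ} {a : C.X n} {b : shX D n} (h : IsCocycle φ n a b) :
    IsCocycle φ n (-a) (-b) := by
  refine ⟨by rw [map_neg, h.1, neg_zero], ?_⟩
  rw [map_neg, map_neg, ← neg_add, h.2, neg_zero]

lemma HcMk_add (n : ℕ) {a a' : C.X n} {b b' : shX D n} (h : IsCocycle φ n a b)
    (h' : IsCocycle φ n a' b') :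
    HcMk φ n (a + a') (b + b') (h.add φ h') = HcMk φ n a b h + HcMk φ n a' b' h' := by
  unfold HcMk
  rw [← map_add]
  congr 1

lemma HcMk_smul (n : ℕ) {a : C.X n} {b : shX D n} (c : k) (h : IsCocycle φ n a b) :
    HcMk φ n (c • a) (c • b) (h.smul φ c) = c • HcMk φ n a b h := by
  unfold HcMk
  rw [← map_smul]
  congr 1

lemma HcMk_neg (n : ℕ) {a : C.X n} {b : shX D n} (h : IsCocycle φ n a b) :
    HcMk φ n (-a) (-b) (h.neg φ) = -HcMk φ n a b h := by
  unfold HcMk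
  rw [← map_neg]
  congr 1

/-- Two cocycles have the same class iff their difference is a coboundary (degree `n + 1`). -/
theorem HcMk_succ_eq_iff (n : ℕ) {a a' : C.X (n + 1)} {b b' : shX D (n + 1)}
    (h : IsCocycle φ (n + 1) a b) (h' : IsCocycle φ (n + 1) a' b') :
    HcMk φ (n + 1) a b h = HcMk φ (n + 1) a' b' h' ↔
      ∃ (x : C.X n) (y : shX D n), C.d n (n + 1) x = a - a' ∧
        φsh φ n x + shD D n y = b - b' := by
  rw [← sub_eq_zero, sub_eq_add_neg, ← HcMk_neg, ← HcMk_add,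
    HcMk_succ_eq_zero_iff]
  simp only [sub_eq_add_neg]

/-! ### The forgetful map `Hc φ n ⟶ Hⁿ(C)` -/

/-- The "forget supports" map `Hcⁿ(φ) ⟶ Hⁿ(C)`, `[(a, b)] ↦ [a]`. -/
def HcToH (n : ℕ) : Hc φ n ⟶ C.homology n := HomologicalComplex.homologyMap (π φ) n

theorem HcToH_mk (n : ℕ) (a : C.X n) (b : shX D n) (h : IsCocycle φ n a b) :
    HcToH φ n (HcMk φ n a b h) = hMk C n ⟨a, h.1⟩ := by
  unfold HcToH HcMk
  rw [homologyMap_hMk]
  congr 1


/-! ### The boundary map `Hⁿ(D) ⟶ Hcⁿ⁺¹(φ)` -/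

/-- `shD D n`, with values viewed in `D.X n` (`= shX D (n + 1)` definitionally). -/
def shDX (D : CochainComplex (ModuleCat.{v} k) ℕ) (n : ℕ) : shX D n →ₗ[k] D.X n := (shD D n).hom

lemma shDX_zero (D : CochainComplex (ModuleCat.{v} k) ℕ) (b : shX D 0) : shDX D 0 b = 0 := rfl

lemma shDX_succ (D : CochainComplex (ModuleCat.{v} k) ℕ) (n : ℕ) (b : D.X n) :
    shDX D (n + 1) b = -(D.d n (n + 1) b) := rfl

lemma d_d_apply (D : CochainComplex (ModuleCat.{v} k) ℕ) (n : ℕ) (b : D.X n) :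
    D.d (n + 1) (n + 1 + 1) (D.d n (n + 1) b) = 0 := by
  have h : (D.d n (n + 1) ≫ D.d (n + 1) (n + 1 + 1)) b = 0 := by
    rw [D.d_comp_d]; rfl
  exact h

/-- `shD D n b'` is a cocycle of `D`... -/
lemma shDX_mem_zSub (n : ℕ) (b' : shX D n) : shDX D n b' ∈ zSub D n := by
  cases n with
  | zero => exact (zSub D 0).zero_mem
  | succ m =>
    change D.X m at b'
    show D.d (m + 1) (m + 1 + 1) (shDX D (m + 1) b') = 0
    rw [shDX_succ, map_neg, d_d_apply, neg_zero]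

/-- ... with trivial class. -/
lemma hMk_shDX (n : ℕ) (b' : shX D n) : hMk D n ⟨shDX D n b', shDX_mem_zSub n b'⟩ = 0 := by
  cases n with
  | zero =>
    rw [hMk_eq_zero_iff_zero]
    rfl
  | succ m =>
    change D.X m at b'
    rw [hMk_eq_zero_iff_succ]
    refine ⟨-b', ?_⟩
    show D.d m (m + 1) (-b') = shDX D (m + 1) b'
    rw [shDX_succ, map_neg]

/-- A cocycle of `D` with trivial class is of the form `shD D n b'`. -/
lemma exists_shDX_eq (n : ℕ) (z : zSub D n) (hz : hMk D n z = 0) :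
    ∃ b' : shX D n, shDX D n b' = z.1 := by
  cases n with
  | zero =>
    rw [hMk_eq_zero_iff_zero] at hz
    subst hz
    exact ⟨0, map_zero _⟩
  | succ m =>
    rw [hMk_eq_zero_iff_succ] at hz
    obtain ⟨b, hb⟩ := hz
    refine ⟨(-b : D.X m), ?_⟩
    rw [shDX_succ, map_neg, neg_neg, hb]

lemma isCocycle_iff (n : ℕ) (a : C.X n) (b : shX D n) :
    IsCocycle φ n a b ↔ C.d n (n + 1) a = 0 ∧ φ.f n a + shDX D n b = 0 := Iff.rfl

/-- The cocycle condition in degree `n + 1`: `d a = 0` and `φ a = d b`. -/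
lemma isCocycle_succ_iff (n : ℕ) (a : C.X (n + 1)) (b : D.X n) :
    IsCocycle φ (n + 1) a b ↔ C.d (n + 1) (n + 1 + 1) a = 0 ∧ φ.f (n + 1) a = D.d n (n + 1) b := by
  rw [isCocycle_iff, shDX_succ, ← sub_eq_add_neg, sub_eq_zero]

/-- The cocycle condition in degree `0`: `d a = 0` and `φ a = 0`. -/
lemma isCocycle_zero_iff (a : C.X 0) (b : shX D 0) :
    IsCocycle φ 0 a b ↔ C.d 0 1 a = 0 ∧ φ.f 0 a = 0 := by
  rw [isCocycle_iff, shDX_zero, add_zero]

lemma isCocycle_zero_left (n : ℕ) (b : D.X n) (hb : D.d n (n + 1) b = 0) :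
    IsCocycle φ (n + 1) 0 b := by
  rw [isCocycle_succ_iff, map_zero, map_zero, hb]
  exact ⟨rfl, rfl⟩

/-- `b ↦ [(0, b)]` on cocycles of `D`. -/
def bdryZ (n : ℕ) : zSub D n →ₗ[k] Hc φ (n + 1) :=
  hMk (cone φ) (n + 1) ∘ₗ
    ((coneXEquiv φ (n + 1)).symm.toLinearMap ∘ₗ LinearMap.inr k (C.X (n + 1)) (shX D (n + 1)) ∘ₗ
      (zSub D n).subtype).codRestrict (zSub (cone φ) (n + 1)) fun z =>
        (symm_mem_zSub_iff φ (n + 1) 0 z.1).2 (isCocycle_zero_left φ n z.1 z.2)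

lemma bdryZ_apply (n : ℕ) (z : zSub D n) :
    bdryZ φ n z = HcMk φ (n + 1) 0 z.1 (isCocycle_zero_left φ n z.1 z.2) := rfl

lemma ker_hMk_le_ker_bdryZ (n : ℕ) : LinearMap.ker (hMk D n) ≤ LinearMap.ker (bdryZ φ n) := by
  intro z hz
  rw [LinearMap.mem_ker] at hz ⊢
  obtain ⟨b', hb'⟩ := exists_shDX_eq n z hz
  rw [bdryZ_apply, HcMk_succ_eq_zero_iff]
  refine ⟨0, b', map_zero _, ?_⟩
  rw [map_zero, zero_add]
  exact hb'

/-- The boundary map as a linear map. -/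
def HToHcLin (n : ℕ) : D.homology n →ₗ[k] Hc φ (n + 1) :=
  (LinearMap.ker (hMk D n)).liftQ (bdryZ φ n) (ker_hMk_le_ker_bdryZ φ n) ∘ₗ
    ((hMk D n).quotKerEquivOfSurjective (hMk_surjective D n)).symm.toLinearMap

/-- The boundary map `∂ : Hⁿ(D) ⟶ Hcⁿ⁺¹(φ)`, `[b] ↦ [(0, b)]`. -/
def HToHc (n : ℕ) : D.homology n ⟶ Hc φ (n + 1) := ModuleCat.ofHom (HToHcLin φ n)

theorem HToHc_hMk (n : ℕ) (z : zSub D n) :
    HToHc φ n (hMk D n z) = HcMk φ (n + 1) 0 z.1 (isCocycle_zero_left φ n z.1 z.2) := by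
  show HToHcLin φ n (hMk D n z) = _
  unfold HToHcLin
  rw [LinearMap.comp_apply]
  have h : ((hMk D n).quotKerEquivOfSurjective (hMk_surjective D n)).symm (hMk D n z) =
      Submodule.Quotient.mk z := by
    rw [LinearEquiv.symm_apply_eq]
    rfl
  rw [LinearEquiv.coe_coe, h, Submodule.liftQ_apply, bdryZ_apply]


/-- Vanishing criterion with everything typed in `C` and `D`. -/
theorem HcMk_succ_eq_zero_iff' (n : ℕ) (a : C.X (n + 1)) (b : shX D (n + 1))
    (h : IsCocycle φ (n + 1) a b) :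
    HcMk φ (n + 1) a b h = 0 ↔
      ∃ (a' : C.X n) (b' : shX D n), C.d n (n + 1) a' = a ∧ φ.f n a' + shDX D n b' = b :=
  HcMk_succ_eq_zero_iff φ n a b h

/-- Degree `1`: `[(a, b)] = 0` iff `(a, b) = (d a', φ a')` for some `a' ∈ C⁰`. -/
theorem HcMk_one_eq_zero_iff (a : C.X 1) (b : D.X 0) (h : IsCocycle φ 1 a b) :
    HcMk φ 1 a b h = 0 ↔ ∃ a' : C.X 0, C.d 0 1 a' = a ∧ φ.f 0 a' = b := by
  rw [HcMk_succ_eq_zero_iff']
  constructor
  · rintro ⟨a', b', h1, h2⟩
    rw [shDX_zero, add_zero] at h2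
    exact ⟨a', h1, h2⟩
  · rintro ⟨a', h1, h2⟩
    refine ⟨a', 0, h1, ?_⟩
    rw [map_zero, add_zero]
    exact h2

/-- Degree `n + 2`: `[(a, b)] = 0` iff `(a, b) = (d a', φ a' - d b')`. -/
theorem HcMk_succ_succ_eq_zero_iff (n : ℕ) (a : C.X (n + 2)) (b : D.X (n + 1))
    (h : IsCocycle φ (n + 2) a b) :
    HcMk φ (n + 2) a b h = 0 ↔
      ∃ (a' : C.X (n + 1)) (b' : D.X n),
        C.d (n + 1) (n + 2) a' = a ∧ φ.f (n + 1) a' - D.d n (n + 1) b' = b := by
  rw [HcMk_succ_eq_zero_iff' φ (n + 1)]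
  constructor
  · rintro ⟨a', b', h1, h2⟩
    change D.X n at b'
    rw [shDX_succ, ← sub_eq_add_neg] at h2
    exact ⟨a', b', h1, h2⟩
  · rintro ⟨a', b', h1, h2⟩
    refine ⟨a', b', h1, ?_⟩
    rw [shDX_succ, ← sub_eq_add_neg]
    exact h2

/-! ### The long exact sequence
`0 → Hc⁰ → H⁰(C) → H⁰(D) → Hc¹ → H¹(C) → H¹(D) → Hc² → ⋯` -/

/-- `Hc⁰(φ) → H⁰(C)` is injective. -/
theorem HcToH_zero_injective : Function.Injective (HcToH φ 0).hom := by
  rw [← LinearMap.ker_eq_bot, LinearMap.ker_eq_bot']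
  intro x hx
  obtain ⟨a, b, h, rfl⟩ := Hc_exists_mk φ 0 x
  have hx' : HcToH φ 0 (HcMk φ 0 a b h) = 0 := hx
  rw [HcToH_mk, hMk_eq_zero_iff_zero] at hx'
  rw [HcMk_zero_eq_zero_iff]
  exact congrArg Subtype.val hx'

/-- Exactness at `Hⁿ(C)`: `Hcⁿ(φ) → Hⁿ(C) → Hⁿ(D)`. -/
theorem exact_HcToH_map (n : ℕ) :
    Function.Exact (HcToH φ n).hom (HomologicalComplex.homologyMap φ n).hom := by
  intro x
  constructor
  · intro hx
    obtain ⟨z, rfl⟩ := hMk_surjective C n x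
    have hx' : HomologicalComplex.homologyMap φ n (hMk C n z) = 0 := hx
    rw [homologyMap_hMk] at hx'
    obtain ⟨b', hb'⟩ := exists_shDX_eq n _ hx'
    rw [zMap_coe] at hb'
    have hc : IsCocycle φ n z.1 (-b') := by
      rw [isCocycle_iff, map_neg, hb', add_neg_cancel]
      exact ⟨z.2, rfl⟩
    refine ⟨HcMk φ n z.1 (-b') hc, ?_⟩
    show HcToH φ n (HcMk φ n z.1 (-b') hc) = _
    rw [HcToH_mk]
  · rintro ⟨y, rfl⟩
    obtain ⟨a, b, h, rfl⟩ := Hc_exists_mk φ n y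
    show HomologicalComplex.homologyMap φ n (HcToH φ n (HcMk φ n a b h)) = 0
    rw [HcToH_mk, homologyMap_hMk]
    have h2 := ((isCocycle_iff φ n a b).1 h).2
    have h3 : φ.f n a = shDX D n (-b) := by
      rw [map_neg]
      exact eq_neg_of_add_eq_zero_left h2
    have h4 : zMap φ n ⟨a, h.1⟩ = ⟨shDX D n (-b), shDX_mem_zSub n (-b)⟩ := Subtype.ext h3
    rw [h4, hMk_shDX]

/-- Exactness at `Hⁿ(D)`: `Hⁿ(C) → Hⁿ(D) → Hcⁿ⁺¹(φ)`. -/
theorem exact_map_HToHc (n : ℕ) :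
    Function.Exact (HomologicalComplex.homologyMap φ n).hom (HToHc φ n).hom := by
  intro x
  constructor
  · intro hx
    obtain ⟨z, rfl⟩ := hMk_surjective D n x
    have hx' : HToHc φ n (hMk D n z) = 0 := hx
    rw [HToHc_hMk, HcMk_succ_eq_zero_iff'] at hx'
    obtain ⟨a', b', h1, h2⟩ := hx'
    refine ⟨hMk C n ⟨a', h1⟩, ?_⟩
    show HomologicalComplex.homologyMap φ n (hMk C n ⟨a', h1⟩) = _
    rw [homologyMap_hMk]
    have h3 : z = zMap φ n ⟨a', h1⟩ + ⟨shDX D n b', shDX_mem_zSub n b'⟩ := Subtype.ext h2.symm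
    rw [h3, map_add, hMk_shDX, add_zero]
  · rintro ⟨y, rfl⟩
    obtain ⟨z, rfl⟩ := hMk_surjective C n y
    show HToHc φ n (HomologicalComplex.homologyMap φ n (hMk C n z)) = 0
    rw [homologyMap_hMk, HToHc_hMk, HcMk_succ_eq_zero_iff']
    refine ⟨z.1, 0, z.2, ?_⟩
    rw [map_zero, add_zero]
    rfl

/-- Exactness at `Hcⁿ⁺¹`: `Hⁿ(D) → Hcⁿ⁺¹(φ) → Hⁿ⁺¹(C)`. -/
theorem exact_HToHc_HcToH (n : ℕ) :
    Function.Exact (HToHc φ n).hom (HcToH φ (n + 1)).hom := by
  intro x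
  constructor
  · intro hx
    obtain ⟨a, b, h, rfl⟩ := Hc_exists_mk φ (n + 1) x
    change D.X n at b
    have hx' : HcToH φ (n + 1) (HcMk φ (n + 1) a b h) = 0 := hx
    rw [HcToH_mk, hMk_eq_zero_iff_succ] at hx'
    obtain ⟨a', ha'⟩ := hx'
    have ha'' : C.d n (n + 1) a' = a := ha'
    -- `(a, b) - d (a', 0) = (0, b - φ a')`
    have h2 := ((isCocycle_succ_iff φ n a b).1 h).2
    have hb0 : D.d n (n + 1) (b - φ.f n a') = 0 := by
      rw [map_sub, ← h2, ← ha'', sub_eq_zero]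
      exact (congr($(φ.comm n (n + 1)) a')).symm
    refine ⟨hMk D n ⟨b - φ.f n a', hb0⟩, ?_⟩
    show HToHc φ n (hMk D n ⟨b - φ.f n a', hb0⟩) = _
    rw [HToHc_hMk, HcMk_succ_eq_iff]
    refine ⟨-a', 0, ?_, ?_⟩
    · rw [map_neg, ha'', zero_sub]
    · rw [map_zero, add_zero, map_neg]
      show -(φ.f n a') = b - φ.f n a' - b
      abel
  · rintro ⟨y, rfl⟩
    obtain ⟨z, rfl⟩ := hMk_surjective D n y
    show HcToH φ (n + 1) (HToHc φ n (hMk D n z)) = 0
    rw [HToHc_hMk, HcToH_mk]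
    exact map_zero (hMk C (n + 1))

end Fermat.Agent.GC.Prof.Cone
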