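/-
GATE-C / C1 (PROFCOH) leaf (L8) CONE part 2, helper10: functoriality of the shifted cone in
`(C, D, φ)`, naturality of the forgetful and boundary maps, and the long exact sequence of `Hc`
in the coefficient direction.
-/
import Fermat.Agent.GC.Prof.Cone

set_option autoImplicit false

open CategoryTheory

noncomputable section

namespace Fermat.Agent.GC.Prof.Cone

open Fermat.Agent.GC.Prof.Elt

universe u v

variable {k : Type u} [CommRing k]
variable {C D C' D' C'' D'' : CochainComplex (ModuleCat.{v} k) ℕ}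

/-- The map induced by `β : D ⟶ D'` on the shifted terms. -/
def shMap (β : D ⟶ D') : ∀ n, shX D n ⟶ shX D' n
  | 0 => 𝟙 _
  | n + 1 => β.f n

lemma shMap_succ (β : D ⟶ D') (n : ℕ) (b : D.X n) : shMap β (n + 1) b = β.f n b := rfl

lemma shMap_shDX (β : D ⟶ D') (n : ℕ) (b : shX D n) :
    β.f n (shDX D n b) = shDX D' n (shMap β n b) := by
  cases n with
  | zero => exact map_zero _
  | succ m =>
    change D.X m at b
    rw [shDX_succ, shMap_succ, shDX_succ, map_neg]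
    exact congrArg Neg.neg (congr($(β.comm m (m + 1)) b)).symm

lemma shMap_id (n : ℕ) (b : shX D n) : shMap (𝟙 D) n b = b := by
  cases n with
  | zero => rfl
  | succ m => rfl

lemma shMap_comp (β : D ⟶ D') (β' : D' ⟶ D'') (n : ℕ) (b : shX D n) :
    shMap (β ≫ β') n b = shMap β' n (shMap β n b) := by
  cases n with
  | zero => rfl
  | succ m => rfl

variable {φ : C ⟶ D} {φ' : C' ⟶ D'} {φ'' : C'' ⟶ D''}

/-- The linear map `(a, b) ↦ (α a, β b)`. -/
def coneMapLin (α : C ⟶ C') (β : D ⟶ D') (n : ℕ) :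
    (C.X n × shX D n) →ₗ[k] (C'.X n × shX D' n) :=
  LinearMap.prodMap (α.f n).hom (shMap β n).hom

@[simp]
lemma coneMapLin_apply (α : C ⟶ C') (β : D ⟶ D') (n : ℕ) (a : C.X n) (b : shX D n) :
    coneMapLin α β n (a, b) = (α.f n a, shMap β n b) := rfl

lemma coneMapLin_comm (α : C ⟶ C') (β : D ⟶ D') (h : φ ≫ β = α ≫ φ') (n : ℕ)
    (x : C.X n × shX D n) :
    coneMapLin α β (n + 1) (coneDLin φ n x) = coneDLin φ' n (coneMapLin α β n x) := by
  obtain ⟨a, b⟩ := x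
  rw [coneDLin_apply, coneMapLin_apply, coneMapLin_apply, coneDLin_apply, Prod.mk.injEq]
  constructor
  · exact (congr($(α.comm n (n + 1)) a)).symm
  · show β.f n (φ.f n a + shDX D n b) = φ'.f n (α.f n a) + shDX D' n (shMap β n b)
    rw [map_add, shMap_shDX]
    congr 1
    exact congr($(HomologicalComplex.congr_hom h n) a)

/-- Functoriality of the cone: a commutative square `φ ≫ β = α ≫ φ'` induces
`cone φ ⟶ cone φ'`, `(a, b) ↦ (α a, β b)`. -/
def coneMap (α : C ⟶ C') (β : D ⟶ D') (h : φ ≫ β = α ≫ φ') : cone φ ⟶ cone φ' :=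
  CochainComplex.ofHom (X := cone φ) (Y := cone φ')
    (fun n => ModuleCat.ofHom (coneMapLin α β n)) fun n => by
      rw [cone_d, cone_d]
      ext x
      exact (coneMapLin_comm α β h n x).symm

lemma coneXEquiv_coneMap (α : C ⟶ C') (β : D ⟶ D') (h : φ ≫ β = α ≫ φ') (n : ℕ)
    (x : (cone φ).X n) :
    coneXEquiv φ' n ((coneMap α β h).f n x) = coneMapLin α β n (coneXEquiv φ n x) := rfl

lemma coneMap_f_symm (α : C ⟶ C') (β : D ⟶ D') (h : φ ≫ β = α ≫ φ') (n : ℕ)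
    (a : C.X n) (b : shX D n) :
    (coneMap α β h).f n ((coneXEquiv φ n).symm (a, b)) =
      (coneXEquiv φ' n).symm (α.f n a, shMap β n b) := rfl

lemma coneMap_id : coneMap (φ := φ) (φ' := φ) (𝟙 C) (𝟙 D)
    ((Category.comp_id φ).trans (Category.id_comp φ).symm) = 𝟙 (cone φ) := by
  ext n x
  apply (coneXEquiv φ n).injective
  rw [coneXEquiv_coneMap]
  obtain ⟨⟨a, b⟩, rfl⟩ := (coneXEquiv φ n).symm.surjective x
  rw [LinearEquiv.apply_symm_apply, coneMapLin_apply, shMap_id]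
  rfl

lemma coneMap_comp (α : C ⟶ C') (β : D ⟶ D') (h : φ ≫ β = α ≫ φ')
    (α' : C' ⟶ C'') (β' : D' ⟶ D'') (h' : φ' ≫ β' = α' ≫ φ'') :
    coneMap (φ := φ) (φ' := φ'') (α ≫ α') (β ≫ β')
      (by rw [← Category.assoc, h, Category.assoc, h', Category.assoc]) =
        coneMap α β h ≫ coneMap α' β' h' := by
  ext n x
  apply (coneXEquiv φ'' n).injective
  obtain ⟨⟨a, b⟩, rfl⟩ := (coneXEquiv φ n).symm.surjective x
  rw [coneMap_f_symm]
  show _ = coneXEquiv φ'' n ((coneMap α' β' h').f n ((coneMap α β h).f n _))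
  rw [coneMap_f_symm, coneMap_f_symm, shMap_comp]
  rfl

lemma coneMap_comp_π (α : C ⟶ C') (β : D ⟶ D') (h : φ ≫ β = α ≫ φ') :
    coneMap α β h ≫ π φ' = π φ ≫ α := by
  ext n x
  rfl

/-- Image of a cocycle under `coneMap`. -/
lemma IsCocycle.map (α : C ⟶ C') (β : D ⟶ D') (h : φ ≫ β = α ≫ φ') {n : ℕ} {a : C.X n}
    {b : shX D n} (hc : IsCocycle φ n a b) : IsCocycle φ' n (α.f n a) (shMap β n b) := by
  have h1 := (symm_mem_zSub_iff φ n a b).2 hc
  have h2 := map_mem_zSub (coneMap α β h) n ⟨_, h1⟩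
  rw [coneMap_f_symm] at h2
  exact (symm_mem_zSub_iff φ' n _ _).1 h2

/-- The map induced on `Hc` by a commutative square. -/
def HcMap (α : C ⟶ C') (β : D ⟶ D') (h : φ ≫ β = α ≫ φ') (n : ℕ) : Hc φ n ⟶ Hc φ' n :=
  HomologicalComplex.homologyMap (coneMap α β h) n

theorem HcMap_mk (α : C ⟶ C') (β : D ⟶ D') (h : φ ≫ β = α ≫ φ') (n : ℕ) (a : C.X n)
    (b : shX D n) (hc : IsCocycle φ n a b) :
    HcMap α β h n (HcMk φ n a b hc) = HcMk φ' n (α.f n a) (shMap β n b) (hc.map α β h) := by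
  unfold HcMap HcMk
  rw [homologyMap_hMk]
  congr 1

lemma HcMap_id (n : ℕ) : HcMap (φ := φ) (φ' := φ) (𝟙 C) (𝟙 D)
    ((Category.comp_id φ).trans (Category.id_comp φ).symm) n = 𝟙 (Hc φ n) := by
  unfold HcMap
  rw [coneMap_id, HomologicalComplex.homologyMap_id]

lemma HcMap_comp (α : C ⟶ C') (β : D ⟶ D') (h : φ ≫ β = α ≫ φ')
    (α' : C' ⟶ C'') (β' : D' ⟶ D'') (h' : φ' ≫ β' = α' ≫ φ'') (n : ℕ) :
    HcMap (φ := φ) (φ' := φ'') (α ≫ α') (β ≫ β')
      (by rw [← Category.assoc, h, Category.assoc, h', Category.assoc]) n =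
        HcMap α β h n ≫ HcMap α' β' h' n := by
  unfold HcMap
  rw [coneMap_comp α β h α' β' h', HomologicalComplex.homologyMap_comp]

/-- Naturality of the forgetful map. -/
theorem HcMap_comp_HcToH (α : C ⟶ C') (β : D ⟶ D') (h : φ ≫ β = α ≫ φ') (n : ℕ) :
    HcMap α β h n ≫ HcToH φ' n = HcToH φ n ≫ HomologicalComplex.homologyMap α n := by
  unfold HcMap HcToH
  rw [← HomologicalComplex.homologyMap_comp, ← HomologicalComplex.homologyMap_comp,
    coneMap_comp_π]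

/-- Naturality of the boundary map. -/
theorem homologyMap_comp_HToHc (α : C ⟶ C') (β : D ⟶ D') (h : φ ≫ β = α ≫ φ') (n : ℕ) :
    HomologicalComplex.homologyMap β n ≫ HToHc φ' n = HToHc φ n ≫ HcMap α β h (n + 1) := by
  ext x
  obtain ⟨z, rfl⟩ := hMk_surjective D n x
  show HToHc φ' n (HomologicalComplex.homologyMap β n (hMk D n z)) =
    HcMap α β h (n + 1) (HToHc φ n (hMk D n z))
  rw [homologyMap_hMk, HToHc_hMk, HToHc_hMk, HcMap_mk]
  apply HcMk_congr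
  · exact (map_zero _).symm
  · rfl


/-! ### The connecting homomorphism of a short exact sequence of complexes, on representatives -/

section Delta

variable {S : ShortComplex (CochainComplex (ModuleCat.{v} k) ℕ)} (hS : S.ShortExact)

lemma zMkHom_eq_cyclesMk (K : CochainComplex (ModuleCat.{v} k) ℕ) (n : ℕ) (z : zSub K n)
    (hz : ((forget₂ (ModuleCat k) Ab).map (K.d n (n + 1))) z.1 = 0) :
    zMkHom K n z = K.cyclesMk z.1 (n + 1) (by simp) hz := by
  apply iCycles_injective K n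
  rw [iCycles_zMkHom]
  exact (K.i_cyclesMk z.1 (n + 1) (by simp) hz).symm

include hS in
/-- Degreewise injectivity, surjectivity and exactness of a short exact sequence of complexes. -/
lemma degreewise (n : ℕ) :
    Function.Injective (S.f.f n) ∧ Function.Surjective (S.g.f n) ∧
      Function.Exact (S.f.f n) (S.g.f n) := by
  have h := hS.map_of_exact (HomologicalComplex.eval (ModuleCat.{v} k) (ComplexShape.up ℕ) n)
  exact ⟨h.moduleCat_injective_f, h.moduleCat_surjective_g,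
    (ShortComplex.ShortExact.moduleCat_exact_iff_function_exact _).1 h.exact⟩

include hS in
lemma mem_zSub_of_f_eq_d {i : ℕ} (y : S.X₂.X i) (x : S.X₁.X (i + 1))
    (hx : S.f.f (i + 1) x = S.X₂.d i (i + 1) y) : x ∈ zSub S.X₁ (i + 1) := by
  rw [mem_zSub_iff]
  apply (degreewise hS (i + 1 + 1)).1
  rw [map_zero]
  have h1 : S.f.f (i + 1 + 1) (S.X₁.d (i + 1) (i + 1 + 1) x) =
      S.X₂.d (i + 1) (i + 1 + 1) (S.f.f (i + 1) x) :=
    (congr($(S.f.comm (i + 1) (i + 1 + 1)) x)).symm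
  rw [h1, hx, d_d_apply]

/-- The connecting homomorphism on representatives: if `z` is a cocycle of `S.X₃`, `y` lifts `z`
to `S.X₂` and `f x = d y`, then `δ [z] = [x]`. -/
theorem δ_hMk {i : ℕ} (z : zSub S.X₃ i) (y : S.X₂.X i) (hy : S.g.f i y = z.1)
    (x : S.X₁.X (i + 1)) (hx : S.f.f (i + 1) x = S.X₂.d i (i + 1) y) :
    hS.δ i (i + 1) rfl (hMk S.X₃ i z) = hMk S.X₁ (i + 1) ⟨x, mem_zSub_of_f_eq_d hS y x hx⟩ := by
  have hz' : ((forget₂ (ModuleCat k) Ab).map (S.X₃.d i (i + 1))) z.1 = 0 := z.2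
  have hx' : ((forget₂ (ModuleCat k) Ab).map (S.f.f (i + 1))) x =
      ((forget₂ (ModuleCat k) Ab).map (S.X₂.d i (i + 1))) y := hx
  have := hS.δ_apply i (i + 1) rfl z.1 hz' y hy x hx' (i + 2) (by simp)
  rw [hMk_apply, hMk_apply, zMkHom_eq_cyclesMk S.X₃ i z hz',
    zMkHom_eq_cyclesMk S.X₁ (i + 1) ⟨x, mem_zSub_of_f_eq_d hS y x hx⟩]
  exact this

end Delta

/-! ### The long exact sequence of `Hc` in the coefficient direction -/

section Coefficients

variable {SC SD : ShortComplex (CochainComplex (ModuleCat.{v} k) ℕ)} (Φ : SC ⟶ SD)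

/-- The short complex of cones attached to a morphism `Φ : SC ⟶ SD` of short complexes of
complexes: `cone Φ.τ₁ ⟶ cone Φ.τ₂ ⟶ cone Φ.τ₃`. -/
def coneSC : ShortComplex (CochainComplex (ModuleCat.{v} k) ℕ) :=
  ShortComplex.mk (coneMap SC.f SD.f Φ.comm₁₂) (coneMap SC.g SD.g Φ.comm₂₃) (by
    rw [← coneMap_comp]
    ext n x
    apply (coneXEquiv Φ.τ₃ n).injective
    obtain ⟨⟨a, b⟩, rfl⟩ := (coneXEquiv Φ.τ₁ n).symm.surjective x
    rw [coneMap_f_symm]
    have h1 : (SC.f ≫ SC.g).f n a = 0 := by rw [SC.zero]; rfl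
    have h2 : shMap (SD.f ≫ SD.g) n b = 0 := by
      cases n with
      | zero => exact Subsingleton.elim (α := PUnit) _ _
      | succ m =>
        change SD.X₁.X m at b
        rw [shMap_succ, SD.zero]
        rfl
    rw [h1, h2]
    rfl)

lemma shMap_injective {β : D ⟶ D'} (hβ : ∀ n, Function.Injective (β.f n)) (n : ℕ) :
    Function.Injective (shMap β n) := by
  cases n with
  | zero => exact fun _ _ _ => Subsingleton.elim (α := PUnit) _ _
  | succ m => exact hβ m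

lemma shMap_surjective {β : D ⟶ D'} (hβ : ∀ n, Function.Surjective (β.f n)) (n : ℕ) :
    Function.Surjective (shMap β n) := by
  cases n with
  | zero => exact fun y => ⟨y, rfl⟩
  | succ m => exact hβ m

lemma shMap_exact {β : D ⟶ D'} {β' : D' ⟶ D''} (h : ∀ n, Function.Exact (β.f n) (β'.f n))
    (n : ℕ) : Function.Exact (shMap β n) (shMap β' n) := by
  cases n with
  | zero =>
    intro y
    exact ⟨fun _ => ⟨y, rfl⟩, fun _ => Subsingleton.elim (α := PUnit) _ _⟩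
  | succ m => exact h m

/-- If `SC` and `SD` are short exact sequences of complexes, so is the sequence of cones. -/
theorem coneSC_shortExact (hC : SC.ShortExact) (hD : SD.ShortExact) : (coneSC Φ).ShortExact := by
  refine HomologicalComplex.shortExact_of_degreewise_shortExact _ fun n => ?_
  have hCn := degreewise hC n
  have hD1 := shMap_injective (fun m => (degreewise hD m).1) n
  have hD2 := shMap_surjective (fun m => (degreewise hD m).2.1) n
  have hD3 := shMap_exact (fun m => (degreewise hD m).2.2) n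
  refine { exact := ?_, mono_f := ?_, epi_g := ?_ }
  · rw [ShortComplex.moduleCat_exact_iff]
    intro x hx
    change (cone Φ.τ₂).X n at x
    have hx' : (coneMap SC.g SD.g Φ.comm₂₃).f n x = 0 := hx
    obtain ⟨⟨a, b⟩, rfl⟩ := (coneXEquiv Φ.τ₂ n).symm.surjective x
    rw [coneMap_f_symm] at hx'
    have hx'' := (coneXEquiv Φ.τ₃ n).symm.injective (hx'.trans (map_zero _).symm)
    rw [Prod.mk_eq_zero] at hx''
    obtain ⟨a', ha'⟩ := (hCn.2.2 a).1 hx''.1
    obtain ⟨b', hb'⟩ := (hD3 b).1 hx''.2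
    refine ⟨(coneXEquiv Φ.τ₁ n).symm (a', b'), ?_⟩
    show (coneMap SC.f SD.f Φ.comm₁₂).f n _ = _
    rw [coneMap_f_symm, ha', hb']
  · show Mono ((coneMap SC.f SD.f Φ.comm₁₂).f n)
    rw [ModuleCat.mono_iff_injective]
    intro x x' hxx'
    obtain ⟨⟨a, b⟩, rfl⟩ := (coneXEquiv Φ.τ₁ n).symm.surjective x
    obtain ⟨⟨a', b'⟩, rfl⟩ := (coneXEquiv Φ.τ₁ n).symm.surjective x'
    rw [coneMap_f_symm, coneMap_f_symm] at hxx'
    have := (coneXEquiv Φ.τ₂ n).symm.injective hxx'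
    rw [Prod.mk.injEq] at this
    rw [hCn.1 this.1, hD1 this.2]
  · show Epi ((coneMap SC.g SD.g Φ.comm₂₃).f n)
    rw [ModuleCat.epi_iff_surjective]
    intro x
    obtain ⟨⟨a, b⟩, rfl⟩ := (coneXEquiv Φ.τ₃ n).symm.surjective x
    obtain ⟨a', ha'⟩ := hCn.2.1 a
    obtain ⟨b', hb'⟩ := hD2 b
    refine ⟨(coneXEquiv Φ.τ₂ n).symm (a', b'), ?_⟩
    rw [coneMap_f_symm, ha', hb']

variable (hC : SC.ShortExact) (hD : SD.ShortExact)

/-- The connecting homomorphism `Hcⁱ(Φ.τ₃) ⟶ Hcʲ(Φ.τ₁)`, `j = i + 1`. -/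
def Hcδ (i j : ℕ) (hij : i + 1 = j) : Hc Φ.τ₃ i ⟶ Hc Φ.τ₁ j :=
  (coneSC_shortExact Φ hC hD).δ i j hij

/-- Exactness of `Hcⁱ(τ₃) ⟶ Hcʲ(τ₁) ⟶ Hcʲ(τ₂)`. -/
lemma Hc_exact₁ (i j : ℕ) (hij : i + 1 = j) :
    Function.Exact (Hcδ Φ hC hD i j hij).hom (HcMap SC.f SD.f Φ.comm₁₂ j).hom :=
  (ShortComplex.ShortExact.moduleCat_exact_iff_function_exact _).1
    ((coneSC_shortExact Φ hC hD).homology_exact₁ i j hij)

include hC hD in
/-- Exactness of `Hcⁱ(τ₁) ⟶ Hcⁱ(τ₂) ⟶ Hcⁱ(τ₃)`. -/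
lemma Hc_exact₂ (i : ℕ) :
    Function.Exact (HcMap SC.f SD.f Φ.comm₁₂ i).hom (HcMap SC.g SD.g Φ.comm₂₃ i).hom :=
  (ShortComplex.ShortExact.moduleCat_exact_iff_function_exact _).1
    ((coneSC_shortExact Φ hC hD).homology_exact₂ i)

/-- Exactness of `Hcⁱ(τ₂) ⟶ Hcⁱ(τ₃) ⟶ Hcʲ(τ₁)`. -/
lemma Hc_exact₃ (i j : ℕ) (hij : i + 1 = j) :
    Function.Exact (HcMap SC.g SD.g Φ.comm₂₃ i).hom (Hcδ Φ hC hD i j hij).hom :=
  (ShortComplex.ShortExact.moduleCat_exact_iff_function_exact _).1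
    ((coneSC_shortExact Φ hC hD).homology_exact₃ i j hij)

include hC in
/-- `Hc⁰(τ₁) ⟶ Hc⁰(τ₂)` is injective. -/
lemma HcMap_zero_injective : Function.Injective (HcMap SC.f SD.f Φ.comm₁₂ 0).hom := by
  rw [← LinearMap.ker_eq_bot, LinearMap.ker_eq_bot']
  intro x hx
  obtain ⟨a, b, h, rfl⟩ := Hc_exists_mk Φ.τ₁ 0 x
  have hx' : HcMap SC.f SD.f Φ.comm₁₂ 0 (HcMk Φ.τ₁ 0 a b h) = 0 := hx
  rw [HcMap_mk, HcMk_zero_eq_zero_iff] at hx'
  rw [HcMk_zero_eq_zero_iff]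
  exact (degreewise hC 0).1 (hx'.trans (map_zero _).symm)

end Coefficients


/-! ### The connecting homomorphism of `Hc` on representatives, and its compatibilities -/

section DeltaCompat

variable {SC SD : ShortComplex (CochainComplex (ModuleCat.{v} k) ℕ)} (Φ : SC ⟶ SD)
  (hC : SC.ShortExact) (hD : SD.ShortExact)

/-- `Hcδ` on representatives: if `(a, b)` lifts the cocycle `(a'', b'')` and
`(f a', f b') = d (a, b) = (d a, τ₂ a - d b)`, then `δ [(a'', b'')] = [(a', b')]`. -/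
theorem Hcδ_mk (i : ℕ) (a'' : SC.X₃.X i) (b'' : shX SD.X₃ i) (h'' : IsCocycle Φ.τ₃ i a'' b'')
    (a : SC.X₂.X i) (b : shX SD.X₂ i) (ha : SC.g.f i a = a'') (hb : shMap SD.g i b = b'')
    (a' : SC.X₁.X (i + 1)) (b' : shX SD.X₁ (i + 1))
    (ha' : SC.f.f (i + 1) a' = SC.X₂.d i (i + 1) a)
    (hb' : shMap SD.f (i + 1) b' = Φ.τ₂.f i a + shDX SD.X₂ i b) :
    ∃ h' : IsCocycle Φ.τ₁ (i + 1) a' b',
      Hcδ Φ hC hD i (i + 1) rfl (HcMk Φ.τ₃ i a'' b'' h'') = HcMk Φ.τ₁ (i + 1) a' b' h' := by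
  have hS := coneSC_shortExact Φ hC hD
  have hy : (coneSC Φ).g.f i ((coneXEquiv Φ.τ₂ i).symm (a, b)) = (zMk Φ.τ₃ i a'' b'' h'').1 := by
    show (coneMap SC.g SD.g Φ.comm₂₃).f i _ = _
    rw [coneMap_f_symm, ha, hb]
    rfl
  have hx : (coneSC Φ).f.f (i + 1) ((coneXEquiv Φ.τ₁ (i + 1)).symm (a', b')) =
      (coneSC Φ).X₂.d i (i + 1) ((coneXEquiv Φ.τ₂ i).symm (a, b)) := by
    show (coneMap SC.f SD.f Φ.comm₁₂).f (i + 1) _ = (cone Φ.τ₂).d i (i + 1) _
    apply (coneXEquiv Φ.τ₂ (i + 1)).injective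
    rw [coneMap_f_symm, coneXEquiv_d, LinearEquiv.apply_symm_apply, LinearEquiv.apply_symm_apply,
      coneDLin_apply, ha', hb']
    rfl
  have hmem := mem_zSub_of_f_eq_d hS _ _ hx
  have h' : IsCocycle Φ.τ₁ (i + 1) a' b' := (symm_mem_zSub_iff Φ.τ₁ (i + 1) a' b').1 hmem
  exact ⟨h', δ_hMk hS (zMk Φ.τ₃ i a'' b'' h'') _ hy _ hx⟩

/-- The morphism of short complexes of complexes `coneSC Φ ⟶ SC` given by the projections. -/
def coneSCπ : coneSC Φ ⟶ SC where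
  τ₁ := π Φ.τ₁
  τ₂ := π Φ.τ₂
  τ₃ := π Φ.τ₃
  comm₁₂ := coneMap_comp_π SC.f SD.f Φ.comm₁₂
  comm₂₃ := coneMap_comp_π SC.g SD.g Φ.comm₂₃

/-- The forgetful maps commute with the connecting homomorphisms. -/
theorem Hcδ_comp_HcToH (i j : ℕ) (hij : i + 1 = j) :
    Hcδ Φ hC hD i j hij ≫ HcToH Φ.τ₁ j = HcToH Φ.τ₃ i ≫ hC.δ i j hij :=
  HomologicalComplex.HomologySequence.δ_naturality (coneSCπ Φ)
    (coneSC_shortExact Φ hC hD) hC i j hij

/-- The boundary maps ANTI-commute with the connecting homomorphisms: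
`δ_D ≫ ∂ = -(∂ ≫ δ_cone)`. -/
theorem δ_comp_HToHc (i : ℕ) (x : SD.X₃.homology i) :
    HToHc Φ.τ₁ (i + 1) (hD.δ i (i + 1) rfl x) =
      -(Hcδ Φ hC hD (i + 1) (i + 1 + 1) rfl (HToHc Φ.τ₃ i x)) := by
  obtain ⟨z, rfl⟩ := hMk_surjective SD.X₃ i x
  obtain ⟨y, hy⟩ := (degreewise hD i).2.1 z.1
  have hdy : SD.g.f (i + 1) (SD.X₂.d i (i + 1) y) = 0 := by
    have h1 : SD.g.f (i + 1) (SD.X₂.d i (i + 1) y) = SD.X₃.d i (i + 1) (SD.g.f i y) :=
      (congr($(SD.g.comm i (i + 1)) y)).symm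
    rw [h1, hy]
    exact z.2
  obtain ⟨x', hx'⟩ := ((degreewise hD (i + 1)).2.2 _).1 hdy
  rw [δ_hMk hD z y hy x' hx', HToHc_hMk, HToHc_hMk]
  obtain ⟨h', hδ⟩ := Hcδ_mk Φ hC hD (i + 1) 0 z.1 (isCocycle_zero_left Φ.τ₃ i z.1 z.2)
    0 y (map_zero _) hy 0 (-x' : SD.X₁.X (i + 1)) ((map_zero _).trans (map_zero _).symm) (by
      rw [map_zero, zero_add, shDX_succ, shMap_succ, map_neg, hx'])
  rw [hδ, ← HcMk_neg]
  apply HcMk_congr
  · exact neg_zero.symm
  · exact (neg_neg _).symm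

end DeltaCompat

end Fermat.Agent.GC.Prof.Cone
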