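/-
GATE-C / C1 (PROFCOH) leaf (L8) CONE part 3, helper10: the product of a family of cochain
complexes of `k`-modules, concretely (`(piComplex D)ⁿ = ∀ w, (D w)ⁿ`), and its cohomology:
`Hⁿ(∏ D_w) ≃ ∏ Hⁿ(D_w)` for ANY index type (in the universe of the modules).
-/
import Fermat.Agent.GC.Prof.ConeMap

set_option autoImplicit false

open CategoryTheory

noncomputable section

namespace Fermat.Agent.GC.Prof.Cone

open Fermat.Agent.GC.Prof.Elt

universe u v

variable {k : Type u} [CommRing k] {ι : Type v}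
variable (D : ι → CochainComplex (ModuleCat.{v} k) ℕ)

/-- The differential of the product complex. -/
def piDLin (n : ℕ) : (∀ w, (D w).X n) →ₗ[k] (∀ w, (D w).X (n + 1)) :=
  LinearMap.pi fun w => ((D w).d n (n + 1)).hom ∘ₗ LinearMap.proj w

@[simp]
lemma piDLin_apply (n : ℕ) (x : ∀ w, (D w).X n) (w : ι) :
    piDLin D n x w = (D w).d n (n + 1) (x w) := rfl

lemma piDLin_comp (n : ℕ) : piDLin D (n + 1) ∘ₗ piDLin D n = 0 := by
  refine LinearMap.ext fun x => funext fun w => ?_
  show (D w).d (n + 1) (n + 1 + 1) ((D w).d n (n + 1) (x w)) = 0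
  have h : ((D w).d n (n + 1) ≫ (D w).d (n + 1) (n + 1 + 1)) (x w) = 0 := by
    rw [(D w).d_comp_d]; rfl
  exact h

/-- The product complex: `(piComplex D)ⁿ = ∀ w, (D w)ⁿ` with the componentwise differential. -/
def piComplex : CochainComplex (ModuleCat.{v} k) ℕ :=
  CochainComplex.of (fun n => ModuleCat.of k (∀ w, (D w).X n))
    (fun n => ModuleCat.ofHom (piDLin D n)) fun n => by
      rw [← ModuleCat.ofHom_comp, piDLin_comp]; rfl

@[simp]
lemma piComplex_d (n : ℕ) : (piComplex D).d n (n + 1) = ModuleCat.ofHom (piDLin D n) := by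
  simp [piComplex]

/-- The degree-`n` term of the product complex is (definitionally) the product. -/
def piXEquiv (n : ℕ) : (piComplex D).X n ≃ₗ[k] (∀ w, (D w).X n) := LinearEquiv.refl k _

lemma piXEquiv_d (n : ℕ) (x : (piComplex D).X n) (w : ι) :
    piXEquiv D (n + 1) ((piComplex D).d n (n + 1) x) w = (D w).d n (n + 1) (piXEquiv D n x w) := by
  rw [piComplex_d]
  rfl

/-- The projection onto a factor. -/
def piProj (w : ι) : piComplex D ⟶ D w :=
  CochainComplex.ofHom (X := piComplex D) (Y := D w)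
    (fun n => ModuleCat.ofHom (LinearMap.proj w)) fun n => by
      rw [piComplex_d]
      rfl

lemma piProj_f_apply (w : ι) (n : ℕ) (x : (piComplex D).X n) :
    (piProj D w).f n x = piXEquiv D n x w := rfl

variable {D}

/-- The morphism into the product complex given by a family of morphisms. -/
def piLift {C : CochainComplex (ModuleCat.{v} k) ℕ} (φ : ∀ w, C ⟶ D w) : C ⟶ piComplex D :=
  CochainComplex.ofHom (X := C) (Y := piComplex D)
    (fun n => ModuleCat.ofHom (LinearMap.pi fun w => ((φ w).f n).hom)) fun n => by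
      rw [piComplex_d]
      ext x
      funext w
      exact congr($((φ w).comm n (n + 1)) x)

lemma piLift_f_apply {C : CochainComplex (ModuleCat.{v} k) ℕ} (φ : ∀ w, C ⟶ D w) (n : ℕ)
    (x : C.X n) (w : ι) : piXEquiv D n ((piLift φ).f n x) w = (φ w).f n x := rfl

lemma piLift_comp_piProj {C : CochainComplex (ModuleCat.{v} k) ℕ} (φ : ∀ w, C ⟶ D w) (w : ι) :
    piLift φ ≫ piProj D w = φ w := by
  ext n x
  rfl

lemma comp_piLift {C C' : CochainComplex (ModuleCat.{v} k) ℕ} (α : C ⟶ C')
    (φ : ∀ w, C' ⟶ D w) : α ≫ piLift φ = piLift fun w => α ≫ φ w := by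
  ext n x
  rfl

/-- The morphism between product complexes given by a family of morphisms. -/
def piMap {D' : ι → CochainComplex (ModuleCat.{v} k) ℕ} (β : ∀ w, D w ⟶ D' w) :
    piComplex D ⟶ piComplex D' :=
  piLift fun w => piProj D w ≫ β w

lemma piMap_f_apply {D' : ι → CochainComplex (ModuleCat.{v} k) ℕ} (β : ∀ w, D w ⟶ D' w)
    (n : ℕ) (x : (piComplex D).X n) (w : ι) :
    piXEquiv D' n ((piMap β).f n x) w = (β w).f n (piXEquiv D n x w) := rfl

lemma piMap_comp_piProj {D' : ι → CochainComplex (ModuleCat.{v} k) ℕ} (β : ∀ w, D w ⟶ D' w)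
    (w : ι) : piMap β ≫ piProj D' w = piProj D w ≫ β w :=
  piLift_comp_piProj _ w

lemma piLift_comp_piMap {C : CochainComplex (ModuleCat.{v} k) ℕ}
    {D' : ι → CochainComplex (ModuleCat.{v} k) ℕ} (φ : ∀ w, C ⟶ D w) (β : ∀ w, D w ⟶ D' w) :
    piLift φ ≫ piMap β = piLift fun w => φ w ≫ β w := by
  ext n x
  rfl

lemma piMap_id : piMap (fun w => 𝟙 (D w)) = 𝟙 (piComplex D) := by
  ext n x
  rfl

lemma piMap_comp {D' D'' : ι → CochainComplex (ModuleCat.{v} k) ℕ} (β : ∀ w, D w ⟶ D' w)
    (β' : ∀ w, D' w ⟶ D'' w) : piMap (fun w => β w ≫ β' w) = piMap β ≫ piMap β' := by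
  ext n x
  rfl

variable (D)

/-! ### Cohomology of the product -/

lemma mem_zSub_pi_iff (n : ℕ) (x : (piComplex D).X n) :
    x ∈ zSub (piComplex D) n ↔ ∀ w, piXEquiv D n x w ∈ zSub (D w) n := by
  rw [mem_zSub_iff, ← (piXEquiv D (n + 1)).map_eq_zero_iff]
  constructor
  · intro h w
    rw [mem_zSub_iff, ← piXEquiv_d, h]
    rfl
  · intro h
    funext w
    rw [piXEquiv_d]
    exact h w

/-- The cocycle of the product complex with given components. -/
def piZMk (n : ℕ) (z : ∀ w, zSub (D w) n) : zSub (piComplex D) n :=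
  ⟨(piXEquiv D n).symm fun w => (z w).1, (mem_zSub_pi_iff D n _).2 fun w => (z w).2⟩

lemma zMap_piProj_piZMk (n : ℕ) (z : ∀ w, zSub (D w) n) (w : ι) :
    zMap (piProj D w) n (piZMk D n z) = z w := Subtype.ext rfl

/-- The comparison map `Hⁿ(∏ D_w) → ∏ Hⁿ(D_w)`. -/
def piHomologyLin (n : ℕ) : (piComplex D).homology n →ₗ[k] ∀ w, (D w).homology n :=
  LinearMap.pi fun w => (HomologicalComplex.homologyMap (piProj D w) n).hom

lemma piHomologyLin_apply (n : ℕ) (x : (piComplex D).homology n) (w : ι) :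
    piHomologyLin D n x w = HomologicalComplex.homologyMap (piProj D w) n x := rfl

theorem piHomologyLin_injective (n : ℕ) : Function.Injective (piHomologyLin D n) := by
  rw [← LinearMap.ker_eq_bot, LinearMap.ker_eq_bot']
  intro x hx
  obtain ⟨z, rfl⟩ := hMk_surjective (piComplex D) n x
  have h : ∀ w, hMk (D w) n (zMap (piProj D w) n z) = 0 := by
    intro w
    rw [← homologyMap_hMk]
    exact congrFun hx w
  cases n with
  | zero =>
    rw [hMk_eq_zero_iff_zero]
    apply Subtype.ext
    apply (piXEquiv D 0).injective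
    funext w
    have := (hMk_eq_zero_iff_zero (D w) _).1 (h w)
    exact congrArg Subtype.val this
  | succ m =>
    rw [hMk_eq_zero_iff_succ]
    have h' : ∀ w, ∃ b : (D w).X m, (D w).d m (m + 1) b = piXEquiv D (m + 1) z.1 w := by
      intro w
      exact (hMk_eq_zero_iff_succ (D w) m _).1 (h w)
    choose b hb using h'
    refine ⟨(piXEquiv D m).symm b, ?_⟩
    apply (piXEquiv D (m + 1)).injective
    funext w
    rw [piXEquiv_d]
    exact hb w

theorem piHomologyLin_surjective (n : ℕ) : Function.Surjective (piHomologyLin D n) := by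
  intro c
  have h : ∀ w, ∃ z : zSub (D w) n, hMk (D w) n z = c w := fun w => hMk_surjective (D w) n (c w)
  choose z hz using h
  refine ⟨hMk (piComplex D) n (piZMk D n z), ?_⟩
  funext w
  rw [piHomologyLin_apply, homologyMap_hMk, zMap_piProj_piZMk, hz]

/-- `Hⁿ(∏ D_w) ≃ ∏ Hⁿ(D_w)`. -/
def piHomologyEquiv (n : ℕ) : (piComplex D).homology n ≃ₗ[k] ∀ w, (D w).homology n :=
  LinearEquiv.ofBijective (piHomologyLin D n)
    ⟨piHomologyLin_injective D n, piHomologyLin_surjective D n⟩

lemma piHomologyEquiv_apply (n : ℕ) (x : (piComplex D).homology n) (w : ι) :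
    piHomologyEquiv D n x w = HomologicalComplex.homologyMap (piProj D w) n x := rfl

lemma piHomologyEquiv_hMk_piZMk (n : ℕ) (z : ∀ w, zSub (D w) n) (w : ι) :
    piHomologyEquiv D n (hMk (piComplex D) n (piZMk D n z)) w = hMk (D w) n (z w) := by
  rw [piHomologyEquiv_apply, homologyMap_hMk, zMap_piProj_piZMk]

lemma piHomologyEquiv_symm_hMk (n : ℕ) (z : ∀ w, zSub (D w) n) :
    (piHomologyEquiv D n).symm (fun w => hMk (D w) n (z w)) =
      hMk (piComplex D) n (piZMk D n z) := by
  rw [LinearEquiv.symm_apply_eq]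
  funext w
  rw [piHomologyEquiv_hMk_piZMk]

variable {D}

/-- Compatibility of the comparison with `piLift`. -/
lemma piHomologyEquiv_homologyMap_piLift {C : CochainComplex (ModuleCat.{v} k) ℕ}
    (φ : ∀ w, C ⟶ D w) (n : ℕ) (x : C.homology n) (w : ι) :
    piHomologyEquiv D n (HomologicalComplex.homologyMap (piLift φ) n x) w =
      HomologicalComplex.homologyMap (φ w) n x := by
  rw [piHomologyEquiv_apply]
  have := HomologicalComplex.homologyMap_comp (piLift φ) (piProj D w) n
  rw [piLift_comp_piProj] at this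
  rw [this]
  rfl

/-- Compatibility of the comparison with `piMap`. -/
lemma piHomologyEquiv_homologyMap_piMap {D' : ι → CochainComplex (ModuleCat.{v} k) ℕ}
    (β : ∀ w, D w ⟶ D' w) (n : ℕ) (x : (piComplex D).homology n) (w : ι) :
    piHomologyEquiv D' n (HomologicalComplex.homologyMap (piMap β) n x) w =
      HomologicalComplex.homologyMap (β w) n (piHomologyEquiv D n x w) := by
  rw [piHomologyEquiv_apply, piHomologyEquiv_apply]
  have h1 := HomologicalComplex.homologyMap_comp (piMap β) (piProj D' w) n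
  have h2 := HomologicalComplex.homologyMap_comp (piProj D w) (β w) n
  rw [piMap_comp_piProj] at h1
  rw [h1] at h2
  exact congr($h2 x)

/-! ### Short exact sequences of product complexes -/

section PiShortExact

variable (S : ι → ShortComplex (CochainComplex (ModuleCat.{v} k) ℕ))

/-- The product of a family of short complexes of complexes. -/
def piSC : ShortComplex (CochainComplex (ModuleCat.{v} k) ℕ) :=
  ShortComplex.mk (piMap fun w => (S w).f) (piMap fun w => (S w).g) (by
    rw [← piMap_comp]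
    ext n x
    apply (piXEquiv (fun w => (S w).X₃) n).injective
    funext w
    rw [piMap_f_apply, (S w).zero]
    rfl)

/-- A product of short exact sequences of complexes is short exact. -/
theorem piSC_shortExact (hS : ∀ w, (S w).ShortExact) : (piSC S).ShortExact := by
  refine HomologicalComplex.shortExact_of_degreewise_shortExact _ fun n => ?_
  refine { exact := ?_, mono_f := ?_, epi_g := ?_ }
  · rw [ShortComplex.moduleCat_exact_iff]
    intro x hx
    change (piComplex fun w => (S w).X₂).X n at x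
    have hx' : ∀ w, (S w).g.f n (piXEquiv (fun w => (S w).X₂) n x w) = 0 := fun w =>
      congrFun (congrArg (piXEquiv (fun w => (S w).X₃) n) hx) w
    have h : ∀ w, ∃ a : (S w).X₁.X n, (S w).f.f n a = piXEquiv (fun w => (S w).X₂) n x w :=
      fun w => ((degreewise (hS w) n).2.2 _).1 (hx' w)
    choose a ha using h
    refine ⟨(piXEquiv (fun w => (S w).X₁) n).symm a, ?_⟩
    apply (piXEquiv (fun w => (S w).X₂) n).injective
    funext w
    exact ha w
  · show Mono ((piMap fun w => (S w).f).f n)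
    rw [ModuleCat.mono_iff_injective]
    intro x x' hxx'
    apply (piXEquiv (fun w => (S w).X₁) n).injective
    funext w
    apply (degreewise (hS w) n).1
    exact congrFun (congrArg (piXEquiv (fun w => (S w).X₂) n) hxx') w
  · show Epi ((piMap fun w => (S w).g).f n)
    rw [ModuleCat.epi_iff_surjective]
    intro x
    have h : ∀ w, ∃ a : (S w).X₂.X n, (S w).g.f n a = piXEquiv (fun w => (S w).X₃) n x w :=
      fun w => (degreewise (hS w) n).2.1 _
    choose a ha using h
    refine ⟨(piXEquiv (fun w => (S w).X₂) n).symm a, ?_⟩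
    apply (piXEquiv (fun w => (S w).X₃) n).injective
    funext w
    exact ha w

end PiShortExact

/-! ### The cone of a family `φ w : C ⟶ D w` and its long exact sequence with `∏ Hⁿ(D w)` -/

section Family

variable {C : CochainComplex (ModuleCat.{v} k) ℕ} (φ : ∀ w, C ⟶ D w)

/-- The family of maps `Hⁿ(C) → ∏_w Hⁿ(D w)`. -/
def resPi (n : ℕ) : C.homology n →ₗ[k] ∀ w, (D w).homology n :=
  LinearMap.pi fun w => (HomologicalComplex.homologyMap (φ w) n).hom

lemma resPi_apply (n : ℕ) (x : C.homology n) (w : ι) :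
    resPi φ n x w = HomologicalComplex.homologyMap (φ w) n x := rfl

lemma piHomologyEquiv_comp_homologyMap_piLift (n : ℕ) :
    (piHomologyEquiv D n).toLinearMap ∘ₗ (HomologicalComplex.homologyMap (piLift φ) n).hom =
      resPi φ n := by
  ext x w
  exact piHomologyEquiv_homologyMap_piLift φ n x w

/-- The boundary map `∏_w Hⁿ(D w) → Hcⁿ⁺¹`. -/
def HToHcPi (n : ℕ) : (∀ w, (D w).homology n) →ₗ[k] Hc (piLift φ) (n + 1) :=
  (HToHc (piLift φ) n).hom ∘ₗ (piHomologyEquiv D n).symm.toLinearMap

/-- The boundary map on representatives: `([b_w])_w ↦ [(0, (b_w)_w)]`. -/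
theorem HToHcPi_hMk (n : ℕ) (z : ∀ w, zSub (D w) n) :
    HToHcPi φ n (fun w => hMk (D w) n (z w)) =
      HcMk (piLift φ) (n + 1) 0 (piZMk D n z).1
        (isCocycle_zero_left (piLift φ) n _ (piZMk D n z).2) := by
  unfold HToHcPi
  rw [LinearMap.comp_apply, LinearEquiv.coe_coe, piHomologyEquiv_symm_hMk]
  exact HToHc_hMk (piLift φ) n (piZMk D n z)

/-- Exactness at `Hⁿ(C)`: `Hcⁿ → Hⁿ(C) → ∏_w Hⁿ(D w)`. -/
theorem exact_HcToH_resPi (n : ℕ) :
    Function.Exact (HcToH (piLift φ) n).hom (resPi φ n) := by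
  intro x
  rw [← exact_HcToH_map (piLift φ) n x, ← piHomologyEquiv_comp_homologyMap_piLift,
    LinearMap.comp_apply, LinearEquiv.coe_coe, LinearEquiv.map_eq_zero_iff]

/-- Exactness at `∏_w Hⁿ(D w)`: `Hⁿ(C) → ∏_w Hⁿ(D w) → Hcⁿ⁺¹`. -/
theorem exact_resPi_HToHcPi (n : ℕ) : Function.Exact (resPi φ n) (HToHcPi φ n) := by
  intro y
  unfold HToHcPi
  rw [LinearMap.comp_apply, LinearEquiv.coe_coe,
    exact_map_HToHc (piLift φ) n ((piHomologyEquiv D n).symm y),
    ← piHomologyEquiv_comp_homologyMap_piLift]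
  constructor
  · rintro ⟨x, hx⟩
    refine ⟨x, ?_⟩
    rw [LinearMap.comp_apply, LinearEquiv.coe_coe, hx, LinearEquiv.apply_symm_apply]
  · rintro ⟨x, hx⟩
    refine ⟨x, ?_⟩
    rw [← hx, LinearMap.comp_apply, LinearEquiv.coe_coe, LinearEquiv.symm_apply_apply]

/-- Exactness at `Hcⁿ⁺¹`: `∏_w Hⁿ(D w) → Hcⁿ⁺¹ → Hⁿ⁺¹(C)`. -/
theorem exact_HToHcPi_HcToH (n : ℕ) :
    Function.Exact (HToHcPi φ n) (HcToH (piLift φ) (n + 1)).hom := by
  intro x
  rw [exact_HToHc_HcToH (piLift φ) n x]
  unfold HToHcPi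
  constructor
  · rintro ⟨y, hy⟩
    refine ⟨piHomologyEquiv D n y, ?_⟩
    rw [LinearMap.comp_apply, LinearEquiv.coe_coe, LinearEquiv.symm_apply_apply]
    exact hy
  · rintro ⟨y, hy⟩
    exact ⟨(piHomologyEquiv D n).symm y, hy⟩

end Family

end Fermat.Agent.GC.Prof.Cone

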