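/-
GATE-C / C1 (PROFCOH) leaf (L8) CONE part 4, helper10: compactly supported level-constant
cohomology.  For a group `G` with level system `𝒰` and a family of continuous homomorphisms
`r v : Gv v →* G` (`LocalData 𝒰`), and a discrete `M : Rep k G`:
  `coneC L M = cone (lcCochains 𝒰 M ⟶ ∏_v lcCochains (𝒰v v) (res M))`,
  `(coneC L M)ⁿ⁺¹ = lcSub 𝒰 M (n+1) × ∏_v lcSub (𝒰v v) (res M) n`, `(coneC L M)⁰ = lcSub 𝒰 M 0`,
  `d (a, b) = (d a, (res_v a - d b_v)_v)`.
This is the interface (E1)-(E4) of helper74's C5 plan (board 1683).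
-/
import Fermat.Agent.GC.Prof.ConePi
import Fermat.Agent.GC.Prof.Res

set_option autoImplicit false

open CategoryTheory

noncomputable section

namespace Fermat.Agent.GC.Prof.Cone

open Fermat.Agent.GC.Prof.Elt

universe u

/-! ### Two small complements to the abstract files -/

section Abstract

variable {k : Type u} [CommRing k] {C D C' D' : CochainComplex (ModuleCat.{u} k) ℕ}

/-- If `φ` is injective in degree `0`, then `Hc⁰(φ) = 0`. -/
theorem Hc_zero_subsingleton (φ : C ⟶ D) (hφ : Function.Injective (φ.f 0)) :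
    Subsingleton (Hc φ 0) := by
  refine ⟨fun x y => ?_⟩
  have h0 : ∀ z : Hc φ 0, z = 0 := by
    intro z
    obtain ⟨a, b, h, rfl⟩ := Hc_exists_mk φ 0 z
    rw [HcMk_zero_eq_zero_iff]
    exact hφ (((isCocycle_zero_iff φ a b).1 h).2.trans (map_zero _).symm)
  rw [h0 x, h0 y]

lemma coneMap_congr {φ : C ⟶ D} {φ' : C' ⟶ D'} {α α' : C ⟶ C'} {β β' : D ⟶ D'}
    (h : φ ≫ β = α ≫ φ') (hα : α = α') (hβ : β = β') :
    coneMap α β h = coneMap α' β' (hα ▸ hβ ▸ h) := by
  subst hα hβ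
  rfl

end Abstract

variable {k G : Type u} [CommRing k] [Group G]

/-- A family of "local" groups with level systems mapping continuously to `(G, 𝒰)`. -/
structure LocalData (𝒰 : LevelSystem G) where
  /-- the index set (places) -/
  ι : Type u
  /-- the local groups -/
  Gv : ι → Type u
  [grp : ∀ v, Group (Gv v)]
  /-- the local level systems -/
  𝒰v : ∀ v, LevelSystem (Gv v)
  /-- the localisation homomorphisms -/
  r : ∀ v, Gv v →* G
  cont : ∀ v, IsContHom (𝒰v v) 𝒰 (r v)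

attribute [instance] LocalData.grp

variable {𝒰 : LevelSystem G} (L : LocalData 𝒰)

instance LocalData.isDiscrete_res (v : L.ι) (M : Rep.{u} k G) [IsDiscrete 𝒰 M] :
    IsDiscrete (L.𝒰v v) (Rep.res (L.r v) M) :=
  IsDiscrete.res (L.cont v) M

section Defs

variable (M : Rep.{u} k G) [IsDiscrete 𝒰 M]

/-- The local cochain complex at `v`. -/
abbrev locC (v : L.ι) : CochainComplex (ModuleCat.{u} k) ℕ :=
  lcCochains (L.𝒰v v) (Rep.res (L.r v) M)

/-- Restriction of level-constant cochains to the local group at `v`. -/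
abbrev resC (v : L.ι) : lcCochains 𝒰 M ⟶ locC L M v :=
  lcPull (L.cont v) (𝟙 (Rep.res (L.r v) M))

/-- The total restriction map `lcCochains 𝒰 M ⟶ ∏_v lcCochains (𝒰v v) (res M)`. -/
abbrev resTot : lcCochains 𝒰 M ⟶ piComplex (locC L M) := piLift (resC L M)

/-- The compact-support complex. -/
def coneC : CochainComplex (ModuleCat.{u} k) ℕ := cone (resTot L M)

/-- Compactly supported level-constant cohomology. -/
abbrev HlcC (n : ℕ) : ModuleCat.{u} k := (coneC L M).homology n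

/-- The projection `coneC L M ⟶ lcCochains 𝒰 M`, `(a, b) ↦ a`. -/
def coneFst : coneC L M ⟶ lcCochains 𝒰 M := π (resTot L M)

end Defs

section Functoriality

variable {M M₁ M₂ : Rep.{u} k G} [IsDiscrete 𝒰 M] [IsDiscrete 𝒰 M₁] [IsDiscrete 𝒰 M₂]

/-- The coefficient map on the local complexes. -/
abbrev locMap (φ : M ⟶ M₁) (v : L.ι) : locC L M v ⟶ locC L M₁ v :=
  lcMap (L.𝒰v v) ((Rep.resFunctor (L.r v)).map φ)

lemma resC_comp_locMap (φ : M ⟶ M₁) (v : L.ι) :
    resC L M v ≫ locMap L φ v = lcMap 𝒰 φ ≫ resC L M₁ v := by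
  show lcPull (L.cont v) (𝟙 (Rep.res (L.r v) M)) ≫ lcMap (L.𝒰v v) ((Rep.resFunctor (L.r v)).map φ) =
    lcMap 𝒰 φ ≫ lcPull (L.cont v) (𝟙 (Rep.res (L.r v) M₁))
  rw [lcPull_comp_lcMap, lcMap_comp_lcPull, Category.id_comp, Category.comp_id]

lemma resTot_comp_piMap (φ : M ⟶ M₁) :
    resTot L M ≫ piMap (locMap L φ) = lcMap 𝒰 φ ≫ resTot L M₁ := by
  rw [piLift_comp_piMap, comp_piLift]
  exact congrArg piLift (funext fun v => resC_comp_locMap L φ v)

/-- Functoriality of the compact-support complex in the coefficients. -/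
def coneCMap (φ : M ⟶ M₁) : coneC L M ⟶ coneC L M₁ :=
  coneMap (lcMap 𝒰 φ) (piMap (locMap L φ)) (resTot_comp_piMap L φ)

lemma locMap_id (v : L.ι) : locMap L (𝟙 M) v = 𝟙 (locC L M v) := by
  show lcMap (L.𝒰v v) ((Rep.resFunctor (L.r v)).map (𝟙 M)) = _
  rw [CategoryTheory.Functor.map_id]
  exact lcMap_id (L.𝒰v v)

lemma locMap_comp (φ : M ⟶ M₁) (ψ : M₁ ⟶ M₂) (v : L.ι) :
    locMap L (φ ≫ ψ) v = locMap L φ v ≫ locMap L ψ v := by
  show lcMap (L.𝒰v v) ((Rep.resFunctor (L.r v)).map (φ ≫ ψ)) = _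
  rw [CategoryTheory.Functor.map_comp]
  exact lcMap_comp (L.𝒰v v) _ _

lemma coneCMap_id : coneCMap L (𝟙 M) = 𝟙 (coneC L M) := by
  unfold coneCMap
  rw [coneMap_congr _ (lcMap_id 𝒰) ((congrArg piMap (funext (locMap_id L))).trans piMap_id)]
  exact coneMap_id

lemma coneCMap_comp (φ : M ⟶ M₁) (ψ : M₁ ⟶ M₂) :
    coneCMap L (φ ≫ ψ) = coneCMap L φ ≫ coneCMap L ψ := by
  unfold coneCMap
  rw [coneMap_congr _ (lcMap_comp 𝒰 φ ψ)
    ((congrArg piMap (funext (locMap_comp L φ ψ))).trans (piMap_comp _ _))]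
  exact coneMap_comp _ _ _ _ _ _

/-- `coneFst` is natural in the coefficients. -/
lemma coneCMap_comp_coneFst (φ : M ⟶ M₁) :
    coneCMap L φ ≫ coneFst L M₁ = coneFst L M ≫ lcMap 𝒰 φ :=
  coneMap_comp_π _ _ _

end Functoriality

/-! ### (E2) short exact sequences of coefficients -/

section ShortExact

variable (X : ShortComplex (Rep.{u} k G))
  [IsDiscrete 𝒰 X.X₁] [IsDiscrete 𝒰 X.X₂] [IsDiscrete 𝒰 X.X₃]

/-- The short complex of local cochain complexes at `v`. -/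
def locSC (v : L.ι) : ShortComplex (CochainComplex (ModuleCat.{u} k) ℕ) :=
  ShortComplex.mk (locMap L X.f v) (locMap L X.g v) (by
    rw [← locMap_comp, X.zero]
    show lcMap (L.𝒰v v) ((Rep.resFunctor (L.r v)).map 0) = 0
    rw [CategoryTheory.Functor.map_zero]
    exact lcMap_zero (L.𝒰v v))

variable {X} in
lemma locSC_shortExact (hX : X.ShortExact) (v : L.ι) : (locSC L X v).ShortExact :=
  @lcShortComplex_shortExact k (L.Gv v) _ _ (L.𝒰v v) (X.map (Rep.resFunctor (L.r v)))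
    (L.isDiscrete_res v X.X₁) (L.isDiscrete_res v X.X₂) (L.isDiscrete_res v X.X₃)
    (hX.map_of_exact (Rep.resFunctor (L.r v)))

/-- The morphism of short complexes of complexes "global ⟶ product of local". -/
def resSC : lcShortComplex 𝒰 X ⟶ piSC (locSC L X) where
  τ₁ := resTot L X.X₁
  τ₂ := resTot L X.X₂
  τ₃ := resTot L X.X₃
  comm₁₂ := resTot_comp_piMap L X.f
  comm₂₃ := resTot_comp_piMap L X.g

/-- The short complex `coneC L X.X₁ ⟶ coneC L X.X₂ ⟶ coneC L X.X₃`. -/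
def coneCSC : ShortComplex (CochainComplex (ModuleCat.{u} k) ℕ) := coneSC (resSC L X)

lemma coneCSC_X₁ : (coneCSC L X).X₁ = coneC L X.X₁ := rfl
lemma coneCSC_X₂ : (coneCSC L X).X₂ = coneC L X.X₂ := rfl
lemma coneCSC_X₃ : (coneCSC L X).X₃ = coneC L X.X₃ := rfl
lemma coneCSC_f : (coneCSC L X).f = coneCMap L X.f := rfl
lemma coneCSC_g : (coneCSC L X).g = coneCMap L X.g := rfl

lemma coneCMap_comp_eq_zero : coneCMap L X.f ≫ coneCMap L X.g = 0 := (coneCSC L X).zero

variable {X}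

/-- (E2) A short exact sequence of discrete representations induces a short exact sequence of
compact-support complexes. -/
theorem coneCSC_shortExact (hX : X.ShortExact) : (coneCSC L X).ShortExact :=
  coneSC_shortExact (resSC L X) (lcShortComplex_shortExact 𝒰 hX)
    (piSC_shortExact _ fun v => locSC_shortExact L hX v)

/-- (E2) in the form with an arbitrary proof of `f ≫ g = 0`. -/
theorem coneCMap_shortExact (hX : X.ShortExact)
    (w : coneCMap L X.f ≫ coneCMap L X.g = 0) :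
    (ShortComplex.mk (coneCMap L X.f) (coneCMap L X.g) w).ShortExact :=
  coneCSC_shortExact L hX

end ShortExact

/-! ### (E3), (E4): vanishing of `HlcC⁰` and the long exact sequence -/

section LES

variable (M : Rep.{u} k G) [IsDiscrete 𝒰 M]

lemma resTot_f_zero_injective [Nonempty L.ι] : Function.Injective ((resTot L M).f 0) := by
  intro a a' h
  change lcSub 𝒰 M 0 at a a'
  obtain ⟨v⟩ := ‹Nonempty L.ι›
  have h1 : (resC L M v).f 0 a = (resC L M v).f 0 a' :=
    congrFun (congrArg (piXEquiv (locC L M) 0) h) v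
  have h2 : lcPullLin (L.cont v) (𝟙 (Rep.res (L.r v) M)) 0 a =
      lcPullLin (L.cont v) (𝟙 (Rep.res (L.r v) M)) 0 a' := h1
  apply Subtype.ext
  funext x
  have hx : x = (L.r v) ∘ (fun i : Fin 0 => i.elim0) := Subsingleton.elim _ _
  have h3 := congrFun (congrArg Subtype.val h2) (fun i : Fin 0 => i.elim0)
  rw [hx]
  exact h3

/-- (E3) `HlcC⁰ = 0` as soon as there is at least one place. -/
theorem HlcC_zero_subsingleton [Nonempty L.ι] : Subsingleton (HlcC L M 0) :=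
  Hc_zero_subsingleton (resTot L M) (resTot_f_zero_injective L M)

theorem isZero_HlcC_zero [Nonempty L.ι] : Limits.IsZero (HlcC L M 0) := by
  have := HlcC_zero_subsingleton L M
  exact ModuleCat.isZero_of_subsingleton _

/-- The forgetful map `HlcCⁿ(M) ⟶ Hlcⁿ(G, M)`. -/
def HlcCToH (n : ℕ) : HlcC L M n ⟶ Hlc 𝒰 M n := HcToH (resTot L M) n

lemma HlcCToH_eq (n : ℕ) :
    HlcCToH L M n = HomologicalComplex.homologyMap (coneFst L M) n := rfl

/-- The localisation map `Hlcⁿ(G, M) → ∏_v Hlcⁿ(G_v, M)`. -/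
def locRes (n : ℕ) : Hlc 𝒰 M n →ₗ[k] ∀ v, Hlc (L.𝒰v v) (Rep.res (L.r v) M) n :=
  resPi (resC L M) n

lemma locRes_apply (n : ℕ) (x : Hlc 𝒰 M n) (v : L.ι) :
    locRes L M n x v = HlcRes (L.cont v) M n x := rfl

/-- The boundary map `∏_v Hlcⁿ(G_v, M) → HlcCⁿ⁺¹(M)`. -/
def HlcCBdry (n : ℕ) : (∀ v, Hlc (L.𝒰v v) (Rep.res (L.r v) M) n) →ₗ[k] HlcC L M (n + 1) :=
  HToHcPi (resC L M) n

/-- (E4) exactness of `HlcCⁿ(M) → Hlcⁿ(G, M) → ∏_v Hlcⁿ(G_v, M)`. -/
theorem exact_HlcCToH_locRes (n : ℕ) :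
    Function.Exact (HlcCToH L M n).hom (locRes L M n) :=
  exact_HcToH_resPi (resC L M) n

/-- Exactness of `Hlcⁿ(G, M) → ∏_v Hlcⁿ(G_v, M) → HlcCⁿ⁺¹(M)`. -/
theorem exact_locRes_HlcCBdry (n : ℕ) :
    Function.Exact (locRes L M n) (HlcCBdry L M n) :=
  exact_resPi_HToHcPi (resC L M) n

/-- (E4) exactness of `∏_v Hlcⁿ(G_v, M) → HlcCⁿ⁺¹(M) → Hlcⁿ⁺¹(G, M)`. -/
theorem exact_HlcCBdry_HlcCToH (n : ℕ) :
    Function.Exact (HlcCBdry L M n) (HlcCToH L M (n + 1)).hom :=
  exact_HToHcPi_HcToH (resC L M) n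

end LES

/-! ### Explicit cochains of `coneC L M` -/

section Explicit

variable (M : Rep.{u} k G) [IsDiscrete 𝒰 M]

/-- `(coneC L M)⁰ = lcSub 𝒰 M 0`. -/
def coneCXEquivZero : (coneC L M).X 0 ≃ₗ[k] lcSub 𝒰 M 0 where
  toFun x := (coneXEquiv (resTot L M) 0 x).1
  invFun a := (coneXEquiv (resTot L M) 0).symm (a, PUnit.unit)
  map_add' _ _ := rfl
  map_smul' _ _ := rfl
  left_inv x := by
    apply (coneXEquiv (resTot L M) 0).injective
    rw [LinearEquiv.apply_symm_apply]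
    exact Prod.ext rfl (Subsingleton.elim (α := PUnit) _ _)
  right_inv a := by
    show (coneXEquiv (resTot L M) 0 ((coneXEquiv (resTot L M) 0).symm (a, PUnit.unit))).1 = a
    rw [LinearEquiv.apply_symm_apply]

lemma coneCXEquivZero_apply (x : (coneC L M).X 0) :
    coneCXEquivZero L M x = (coneXEquiv (resTot L M) 0 x).1 := rfl

/-- `(coneC L M)ⁿ⁺¹ = lcSub 𝒰 M (n+1) × ∏_v lcSub (𝒰v v) (res M) n`. -/
def coneCXEquivSucc (n : ℕ) :
    (coneC L M).X (n + 1) ≃ₗ[k]
      lcSub 𝒰 M (n + 1) × (∀ v, lcSub (L.𝒰v v) (Rep.res (L.r v) M) n) :=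
  LinearEquiv.refl k _

lemma coneCXEquivSucc_apply (n : ℕ) (x : (coneC L M).X (n + 1)) :
    coneCXEquivSucc L M n x = coneXEquiv (resTot L M) (n + 1) x := rfl

lemma coneFst_f_zero (x : (coneC L M).X 0) : (coneFst L M).f 0 x = coneCXEquivZero L M x := rfl

lemma coneFst_f_succ (n : ℕ) (x : (coneC L M).X (n + 1)) :
    (coneFst L M).f (n + 1) x = (coneCXEquivSucc L M n x).1 := rfl

/-- The differential `(coneC)⁰ → (coneC)¹`: `a ↦ (d a, (res_v a)_v)`. -/
lemma coneC_d_zero (x : (coneC L M).X 0) :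
    coneCXEquivSucc L M 0 ((coneC L M).d 0 1 x) =
      (lcD 𝒰 M 0 (coneCXEquivZero L M x),
        fun v => lcPullLin (L.cont v) (𝟙 (Rep.res (L.r v) M)) 0 (coneCXEquivZero L M x)) := by
  have h := coneXEquiv_d (resTot L M) 0 x
  rw [coneCXEquivSucc_apply]
  refine h.trans ?_
  rw [coneCXEquivZero_apply]
  generalize coneXEquiv (resTot L M) 0 x = y
  obtain ⟨a, b⟩ := y
  rw [coneDLin_apply]
  refine Prod.ext ?_ ?_
  · show (lcCochains 𝒰 M).d 0 1 a = lcD 𝒰 M 0 a
    rw [lcCochains_d]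
    rfl
  · show (resTot L M).f 0 a + shDX (piComplex (locC L M)) 0 b = _
    rw [shDX_zero, add_zero]
    rfl

/-- The differential `(coneC)ⁿ⁺¹ → (coneC)ⁿ⁺²`: `(a, b) ↦ (d a, (res_v a - d b_v)_v)`. -/
lemma coneC_d_succ (n : ℕ) (x : (coneC L M).X (n + 1)) :
    coneCXEquivSucc L M (n + 1) ((coneC L M).d (n + 1) (n + 2) x) =
      (lcD 𝒰 M (n + 1) (coneCXEquivSucc L M n x).1,
        fun v => lcPullLin (L.cont v) (𝟙 (Rep.res (L.r v) M)) (n + 1) (coneCXEquivSucc L M n x).1 -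
          lcD (L.𝒰v v) (Rep.res (L.r v) M) n ((coneCXEquivSucc L M n x).2 v)) := by
  have h := coneXEquiv_d (resTot L M) (n + 1) x
  rw [coneCXEquivSucc_apply, coneCXEquivSucc_apply]
  refine h.trans ?_
  generalize coneXEquiv (resTot L M) (n + 1) x = y
  obtain ⟨a, b⟩ := y
  change (piComplex (locC L M)).X n at b
  rw [coneDLin_apply]
  refine Prod.ext ?_ ?_
  · show (lcCochains 𝒰 M).d (n + 1) (n + 2) a = lcD 𝒰 M (n + 1) a
    rw [lcCochains_d]
    rfl
  · show (resTot L M).f (n + 1) a + shDX (piComplex (locC L M)) (n + 1) b = _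
    rw [shDX_succ, ← sub_eq_add_neg]
    apply (piXEquiv (locC L M) (n + 1)).injective
    funext v
    rw [map_sub]
    show piXEquiv (locC L M) (n + 1) ((resTot L M).f (n + 1) a) v -
      piXEquiv (locC L M) (n + 1) ((piComplex (locC L M)).d n (n + 1) b) v = _
    rw [piXEquiv_d, piLift_f_apply, lcCochains_d]
    rfl

end Explicit

section ExplicitMap

variable {M M₁ : Rep.{u} k G} [IsDiscrete 𝒰 M] [IsDiscrete 𝒰 M₁]

lemma coneCMap_f_zero (φ : M ⟶ M₁) (x : (coneC L M).X 0) :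
    coneCXEquivZero L M₁ ((coneCMap L φ).f 0 x) = lcMapLin 𝒰 φ 0 (coneCXEquivZero L M x) := rfl

lemma coneCMap_f_succ (φ : M ⟶ M₁) (n : ℕ) (x : (coneC L M).X (n + 1)) :
    coneCXEquivSucc L M₁ n ((coneCMap L φ).f (n + 1) x) =
      (lcMapLin 𝒰 φ (n + 1) (coneCXEquivSucc L M n x).1,
        fun v => lcMapLin (L.𝒰v v) ((Rep.resFunctor (L.r v)).map φ) n
          ((coneCXEquivSucc L M n x).2 v)) := rfl

end ExplicitMap

end Fermat.Agent.GC.Prof.Cone
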