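/-
GATE-C / C1 (PROFCOH), helper78.  Change of group / coefficients and connecting maps on the
plain-function representatives `Hlc1π`, `Hlc2π` of `Low.lean`.
-/
import Fermat.Agent.GC.Prof.Low
import Fermat.Agent.GC.Prof.Res

set_option autoImplicit false
set_option linter.unusedSectionVars false

open CategoryTheory groupCohomology

noncomputable section

namespace Fermat.Agent.GC.Prof

universe u

variable {k G H : Type u} [CommRing k] [Group G] [Group H]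
variable {𝒰 : LevelSystem G} {𝒱 : LevelSystem H}

section Pull

variable {f : G →* H} (hf : IsContHom 𝒰 𝒱 f) {A : Rep.{u} k H} {B : Rep.{u} k G}
  (φ : Rep.res f A ⟶ B) [IsDiscrete 𝒱 A] [IsDiscrete 𝒰 B]

lemma lcEquiv₁_lcPullLin (x : lcSub 𝒱 A 1) (g : G) :
    (lcEquiv₁ 𝒰 B (lcPullLin hf φ 1 x) : G → B) g = φ.hom ((lcEquiv₁ 𝒱 A x : H → A) (f g)) := rfl

lemma lcEquiv₂_lcPullLin (x : lcSub 𝒱 A 2) (g g' : G) :
    (lcEquiv₂ 𝒰 B (lcPullLin hf φ 2 x) : G × G → B) (g, g') =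
      φ.hom ((lcEquiv₂ 𝒱 A x : H × H → A) (f g, f g')) := by
  simp only [lcEquiv₂_apply, lcPullLin_coe]
  have h : (⇑f ∘ ![g, g'] : Fin 2 → H) = ![f g, f g'] := by
    funext i; fin_cases i <;> rfl
  rw [h]

include hf in
/-- The pull-back of a level-constant `1`-cocycle is a level-constant `1`-cocycle. -/
lemma pull_mem_lcCocycles₁ (z : lcCocycles₁ 𝒱 A) :
    (fun g : G => φ.hom ((z : H → A) (f g))) ∈ lcCocycles₁ 𝒰 B := by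
  set x : lcSub 𝒱 A 1 := (lcEquiv₁ 𝒱 A).symm ⟨z.1, z.2.2⟩ with hx
  have hxz : (lcEquiv₁ 𝒱 A x : H → A) = z := by rw [hx, LinearEquiv.apply_symm_apply]
  have h0 : lcD 𝒱 A 1 x = 0 := lcD_lcEquiv₁_symm 𝒱 A z
  have h1 := lcD_lcPullLin hf φ x h0
  have h2 : (fun g : G => φ.hom ((z : H → A) (f g))) =
      (lcEquiv₁ 𝒰 B (lcPullLin hf φ 1 x) : G → B) := by
    funext g; rw [lcEquiv₁_lcPullLin, hxz]
  rw [h2]
  exact ⟨(lcD_one_eq_zero_iff 𝒰 B _).1 h1, (lcEquiv₁ 𝒰 B _).2⟩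

/-- `HlcPull` on `Hlc1π` representatives: `z ↦ (g ↦ φ (z (f g)))`. -/
theorem HlcPull_Hlc1π (z : lcCocycles₁ 𝒱 A) :
    HlcPull hf φ 1 (Hlc1π 𝒱 A z) =
      Hlc1π 𝒰 B ⟨fun g : G => φ.hom ((z : H → A) (f g)), pull_mem_lcCocycles₁ hf φ z⟩ := by
  rw [Hlc1π_apply, HlcPull_mk, Hlc1π_apply]
  apply HlcMk_congr
  apply (lcEquiv₁ 𝒰 B).injective
  rw [LinearEquiv.apply_symm_apply]
  apply Subtype.ext
  funext g
  rw [lcEquiv₁_lcPullLin, LinearEquiv.apply_symm_apply]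

include hf in
/-- The pull-back of a level-constant `2`-cocycle is a level-constant `2`-cocycle. -/
lemma pull_mem_lcCocycles₂ (z : lcCocycles₂ 𝒱 A) :
    (fun p : G × G => φ.hom ((z : H × H → A) (f p.1, f p.2))) ∈ lcCocycles₂ 𝒰 B := by
  set x : lcSub 𝒱 A 2 := (lcEquiv₂ 𝒱 A).symm ⟨z.1, z.2.2⟩ with hx
  have hxz : (lcEquiv₂ 𝒱 A x : H × H → A) = z := by rw [hx, LinearEquiv.apply_symm_apply]
  have h0 : lcD 𝒱 A 2 x = 0 := lcD_lcEquiv₂_symm 𝒱 A z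
  have h1 := lcD_lcPullLin hf φ x h0
  have h2 : (fun p : G × G => φ.hom ((z : H × H → A) (f p.1, f p.2))) =
      (lcEquiv₂ 𝒰 B (lcPullLin hf φ 2 x) : G × G → B) := by
    funext ⟨g, g'⟩; rw [lcEquiv₂_lcPullLin, hxz]
  rw [h2]
  exact ⟨(lcD_two_eq_zero_iff 𝒰 B _).1 h1, (lcEquiv₂ 𝒰 B _).2⟩

/-- `HlcPull` on `Hlc2π` representatives: `z ↦ ((g, g') ↦ φ (z (f g, f g')))`. -/
theorem HlcPull_Hlc2π (z : lcCocycles₂ 𝒱 A) :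
    HlcPull hf φ 2 (Hlc2π 𝒱 A z) =
      Hlc2π 𝒰 B ⟨fun p : G × G => φ.hom ((z : H × H → A) (f p.1, f p.2)),
        pull_mem_lcCocycles₂ hf φ z⟩ := by
  rw [Hlc2π_apply, HlcPull_mk, Hlc2π_apply]
  apply HlcMk_congr
  apply (lcEquiv₂ 𝒰 B).injective
  rw [LinearEquiv.apply_symm_apply]
  apply Subtype.ext
  funext ⟨g, g'⟩
  rw [lcEquiv₂_lcPullLin, LinearEquiv.apply_symm_apply]

end Pull

section Map

variable {A B : Rep.{u} k G} (φ : A ⟶ B) [IsDiscrete 𝒰 A] [IsDiscrete 𝒰 B]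

lemma lcEquiv₁_lcMapLin (x : lcSub 𝒰 A 1) (g : G) :
    (lcEquiv₁ 𝒰 B (lcMapLin 𝒰 φ 1 x) : G → B) g = φ.hom ((lcEquiv₁ 𝒰 A x : G → A) g) := rfl

lemma lcEquiv₂_lcMapLin (x : lcSub 𝒰 A 2) (p : G × G) :
    (lcEquiv₂ 𝒰 B (lcMapLin 𝒰 φ 2 x) : G × G → B) p = φ.hom ((lcEquiv₂ 𝒰 A x : G × G → A) p) :=
  rfl

lemma lcEquiv₀_lcMapLin (x : lcSub 𝒰 A 0) :
    lcEquiv₀ 𝒰 B (lcMapLin 𝒰 φ 0 x) = φ.hom (lcEquiv₀ 𝒰 A x) := rfl

/-- Post-composition preserves level-constant `1`-cocycles. -/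
lemma map_mem_lcCocycles₁ (z : lcCocycles₁ 𝒰 A) :
    (fun g : G => φ.hom ((z : G → A) g)) ∈ lcCocycles₁ 𝒰 B := by
  set x : lcSub 𝒰 A 1 := (lcEquiv₁ 𝒰 A).symm ⟨z.1, z.2.2⟩ with hx
  have hxz : (lcEquiv₁ 𝒰 A x : G → A) = z := by rw [hx, LinearEquiv.apply_symm_apply]
  have h0 : lcD 𝒰 A 1 x = 0 := lcD_lcEquiv₁_symm 𝒰 A z
  have h1 := lcD_lcMapLin 𝒰 φ x h0
  have h2 : (fun g : G => φ.hom ((z : G → A) g)) =
      (lcEquiv₁ 𝒰 B (lcMapLin 𝒰 φ 1 x) : G → B) := by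
    funext g; rw [lcEquiv₁_lcMapLin, hxz]
  rw [h2]
  exact ⟨(lcD_one_eq_zero_iff 𝒰 B _).1 h1, (lcEquiv₁ 𝒰 B _).2⟩

theorem HlcMap_Hlc1π (z : lcCocycles₁ 𝒰 A) :
    HlcMap 𝒰 φ 1 (Hlc1π 𝒰 A z) =
      Hlc1π 𝒰 B ⟨fun g : G => φ.hom ((z : G → A) g), map_mem_lcCocycles₁ φ z⟩ := by
  rw [Hlc1π_apply, HlcMap_mk, Hlc1π_apply]
  apply HlcMk_congr
  apply (lcEquiv₁ 𝒰 B).injective
  rw [LinearEquiv.apply_symm_apply]
  apply Subtype.ext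
  funext g
  rw [lcEquiv₁_lcMapLin, LinearEquiv.apply_symm_apply]

/-- Post-composition preserves level-constant `2`-cocycles. -/
lemma map_mem_lcCocycles₂ (z : lcCocycles₂ 𝒰 A) :
    (fun p : G × G => φ.hom ((z : G × G → A) p)) ∈ lcCocycles₂ 𝒰 B := by
  set x : lcSub 𝒰 A 2 := (lcEquiv₂ 𝒰 A).symm ⟨z.1, z.2.2⟩ with hx
  have hxz : (lcEquiv₂ 𝒰 A x : G × G → A) = z := by rw [hx, LinearEquiv.apply_symm_apply]
  have h0 : lcD 𝒰 A 2 x = 0 := lcD_lcEquiv₂_symm 𝒰 A z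
  have h1 := lcD_lcMapLin 𝒰 φ x h0
  have h2 : (fun p : G × G => φ.hom ((z : G × G → A) p)) =
      (lcEquiv₂ 𝒰 B (lcMapLin 𝒰 φ 2 x) : G × G → B) := by
    funext p; rw [lcEquiv₂_lcMapLin, hxz]
  rw [h2]
  exact ⟨(lcD_two_eq_zero_iff 𝒰 B _).1 h1, (lcEquiv₂ 𝒰 B _).2⟩

theorem HlcMap_Hlc2π (z : lcCocycles₂ 𝒰 A) :
    HlcMap 𝒰 φ 2 (Hlc2π 𝒰 A z) =
      Hlc2π 𝒰 B ⟨fun p : G × G => φ.hom ((z : G × G → A) p), map_mem_lcCocycles₂ φ z⟩ := by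
  rw [Hlc2π_apply, HlcMap_mk, Hlc2π_apply]
  apply HlcMk_congr
  apply (lcEquiv₂ 𝒰 B).injective
  rw [LinearEquiv.apply_symm_apply]
  apply Subtype.ext
  funext p
  rw [lcEquiv₂_lcMapLin, LinearEquiv.apply_symm_apply]

end Map

section Delta

variable {X : ShortComplex (Rep.{u} k G)} (hX : X.ShortExact)
  [IsDiscrete 𝒰 X.X₁] [IsDiscrete 𝒰 X.X₂] [IsDiscrete 𝒰 X.X₃]

include hX in
/-- If `f ∘ x` is level-constant and `f` is injective then `x` is level-constant. -/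
lemma isLC₂_of_comp_f {x : G × G → X.X₁} (h : IsLC₂ 𝒰 (fun p => X.f.hom (x p))) : IsLC₂ 𝒰 x := by
  have hinj : Function.Injective X.f.hom := (Rep.mono_iff_injective X.f).1 hX.mono_f
  obtain ⟨U, hU, hc⟩ := h
  exact ⟨U, hU, fun g g' s s' hs hs' => hinj (hc g g' s s' hs hs')⟩

include hX in
lemma isLC₁_of_comp_f {x : G → X.X₁} (h : IsLC₁ 𝒰 (fun p => X.f.hom (x p))) : IsLC₁ 𝒰 x := by
  have hinj : Function.Injective X.f.hom := (Rep.mono_iff_injective X.f).1 hX.mono_f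
  obtain ⟨U, hU, hc⟩ := h
  exact ⟨U, hU, fun g s hs => hinj (hc g s hs)⟩

include hX in
/-- The data of the connecting map `δ¹` in plain form produces a level-constant `2`-cocycle. -/
lemma delta₁_mem_lcCocycles₂ (y : G → X.X₂) (hy : IsLC₁ 𝒰 y)
    (x : G × G → X.X₁) (hx : (fun p => X.f.hom (x p)) = (d₁₂ X.X₂).hom y) :
    x ∈ lcCocycles₂ 𝒰 X.X₁ := by
  refine ⟨mem_cocycles₂_of_comp_eq_d₁₂ hX (by funext p; exact congrFun hx p), ?_⟩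
  apply isLC₂_of_comp_f hX
  rw [hx]
  exact d₁₂_mem_lcCochains₂ 𝒰 X.X₂ hy

/-- The connecting homomorphism `δ¹ : Hlc 1 (X₃) → Hlc 2 (X₁)` on plain representatives:
`z` a level-constant `1`-cocycle in `X₃`, `y` a level-constant lift to `X₂`, `f ∘ x = d₁₂ y`. -/
theorem Hlcδ_Hlc1π (z : lcCocycles₁ 𝒰 X.X₃) (y : G → X.X₂) (hy : IsLC₁ 𝒰 y)
    (hyz : ∀ g, X.g.hom (y g) = (z : G → X.X₃) g)
    (x : G × G → X.X₁) (hx : (fun p => X.f.hom (x p)) = (d₁₂ X.X₂).hom y) :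
    Hlcδ 𝒰 hX 1 2 rfl (Hlc1π 𝒰 X.X₃ z) =
      Hlc2π 𝒰 X.X₁ ⟨x, delta₁_mem_lcCocycles₂ hX y hy x hx⟩ := by
  rw [Hlc1π_apply, Hlc2π_apply]
  refine Hlcδ_mk 𝒰 hX _ _ ((lcEquiv₁ 𝒰 X.X₂).symm ⟨y, hy⟩) ?_ _ ?_
  · apply (lcEquiv₁ 𝒰 X.X₃).injective
    rw [LinearEquiv.apply_symm_apply]
    apply Subtype.ext
    funext g
    rw [lcEquiv₁_lcMapLin, LinearEquiv.apply_symm_apply]
    exact hyz g
  · apply (lcEquiv₂ 𝒰 X.X₂).injective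
    apply Subtype.ext
    rw [lcEquiv₂_lcD, LinearEquiv.apply_symm_apply]
    funext p
    rw [lcEquiv₂_lcMapLin, LinearEquiv.apply_symm_apply]
    exact congrFun hx p

include hX in
/-- The data of the connecting map `δ⁰` in plain form produces a level-constant `1`-cocycle. -/
lemma delta₀_mem_lcCocycles₁ (y : X.X₂)
    (x : G → X.X₁) (hx : (fun g => X.f.hom (x g)) = (d₀₁ X.X₂).hom y) :
    x ∈ lcCocycles₁ 𝒰 X.X₁ := by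
  refine ⟨mem_cocycles₁_of_comp_eq_d₀₁ hX (by funext p; exact congrFun hx p), ?_⟩
  apply isLC₁_of_comp_f hX
  rw [hx]
  exact coboundaries₁_le_lcCochains₁ 𝒰 X.X₂ ⟨y, rfl⟩

/-- The connecting homomorphism `δ⁰ : Hlc 0 (X₃) → Hlc 1 (X₁)` on plain representatives:
`z` an invariant of `X₃`, `y` a lift to `X₂`, `f ∘ x = d₀₁ y`. -/
theorem Hlcδ_Hlc0 (z : X.X₃.ρ.invariants) (y : X.X₂) (hyz : X.g.hom y = z)
    (x : G → X.X₁) (hx : (fun g => X.f.hom (x g)) = (d₀₁ X.X₂).hom y) :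
    Hlcδ 𝒰 hX 0 1 rfl ((Hlc0Equiv 𝒰 X.X₃).symm z) =
      Hlc1π 𝒰 X.X₁ ⟨x, delta₀_mem_lcCocycles₁ hX y x hx⟩ := by
  have hz0 : lcD 𝒰 X.X₃ 0 ((lcEquiv₀ 𝒰 X.X₃).symm z.1) = 0 :=
    (lcD_zero_eq_zero_iff 𝒰 X.X₃ _).2 (by rw [LinearEquiv.apply_symm_apply]; exact z.2)
  have h0 : (Hlc0Equiv 𝒰 X.X₃).symm z = HlcMk 𝒰 X.X₃ ((lcEquiv₀ 𝒰 X.X₃).symm z.1) hz0 := rfl
  rw [h0, Hlc1π_apply]
  refine Hlcδ_mk 𝒰 hX _ _ ((lcEquiv₀ 𝒰 X.X₂).symm y) ?_ _ ?_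
  · apply (lcEquiv₀ 𝒰 X.X₃).injective
    rw [LinearEquiv.apply_symm_apply, lcEquiv₀_lcMapLin, LinearEquiv.apply_symm_apply]
    exact hyz
  · apply (lcEquiv₁ 𝒰 X.X₂).injective
    apply Subtype.ext
    rw [lcEquiv₁_lcD, LinearEquiv.apply_symm_apply]
    funext p
    rw [lcEquiv₁_lcMapLin, LinearEquiv.apply_symm_apply]
    exact congrFun hx p

end Delta

end Fermat.Agent.GC.Prof
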