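/-
GATE-C / C1 (PROFCOH), helper5: complements to helper78's `GC/Prof/LES.lean`.
* `IsDiscrete.of_injective`, `IsDiscrete.of_surjective` : sub- and quotient representations of a
  discrete representation are discrete.
* `lcShortComplexMap` : a morphism of short complexes of discrete representations induces a
  morphism of the short complexes of level-constant cochain complexes.
* `Hlcδ_naturality` : naturality of the connecting homomorphism `Hlcδ`.
Mathlib only (on top of `Basic.lean`, `LES.lean`).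
-/
import Fermat.Agent.GC.Prof.LES

set_option autoImplicit false

open CategoryTheory

noncomputable section

namespace Fermat.Agent.GC.Prof

universe u

variable {k G : Type u} [CommRing k] [Group G] (𝒰 : LevelSystem G)

section Discrete

variable {𝒰} {M N : Rep.{u} k G}

/-- A representation which embeds into a discrete representation is discrete. -/
theorem IsDiscrete.of_injective (φ : M ⟶ N) (hφ : Function.Injective φ.hom) [IsDiscrete 𝒰 N] :
    IsDiscrete 𝒰 M where
  exists_fix m := by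
    obtain ⟨U, hU, h⟩ := IsDiscrete.exists_fix (𝒰 := 𝒰) (φ.hom m)
    exact ⟨U, hU, fun s hs => hφ (by rw [Rep.hom_comm_apply, h s hs])⟩

/-- A quotient of a discrete representation is discrete. -/
theorem IsDiscrete.of_surjective (φ : M ⟶ N) (hφ : Function.Surjective φ.hom) [IsDiscrete 𝒰 M] :
    IsDiscrete 𝒰 N where
  exists_fix n := by
    obtain ⟨m, rfl⟩ := hφ n
    obtain ⟨U, hU, h⟩ := IsDiscrete.exists_fix (𝒰 := 𝒰) m
    exact ⟨U, hU, fun s hs => by rw [← Rep.hom_comm_apply, h s hs]⟩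

end Discrete

section Naturality

variable {X Y : ShortComplex (Rep.{u} k G)}
  [IsDiscrete 𝒰 X.X₁] [IsDiscrete 𝒰 X.X₂] [IsDiscrete 𝒰 X.X₃]
  [IsDiscrete 𝒰 Y.X₁] [IsDiscrete 𝒰 Y.X₂] [IsDiscrete 𝒰 Y.X₃]

/-- A morphism of short complexes of discrete representations induces a morphism of the short
complexes of level-constant cochain complexes. -/
def lcShortComplexMap (F : X ⟶ Y) : lcShortComplex 𝒰 X ⟶ lcShortComplex 𝒰 Y where
  τ₁ := lcMap 𝒰 F.τ₁
  τ₂ := lcMap 𝒰 F.τ₂
  τ₃ := lcMap 𝒰 F.τ₃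
  comm₁₂ := by
    show lcMap 𝒰 F.τ₁ ≫ lcMap 𝒰 Y.f = lcMap 𝒰 X.f ≫ lcMap 𝒰 F.τ₂
    rw [← lcMap_comp, ← lcMap_comp, F.comm₁₂]
  comm₂₃ := by
    show lcMap 𝒰 F.τ₂ ≫ lcMap 𝒰 Y.g = lcMap 𝒰 X.g ≫ lcMap 𝒰 F.τ₃
    rw [← lcMap_comp, ← lcMap_comp, F.comm₂₃]

/-- Naturality of the connecting homomorphism of the long exact sequence of `Hlc`. -/
theorem Hlcδ_naturality (hX : X.ShortExact) (hY : Y.ShortExact) (F : X ⟶ Y) (i j : ℕ)
    (hij : i + 1 = j) :
    Hlcδ 𝒰 hX i j hij ≫ HlcMap 𝒰 F.τ₁ j = HlcMap 𝒰 F.τ₃ i ≫ Hlcδ 𝒰 hY i j hij :=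
  HomologicalComplex.HomologySequence.δ_naturality (lcShortComplexMap 𝒰 F)
    (lcShortComplex_shortExact 𝒰 hX) (lcShortComplex_shortExact 𝒰 hY) i j hij

end Naturality

end Fermat.Agent.GC.Prof
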