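/-
GATE-C / C1 (PROFCOH) leaf (L9) ACYCLIC ENVELOPE, helper5.  On top of helper78's `Basic.lean`,
`LES.lean`.

For a level system `𝒰` on `G` and a representation `M`, `lcInd 𝒰 M` is the `k`-module of
level-constant functions `G → M` (right-invariant under some member of `𝒰`), with `G` acting by
right translation.  It is `𝒰`-discrete, `M` embeds into it when `M` is discrete, and its
level-constant cohomology vanishes in positive degrees (explicit contracting homotopy
`(h x)(g₁,…,gₙ)(t) = x(t,g₁,…,gₙ)(1)` on inhomogeneous cochains).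
-/
import Fermat.Agent.GC.Prof.Concrete
import Fermat.Agent.GC.Prof.LESNat

set_option autoImplicit false

open CategoryTheory

noncomputable section

namespace Fermat.Agent.GC.Prof

universe u

/-! ### `Fin.contractNth` and `Fin.cons` -/

section Fin

variable {α : Type*} {n : ℕ}

lemma contractNth_zero_cons (op : α → α → α) (t : α) (g : Fin (n + 1) → α) :
    Fin.contractNth 0 op (Fin.cons t g : Fin (n + 2) → α) =
      Fin.cons (op t (g 0)) (fun i : Fin n => g i.succ) := by
  funext i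
  refine Fin.cases ?_ (fun i => ?_) i
  · rw [Fin.contractNth_apply_of_eq _ _ _ _ (by simp)]
    simp
  · rw [Fin.contractNth_apply_of_gt _ _ _ _ (by simp)]
    simp

lemma contractNth_succ_cons (op : α → α → α) (j : Fin (n + 1)) (t : α) (g : Fin (n + 1) → α) :
    Fin.contractNth j.succ op (Fin.cons t g : Fin (n + 2) → α) =
      Fin.cons t (Fin.contractNth j op g) := by
  funext i
  refine Fin.cases ?_ (fun i => ?_) i
  · rw [Fin.contractNth_apply_of_lt _ _ _ _ (by simp)]
    simp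
  · rw [Fin.cons_succ]
    rcases lt_trichotomy (i : ℕ) (j : ℕ) with h | h | h
    · rw [Fin.contractNth_apply_of_lt _ _ _ _ (by simpa using h),
        Fin.contractNth_apply_of_lt _ _ _ _ h, ← Fin.succ_castSucc, Fin.cons_succ]
    · rw [Fin.contractNth_apply_of_eq _ _ _ _ (by simpa using h),
        Fin.contractNth_apply_of_eq _ _ _ _ h, ← Fin.succ_castSucc, Fin.cons_succ, Fin.cons_succ]
    · rw [Fin.contractNth_apply_of_gt _ _ _ _ (by simpa using h),
        Fin.contractNth_apply_of_gt _ _ _ _ h, Fin.cons_succ]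

end Fin

variable {k G : Type u} [CommRing k] [Group G] (𝒰 : LevelSystem G)

/-! ### The module of level-constant functions -/

section Ind

variable (M : Rep.{u} k G)

/-- The submodule of level-constant functions `G → M`. -/
def lcIndV : Submodule k (G → M) where
  carrier := {φ | ∃ U ∈ 𝒰.sets, ∀ g u, u ∈ U → φ (g * u) = φ g}
  add_mem' := by
    rintro φ ψ ⟨U, hU, h⟩ ⟨V, hV, h'⟩
    obtain ⟨W, hW, hWle⟩ := 𝒰.directed U hU V hV
    refine ⟨W, hW, fun g u hu => ?_⟩
    rw [Pi.add_apply, Pi.add_apply, h g u (hWle.trans inf_le_left hu),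
      h' g u (hWle.trans inf_le_right hu)]
  zero_mem' := by
    obtain ⟨U, hU⟩ := 𝒰.nonempty
    exact ⟨U, hU, fun _ _ _ => rfl⟩
  smul_mem' := by
    rintro c φ ⟨U, hU, h⟩
    exact ⟨U, hU, fun g u hu => by rw [Pi.smul_apply, Pi.smul_apply, h g u hu]⟩

lemma mem_lcIndV_iff (φ : G → M) :
    φ ∈ lcIndV 𝒰 M ↔ ∃ U ∈ 𝒰.sets, ∀ g u, u ∈ U → φ (g * u) = φ g := Iff.rfl

/-- Every level-constant function is right-invariant under a *normal* member. -/
lemma exists_normal_of_mem_lcIndV {φ : G → M} (hφ : φ ∈ lcIndV 𝒰 M) :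
    ∃ U ∈ 𝒰.sets, U.Normal ∧ ∀ g u, u ∈ U → φ (g * u) = φ g := by
  obtain ⟨U, hU, h⟩ := hφ
  obtain ⟨V, hV, hle, hn, -⟩ := 𝒰.normal_below U hU
  exact ⟨V, hV, hn, fun g u hu => h g u (hle hu)⟩

/-- Right translation on level-constant functions. -/
def lcIndρ : Representation k G (lcIndV 𝒰 M) where
  toFun g := (LinearMap.funLeft k M (· * g)).restrict fun φ hφ => by
    obtain ⟨U, hU, hn, h⟩ := exists_normal_of_mem_lcIndV 𝒰 M hφ
    refine ⟨U, hU, fun x u hu => ?_⟩
    simp only [LinearMap.funLeft_apply]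
    have : x * u * g = x * g * (g⁻¹ * u * g) := by group
    rw [this]
    exact h _ _ (by simpa using hn.conj_mem u hu g⁻¹)
  map_one' := by
    ext φ x
    simp
  map_mul' g g' := by
    ext φ x
    simp [mul_assoc]

@[simp]
lemma lcIndρ_apply (g : G) (φ : lcIndV 𝒰 M) (x : G) :
    ((lcIndρ 𝒰 M g φ : lcIndV 𝒰 M) : G → M) x = (φ : G → M) (x * g) := rfl

/-- The representation on level-constant functions `G → M` by right translation (only the
underlying module of `M` matters). -/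
abbrev lcInd : Rep.{u} k G := Rep.of (lcIndρ 𝒰 M)

instance : IsDiscrete 𝒰 (lcInd 𝒰 M) where
  exists_fix φ := by
    obtain ⟨U, hU, h⟩ := (φ : lcIndV 𝒰 M).2
    refine ⟨U, hU, fun s hs => ?_⟩
    apply Subtype.ext
    funext x
    exact h x s hs

end Ind

/-! ### All functions `G → M` with right translation, and the contracting homotopy -/

section FunRep

variable (M : Rep.{u} k G)

/-- Right translation on all functions `G → M`. -/
def funρ : Representation k G (G → M) where
  toFun g := LinearMap.funLeft k M (· * g)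
  map_one' := by
    ext φ x
    simp
  map_mul' g g' := by
    ext φ x
    simp [mul_assoc]

@[simp]
lemma funρ_apply (g : G) (φ : G → M) (x : G) : funρ M g φ x = φ (x * g) := rfl

/-- The representation of `G` on all functions `G → M` by right translation. -/
abbrev funRep : Rep.{u} k G := Rep.of (funρ M)

/-- The contracting homotopy `(h x)(g₁,…,gₙ)(t) = x(t,g₁,…,gₙ)(1)`. -/
def hFun {n : ℕ} (x : (Fin (n + 1) → G) → funRep M) : (Fin n → G) → funRep M :=
  fun g t => (x (Fin.cons t g) : G → M) 1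

lemma hFun_apply {n : ℕ} (x : (Fin (n + 1) → G) → funRep M) (g : Fin n → G) (t : G) :
    (hFun M x g : G → M) t = (x (Fin.cons t g) : G → M) 1 := rfl

lemma funRep_d_apply {n : ℕ} (x : (Fin n → G) → funRep M) (g : Fin (n + 1) → G) (t : G) :
    (inhomogeneousCochains.d (funRep M) n x g : G → M) t =
      (x (fun i => g i.succ) : G → M) (t * g 0) +
        ∑ j : Fin (n + 1), (-1 : k) ^ ((j : ℕ) + 1) •
          (x (Fin.contractNth j (· * ·) g) : G → M) t := by
  rw [inhomogeneousCochains.d_hom_apply]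
  simp only [Pi.add_apply, Finset.sum_apply, Pi.smul_apply]
  rfl

/-- `d h + h d = id` in positive degrees. -/
theorem d_hFun_add_hFun_d {n : ℕ} (x : (Fin (n + 1) → G) → funRep M) :
    inhomogeneousCochains.d (funRep M) n (hFun M x) +
      hFun M (inhomogeneousCochains.d (funRep M) (n + 1) x) = x := by
  funext g
  funext t
  rw [Pi.add_apply, Pi.add_apply, hFun_apply, funRep_d_apply, funRep_d_apply,
    Fin.sum_univ_succ (n := n + 1)]
  simp only [hFun_apply, Fin.cons_zero, Fin.cons_succ, contractNth_zero_cons,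
    contractNth_succ_cons, Fin.val_zero, Fin.val_succ, zero_add, neg_smul,
    one_mul, pow_succ, mul_neg, mul_one, neg_neg]
  rw [Finset.sum_neg_distrib, pow_zero, one_smul]
  abel

end FunRep

/-! ### Acyclicity of `lcInd` -/

section Acyclic

variable (M : Rep.{u} k G)

/-- The inclusion of level-constant functions into all functions. -/
def lcIndIncl : lcInd 𝒰 M ⟶ funRep M :=
  Rep.ofHom ⟨(lcIndV 𝒰 M).subtype, fun g => by ext φ x; rfl⟩

lemma lcIndIncl_apply (φ : lcInd 𝒰 M) (t : G) :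
    ((lcIndIncl 𝒰 M).hom φ : G → M) t = ((φ : lcIndV 𝒰 M) : G → M) t := rfl

lemma lcIndIncl_injective : Function.Injective (lcIndIncl 𝒰 M).hom :=
  fun _ _ h => Subtype.ext h

variable {𝒰 M}

lemma cons_mul_cons {n : ℕ} (t u : G) (g s : Fin n → G) :
    (Fin.cons (t * u) (g * s) : Fin (n + 1) → G) = Fin.cons t g * Fin.cons u s := by
  funext i
  refine Fin.cases ?_ (fun i => ?_) i <;> simp

/-- The homotopy of a level-constant cochain takes values in level-constant functions. -/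
lemma hFun_mem_lcIndV {n : ℕ} {x : (Fin (n + 1) → G) → lcInd 𝒰 M} (hx : IsLC 𝒰 x)
    (g : Fin n → G) : hFun M (fun g' => (lcIndIncl 𝒰 M).hom (x g')) g ∈ lcIndV 𝒰 M := by
  obtain ⟨U, hU, h⟩ := hx
  refine ⟨U, hU, fun t u hu => ?_⟩
  have h1 : (Fin.cons (t * u) g : Fin (n + 1) → G) = Fin.cons t g * Fin.cons u 1 := by
    rw [← cons_mul_cons, mul_one]
  rw [hFun_apply, hFun_apply, h1, h _ _ (fun i => by
    refine Fin.cases ?_ (fun i => ?_) i
    · simpa using hu
    · simp [U.one_mem])]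

/-- The homotopy of a level-constant cochain, as a cochain with values in `lcInd`. -/
def lcIndHFun {n : ℕ} {x : (Fin (n + 1) → G) → lcInd 𝒰 M} (hx : IsLC 𝒰 x) :
    (Fin n → G) → lcInd 𝒰 M :=
  fun g => (⟨hFun M (fun g' => (lcIndIncl 𝒰 M).hom (x g')) g, hFun_mem_lcIndV hx g⟩ :
    lcIndV 𝒰 M)

lemma isLC_lcIndHFun {n : ℕ} {x : (Fin (n + 1) → G) → lcInd 𝒰 M} (hx : IsLC 𝒰 x) :
    IsLC 𝒰 (lcIndHFun hx) := by
  obtain ⟨U, hU, h⟩ := id hx
  refine ⟨U, hU, fun g s hs => ?_⟩
  apply Subtype.ext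
  funext t
  show (hFun M (fun g' => (lcIndIncl 𝒰 M).hom (x g')) (g * s) : G → M) t =
    (hFun M (fun g' => (lcIndIncl 𝒰 M).hom (x g')) g : G → M) t
  have h1 : (Fin.cons t (g * s) : Fin (n + 1) → G) = Fin.cons t g * Fin.cons 1 s := by
    rw [← cons_mul_cons, mul_one]
  rw [hFun_apply, hFun_apply, h1, h _ _ (fun i => by
    refine Fin.cases ?_ (fun i => ?_) i
    · simp [U.one_mem]
    · simpa using hs i)]

variable (𝒰 M)

/-- Every level-constant cocycle of positive degree with values in `lcInd 𝒰 M` is the coboundary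
of a level-constant cochain. -/
theorem exists_lcD_eq_of_lcInd {n : ℕ} (x : lcSub 𝒰 (lcInd 𝒰 M) (n + 1))
    (hx : lcD 𝒰 (lcInd 𝒰 M) (n + 1) x = 0) :
    ∃ b : lcSub 𝒰 (lcInd 𝒰 M) n, lcD 𝒰 (lcInd 𝒰 M) n b = x := by
  refine ⟨⟨lcIndHFun x.2, isLC_lcIndHFun x.2⟩, ?_⟩
  apply Subtype.ext
  funext g
  apply lcIndIncl_injective 𝒰 M
  -- transport to `funRep M`
  have h1 := congrFun (d_comp_hom (lcIndIncl 𝒰 M) n (lcIndHFun x.2)) g
  have h2 := d_comp_hom (lcIndIncl 𝒰 M) (n + 1) (x : (Fin (n + 1) → G) → lcInd 𝒰 M)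
  have h3 : inhomogeneousCochains.d (lcInd 𝒰 M) (n + 1) (x : (Fin (n + 1) → G) → lcInd 𝒰 M) = 0 :=
    congrArg Subtype.val hx
  have h4 := d_hFun_add_hFun_d M (fun g' => (lcIndIncl 𝒰 M).hom ((x : (Fin (n + 1) → G) → _) g'))
  rw [h2, h3] at h4
  have h5 : hFun M (fun g' : Fin (n + 1 + 1) → G =>
      (lcIndIncl 𝒰 M).hom ((0 : (Fin (n + 1 + 1) → G) → lcInd 𝒰 M) g')) = 0 := by
    funext g' t
    rfl
  rw [h5, add_zero] at h4
  exact h1.symm.trans (congrFun h4 g)

/-- **Acyclicity of the envelope**: the level-constant cohomology of `lcInd 𝒰 M` vanishes in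
positive degrees. -/
theorem Hlc_lcInd_eq_zero (n : ℕ) (y : Hlc 𝒰 (lcInd 𝒰 M) (n + 1)) : y = 0 := by
  obtain ⟨x, hx, rfl⟩ := Hlc_exists_mk 𝒰 (lcInd 𝒰 M) y
  exact (HlcMk_succ_eq_zero_iff 𝒰 (lcInd 𝒰 M) x hx).2 (exists_lcD_eq_of_lcInd 𝒰 M x hx)

theorem isZero_Hlc_lcInd (n : ℕ) : Limits.IsZero (Hlc 𝒰 (lcInd 𝒰 M) (n + 1)) := by
  have : Subsingleton (Hlc 𝒰 (lcInd 𝒰 M) (n + 1)) :=
    ⟨fun a b => (Hlc_lcInd_eq_zero 𝒰 M n a).trans (Hlc_lcInd_eq_zero 𝒰 M n b).symm⟩
  exact ModuleCat.isZero_of_subsingleton _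

end Acyclic

/-! ### The embedding `M ↪ lcInd 𝒰 M` and the dimension-shifting sequence -/

section Embedding

open Limits

variable (M : Rep.{u} k G) [IsDiscrete 𝒰 M]

/-- The orbit map `m ↦ (x ↦ x • m)` of a discrete representation, as a level-constant function. -/
lemma orbit_mem_lcIndV (m : M) : (fun x : G => M.ρ x m) ∈ lcIndV 𝒰 M := by
  obtain ⟨U, hU, h⟩ := IsDiscrete.exists_fix (𝒰 := 𝒰) m
  refine ⟨U, hU, fun g u hu => ?_⟩
  simp only [map_mul, Module.End.mul_apply, h u hu]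

/-- The embedding of a discrete representation into its acyclic envelope, `m ↦ (x ↦ x • m)`. -/
def lcIndι : M ⟶ lcInd 𝒰 M :=
  Rep.ofHom
    ⟨{ toFun := fun m => (⟨fun x : G => M.ρ x m, orbit_mem_lcIndV 𝒰 M m⟩ : lcIndV 𝒰 M)
       map_add' := fun m m' => by
         apply Subtype.ext
         funext x
         exact map_add _ _ _
       map_smul' := fun c m => by
         apply Subtype.ext
         funext x
         exact map_smul _ _ _ },
     fun g => by
       ext m x
       show M.ρ x (M.ρ g m) = M.ρ (x * g) m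
       rw [map_mul, Module.End.mul_apply]⟩

lemma lcIndι_apply (m : M) (x : G) :
    (((lcIndι 𝒰 M).hom m : lcIndV 𝒰 M) : G → M) x = M.ρ x m := rfl

lemma lcIndι_injective : Function.Injective (lcIndι 𝒰 M).hom := by
  intro m m' h
  have := congrFun (congrArg Subtype.val h) 1
  rw [lcIndι_apply, lcIndι_apply, map_one, Module.End.one_apply, Module.End.one_apply] at this
  exact this

instance : Mono (lcIndι 𝒰 M) := (Rep.mono_iff_injective _).2 (lcIndι_injective 𝒰 M)

/-- The dimension-shifting short exact sequence `0 ⟶ M ⟶ lcInd 𝒰 M ⟶ Q ⟶ 0`. -/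
def lcIndSES : ShortComplex (Rep.{u} k G) := ShortComplex.cokernelSequence (lcIndι 𝒰 M)

lemma lcIndSES_shortExact : (lcIndSES 𝒰 M).ShortExact :=
  ShortComplex.ShortExact.mk' (ShortComplex.cokernelSequence_exact _)
    (by dsimp [lcIndSES, ShortComplex.cokernelSequence]; infer_instance)
    (by dsimp [lcIndSES, ShortComplex.cokernelSequence]; infer_instance)

instance : IsDiscrete 𝒰 (lcIndSES 𝒰 M).X₁ := ‹IsDiscrete 𝒰 M›

instance : IsDiscrete 𝒰 (lcIndSES 𝒰 M).X₂ := inferInstanceAs (IsDiscrete 𝒰 (lcInd 𝒰 M))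

instance : IsDiscrete 𝒰 (lcIndSES 𝒰 M).X₃ :=
  IsDiscrete.of_surjective (lcIndSES 𝒰 M).g
    ((Rep.epi_iff_surjective _).1 (lcIndSES_shortExact 𝒰 M).epi_g)

/-- **Dimension shifting**: the connecting homomorphism `Hlc Q n ⟶ Hlc M (n+1)` of the envelope
sequence is surjective for every `n`. -/
theorem Hlcδ_lcIndSES_surjective (n : ℕ) :
    Function.Surjective (Hlcδ 𝒰 (lcIndSES_shortExact 𝒰 M) n (n + 1) rfl) := by
  intro y
  have hex := Hlc_exact₁ 𝒰 (lcIndSES_shortExact 𝒰 M) n (n + 1) rfl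
  rw [ShortComplex.moduleCat_exact_iff] at hex
  exact hex y (Hlc_lcInd_eq_zero 𝒰 M n _)

/-- **Dimension shifting**: the connecting homomorphism `Hlc Q (n+1) ⟶ Hlc M (n+2)` of the
envelope sequence is injective. -/
theorem Hlcδ_lcIndSES_injective (n : ℕ) :
    Function.Injective (Hlcδ 𝒰 (lcIndSES_shortExact 𝒰 M) (n + 1) (n + 2) rfl) := by
  rw [injective_iff_map_eq_zero]
  intro y hy
  have hex := Hlc_exact₃ 𝒰 (lcIndSES_shortExact 𝒰 M) (n + 1) (n + 2) rfl
  rw [ShortComplex.moduleCat_exact_iff] at hex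
  obtain ⟨z, rfl⟩ := hex y hy
  have hz : z = 0 := Hlc_lcInd_eq_zero 𝒰 M n z
  rw [hz, map_zero]

end Embedding

end Fermat.Agent.GC.Prof
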