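/-
GATE-C / C1 (PROFCOH), helper5.  Uniqueness by dimension shifting, and: inner automorphisms act
trivially on level-constant cohomology.  On top of `Envelope.lean`, `Res.lean`, `Low.lean`.
-/
import Fermat.Agent.GC.Prof.Envelope
import Fermat.Agent.GC.Prof.Res
import Fermat.Agent.GC.Prof.Low

set_option autoImplicit false

open CategoryTheory

noncomputable section

namespace Fermat.Agent.GC.Prof

universe u

variable {k G : Type u} [CommRing k] [Group G] (𝒰 : LevelSystem G)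

/-! ### Uniqueness by dimension shifting -/

/-- **Uniqueness by dimension shifting.**  Let `T M n` be any family of `k`-modules indexed by
discrete representations, with "connecting maps" `δT`.  Two families of maps
`α β : Hlc 𝒰 M n ⟶ T M n` which are compatible with the connecting homomorphisms (of all short
exact sequences of discrete representations) and agree in degree `0` agree in all degrees.
(No exactness or functoriality of `T` is needed.) -/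
theorem Hlc_hom_ext_of_δ
    {T : ∀ (M : Rep.{u} k G) [IsDiscrete 𝒰 M], ℕ → ModuleCat.{u} k}
    (δT : ∀ (X : ShortComplex (Rep.{u} k G)) [IsDiscrete 𝒰 X.X₁] [IsDiscrete 𝒰 X.X₂]
      [IsDiscrete 𝒰 X.X₃], X.ShortExact → ∀ n : ℕ, T X.X₃ n ⟶ T X.X₁ (n + 1))
    (α β : ∀ (M : Rep.{u} k G) [IsDiscrete 𝒰 M] (n : ℕ), Hlc 𝒰 M n ⟶ T M n)
    (hα : ∀ (X : ShortComplex (Rep.{u} k G)) [IsDiscrete 𝒰 X.X₁] [IsDiscrete 𝒰 X.X₂]
      [IsDiscrete 𝒰 X.X₃] (hX : X.ShortExact) (n : ℕ),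
      Hlcδ 𝒰 hX n (n + 1) rfl ≫ α X.X₁ (n + 1) = α X.X₃ n ≫ δT X hX n)
    (hβ : ∀ (X : ShortComplex (Rep.{u} k G)) [IsDiscrete 𝒰 X.X₁] [IsDiscrete 𝒰 X.X₂]
      [IsDiscrete 𝒰 X.X₃] (hX : X.ShortExact) (n : ℕ),
      Hlcδ 𝒰 hX n (n + 1) rfl ≫ β X.X₁ (n + 1) = β X.X₃ n ≫ δT X hX n)
    (h0 : ∀ (M : Rep.{u} k G) [IsDiscrete 𝒰 M], α M 0 = β M 0)
    (M : Rep.{u} k G) [IsDiscrete 𝒰 M] (n : ℕ) : α M n = β M n := by
  induction n generalizing M with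
  | zero => exact h0 M
  | succ n ih =>
    ext y
    obtain ⟨z, rfl⟩ := Hlcδ_lcIndSES_surjective 𝒰 M n y
    have h1 := congr($(hα (lcIndSES 𝒰 M) (lcIndSES_shortExact 𝒰 M) n) z)
    have h2 := congr($(hβ (lcIndSES 𝒰 M) (lcIndSES_shortExact 𝒰 M) n) z)
    simp only [ModuleCat.hom_comp, LinearMap.comp_apply] at h1 h2
    rw [ih (lcIndSES 𝒰 M).X₃] at h1
    exact h1.trans h2.symm

/-- Endomorphism version: a family of endomorphisms of `Hlc 𝒰 M n`, compatible with all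
connecting homomorphisms and equal to the identity in degree `0`, is the identity. -/
theorem Hlc_endo_eq_id_of_δ
    (α : ∀ (M : Rep.{u} k G) [IsDiscrete 𝒰 M] (n : ℕ), Hlc 𝒰 M n ⟶ Hlc 𝒰 M n)
    (hα : ∀ (X : ShortComplex (Rep.{u} k G)) [IsDiscrete 𝒰 X.X₁] [IsDiscrete 𝒰 X.X₂]
      [IsDiscrete 𝒰 X.X₃] (hX : X.ShortExact) (n : ℕ),
      Hlcδ 𝒰 hX n (n + 1) rfl ≫ α X.X₁ (n + 1) = α X.X₃ n ≫ Hlcδ 𝒰 hX n (n + 1) rfl)
    (h0 : ∀ (M : Rep.{u} k G) [IsDiscrete 𝒰 M], α M 0 = 𝟙 _)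
    (M : Rep.{u} k G) [IsDiscrete 𝒰 M] (n : ℕ) : α M n = 𝟙 _ :=
  Hlc_hom_ext_of_δ 𝒰 (T := fun M _ n => Hlc 𝒰 M n)
    (fun _ _ _ _ hX n => Hlcδ 𝒰 hX n (n + 1) rfl) α (fun M _ n => 𝟙 (Hlc 𝒰 M n)) hα
    (fun X _ _ _ hX n => by rw [Category.comp_id, Category.id_comp]) h0 M n

/-! ### Inner automorphisms act trivially -/

section Conj

variable (g₀ : G)

/-- Conjugation `x ↦ g₀ * x * g₀⁻¹` as a monoid homomorphism. -/
def conjHom : G →* G := (MulAut.conj g₀).toMonoidHom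

@[simp]
lemma conjHom_apply (x : G) : conjHom g₀ x = g₀ * x * g₀⁻¹ := rfl

lemma isContHom_conjHom : IsContHom 𝒰 𝒰 (conjHom g₀) := by
  intro V hV
  obtain ⟨U, hU, hle, hn, -⟩ := 𝒰.normal_below V hV
  exact ⟨U, hU, fun u hu => hle (hn.conj_mem u hu g₀)⟩

/-- The morphism `Rep.res (conjHom g₀) M ⟶ M`, `m ↦ g₀⁻¹ • m`. -/
def conjRepHom (M : Rep.{u} k G) : Rep.res (conjHom g₀) M ⟶ M :=
  Rep.ofHom ⟨M.ρ g₀⁻¹, fun x => by
    ext m
    show M.ρ g₀⁻¹ (M.ρ (g₀ * x * g₀⁻¹) m) = M.ρ x (M.ρ g₀⁻¹ m)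
    rw [← Module.End.mul_apply, ← map_mul, ← Module.End.mul_apply, ← map_mul]
    congr 2
    group⟩

lemma conjRepHom_apply (M : Rep.{u} k G) (m : M) : (conjRepHom g₀ M).hom m = M.ρ g₀⁻¹ m := rfl

lemma conjRepHom_naturality {M N : Rep.{u} k G} (ψ : M ⟶ N) :
    conjRepHom g₀ M ≫ ψ = (Rep.resFunctor (conjHom g₀)).map ψ ≫ conjRepHom g₀ N := by
  ext m
  exact (Rep.hom_comm_apply ψ g₀⁻¹ m)

/-- The action of conjugation by `g₀` on level-constant cohomology. -/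
def HlcConj (M : Rep.{u} k G) [IsDiscrete 𝒰 M] (n : ℕ) : Hlc 𝒰 M n ⟶ Hlc 𝒰 M n :=
  HlcPull (isContHom_conjHom 𝒰 g₀) (conjRepHom g₀ M) n

lemma HlcConj_zero (M : Rep.{u} k G) [IsDiscrete 𝒰 M] : HlcConj 𝒰 g₀ M 0 = 𝟙 _ := by
  ext y
  obtain ⟨x, hx, rfl⟩ := Hlc_exists_mk 𝒰 M y
  have hinv := (lcD_zero_eq_zero_iff 𝒰 M x).1 hx
  show HlcPull (isContHom_conjHom 𝒰 g₀) (conjRepHom g₀ M) 0 (HlcMk 𝒰 M x hx) = HlcMk 𝒰 M x hx
  rw [HlcPull_mk]
  refine (HlcMk_congr 𝒰 M ?_ _).trans rfl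
  apply Subtype.ext
  funext g
  rw [lcPullLin_coe, conjRepHom_apply]
  have h1 : (conjHom g₀ : G → G) ∘ g = default := Subsingleton.elim _ _
  have h2 : g = default := Subsingleton.elim _ _
  rw [h1, h2]
  exact hinv g₀⁻¹

/-- **Inner automorphisms act trivially on level-constant cohomology**: the map induced by the
compatible pair (`x ↦ g₀ x g₀⁻¹`, `m ↦ g₀⁻¹ m`) is the identity of `Hlc 𝒰 M n`. -/
theorem HlcConj_eq_id (M : Rep.{u} k G) [IsDiscrete 𝒰 M] (n : ℕ) : HlcConj 𝒰 g₀ M n = 𝟙 _ :=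
  Hlc_endo_eq_id_of_δ 𝒰 (fun M _ n => HlcConj 𝒰 g₀ M n)
    (fun X _ _ _ hX n =>
      Hlcδ_comp_HlcPull (isContHom_conjHom 𝒰 g₀) hX hX (conjRepHom g₀ X.X₁) (conjRepHom g₀ X.X₂)
        (conjRepHom g₀ X.X₃) (conjRepHom_naturality g₀ X.f) (conjRepHom_naturality g₀ X.g)
        n (n + 1) rfl)
    (fun M _ => HlcConj_zero 𝒰 g₀ M) M n

end Conj

end Fermat.Agent.GC.Prof
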