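/-
GATE-C / C1 (PROFCOH), leaf (L5) SHAPIRO, part 1 (helper20): coinduction from an OPEN subgroup
preserves discreteness, and the coinduction of helper5's acyclic envelope `lcInd` is again acyclic.

`S ≤ G` is *open* for the level system `𝒰` if it contains a member of `𝒰` (then it has finite
index); `𝒰.comap S.subtype` is the induced level system on `S`.
* `IsOpenSub 𝒰 S`, `IsOpenSub.finiteIndex`;
* `isDiscrete_coind` : `B` discrete for `𝒰.comap S.subtype` ⇒ `coind S.subtype B` discrete for `𝒰`;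
* `coindLcIndTo` / `coindLcIndOf` : the maps `Coind_S^G (lcInd 𝒰_S B) ⇄ lcInd 𝒰 (B as a module)`,
  `F ↦ (x ↦ F x 1)`, `φ ↦ (g ↦ y ↦ φ (y g))`, with `coindLcIndTo ≫ coindLcIndOf = 𝟙`;
* `Hlc_coind_lcInd_eq_zero`, `isZero_Hlc_coind_lcInd` : `Hlc 𝒰 (Coind_S^G (lcInd 𝒰_S B)) (n+1) = 0`.
-/
import Fermat.Agent.GC.Prof.Envelope
import Fermat.Agent.GC.Prof.Res
import Fermat.Agent.GC.Tate.CorRes

set_option autoImplicit false

open CategoryTheory

noncomputable section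

namespace Fermat.Agent.GC.Prof

universe u

variable {k G : Type u} [CommRing k] [Group G] (𝒰 : LevelSystem G) (S : Subgroup G)

/-- `S` is open for the level system `𝒰`: it contains a member of `𝒰`. -/
def IsOpenSub : Prop := ∃ U ∈ 𝒰.sets, U ≤ S

variable {𝒰 S}

theorem IsOpenSub.finiteIndex (hS : IsOpenSub 𝒰 S) : S.FiniteIndex := by
  obtain ⟨U, hU, hUS⟩ := hS
  have := 𝒰.finiteIndex_of_mem hU
  exact Subgroup.finiteIndex_of_le hUS

theorem IsOpenSub.of_mem {U : Subgroup G} (hU : U ∈ 𝒰.sets) : IsOpenSub 𝒰 U := ⟨U, hU, le_rfl⟩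

theorem IsOpenSub.mono {S' : Subgroup G} (hS : IsOpenSub 𝒰 S) (h : S ≤ S') : IsOpenSub 𝒰 S' := by
  obtain ⟨U, hU, hUS⟩ := hS
  exact ⟨U, hU, hUS.trans h⟩

/-- every element of `G` is `σ * r` with `σ ∈ S` and `r` in the finite set of representatives
`(q.out)⁻¹`, `q : G ⧸ S` -/
theorem exists_mul_out_inv (S : Subgroup G) (g : G) :
    ∃ σ : S, g = (σ : G) * ((QuotientGroup.mk g⁻¹ : G ⧸ S).out)⁻¹ := by
  obtain ⟨h, hh⟩ := QuotientGroup.mk_out_eq_mul S g⁻¹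
  refine ⟨h, ?_⟩
  rw [hh]
  group

/-- **coinduction from an open subgroup preserves discreteness** -/
theorem isDiscrete_coind (hS : IsOpenSub 𝒰 S) (B : Rep.{u} k S)
    [IsDiscrete (𝒰.comap S.subtype) B] : IsDiscrete 𝒰 (Rep.coind S.subtype B) where
  exists_fix F := by
    have := hS.finiteIndex
    obtain ⟨U₀, hU₀, hU₀S⟩ := hS
    -- the values of `F` at the finitely many representatives
    have hfix : ∀ q : G ⧸ S, ∃ U ∈ 𝒰.sets, ∀ s : S, (s : G) ∈ U →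
        B.ρ s (F.1 (q.out)⁻¹) = F.1 (q.out)⁻¹ := by
      intro q
      obtain ⟨W, ⟨U, hU, rfl⟩, h⟩ :=
        IsDiscrete.exists_fix (𝒰 := 𝒰.comap S.subtype) (M := B) (F.1 (q.out)⁻¹)
      exact ⟨U, hU, fun s hs => h s hs⟩
    choose U hU hUfix using hfix
    obtain ⟨V₁, hV₁, hV₁le, -, -⟩ :=
      𝒰.exists_normal_le_finite (Set.univ : Set (G ⧸ S)) Set.finite_univ U (fun q _ => hU q)
    obtain ⟨V, hV, hVV₁, hVU₀, hn, -⟩ := 𝒰.exists_normal_le_inf hV₁ hU₀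
    refine ⟨V, hV, fun v hv => ?_⟩
    apply Subtype.ext
    funext g
    show F.1 (g * v) = F.1 g
    obtain ⟨σ, hσ⟩ := exists_mul_out_inv S g
    set q : G ⧸ S := QuotientGroup.mk g⁻¹ with hq
    set r : G := (q.out)⁻¹ with hr
    have hc : r * v * r⁻¹ ∈ V := hn.conj_mem v hv r
    have hcS : r * v * r⁻¹ ∈ S := hU₀S (hVU₀ hc)
    have h1 : g * v = S.subtype (σ * ⟨r * v * r⁻¹, hcS⟩) * r := by
      rw [hσ]
      simp only [Subgroup.subtype_apply, Subgroup.coe_mul]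
      group
    have h2 : g = S.subtype σ * r := hσ
    rw [h1, F.2, map_mul, Module.End.mul_apply]
    rw [hUfix q ⟨r * v * r⁻¹, hcS⟩ (hV₁le q (Set.mem_univ q) (hVV₁ hc))]
    conv_rhs => rw [h2, F.2]

section Env

variable (hS : IsOpenSub 𝒰 S) (B : Rep.{u} k S)

/-- the target of the comparison: level-constant functions `G → B` (only the module `B` matters) -/
abbrev lcIndG (𝒰 : LevelSystem G) (B : Rep.{u} k S) : Rep.{u} k G :=
  lcInd 𝒰 (Rep.trivial k G B.V)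

include hS in
theorem coindLcIndTo_mem (F : Rep.coind S.subtype (lcInd (𝒰.comap S.subtype) B)) :
    (fun x : G => ((F.1 x).1 1 : B)) ∈ lcIndV 𝒰 (Rep.trivial k G B.V) := by
  have := isDiscrete_coind hS (lcInd (𝒰.comap S.subtype) B)
  obtain ⟨V, hV, h⟩ := IsDiscrete.exists_fix (𝒰 := 𝒰)
    (M := Rep.coind S.subtype (lcInd (𝒰.comap S.subtype) B)) F
  refine ⟨V, hV, fun x v hv => ?_⟩
  have := congrArg (fun F' : Rep.coind S.subtype (lcInd (𝒰.comap S.subtype) B) => (F'.1 x).1 1)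
    (h v hv)
  exact this

/-- `F ↦ (x ↦ F x 1)` -/
def coindLcIndToLin :
    (Rep.coind S.subtype (lcInd (𝒰.comap S.subtype) B)).V →ₗ[k] lcIndV 𝒰 (Rep.trivial k G B.V) where
  toFun F := ⟨fun x => (F.1 x).1 1, coindLcIndTo_mem hS B F⟩
  map_add' _ _ := rfl
  map_smul' _ _ := rfl

/-- `Coind_S^G (lcInd 𝒰_S B) ⟶ lcInd 𝒰 B`, `F ↦ (x ↦ F x 1)` -/
def coindLcIndTo : Rep.coind S.subtype (lcInd (𝒰.comap S.subtype) B) ⟶ lcIndG 𝒰 B :=
  Rep.ofHom ⟨coindLcIndToLin hS B, fun g => by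
    ext F x
    rfl⟩

omit hS in
theorem coindLcIndOf_inner_mem (φ : lcIndV 𝒰 (Rep.trivial k G B.V)) (g : G) :
    (fun y : S => (φ.1 ((y : G) * g) : B)) ∈ lcIndV (𝒰.comap S.subtype) B := by
  obtain ⟨V, hV, hn, h⟩ := exists_normal_of_mem_lcIndV 𝒰 _ φ.2
  refine ⟨V.comap S.subtype, ⟨V, hV, rfl⟩, fun y w hw => ?_⟩
  show φ.1 (((y * w : S) : G) * g) = φ.1 ((y : G) * g)
  have h1 : ((y * w : S) : G) * g = (y : G) * g * (g⁻¹ * (w : G) * g) := by
    rw [Subgroup.coe_mul]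
    group
  rw [h1]
  exact h _ _ (by simpa using hn.conj_mem (w : G) hw g⁻¹)

omit hS in
theorem coindLcIndOf_mem (φ : lcIndV 𝒰 (Rep.trivial k G B.V)) :
    (fun g : G => (⟨fun y : S => (φ.1 ((y : G) * g) : B), coindLcIndOf_inner_mem B φ g⟩ :
      lcInd (𝒰.comap S.subtype) B)) ∈
      Representation.coindV S.subtype (lcInd (𝒰.comap S.subtype) B).ρ := by
  intro s g
  apply Subtype.ext
  funext y
  show φ.1 ((y : G) * (S.subtype s * g)) = φ.1 (((y * s : S) : G) * g)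
  rw [Subgroup.coe_mul, Subgroup.subtype_apply, mul_assoc]

/-- `φ ↦ (g ↦ y ↦ φ (y g))` -/
def coindLcIndOfLin : lcIndV 𝒰 (Rep.trivial k G B.V) →ₗ[k]
    (Rep.coind S.subtype (lcInd (𝒰.comap S.subtype) B)).V where
  toFun φ := ⟨_, coindLcIndOf_mem B φ⟩
  map_add' _ _ := rfl
  map_smul' _ _ := rfl

/-- `lcInd 𝒰 B ⟶ Coind_S^G (lcInd 𝒰_S B)`, `φ ↦ (g ↦ y ↦ φ (y g))` -/
def coindLcIndOf : lcIndG 𝒰 B ⟶ Rep.coind S.subtype (lcInd (𝒰.comap S.subtype) B) :=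
  Rep.ofHom ⟨coindLcIndOfLin B, fun g => by
    ext φ x y
    show φ.1 ((y : G) * x * g) = φ.1 ((y : G) * (x * g))
    rw [mul_assoc]⟩

theorem coindLcIndTo_comp_coindLcIndOf :
    coindLcIndTo hS B ≫ coindLcIndOf B = 𝟙 _ := by
  ext F x y
  show (F.1 ((y : G) * x)).1 1 = (F.1 x).1 y
  have h := F.2 y x
  have h' : F.1 ((y : G) * x) = (lcInd (𝒰.comap S.subtype) B).ρ y (F.1 x) := h
  rw [h']
  show (F.1 x).1 (1 * y) = (F.1 x).1 y
  rw [one_mul]

include hS in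
/-- every class of positive degree with values in `Coind_S^G (lcInd 𝒰_S B)` vanishes -/
theorem Hlc_coind_lcInd_eq_zero
    [IsDiscrete 𝒰 (Rep.coind S.subtype (lcInd (𝒰.comap S.subtype) B))] (n : ℕ)
    (x : Hlc 𝒰 (Rep.coind S.subtype (lcInd (𝒰.comap S.subtype) B)) (n + 1)) : x = 0 := by
  have h1 : HlcMap 𝒰 (coindLcIndTo hS B) (n + 1) ≫ HlcMap 𝒰 (coindLcIndOf B) (n + 1) = 𝟙 _ := by
    rw [← HlcMap_comp, coindLcIndTo_comp_coindLcIndOf, HlcMap_id]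
  have h2 : x = HlcMap 𝒰 (coindLcIndOf B) (n + 1) (HlcMap 𝒰 (coindLcIndTo hS B) (n + 1) x) := by
    have := congr($h1 x)
    exact this.symm
  rw [h2, Hlc_lcInd_eq_zero 𝒰 (Rep.trivial k G B.V) n
    (HlcMap 𝒰 (coindLcIndTo hS B) (n + 1) x), map_zero]

include hS in
/-- `Coind_S^G` of the acyclic envelope is acyclic -/
theorem isZero_Hlc_coind_lcInd
    [IsDiscrete 𝒰 (Rep.coind S.subtype (lcInd (𝒰.comap S.subtype) B))] (n : ℕ) :
    Limits.IsZero (Hlc 𝒰 (Rep.coind S.subtype (lcInd (𝒰.comap S.subtype) B)) (n + 1)) := by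
  rw [ModuleCat.isZero_iff_subsingleton]
  exact ⟨fun x y => (Hlc_coind_lcInd_eq_zero hS B n x).trans
    (Hlc_coind_lcInd_eq_zero hS B n y).symm⟩

end Env
end Fermat.Agent.GC.Prof
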