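/-
GATE-C / C1 (PROFCOH), leaf (L5) SHAPIRO, part 2 (helper20): **Shapiro's lemma for `Hlc`**.

`S ≤ G` open for `𝒰` (`IsOpenSub 𝒰 S`), `𝒰.comap S.subtype` the induced level system on `S`,
`B : Rep k S` discrete, `Coind_S^G B := Rep.coind S.subtype B` (discrete by `isDiscrete_coind`).
* `HlcShapiro 𝒰 S B n : Hlc 𝒰 (Coind_S^G B) n ⟶ Hlc (𝒰.comap S.subtype) B n`
  := `HlcPull (isContHom_comap S.subtype 𝒰) (coindEv S B) n` (restrict to `S`, evaluate at `1`);
* `HlcShapiro_naturality` (in `B`), `Hlcδ_comp_HlcShapiro` (connecting homomorphisms),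
  `HlcShapiro_mk` (on representatives);
* **`HlcShapiro_bijective`** (all `n`), `HlcShapiroEquiv`, `HlcShapiroIso`.
Proof: degree `0` by hand, then dimension shifting through helper5's acyclic envelope
`0 ⟶ B ⟶ lcInd 𝒰_S B ⟶ Q ⟶ 0` and its coinduction (`CoindDisc.lean`), mirroring helper52's
`GC/Tate/CorRes.lean` for abstract groups.
-/
import Fermat.Agent.GC.Prof.CoindDisc
import Fermat.Agent.GC.Prof.Low

set_option autoImplicit false

open CategoryTheory

noncomputable section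

namespace Fermat.Agent.GC.Prof

open Fermat.Agent.GC.Tate

universe u

variable {k G : Type u} [CommRing k] [Group G] {𝒰 : LevelSystem G} {S : Subgroup G}

section Shapiro

/-- the Shapiro map `Hlc 𝒰 (Coind_S^G B) n ⟶ Hlc 𝒰_S B n` (restriction to `S`, then evaluation
at `1`) -/
def HlcShapiro (𝒰 : LevelSystem G) (S : Subgroup G) (B : Rep.{u} k S)
    [IsDiscrete (𝒰.comap S.subtype) B] [IsDiscrete 𝒰 (Rep.coind S.subtype B)] (n : ℕ) :
    Hlc 𝒰 (Rep.coind S.subtype B) n ⟶ Hlc (𝒰.comap S.subtype) B n :=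
  HlcPull (isContHom_comap S.subtype 𝒰) (coindEv S B) n

theorem HlcShapiro_naturality {B B' : Rep.{u} k S}
    [IsDiscrete (𝒰.comap S.subtype) B] [IsDiscrete 𝒰 (Rep.coind S.subtype B)]
    [IsDiscrete (𝒰.comap S.subtype) B'] [IsDiscrete 𝒰 (Rep.coind S.subtype B')]
    (φ : B ⟶ B') (n : ℕ) :
    HlcMap 𝒰 (Rep.coindMap S.subtype φ) n ≫ HlcShapiro 𝒰 S B' n =
      HlcShapiro 𝒰 S B n ≫ HlcMap (𝒰.comap S.subtype) φ n := by
  unfold HlcShapiro
  rw [HlcMap_comp_HlcPull, HlcPull_comp_HlcMap]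
  exact congrArg (fun ψ => HlcPull (isContHom_comap S.subtype 𝒰) ψ n) (coindEv_naturality S φ)

/-- the Shapiro map commutes with the connecting homomorphisms -/
theorem Hlcδ_comp_HlcShapiro {Y : ShortComplex (Rep.{u} k S)} (hY : Y.ShortExact)
    [IsDiscrete (𝒰.comap S.subtype) Y.X₁] [IsDiscrete (𝒰.comap S.subtype) Y.X₂]
    [IsDiscrete (𝒰.comap S.subtype) Y.X₃]
    [IsDiscrete 𝒰 (Rep.coind S.subtype Y.X₁)] [IsDiscrete 𝒰 (Rep.coind S.subtype Y.X₂)]
    [IsDiscrete 𝒰 (Rep.coind S.subtype Y.X₃)]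
    [IsDiscrete 𝒰 (Y.map (Rep.coindFunctor k S.subtype)).X₁]
    [IsDiscrete 𝒰 (Y.map (Rep.coindFunctor k S.subtype)).X₂]
    [IsDiscrete 𝒰 (Y.map (Rep.coindFunctor k S.subtype)).X₃] (i j : ℕ) (hij : i + 1 = j) :
    Hlcδ 𝒰 (coind_shortExact S hY) i j hij ≫ HlcShapiro 𝒰 S Y.X₁ j =
      HlcShapiro 𝒰 S Y.X₃ i ≫ Hlcδ (𝒰.comap S.subtype) hY i j hij :=
  Hlcδ_comp_HlcPull (isContHom_comap S.subtype 𝒰) (coind_shortExact S hY) hY
    (coindEv S Y.X₁) (coindEv S Y.X₂) (coindEv S Y.X₃)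
    (coindEv_naturality S Y.f).symm (coindEv_naturality S Y.g).symm i j hij

section Zero

variable (B : Rep.{u} k S) [IsDiscrete (𝒰.comap S.subtype) B]
  [IsDiscrete 𝒰 (Rep.coind S.subtype B)]

theorem HlcShapiro_zero_injective : Function.Injective (HlcShapiro 𝒰 S B 0) := by
  rw [injective_iff_map_eq_zero]
  intro x hx
  obtain ⟨f, hf, rfl⟩ := Hlc_exists_mk 𝒰 (Rep.coind S.subtype B) x
  unfold HlcShapiro at hx
  rw [HlcPull_mk, HlcMk_zero_eq_zero_iff] at hx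
  rw [HlcMk_zero_eq_zero_iff]
  have hinv := (lcD_zero_eq_zero_iff 𝒰 (Rep.coind S.subtype B) f).1 hf
  rw [lcEquiv₀_apply] at hinv
  -- the value at `1` vanishes
  have h1 : ((f : (Fin 0 → G) → Rep.coind S.subtype B) default).1 1 = 0 := by
    have := congrFun (congrArg Subtype.val hx) default
    rw [lcPullLin_coe] at this
    have hd : (S.subtype ∘ (default : Fin 0 → S)) = (default : Fin 0 → G) :=
      Subsingleton.elim _ _
    rw [hd] at this
    exact this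
  have h2 : (f : (Fin 0 → G) → Rep.coind S.subtype B) default = 0 := by
    apply Subtype.ext
    funext g
    have := congrArg (fun F : Rep.coind S.subtype B => F.1 1) (hinv g)
    have h3 : ((f : (Fin 0 → G) → Rep.coind S.subtype B) default).1 (1 * g) =
        ((f : (Fin 0 → G) → Rep.coind S.subtype B) default).1 1 := this
    rw [one_mul] at h3
    rw [h3, h1]
    rfl
  apply Subtype.ext
  funext c
  rw [Subsingleton.elim c default, h2]
  rfl

theorem HlcShapiro_zero_surjective : Function.Surjective (HlcShapiro 𝒰 S B 0) := by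
  intro y
  obtain ⟨b, hb, rfl⟩ := Hlc_exists_mk (𝒰.comap S.subtype) B y
  have hinv := (lcD_zero_eq_zero_iff (𝒰.comap S.subtype) B b).1 hb
  rw [lcEquiv₀_apply] at hinv
  set b₀ : B := (b : (Fin 0 → S) → B) default with hb₀
  -- the constant function with value `b₀`
  let F₀ : Rep.coind S.subtype B := ⟨fun _ => b₀, fun s _ => (hinv s).symm⟩
  let f : lcSub 𝒰 (Rep.coind S.subtype B) 0 := ⟨fun _ => F₀, IsLC.const F₀⟩
  have hf : lcD 𝒰 (Rep.coind S.subtype B) 0 f = 0 := by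
    rw [lcD_zero_eq_zero_iff, lcEquiv₀_apply]
    intro g
    apply Subtype.ext
    funext x
    rfl
  refine ⟨HlcMk 𝒰 (Rep.coind S.subtype B) f hf, ?_⟩
  unfold HlcShapiro
  rw [HlcPull_mk]
  refine HlcMk_congr (𝒰.comap S.subtype) B ?_ _
  apply Subtype.ext
  funext c
  rw [lcPullLin_coe, Subsingleton.elim c default]
  rfl

theorem HlcShapiro_zero_bijective : Function.Bijective (HlcShapiro 𝒰 S B 0) :=
  ⟨HlcShapiro_zero_injective B, HlcShapiro_zero_surjective B⟩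

end Zero

/-- **Shapiro's lemma for level-constant cohomology**: for an open subgroup `S` the Shapiro map
`Hlc 𝒰 (Coind_S^G B) n ⟶ Hlc 𝒰_S B n` is bijective in every degree (dimension shifting through
helper5's acyclic envelope). -/
theorem HlcShapiro_bijective (hS : IsOpenSub 𝒰 S) (n : ℕ) (B : Rep.{u} k S)
    [IsDiscrete (𝒰.comap S.subtype) B] [IsDiscrete 𝒰 (Rep.coind S.subtype B)] :
    Function.Bijective (HlcShapiro 𝒰 S B n) := by
  induction n generalizing B with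
  | zero => exact HlcShapiro_zero_bijective B
  | succ n ih =>
    set Y := lcIndSES (𝒰.comap S.subtype) B with hYdef
    have hY : Y.ShortExact := lcIndSES_shortExact (𝒰.comap S.subtype) B
    have : IsDiscrete 𝒰 (Rep.coind S.subtype Y.X₁) := isDiscrete_coind hS Y.X₁
    have : IsDiscrete 𝒰 (Rep.coind S.subtype Y.X₂) := isDiscrete_coind hS Y.X₂
    have : IsDiscrete 𝒰 (Rep.coind S.subtype Y.X₃) := isDiscrete_coind hS Y.X₃
    have : IsDiscrete 𝒰 (Y.map (Rep.coindFunctor k S.subtype)).X₁ := isDiscrete_coind hS Y.X₁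
    have : IsDiscrete 𝒰 (Y.map (Rep.coindFunctor k S.subtype)).X₂ := isDiscrete_coind hS Y.X₂
    have : IsDiscrete 𝒰 (Y.map (Rep.coindFunctor k S.subtype)).X₃ := isDiscrete_coind hS Y.X₃
    have : IsDiscrete 𝒰 (Rep.coind S.subtype (lcInd (𝒰.comap S.subtype) B)) :=
      isDiscrete_coind hS _
    have hcY := coind_shortExact S hY
    -- vanishing of the middle terms
    have hzG : ∀ z : Hlc 𝒰 (Y.map (Rep.coindFunctor k S.subtype)).X₂ (n + 1), z = 0 :=
      fun z => Hlc_coind_lcInd_eq_zero hS B n z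
    have hδS : Function.Surjective (Hlcδ (𝒰.comap S.subtype) hY n (n + 1) rfl) :=
      Hlcδ_lcIndSES_surjective (𝒰.comap S.subtype) B n
    have hδG : Function.Surjective (Hlcδ 𝒰 hcY n (n + 1) rfl) := by
      intro w
      have hex := Hlc_exact₁ 𝒰 hcY n (n + 1) rfl
      rw [ShortComplex.moduleCat_exact_iff] at hex
      exact hex w (hzG _)
    have hcomm := Hlcδ_comp_HlcShapiro (𝒰 := 𝒰) hY n (n + 1) rfl
    have hcomm' : ∀ y, HlcShapiro 𝒰 S Y.X₁ (n + 1) (Hlcδ 𝒰 hcY n (n + 1) rfl y) =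
        Hlcδ (𝒰.comap S.subtype) hY n (n + 1) rfl (HlcShapiro 𝒰 S Y.X₃ n y) := fun y =>
      congr($hcomm y)
    constructor
    · rw [injective_iff_map_eq_zero]
      intro x hx
      obtain ⟨y, rfl⟩ := hδG x
      have h1 : Hlcδ (𝒰.comap S.subtype) hY n (n + 1) rfl (HlcShapiro 𝒰 S Y.X₃ n y) = 0 := by
        rw [← hcomm' y]
        exact hx
      have hex := Hlc_exact₃ (𝒰.comap S.subtype) hY n (n + 1) rfl
      rw [ShortComplex.moduleCat_exact_iff] at hex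
      obtain ⟨z, hz⟩ := hex _ h1
      obtain ⟨z', rfl⟩ := (ih Y.X₂).2 z
      have hnat := HlcShapiro_naturality (𝒰 := 𝒰) Y.g n
      have hnat' : HlcShapiro 𝒰 S Y.X₃ n (HlcMap 𝒰 (Rep.coindMap S.subtype Y.g) n z') =
          HlcMap (𝒰.comap S.subtype) Y.g n (HlcShapiro 𝒰 S Y.X₂ n z') := congr($hnat z')
      have h2 : HlcMap 𝒰 (Rep.coindMap S.subtype Y.g) n z' = y :=
        (ih Y.X₃).1 (hnat'.trans hz)
      rw [← h2]
      have hzero : HlcMap 𝒰 (Y.map (Rep.coindFunctor k S.subtype)).g n ≫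
          Hlcδ 𝒰 hcY n (n + 1) rfl = 0 :=
        (lcShortComplex_shortExact 𝒰 hcY).comp_δ n (n + 1) rfl
      exact congr($hzero z')
    · intro w
      obtain ⟨v, rfl⟩ := hδS w
      obtain ⟨y, rfl⟩ := (ih Y.X₃).2 v
      exact ⟨Hlcδ 𝒰 hcY n (n + 1) rfl y, hcomm' y⟩

/-- the Shapiro isomorphism as a linear equivalence -/
def HlcShapiroEquiv (hS : IsOpenSub 𝒰 S) (n : ℕ) (B : Rep.{u} k S)
    [IsDiscrete (𝒰.comap S.subtype) B] [IsDiscrete 𝒰 (Rep.coind S.subtype B)] :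
    Hlc 𝒰 (Rep.coind S.subtype B) n ≃ₗ[k] Hlc (𝒰.comap S.subtype) B n :=
  LinearEquiv.ofBijective (HlcShapiro 𝒰 S B n).hom (HlcShapiro_bijective hS n B)

@[simp]
theorem HlcShapiroEquiv_apply (hS : IsOpenSub 𝒰 S) (n : ℕ) (B : Rep.{u} k S)
    [IsDiscrete (𝒰.comap S.subtype) B] [IsDiscrete 𝒰 (Rep.coind S.subtype B)]
    (x : Hlc 𝒰 (Rep.coind S.subtype B) n) :
    HlcShapiroEquiv hS n B x = HlcShapiro 𝒰 S B n x := rfl

/-- the Shapiro isomorphism `Hlc 𝒰 (Coind_S^G B) n ≅ Hlc 𝒰_S B n` -/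
def HlcShapiroIso (hS : IsOpenSub 𝒰 S) (n : ℕ) (B : Rep.{u} k S)
    [IsDiscrete (𝒰.comap S.subtype) B] [IsDiscrete 𝒰 (Rep.coind S.subtype B)] :
    Hlc 𝒰 (Rep.coind S.subtype B) n ≅ Hlc (𝒰.comap S.subtype) B n :=
  (HlcShapiroEquiv hS n B).toModuleIso

theorem HlcShapiroIso_hom (hS : IsOpenSub 𝒰 S) (n : ℕ) (B : Rep.{u} k S)
    [IsDiscrete (𝒰.comap S.subtype) B] [IsDiscrete 𝒰 (Rep.coind S.subtype B)] :
    (HlcShapiroIso hS n B).hom = HlcShapiro 𝒰 S B n := rfl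

/-- the Shapiro map on the class of a level-constant cocycle `x`: the class of
`s ↦ x (s) 1` -/
theorem HlcShapiro_mk (B : Rep.{u} k S)
    [IsDiscrete (𝒰.comap S.subtype) B] [IsDiscrete 𝒰 (Rep.coind S.subtype B)] {n : ℕ}
    (x : lcSub 𝒰 (Rep.coind S.subtype B) n) (hx : lcD 𝒰 (Rep.coind S.subtype B) n x = 0) :
    HlcShapiro 𝒰 S B n (HlcMk 𝒰 (Rep.coind S.subtype B) x hx) =
      HlcMk (𝒰.comap S.subtype) B
        (lcPullLin (isContHom_comap S.subtype 𝒰) (coindEv S B) n x)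
        (lcD_lcPullLin (isContHom_comap S.subtype 𝒰) (coindEv S B) x hx) :=
  HlcPull_mk _ _ x hx

end Shapiro
end Fermat.Agent.GC.Prof
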