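/-
GATE-C / C1 (PROFCOH) leaf (L14) MACKEY ON `Hlc`, helper5.

`r : D →* G` a homomorphism, `H ≤ G`, `N` a representation of `H`, `t : G`.  The data of the
Mackey component at `t` are kept ABSTRACT: a subgroup `Dt ≤ D` and a homomorphism `φ : Dt →* H`
with `φ d * t = t * r d` (i.e. `φ d = t * r d * t⁻¹`); `mackeySub r H t`, `mackeyHom r H t` are
the canonical (largest) choice.  `N_t := Rep.res φ N`.
* `mackeyP : Res_r (coind_H^G N) ⟶ coind_{Dt}^D N_t`, `f ↦ (d ↦ f (t * r d))`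
  (restriction of `f` to the double coset `H t r(D)`);
* `mackeyEv : Res_{Dt} Res_r (coind_H^G N) ⟶ N_t`, `f ↦ f t`, and
  `res_mackeyP_comp_coindEv : Res(mackeyP) ≫ coindEv = mackeyEv`;
* `mackeyμ : Hlc 𝒱 (Res_r coind_H^G N) n ⟶ Hlc 𝒱_{Dt} N_t n` (restrict to `Dt`, evaluate at `t`),
  `mackeyμ_eq : mackeyμ = HlcMap mackeyP ≫ HlcShapiro`;
* **`mackey_res_shapiro`** : `HlcRes r ≫ mackeyμ = HlcShapiro 𝒰 H N ≫ HlcRes φ`, i.e. under
  Shapiro the restriction `Hlc(G, coind_H^G N) → Hlc(D, Res_r coind_H^G N)` followed by the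
  Mackey component at `t` is the restriction `Hlc(H, N) → Hlc(Dt, N_t)` along `φ`
  (both sides are pull-backs along `Dt → G`, `d ↦ r d` resp. `d ↦ t * r d * t⁻¹`, which differ by
  the inner automorphism of `t`: `HlcConj_eq_id`).
-/
import Fermat.Agent.GC.Prof.Shapiro
import Fermat.Agent.GC.Prof.Conj

set_option autoImplicit false

open CategoryTheory

noncomputable section

namespace Fermat.Agent.GC.Prof

universe u

open Rep Fermat.Agent.GC.Tate

variable {k G D : Type u} [CommRing k] [Group G] [Group D] (r : D →* G) (H : Subgroup G)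

/-! ### The canonical Mackey subgroups and homomorphisms -/

/-- `D_t = {d | t * r d * t⁻¹ ∈ H}`. -/
def mackeySub (t : G) : Subgroup D where
  carrier := {d | t * r d * t⁻¹ ∈ H}
  one_mem' := by simp
  mul_mem' {a b} ha hb := by
    have : t * r (a * b) * t⁻¹ = (t * r a * t⁻¹) * (t * r b * t⁻¹) := by
      rw [map_mul]; group
    simpa only [Set.mem_ofPred_eq, this] using H.mul_mem ha hb
  inv_mem' {a} ha := by
    have : t * r a⁻¹ * t⁻¹ = (t * r a * t⁻¹)⁻¹ := by
      rw [map_inv]; group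
    simpa only [Set.mem_ofPred_eq, this] using H.inv_mem ha

lemma mem_mackeySub {t : G} {d : D} : d ∈ mackeySub r H t ↔ t * r d * t⁻¹ ∈ H := Iff.rfl

/-- `D_t →* H`, `d ↦ t * r d * t⁻¹`. -/
def mackeyHom (t : G) : mackeySub r H t →* H where
  toFun d := ⟨t * r d * t⁻¹, d.2⟩
  map_one' := by
    apply Subtype.ext
    simp
  map_mul' a b := by
    apply Subtype.ext
    show t * r (a * b) * t⁻¹ = (t * r a * t⁻¹) * (t * r b * t⁻¹)
    rw [map_mul]
    group

@[simp]
lemma coe_mackeyHom (t : G) (d : mackeySub r H t) :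
    ((mackeyHom r H t d : H) : G) = t * r d * t⁻¹ := rfl

lemma mackeyHom_mul (t : G) (d : mackeySub r H t) :
    ((mackeyHom r H t d : H) : G) * t = t * r d := by
  rw [coe_mackeyHom, inv_mul_cancel_right]

/-! ### The Mackey component at `t` (abstract `Dt`, `φ`) -/

variable (N : Rep.{u} k H)

/-- `W = Res_r (coind_H^G N)`. -/
abbrev mackeyW : Rep.{u} k D := Rep.res r (Rep.coind H.subtype N)

variable {r H N}

lemma mackeyW_apply_mul (f : mackeyW r H N) (h : H) (x : G) :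
    f.1 ((h : G) * x) = N.ρ h (f.1 x) := f.2 h x

variable {t : G} {Dt : Subgroup D} {φ : Dt →* H}

/-- restriction of `f ∈ coind_H^G N` to the double coset `H t r(D)`, as a function on `D` -/
lemma mackeyP_mem (hφ : ∀ d : Dt, ((φ d : H) : G) * t = t * r d) (f : mackeyW r H N) :
    (fun d : D => f.1 (t * r d)) ∈ Representation.coindV Dt.subtype (Rep.res φ N).ρ := by
  intro d' d
  show f.1 (t * r ((d' : D) * d)) = N.ρ (φ d') (f.1 (t * r d))
  rw [← mackeyW_apply_mul, ← mul_assoc, hφ, map_mul, mul_assoc]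

variable (N) in
/-- **The Mackey projection** `Res_r (coind_H^G N) ⟶ coind_{Dt}^D N_t`, `f ↦ (d ↦ f (t * r d))`. -/
def mackeyP (hφ : ∀ d : Dt, ((φ d : H) : G) * t = t * r d) :
    mackeyW r H N ⟶ Rep.coind Dt.subtype (Rep.res φ N) :=
  Rep.ofHom
    ⟨{ toFun := fun f => ⟨fun d : D => f.1 (t * r d), mackeyP_mem hφ f⟩
       map_add' := fun f f' => rfl
       map_smul' := fun c f => rfl },
     fun y => by
       ext f d
       show f.1 (t * r d * r y) = f.1 (t * r (d * y))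
       rw [map_mul, mul_assoc]⟩

lemma mackeyP_apply (hφ : ∀ d : Dt, ((φ d : H) : G) * t = t * r d) (f : mackeyW r H N) (d : D) :
    ((mackeyP N hφ).hom f).1 d = f.1 (t * r d) := rfl

variable (N) in
/-- Evaluation at `t`: `Res_{Dt} Res_r (coind_H^G N) ⟶ N_t`. -/
def mackeyEv (hφ : ∀ d : Dt, ((φ d : H) : G) * t = t * r d) :
    Rep.res Dt.subtype (mackeyW r H N) ⟶ Rep.res φ N :=
  Rep.ofHom
    ⟨{ toFun := fun f => f.1 t
       map_add' := fun f f' => rfl
       map_smul' := fun c f => rfl },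
     fun d' => by
       ext f
       show f.1 (t * r (d' : D)) = N.ρ (φ d') (f.1 t)
       rw [← mackeyW_apply_mul, hφ]⟩

lemma mackeyEv_apply (hφ : ∀ d : Dt, ((φ d : H) : G) * t = t * r d) (f : mackeyW r H N) :
    (mackeyEv N hφ).hom f = f.1 t := rfl

/-- evaluation at `t` is the Mackey projection followed by evaluation at `1` -/
lemma res_mackeyP_comp_coindEv (hφ : ∀ d : Dt, ((φ d : H) : G) * t = t * r d) :
    (Rep.resFunctor Dt.subtype).map (mackeyP N hφ) ≫ coindEv Dt (Rep.res φ N) =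
      mackeyEv N hφ := by
  ext f
  show f.1 (t * r 1) = f.1 t
  rw [map_one, mul_one]

/-! ### The Mackey component on `Hlc` -/

section Hlc

variable {𝒰 : LevelSystem G} (𝒱 : LevelSystem D)
  [IsDiscrete 𝒱 (mackeyW r H N)] [IsDiscrete (𝒱.comap Dt.subtype) (Rep.res φ N)]

variable (N) in
/-- **The Mackey component at `t` on `Hlc`**: restrict to `Dt`, evaluate at `t`. -/
def mackeyμ (hφ : ∀ d : Dt, ((φ d : H) : G) * t = t * r d) (n : ℕ) :
    Hlc 𝒱 (mackeyW r H N) n ⟶ Hlc (𝒱.comap Dt.subtype) (Rep.res φ N) n :=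
  HlcPull (isContHom_comap Dt.subtype 𝒱) (mackeyEv N hφ) n

/-- The Mackey component is the Mackey projection followed by Shapiro's map for `Dt ≤ D`. -/
theorem mackeyμ_eq [IsDiscrete 𝒱 (Rep.coind Dt.subtype (Rep.res φ N))]
    (hφ : ∀ d : Dt, ((φ d : H) : G) * t = t * r d) (n : ℕ) :
    mackeyμ N 𝒱 hφ n = HlcMap 𝒱 (mackeyP N hφ) n ≫ HlcShapiro 𝒱 Dt (Rep.res φ N) n := by
  unfold mackeyμ HlcShapiro
  rw [HlcMap_comp_HlcPull]
  exact congrArg (fun ψ => HlcPull (isContHom_comap Dt.subtype 𝒱) ψ n)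
    (res_mackeyP_comp_coindEv hφ).symm

/-- On a representative: the class of `x` goes to the class of `d ↦ x (d) (t)`. -/
theorem mackeyμ_mk (hφ : ∀ d : Dt, ((φ d : H) : G) * t = t * r d) {n : ℕ}
    (x : lcSub 𝒱 (mackeyW r H N) n) (hx : lcD 𝒱 (mackeyW r H N) n x = 0) :
    mackeyμ N 𝒱 hφ n (HlcMk 𝒱 (mackeyW r H N) x hx) =
      HlcMk (𝒱.comap Dt.subtype) (Rep.res φ N)
        (lcPullLin (isContHom_comap Dt.subtype 𝒱) (mackeyEv N hφ) n x)
        (lcD_lcPullLin _ _ x hx) :=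
  HlcPull_mk _ _ x hx

variable [IsDiscrete 𝒰 (Rep.coind H.subtype N)] [IsDiscrete (𝒰.comap H.subtype) N]

/-- **Mackey's formula on `Hlc`** (`res_v ↔ res_w` under Shapiro): for `r : (D,𝒱) → (G,𝒰)`
continuous and `φ : Dt →* H`, `φ d * t = t * r d`, continuous,
`HlcRes r ≫ mackeyμ = HlcShapiro 𝒰 H N ≫ HlcRes φ` as maps
`Hlc 𝒰 (coind_H^G N) n ⟶ Hlc 𝒱_{Dt} (Res_φ N) n`. -/
theorem mackey_res_shapiro (hr : IsContHom 𝒱 𝒰 r)
    (hφc : IsContHom (𝒱.comap Dt.subtype) (𝒰.comap H.subtype) φ)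
    (hφ : ∀ d : Dt, ((φ d : H) : G) * t = t * r d) (n : ℕ) :
    HlcRes hr (Rep.coind H.subtype N) n ≫ mackeyμ N 𝒱 hφ n =
      HlcShapiro 𝒰 H N n ≫ HlcRes hφc N n := by
  -- the left-hand side as a single pull-back along `r ∘ Dt.subtype`
  have hL : HlcRes hr (Rep.coind H.subtype N) n ≫ mackeyμ N 𝒱 hφ n =
      HlcPull (hr.comp (isContHom_comap Dt.subtype 𝒱)) (A := Rep.coind H.subtype N)
        ((Rep.resFunctor Dt.subtype).map (𝟙 (Rep.res r (Rep.coind H.subtype N))) ≫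
          mackeyEv N hφ) n :=
    (HlcPull_comp hr (isContHom_comap Dt.subtype 𝒱) (𝟙 _) (mackeyEv N hφ) n).symm
  -- the right-hand side as a single pull-back along `H.subtype ∘ φ`
  have hR : HlcShapiro 𝒰 H N n ≫ HlcRes hφc N n =
      HlcPull ((isContHom_comap H.subtype 𝒰).comp hφc) (A := Rep.coind H.subtype N)
        ((Rep.resFunctor φ).map (coindEv H N) ≫ 𝟙 (Rep.res φ N)) n :=
    (HlcPull_comp (isContHom_comap H.subtype 𝒰) hφc (coindEv H N) (𝟙 _) n).symm
  -- conjugation by `t` followed by the left-hand pull-back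
  have hC : HlcConj 𝒰 t (Rep.coind H.subtype N) n ≫
      HlcPull (hr.comp (isContHom_comap Dt.subtype 𝒱)) (A := Rep.coind H.subtype N)
        ((Rep.resFunctor Dt.subtype).map (𝟙 (Rep.res r (Rep.coind H.subtype N))) ≫
          mackeyEv N hφ) n =
      HlcPull ((isContHom_conjHom 𝒰 t).comp (hr.comp (isContHom_comap Dt.subtype 𝒱)))
        (A := Rep.coind H.subtype N)
        ((Rep.resFunctor (r.comp Dt.subtype)).map (conjRepHom t (Rep.coind H.subtype N)) ≫
          ((Rep.resFunctor Dt.subtype).map (𝟙 (Rep.res r (Rep.coind H.subtype N))) ≫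
            mackeyEv N hφ)) n :=
    (HlcPull_comp (isContHom_conjHom 𝒰 t) (hr.comp (isContHom_comap Dt.subtype 𝒱))
      (conjRepHom t (Rep.coind H.subtype N)) _ n).symm
  rw [hL, hR, ← Category.id_comp (HlcPull (hr.comp (isContHom_comap Dt.subtype 𝒱)) _ n),
    ← HlcConj_eq_id 𝒰 t (Rep.coind H.subtype N) n, hC]
  refine (HlcPull_congr _ _ ?_ ?_ n).symm
  · -- the group homomorphisms agree: `H.subtype ∘ φ = conj t ∘ r ∘ Dt.subtype`
    ext d
    show ((φ d : H) : G) = t * r (d : D) * t⁻¹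
    rw [← hφ d, mul_inv_cancel_right]
  · -- the coefficient maps agree: `f ↦ f 1` vs `f ↦ (t⁻¹ • f) t`
    ext f
    show f.1 1 = f.1 (t * t⁻¹)
    rw [mul_inv_cancel]

end Hlc

end Fermat.Agent.GC.Prof
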