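/-
GATE-C / C1 (PROFCOH) leaf (L10) HLC-PROD, helper12.  On top of helper78's `Basic.lean`, `LES.lean`,
`Concrete.lean` and helper5's `LESNat.lean`.

* additivity / `k`-linearity of `HlcMap` in the morphism (`HlcMap_add_hom`, ... ; the suffix `_hom`
  avoids a clash with the same facts in helper20's `Cor.lean`, which this file does not import);
* RETRACT: if `i ≫ r = 𝟙 M` then `Hlc M n` is a direct summand of `Hlc N n`, with all the
  consequences that Step 3 of C5 consumes (injectivity, surjectivity, vanishing, transport of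
  identities between natural maps);
* `Hlc` of an isomorphism;
* finite "biproduct decompositions" `(π i : X ⟶ M i, σ i : M i ⟶ X)`: discreteness of `X`, and
  `Hlc X n ≃ₗ[k] ∀ i, Hlc (M i) n`.
The instances for concrete products live in `ProdInst.lean`.
-/
import Fermat.Agent.GC.Prof.Concrete
import Fermat.Agent.GC.Prof.LESNat

set_option autoImplicit false

open CategoryTheory

noncomputable section

namespace Fermat.Agent.GC.Prof

universe u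

variable {k G : Type u} [CommRing k] [Group G] (𝒰 : LevelSystem G)

/-! ### Additivity and linearity of `HlcMap` -/

section Additive

variable {M N : Rep.{u} k G} [IsDiscrete 𝒰 M] [IsDiscrete 𝒰 N]

lemma lcMap_add_hom (φ ψ : M ⟶ N) : lcMap 𝒰 (φ + ψ) = lcMap 𝒰 φ + lcMap 𝒰 ψ := by
  ext n f : 3
  rfl

lemma lcMap_neg_hom (φ : M ⟶ N) : lcMap 𝒰 (-φ) = -lcMap 𝒰 φ := by
  ext n f : 3
  rfl

lemma lcMap_smul_hom (c : k) (φ : M ⟶ N) : lcMap 𝒰 (c • φ) = c • lcMap 𝒰 φ := by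
  ext n f : 3
  rfl

lemma HlcMap_zero_hom (n : ℕ) : HlcMap 𝒰 (0 : M ⟶ N) n = 0 := by
  rw [HlcMap, lcMap_zero, HomologicalComplex.homologyMap_zero]
  rfl

lemma HlcMap_add_hom (φ ψ : M ⟶ N) (n : ℕ) :
    HlcMap 𝒰 (φ + ψ) n = HlcMap 𝒰 φ n + HlcMap 𝒰 ψ n := by
  rw [HlcMap, lcMap_add_hom, HomologicalComplex.homologyMap_add]
  rfl

lemma HlcMap_neg_hom (φ : M ⟶ N) (n : ℕ) : HlcMap 𝒰 (-φ) n = -HlcMap 𝒰 φ n := by
  rw [HlcMap, lcMap_neg_hom, HomologicalComplex.homologyMap_neg]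
  rfl

lemma HlcMap_sub_hom (φ ψ : M ⟶ N) (n : ℕ) :
    HlcMap 𝒰 (φ - ψ) n = HlcMap 𝒰 φ n - HlcMap 𝒰 ψ n := by
  rw [sub_eq_add_neg, HlcMap_add_hom, HlcMap_neg_hom, sub_eq_add_neg]

lemma HlcMap_sum_hom {J : Type*} (s : Finset J) (φ : J → (M ⟶ N)) (n : ℕ) :
    HlcMap 𝒰 (∑ j ∈ s, φ j) n = ∑ j ∈ s, HlcMap 𝒰 (φ j) n := by
  classical
  induction s using Finset.induction_on with
  | empty => simp [HlcMap_zero_hom]
  | insert a s ha ih => rw [Finset.sum_insert ha, Finset.sum_insert ha, HlcMap_add_hom, ih]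

lemma HlcMap_smul_hom (c : k) (φ : M ⟶ N) (n : ℕ) :
    HlcMap 𝒰 (c • φ) n = c • HlcMap 𝒰 φ n := by
  rw [HlcMap, lcMap_smul_hom]
  exact ShortComplex.homologyMap_smul
    ((HomologicalComplex.shortComplexFunctor (ModuleCat.{u} k) (ComplexShape.up ℕ) n).map
      (lcMap 𝒰 φ)) c

end Additive

/-! ### Element forms of functoriality -/

section Apply

variable {M N P : Rep.{u} k G} [IsDiscrete 𝒰 M] [IsDiscrete 𝒰 N] [IsDiscrete 𝒰 P]

lemma HlcMap_id_apply (n : ℕ) (x : Hlc 𝒰 M n) : HlcMap 𝒰 (𝟙 M) n x = x := by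
  rw [HlcMap_id]; rfl

lemma HlcMap_comp_apply (φ : M ⟶ N) (ψ : N ⟶ P) (n : ℕ) (x : Hlc 𝒰 M n) :
    HlcMap 𝒰 (φ ≫ ψ) n x = HlcMap 𝒰 ψ n (HlcMap 𝒰 φ n x) := by
  rw [HlcMap_comp]; rfl

lemma HlcMap_zero_apply (n : ℕ) (x : Hlc 𝒰 M n) : HlcMap 𝒰 (0 : M ⟶ N) n x = 0 := by
  rw [HlcMap_zero_hom]; rfl

lemma HlcMap_add_apply (φ ψ : M ⟶ N) (n : ℕ) (x : Hlc 𝒰 M n) :
    HlcMap 𝒰 (φ + ψ) n x = HlcMap 𝒰 φ n x + HlcMap 𝒰 ψ n x := by
  rw [HlcMap_add_hom]; rfl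

lemma HlcMap_sum_apply {J : Type*} (s : Finset J) (φ : J → (M ⟶ N)) (n : ℕ) (x : Hlc 𝒰 M n) :
    HlcMap 𝒰 (∑ j ∈ s, φ j) n x = ∑ j ∈ s, HlcMap 𝒰 (φ j) n x := by
  classical
  induction s using Finset.induction_on with
  | empty => simp [HlcMap_zero_apply]
  | insert a s ha ih => rw [Finset.sum_insert ha, Finset.sum_insert ha, HlcMap_add_apply, ih]

lemma HlcMap_smul_apply (c : k) (φ : M ⟶ N) (n : ℕ) (x : Hlc 𝒰 M n) :
    HlcMap 𝒰 (c • φ) n x = c • HlcMap 𝒰 φ n x := by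
  rw [HlcMap_smul_hom]; rfl

end Apply

/-! ### Isomorphisms -/

section Iso

variable {M N : Rep.{u} k G} [IsDiscrete 𝒰 M] [IsDiscrete 𝒰 N]

/-- An isomorphism of discrete representations induces an isomorphism on `Hlc`. -/
def HlcIso (e : M ≅ N) (n : ℕ) : Hlc 𝒰 M n ≅ Hlc 𝒰 N n where
  hom := HlcMap 𝒰 e.hom n
  inv := HlcMap 𝒰 e.inv n
  hom_inv_id := by rw [← HlcMap_comp, e.hom_inv_id, HlcMap_id]
  inv_hom_id := by rw [← HlcMap_comp, e.inv_hom_id, HlcMap_id]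

@[simp] lemma HlcIso_hom (e : M ≅ N) (n : ℕ) : (HlcIso 𝒰 e n).hom = HlcMap 𝒰 e.hom n := rfl

@[simp] lemma HlcIso_inv (e : M ≅ N) (n : ℕ) : (HlcIso 𝒰 e n).inv = HlcMap 𝒰 e.inv n := rfl

omit [IsDiscrete 𝒰 N] in
variable {𝒰} in
/-- Discreteness is invariant under isomorphism. -/
theorem IsDiscrete.of_iso (e : M ≅ N) : IsDiscrete 𝒰 N :=
  IsDiscrete.of_injective e.inv (fun x y h => by
    have := congrArg e.hom.hom h
    simpa using this)

end Iso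

/-! ### Retracts -/

section Retract

variable {M N : Rep.{u} k G} [IsDiscrete 𝒰 M] [IsDiscrete 𝒰 N]
  (i : M ⟶ N) (r : N ⟶ M) (h : i ≫ r = 𝟙 M)

include h

/-- RETRACT: if `M` is a direct summand of `N` (`i ≫ r = 𝟙 M`) then `Hlc M n` is a direct summand
of `Hlc N n`. -/
theorem HlcMap_retract (n : ℕ) : HlcMap 𝒰 i n ≫ HlcMap 𝒰 r n = 𝟙 _ := by
  rw [← HlcMap_comp, h, HlcMap_id]

lemma HlcMap_retract_apply (n : ℕ) (x : Hlc 𝒰 M n) : HlcMap 𝒰 r n (HlcMap 𝒰 i n x) = x := by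
  rw [← HlcMap_comp_apply, h, HlcMap_id_apply]

/-- The split monomorphism structure on `HlcMap i n`. -/
def HlcSplitMono (n : ℕ) : SplitMono (HlcMap 𝒰 i n) where
  retraction := HlcMap 𝒰 r n
  id := HlcMap_retract 𝒰 i r h n

/-- The split epimorphism structure on `HlcMap r n`. -/
def HlcSplitEpi (n : ℕ) : SplitEpi (HlcMap 𝒰 r n) where
  section_ := HlcMap 𝒰 i n
  id := HlcMap_retract 𝒰 i r h n

lemma mono_HlcMap_of_retract (n : ℕ) : Mono (HlcMap 𝒰 i n) :=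
  (HlcSplitMono 𝒰 i r h n).mono

lemma epi_HlcMap_of_retract (n : ℕ) : Epi (HlcMap 𝒰 r n) :=
  (HlcSplitEpi 𝒰 i r h n).epi

lemma HlcMap_injective_of_retract (n : ℕ) : Function.Injective (HlcMap 𝒰 i n) :=
  Function.LeftInverse.injective (g := HlcMap 𝒰 r n) (HlcMap_retract_apply 𝒰 i r h n)

lemma HlcMap_surjective_of_retract (n : ℕ) : Function.Surjective (HlcMap 𝒰 r n) :=
  Function.RightInverse.surjective (g := HlcMap 𝒰 i n) (HlcMap_retract_apply 𝒰 i r h n)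

/-- A direct summand of a representation with vanishing `Hlc n` has vanishing `Hlc n`. -/
theorem isZero_Hlc_of_retract (n : ℕ) (hN : Limits.IsZero (Hlc 𝒰 N n)) :
    Limits.IsZero (Hlc 𝒰 M n) := by
  rw [Limits.IsZero.iff_id_eq_zero, ← HlcMap_retract 𝒰 i r h n,
    hN.eq_of_tgt (HlcMap 𝒰 i n) 0, Limits.zero_comp]

lemma Hlc_eq_zero_of_retract (n : ℕ) (hN : ∀ y : Hlc 𝒰 N n, y = 0) (x : Hlc 𝒰 M n) : x = 0 := by
  rw [← HlcMap_retract_apply 𝒰 i r h n x, hN (HlcMap 𝒰 i n x), map_zero]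

/-- Finiteness passes to direct summands. -/
lemma finite_Hlc_of_retract (n : ℕ) [Finite (Hlc 𝒰 N n)] : Finite (Hlc 𝒰 M n) :=
  Finite.of_injective _ (HlcMap_injective_of_retract 𝒰 i r h n)

lemma card_Hlc_le_of_retract (n : ℕ) [Finite (Hlc 𝒰 N n)] :
    Nat.card (Hlc 𝒰 M n) ≤ Nat.card (Hlc 𝒰 N n) :=
  Nat.card_le_card_of_injective _ (HlcMap_injective_of_retract 𝒰 i r h n)

/-- Transport of an identity between two "natural" maps along a retract: if `αN = βN` and both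
pairs are compatible with `i` through a map `ti` which is injective, then `αM = βM`. -/
theorem eq_of_retract_natural {n : ℕ} {TM TN : Type*} (αM βM : Hlc 𝒰 M n → TM)
    (αN βN : Hlc 𝒰 N n → TN) (ti : TM → TN) (hti : Function.Injective ti)
    (hα : ∀ x, ti (αM x) = αN (HlcMap 𝒰 i n x)) (hβ : ∀ x, ti (βM x) = βN (HlcMap 𝒰 i n x))
    (hN : ∀ y, αN y = βN y) (x : Hlc 𝒰 M n) : αM x = βM x := by
  have _ := h
  exact hti (by rw [hα, hβ, hN])

/-- A retract of a bijection is a bijection: if `αN : Hlc N n → TN` is bijective and `αM` is a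
retract of it (compatibly with `i, r` on the source and `ti, tr` on the target, `tr ∘ ti = id`)
then `αM` is bijective.  This is the "duality for `Ind` implies duality for a direct summand"
step. -/
theorem bijective_of_retract {n : ℕ} {TM TN : Type*} (αM : Hlc 𝒰 M n → TM)
    (αN : Hlc 𝒰 N n → TN) (ti : TM → TN) (tr : TN → TM) (htr : ∀ a, tr (ti a) = a)
    (hαi : ∀ x, ti (αM x) = αN (HlcMap 𝒰 i n x))
    (hαr : ∀ y, tr (αN y) = αM (HlcMap 𝒰 r n y))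
    (hN : Function.Bijective αN) : Function.Bijective αM := by
  constructor
  · intro x x' hxx'
    apply HlcMap_injective_of_retract 𝒰 i r h n
    apply hN.1
    rw [← hαi, ← hαi, hxx']
  · intro a
    obtain ⟨y, hy⟩ := hN.2 (ti a)
    exact ⟨HlcMap 𝒰 r n y, by rw [← hαr, hy, htr]⟩

end Retract

/-! ### Finite biproduct decompositions -/

section Decomp

variable {ι : Type*} [Fintype ι] {X : Rep.{u} k G} {M : ι → Rep.{u} k G}
  (π : ∀ i, X ⟶ M i) (σ : ∀ i, M i ⟶ X)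

variable {𝒰} in
/-- If every vector of `X` is a finite sum of images of vectors of discrete representations,
then `X` is discrete. -/
theorem IsDiscrete.of_forall_exists_sum [∀ i, IsDiscrete 𝒰 (M i)]
    (hX : ∀ x : X, ∃ y : ∀ i, M i, x = ∑ i, (σ i).hom (y i)) : IsDiscrete 𝒰 X where
  exists_fix x := by
    obtain ⟨y, rfl⟩ := hX x
    choose U hU hfix using fun i => IsDiscrete.exists_fix (𝒰 := 𝒰) (y i)
    obtain ⟨W, hW, hle, -, -⟩ :=
      𝒰.exists_normal_le_finite (Set.univ : Set ι) Set.finite_univ U (fun i _ => hU i)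
    refine ⟨W, hW, fun s hs => ?_⟩
    rw [map_sum]
    refine Finset.sum_congr rfl fun i _ => ?_
    rw [← Rep.hom_comm_apply, hfix i s (hle i (Set.mem_univ i) hs)]

variable (htot : ∑ i, π i ≫ σ i = 𝟙 X)

include htot in
lemma sum_hom_apply_eq (x : X) : x = ∑ i, (σ i).hom ((π i).hom x) := by
  have := congrArg (fun f : X ⟶ X => f.hom x) htot
  simp only [Rep.sum_hom, Representation.IntertwiningMap.sum_apply] at this
  exact this.symm

include htot in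
variable {𝒰} in
/-- A representation with a finite biproduct decomposition into discrete representations is
discrete. -/
theorem IsDiscrete.of_decomp [∀ i, IsDiscrete 𝒰 (M i)] : IsDiscrete 𝒰 X :=
  IsDiscrete.of_forall_exists_sum σ
    (fun x => ⟨fun i => (π i).hom x, sum_hom_apply_eq π σ htot x⟩)

variable [IsDiscrete 𝒰 X] [∀ i, IsDiscrete 𝒰 (M i)]
  (hself : ∀ i, σ i ≫ π i = 𝟙 _) (hne : ∀ i j, i ≠ j → σ i ≫ π j = 0)

include htot hself hne in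
/-- `Hlc` turns a finite biproduct decomposition of discrete representations into a product
decomposition: `Hlc X n ≃ ∏ Hlc (M i) n`, `x ↦ (Hlc(π i) x)_i`, with inverse
`y ↦ ∑ i, Hlc(σ i) (y i)`. -/
def HlcDecomp (n : ℕ) : Hlc 𝒰 X n ≃ₗ[k] ∀ i, Hlc 𝒰 (M i) n where
  toFun x i := HlcMap 𝒰 (π i) n x
  map_add' x y := by funext i; simp
  map_smul' c x := by funext i; simp
  invFun y := ∑ i, HlcMap 𝒰 (σ i) n (y i)
  left_inv x := by
    have h1 : ∀ i, HlcMap 𝒰 (σ i) n (HlcMap 𝒰 (π i) n x) = HlcMap 𝒰 (π i ≫ σ i) n x :=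
      fun i => (HlcMap_comp_apply 𝒰 (π i) (σ i) n x).symm
    simp only [h1]
    rw [← HlcMap_sum_apply, htot, HlcMap_id_apply]
  right_inv y := by
    classical
    funext j
    show HlcMap 𝒰 (π j) n (∑ i, HlcMap 𝒰 (σ i) n (y i)) = y j
    rw [map_sum, Finset.sum_eq_single j]
    · rw [← HlcMap_comp_apply, hself, HlcMap_id_apply]
    · intro i _ hij
      rw [← HlcMap_comp_apply, hne i j hij, HlcMap_zero_apply]
    · intro hj
      exact absurd (Finset.mem_univ j) hj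

@[simp]
lemma HlcDecomp_apply (n : ℕ) (x : Hlc 𝒰 X n) (i : ι) :
    HlcDecomp 𝒰 π σ htot hself hne n x i = HlcMap 𝒰 (π i) n x := rfl

lemma HlcDecomp_symm_apply (n : ℕ) (y : ∀ i, Hlc 𝒰 (M i) n) :
    (HlcDecomp 𝒰 π σ htot hself hne n).symm y = ∑ i, HlcMap 𝒰 (σ i) n (y i) := rfl

include htot hself hne in
/-- A class in `Hlc X n` vanishes iff all its components vanish. -/
theorem Hlc_eq_zero_iff_forall_proj (n : ℕ) (x : Hlc 𝒰 X n) :
    x = 0 ↔ ∀ i, HlcMap 𝒰 (π i) n x = 0 := by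
  rw [← (HlcDecomp 𝒰 π σ htot hself hne n).map_eq_zero_iff]
  exact funext_iff

include htot hself hne in
/-- Two classes in `Hlc X n` agree iff all their components agree. -/
theorem Hlc_ext_proj (n : ℕ) {x x' : Hlc 𝒰 X n}
    (hxx' : ∀ i, HlcMap 𝒰 (π i) n x = HlcMap 𝒰 (π i) n x') : x = x' :=
  (HlcDecomp 𝒰 π σ htot hself hne n).injective (funext hxx')

include htot hself hne in
/-- Every family of classes is the family of components of a unique class. -/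
theorem Hlc_existsUnique_proj (n : ℕ) (y : ∀ i, Hlc 𝒰 (M i) n) :
    ∃! x : Hlc 𝒰 X n, ∀ i, HlcMap 𝒰 (π i) n x = y i := by
  refine ⟨(HlcDecomp 𝒰 π σ htot hself hne n).symm y, fun i => ?_, fun x hx => ?_⟩
  · exact congrFun ((HlcDecomp 𝒰 π σ htot hself hne n).apply_symm_apply y) i
  · rw [LinearEquiv.eq_symm_apply]
    exact funext hx

include htot hself hne in
/-- `Hlc X n` vanishes iff all `Hlc (M i) n` vanish. -/
theorem isZero_Hlc_iff_forall (n : ℕ) :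
    Limits.IsZero (Hlc 𝒰 X n) ↔ ∀ i, Limits.IsZero (Hlc 𝒰 (M i) n) := by
  simp only [ModuleCat.isZero_iff_subsingleton]
  rw [(HlcDecomp 𝒰 π σ htot hself hne n).toEquiv.subsingleton_congr]
  constructor
  · intro h i
    classical
    refine ⟨fun a b => ?_⟩
    have := congrFun (h.elim (Pi.single i a) (Pi.single i b)) i
    simpa using this
  · intro h
    infer_instance

include htot hself hne in
/-- Cardinality of `Hlc` of a finite biproduct. -/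
theorem card_Hlc_decomp (n : ℕ) :
    Nat.card (Hlc 𝒰 X n) = ∏ i, Nat.card (Hlc 𝒰 (M i) n) := by
  rw [Nat.card_congr (HlcDecomp 𝒰 π σ htot hself hne n).toEquiv, Nat.card_pi]

end Decomp

/-! ### Binary biproduct decompositions -/

section Binary

variable {X M₁ M₂ : Rep.{u} k G} (π₁ : X ⟶ M₁) (π₂ : X ⟶ M₂) (σ₁ : M₁ ⟶ X) (σ₂ : M₂ ⟶ X)
  (htot : π₁ ≫ σ₁ + π₂ ≫ σ₂ = 𝟙 X)

include htot in
variable {𝒰} in
/-- A representation with a binary biproduct decomposition into discrete representations is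
discrete. -/
theorem IsDiscrete.of_decomp₂ [IsDiscrete 𝒰 M₁] [IsDiscrete 𝒰 M₂] : IsDiscrete 𝒰 X where
  exists_fix x := by
    have hx : x = σ₁.hom (π₁.hom x) + σ₂.hom (π₂.hom x) := by
      have := congrArg (fun f : X ⟶ X => f.hom x) htot
      exact this.symm
    obtain ⟨U₁, hU₁, h₁⟩ := IsDiscrete.exists_fix (𝒰 := 𝒰) (π₁.hom x)
    obtain ⟨U₂, hU₂, h₂⟩ := IsDiscrete.exists_fix (𝒰 := 𝒰) (π₂.hom x)
    obtain ⟨W, hW, hle⟩ := 𝒰.directed U₁ hU₁ U₂ hU₂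
    refine ⟨W, hW, fun s hs => ?_⟩
    have key : X.ρ s (σ₁.hom (π₁.hom x) + σ₂.hom (π₂.hom x)) =
        σ₁.hom (π₁.hom x) + σ₂.hom (π₂.hom x) := by
      rw [map_add, ← Rep.hom_comm_apply σ₁, ← Rep.hom_comm_apply σ₂,
        h₁ s (hle.trans inf_le_left hs), h₂ s (hle.trans inf_le_right hs)]
    rwa [← hx] at key

variable [IsDiscrete 𝒰 X] [IsDiscrete 𝒰 M₁] [IsDiscrete 𝒰 M₂]
  (h₁₁ : σ₁ ≫ π₁ = 𝟙 _) (h₂₂ : σ₂ ≫ π₂ = 𝟙 _) (h₁₂ : σ₁ ≫ π₂ = 0) (h₂₁ : σ₂ ≫ π₁ = 0)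

include htot h₁₁ h₂₂ h₁₂ h₂₁ in
/-- `Hlc` of a binary biproduct: `Hlc X n ≃ Hlc M₁ n × Hlc M₂ n`. -/
def HlcDecomp₂ (n : ℕ) : Hlc 𝒰 X n ≃ₗ[k] Hlc 𝒰 M₁ n × Hlc 𝒰 M₂ n where
  toFun x := (HlcMap 𝒰 π₁ n x, HlcMap 𝒰 π₂ n x)
  map_add' x y := by simp
  map_smul' c x := by simp
  invFun y := HlcMap 𝒰 σ₁ n y.1 + HlcMap 𝒰 σ₂ n y.2
  left_inv x := by
    show HlcMap 𝒰 σ₁ n (HlcMap 𝒰 π₁ n x) + HlcMap 𝒰 σ₂ n (HlcMap 𝒰 π₂ n x) = x
    rw [← HlcMap_comp_apply, ← HlcMap_comp_apply, ← HlcMap_add_apply, htot, HlcMap_id_apply]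
  right_inv y := by
    obtain ⟨y₁, y₂⟩ := y
    show (HlcMap 𝒰 π₁ n (HlcMap 𝒰 σ₁ n y₁ + HlcMap 𝒰 σ₂ n y₂),
      HlcMap 𝒰 π₂ n (HlcMap 𝒰 σ₁ n y₁ + HlcMap 𝒰 σ₂ n y₂)) = (y₁, y₂)
    rw [map_add, map_add, ← HlcMap_comp_apply, ← HlcMap_comp_apply, ← HlcMap_comp_apply,
      ← HlcMap_comp_apply, h₁₁, h₂₂, h₁₂, h₂₁, HlcMap_id_apply, HlcMap_id_apply,
      HlcMap_zero_apply, HlcMap_zero_apply, add_zero, zero_add]

@[simp]
lemma HlcDecomp₂_apply (n : ℕ) (x : Hlc 𝒰 X n) :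
    HlcDecomp₂ 𝒰 π₁ π₂ σ₁ σ₂ htot h₁₁ h₂₂ h₁₂ h₂₁ n x = (HlcMap 𝒰 π₁ n x, HlcMap 𝒰 π₂ n x) := rfl

lemma HlcDecomp₂_symm_apply (n : ℕ) (y : Hlc 𝒰 M₁ n × Hlc 𝒰 M₂ n) :
    (HlcDecomp₂ 𝒰 π₁ π₂ σ₁ σ₂ htot h₁₁ h₂₂ h₁₂ h₂₁ n).symm y =
      HlcMap 𝒰 σ₁ n y.1 + HlcMap 𝒰 σ₂ n y.2 := rfl

include htot h₁₁ h₂₂ h₁₂ h₂₁ in
theorem card_Hlc_decomp₂ (n : ℕ) :
    Nat.card (Hlc 𝒰 X n) = Nat.card (Hlc 𝒰 M₁ n) * Nat.card (Hlc 𝒰 M₂ n) := by
  rw [Nat.card_congr (HlcDecomp₂ 𝒰 π₁ π₂ σ₁ σ₂ htot h₁₁ h₂₂ h₁₂ h₂₁ n).toEquiv, Nat.card_prod]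

end Binary

end Fermat.Agent.GC.Prof
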