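/-
GATE-C / C1 (PROFCOH) leaf (L10) HLC-PROD, helper12: instances of `Prod.lean` for the concrete
products of representations in use: Mathlib's categorical biproducts `M ⊞ N`, `⨁ M` in `Rep k G`,
the concrete binary product `Rep.of (M.ρ.prod N.ρ)` and helper72's `Mackey.piRep`.
-/
import Fermat.Agent.GC.Prof.Prod
import Fermat.Agent.GC.Global.Mackey

set_option autoImplicit false

open CategoryTheory CategoryTheory.Limits

noncomputable section

namespace Fermat.Agent.GC.Prof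

universe u

variable {k G : Type u} [CommRing k] [Group G] (𝒰 : LevelSystem G)

/-! ### Mathlib's binary biproduct -/

section Biprod

variable (M N : Rep.{u} k G) [IsDiscrete 𝒰 M] [IsDiscrete 𝒰 N]

instance isDiscrete_biprod : IsDiscrete 𝒰 (M ⊞ N) :=
  IsDiscrete.of_decomp₂ biprod.fst biprod.snd biprod.inl biprod.inr biprod.total

/-- `Hlc (M ⊞ N) n ≃ Hlc M n × Hlc N n`. -/
def HlcBiprod (n : ℕ) : Hlc 𝒰 (M ⊞ N) n ≃ₗ[k] Hlc 𝒰 M n × Hlc 𝒰 N n :=
  HlcDecomp₂ 𝒰 biprod.fst biprod.snd biprod.inl biprod.inr biprod.total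
    biprod.inl_fst biprod.inr_snd biprod.inl_snd biprod.inr_fst n

@[simp]
lemma HlcBiprod_apply (n : ℕ) (x : Hlc 𝒰 (M ⊞ N) n) :
    HlcBiprod 𝒰 M N n x = (HlcMap 𝒰 biprod.fst n x, HlcMap 𝒰 biprod.snd n x) := rfl

lemma HlcBiprod_symm_apply (n : ℕ) (y : Hlc 𝒰 M n × Hlc 𝒰 N n) :
    (HlcBiprod 𝒰 M N n).symm y = HlcMap 𝒰 biprod.inl n y.1 + HlcMap 𝒰 biprod.inr n y.2 := rfl

end Biprod

/-! ### Mathlib's finite biproduct -/

section Biproduct

variable {ι : Type} [Fintype ι] (M : ι → Rep.{u} k G) [HasBiproduct M]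
  [∀ i, IsDiscrete 𝒰 (M i)]

instance isDiscrete_biproduct : IsDiscrete 𝒰 (⨁ M) :=
  IsDiscrete.of_decomp (biproduct.π M) (biproduct.ι M) (by classical exact biproduct.total (f := M))

/-- `Hlc (⨁ M) n ≃ ∏ i, Hlc (M i) n`. -/
def HlcBiproduct (n : ℕ) : Hlc 𝒰 (⨁ M) n ≃ₗ[k] ∀ i, Hlc 𝒰 (M i) n :=
  HlcDecomp 𝒰 (biproduct.π M) (biproduct.ι M) (by classical exact biproduct.total (f := M))
    (fun i => biproduct.ι_π_self M i) (fun i j hij => biproduct.ι_π_ne M hij) n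

@[simp]
lemma HlcBiproduct_apply (n : ℕ) (x : Hlc 𝒰 (⨁ M) n) (i : ι) :
    HlcBiproduct 𝒰 M n x i = HlcMap 𝒰 (biproduct.π M i) n x := rfl

end Biproduct

/-! ### The concrete binary product `Rep.of (M.ρ.prod N.ρ)` -/

section ProdRep

variable (M N : Rep.{u} k G)

/-- The concrete binary product of two representations, on `M × N`. -/
abbrev prodRep : Rep.{u} k G := Rep.of (M.ρ.prod N.ρ)

/-- First projection of `prodRep`. -/
def prodRepFst : prodRep M N ⟶ M := Rep.ofHom (σ := M.ρ) (Representation.IntertwiningMap.fst k M.ρ N.ρ)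

/-- Second projection of `prodRep`. -/
def prodRepSnd : prodRep M N ⟶ N := Rep.ofHom (σ := N.ρ) (Representation.IntertwiningMap.snd k M.ρ N.ρ)

/-- First injection of `prodRep`. -/
def prodRepInl : M ⟶ prodRep M N := Rep.ofHom (ρ := M.ρ) (Representation.IntertwiningMap.inl k M.ρ N.ρ)

/-- Second injection of `prodRep`. -/
def prodRepInr : N ⟶ prodRep M N := Rep.ofHom (ρ := N.ρ) (Representation.IntertwiningMap.inr k M.ρ N.ρ)

@[simp] lemma prodRepFst_hom_apply (x : M × N) : (prodRepFst M N).hom x = x.1 := rfl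
@[simp] lemma prodRepSnd_hom_apply (x : M × N) : (prodRepSnd M N).hom x = x.2 := rfl
@[simp] lemma prodRepInl_hom_apply (x : M) : (prodRepInl M N).hom x = (x, 0) := rfl
@[simp] lemma prodRepInr_hom_apply (x : N) : (prodRepInr M N).hom x = (0, x) := rfl

lemma prodRep_total :
    prodRepFst M N ≫ prodRepInl M N + prodRepSnd M N ≫ prodRepInr M N = 𝟙 (prodRep M N) := by
  refine Rep.hom_ext (Representation.IntertwiningMap.ext (LinearMap.ext fun x => ?_))
  show ((x.1, (0 : N)) + ((0 : M), x.2) : M × N) = x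
  simp

lemma prodRepInl_fst : prodRepInl M N ≫ prodRepFst M N = 𝟙 M := rfl
lemma prodRepInr_snd : prodRepInr M N ≫ prodRepSnd M N = 𝟙 N := rfl
lemma prodRepInl_snd : prodRepInl M N ≫ prodRepSnd M N = 0 := rfl
lemma prodRepInr_fst : prodRepInr M N ≫ prodRepFst M N = 0 := rfl

variable [IsDiscrete 𝒰 M] [IsDiscrete 𝒰 N]

instance isDiscrete_prodRep : IsDiscrete 𝒰 (prodRep M N) :=
  IsDiscrete.of_decomp₂ (prodRepFst M N) (prodRepSnd M N) (prodRepInl M N) (prodRepInr M N)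
    (prodRep_total M N)

/-- `Hlc (M × N) n ≃ Hlc M n × Hlc N n`. -/
def HlcProd (n : ℕ) : Hlc 𝒰 (prodRep M N) n ≃ₗ[k] Hlc 𝒰 M n × Hlc 𝒰 N n :=
  HlcDecomp₂ 𝒰 (prodRepFst M N) (prodRepSnd M N) (prodRepInl M N) (prodRepInr M N)
    (prodRep_total M N) (prodRepInl_fst M N) (prodRepInr_snd M N) (prodRepInl_snd M N)
    (prodRepInr_fst M N) n

@[simp]
lemma HlcProd_apply (n : ℕ) (x : Hlc 𝒰 (prodRep M N) n) :
    HlcProd 𝒰 M N n x = (HlcMap 𝒰 (prodRepFst M N) n x, HlcMap 𝒰 (prodRepSnd M N) n x) := rfl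

end ProdRep

/-! ### helper72's finite product `Mackey.piRep` -/

section PiRep

open Fermat.Agent.GC.Global.Mackey

variable {ι : Type u} [Fintype ι] [DecidableEq ι] (M : ι → Rep.{u} k G)
  [∀ i, IsDiscrete 𝒰 (M i)]

instance isDiscrete_piRep : IsDiscrete 𝒰 (piRep M) :=
  IsDiscrete.of_decomp (piProj M) (piInj M) (sum_piProj_piInj M)

/-- `Hlc (∏ M) n ≃ ∏ i, Hlc (M i) n`. -/
def HlcPi (n : ℕ) : Hlc 𝒰 (piRep M) n ≃ₗ[k] ∀ i, Hlc 𝒰 (M i) n :=
  HlcDecomp 𝒰 (piProj M) (piInj M) (sum_piProj_piInj M) (piInj_piProj_self M)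
    (fun _ _ hij => piInj_piProj_of_ne M hij) n

@[simp]
lemma HlcPi_apply (n : ℕ) (x : Hlc 𝒰 (piRep M) n) (i : ι) :
    HlcPi 𝒰 M n x i = HlcMap 𝒰 (piProj M i) n x := rfl

lemma HlcPi_symm_apply (n : ℕ) (y : ∀ i, Hlc 𝒰 (M i) n) :
    (HlcPi 𝒰 M n).symm y = ∑ i, HlcMap 𝒰 (piInj M i) n (y i) := rfl

end PiRep

end Fermat.Agent.GC.Prof
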