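/-
GATE-C / C1 (PROFCOH) leaf (L12) COIND-DUAL, helper5.

For a finite index subgroup `S ≤ G`, a character `χ : G →* kˣ` and a representation `N` of `S`:
the evaluation pairing
`⟨Φ, Ψ⟩ = ∑_{Sg ∈ S\G} χ(g)⁻¹ • Ψ(g)(Φ(g))` between `coind_S^G N` and
`coind_S^G (N.dualTwist χ|_S)`, its `G`-equivariance `⟨xΦ, xΨ⟩ = χ(x) ⟨Φ, Ψ⟩`, and the resulting
isomorphism `coind_S^G (N.dualTwist χ|_S) ≅ (coind_S^G N).dualTwist χ` ("Ind(N)* = Ind(N*)").
Mathlib + the prelude's `Rep.dualTwist` only.
-/
import Mathlib
import Fermat.Prelude.Def_GroupCohomology_Selmer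

set_option autoImplicit false

open CategoryTheory

noncomputable section

namespace Fermat.Agent.GC.Prof

universe u

open Rep

/-! ### Functoriality of the twisted dual, and the double dual -/

section DualTwist

variable {k G : Type u} [CommRing k] [Group G] (χ : G →* kˣ)

/-- The transpose of a morphism of representations, between the twisted duals. -/
def dualTwistMap {A B : Rep.{u} k G} (f : A ⟶ B) : B.dualTwist χ ⟶ A.dualTwist χ :=
  Rep.ofHom ⟨Module.Dual.transpose f.hom.toLinearMap, fun g => by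
    ext φ a
    show (χ g : k) • (φ : Module.Dual k B) (B.ρ g⁻¹ (f.hom a)) =
      (χ g : k) • (φ : Module.Dual k B) (f.hom (A.ρ g⁻¹ a))
    rw [Rep.hom_comm_apply]⟩

lemma dualTwistMap_apply {A B : Rep.{u} k G} (f : A ⟶ B) (φ : B.dualTwist χ) (a : A) :
    ((dualTwistMap χ f).hom φ : Module.Dual k A) a = (φ : Module.Dual k B) (f.hom a) := rfl

lemma dualTwistMap_id (A : Rep.{u} k G) : dualTwistMap χ (𝟙 A) = 𝟙 _ := rfl

lemma dualTwistMap_comp {A B C : Rep.{u} k G} (f : A ⟶ B) (g : B ⟶ C) :
    dualTwistMap χ (f ≫ g) = dualTwistMap χ g ≫ dualTwistMap χ f := rfl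

/-- The evaluation map into the double twisted dual. -/
def dualTwistEval (A : Rep.{u} k G) : A ⟶ (A.dualTwist χ).dualTwist χ :=
  Rep.ofHom ⟨Module.Dual.eval k A, fun g => by
    ext a φ
    show (φ : Module.Dual k A) (A.ρ g a) =
      (χ g : k) • ((χ g⁻¹ : k) • (φ : Module.Dual k A) (A.ρ g⁻¹⁻¹ a))
    rw [smul_smul, ← Units.val_mul, ← map_mul, mul_inv_cancel, map_one, Units.val_one, one_smul,
      inv_inv]⟩

lemma dualTwistEval_apply (A : Rep.{u} k G) (a : A) (φ : A.dualTwist χ) :
    (((dualTwistEval χ A).hom a : Module.Dual k (Module.Dual k A)) : Module.Dual k A → k)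
      (φ : Module.Dual k A) = (φ : Module.Dual k A) a := rfl

lemma dualTwistEval_bijective {k : Type u} [Field k] (χ : G →* kˣ) (A : Rep.{u} k G)
    [FiniteDimensional k A] : Function.Bijective (dualTwistEval χ A).hom :=
  Module.bijective_dual_eval k A

end DualTwist

variable {k G : Type u} [CommRing k] [Group G] (S : Subgroup G) (χ : G →* kˣ) (N : Rep.{u} k S)

/-- The twisted dual of an `S`-representation, for the restriction to `S` of a character of `G`. -/
abbrev dualTw : Rep.{u} k S := N.dualTwist (χ.comp S.subtype)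

variable {S N}

lemma coind_apply_mul (Φ : coind S.subtype N) (s : S) (g : G) :
    Φ.1 ((s : G) * g) = N.ρ s (Φ.1 g) := Φ.2 s g

lemma coind_dualTw_apply_mul (Ψ : coind S.subtype (dualTw S χ N)) (s : S) (g : G) (n : N) :
    (Ψ.1 ((s : G) * g) : Module.Dual k N) n =
      (χ s : k) • (Ψ.1 g : Module.Dual k N) (N.ρ s⁻¹ n) := by
  have h := Ψ.2 s g
  have h' : Ψ.1 ((s : G) * g) = (dualTw S χ N).ρ s (Ψ.1 g) := h
  rw [h']
  rfl

/-- The summand of the evaluation pairing. -/
def coindPairFun (Φ : coind S.subtype N) (Ψ : coind S.subtype (dualTw S χ N)) (g : G) : k :=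
  ((χ g)⁻¹ : kˣ) • (Ψ.1 g : Module.Dual k N) (Φ.1 g)

lemma coindPairFun_mul (Φ : coind S.subtype N) (Ψ : coind S.subtype (dualTw S χ N)) (s : S)
    (g : G) : coindPairFun χ Φ Ψ ((s : G) * g) = coindPairFun χ Φ Ψ g := by
  unfold coindPairFun
  rw [coind_dualTw_apply_mul, coind_apply_mul, ← Module.End.mul_apply, ← map_mul, inv_mul_cancel,
    map_one, Module.End.one_apply, ← Units.smul_def, smul_smul, map_mul, mul_inv_rev,
    inv_mul_cancel_right]

lemma coindPairFun_rel (Φ : coind S.subtype N) (Ψ : coind S.subtype (dualTw S χ N)) (g₁ g₂ : G)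
    (h : (QuotientGroup.rightRel S).r g₁ g₂) : coindPairFun χ Φ Ψ g₁ = coindPairFun χ Φ Ψ g₂ := by
  obtain ⟨s, rfl⟩ := h
  exact coindPairFun_mul χ Φ Ψ s g₂

lemma coindPairFun_add_left (Φ Φ' : coind S.subtype N) (Ψ : coind S.subtype (dualTw S χ N))
    (g : G) : coindPairFun χ (Φ + Φ') Ψ g = coindPairFun χ Φ Ψ g + coindPairFun χ Φ' Ψ g := by
  unfold coindPairFun
  rw [← smul_add, ← map_add]
  rfl

lemma coindPairFun_smul_left (c : k) (Φ : coind S.subtype N)
    (Ψ : coind S.subtype (dualTw S χ N)) (g : G) :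
    coindPairFun χ (c • Φ) Ψ g = c • coindPairFun χ Φ Ψ g := by
  show ((χ g)⁻¹ : kˣ) • (Ψ.1 g : Module.Dual k N) (c • Φ.1 g) =
    c • (((χ g)⁻¹ : kˣ) • (Ψ.1 g : Module.Dual k N) (Φ.1 g))
  rw [map_smul, smul_comm]

lemma coindPairFun_add_right (Φ : coind S.subtype N) (Ψ Ψ' : coind S.subtype (dualTw S χ N))
    (g : G) : coindPairFun χ Φ (Ψ + Ψ') g = coindPairFun χ Φ Ψ g + coindPairFun χ Φ Ψ' g := by
  unfold coindPairFun
  rw [← smul_add]
  rfl

lemma coindPairFun_smul_right (c : k) (Φ : coind S.subtype N)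
    (Ψ : coind S.subtype (dualTw S χ N)) (g : G) :
    coindPairFun χ Φ (c • Ψ) g = c • coindPairFun χ Φ Ψ g := by
  unfold coindPairFun
  rw [smul_comm c]
  rfl

/-- The action of `x : G` on the summand. -/
lemma coindPairFun_ρ (Φ : coind S.subtype N) (Ψ : coind S.subtype (dualTw S χ N)) (x g : G) :
    coindPairFun χ ((coind S.subtype N).ρ x Φ) ((coind S.subtype (dualTw S χ N)).ρ x Ψ) g =
      (χ x : k) • coindPairFun χ Φ Ψ (g * x) := by
  unfold coindPairFun
  show ((χ g)⁻¹ : kˣ) • (Ψ.1 (g * x) : Module.Dual k N) (Φ.1 (g * x)) = _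
  rw [← Units.smul_def, smul_smul, map_mul, mul_inv_rev, mul_inv_cancel_left]

variable [S.FiniteIndex]

attribute [local instance] Subgroup.fintypeQuotientOfFiniteIndex

/-- The evaluation pairing `⟨Φ, Ψ⟩ = ∑_{Sg} χ(g)⁻¹ • Ψ(g)(Φ(g))` between `coind_S^G N` and
`coind_S^G N*`. -/
def coindPair (Φ : coind S.subtype N) (Ψ : coind S.subtype (dualTw S χ N)) : k :=
  ∑ q : Quotient (QuotientGroup.rightRel S),
    Quotient.liftOn q (coindPairFun χ Φ Ψ) (coindPairFun_rel χ Φ Ψ)

/-- Right multiplication on right cosets. -/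
def rightCosetMul (x : G) :
    Quotient (QuotientGroup.rightRel S) ≃ Quotient (QuotientGroup.rightRel S) where
  toFun := Quotient.map' (· * x) (by
    rintro _ g ⟨s, rfl⟩
    exact ⟨s, by simp [Subgroup.smul_def, mul_assoc]⟩)
  invFun := Quotient.map' (· * x⁻¹) (by
    rintro _ g ⟨s, rfl⟩
    exact ⟨s, by simp [Subgroup.smul_def, mul_assoc]⟩)
  left_inv q := by
    induction q using Quotient.inductionOn with | h g => ?_
    simp [Quotient.map'_mk'']
  right_inv q := by
    induction q using Quotient.inductionOn with | h g => ?_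
    simp [Quotient.map'_mk'']

/-- **Equivariance of the evaluation pairing**: `⟨xΦ, xΨ⟩ = χ(x) ⟨Φ, Ψ⟩`. -/
theorem coindPair_ρ (Φ : coind S.subtype N) (Ψ : coind S.subtype (dualTw S χ N)) (x : G) :
    coindPair χ ((coind S.subtype N).ρ x Φ) ((coind S.subtype (dualTw S χ N)).ρ x Ψ) =
      (χ x : k) • coindPair χ Φ Ψ := by
  unfold coindPair
  rw [Finset.smul_sum]
  refine Eq.trans ?_ (Equiv.sum_comp (rightCosetMul (S := S) x) _)
  refine Finset.sum_congr rfl fun q _ => ?_
  induction q using Quotient.inductionOn with | h g => ?_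
  exact coindPairFun_ρ χ Φ Ψ x g

variable (S N) in
/-- The evaluation pairing as a bilinear map `Ψ ↦ Φ ↦ ⟨Φ, Ψ⟩`. -/
def coindPairing : coind S.subtype (dualTw S χ N) →ₗ[k] coind S.subtype N →ₗ[k] k :=
  LinearMap.mk₂ k (fun Ψ Φ => coindPair χ Φ Ψ)
    (fun Ψ Ψ' Φ => by
      unfold coindPair
      rw [← Finset.sum_add_distrib]
      refine Finset.sum_congr rfl fun q _ => ?_
      induction q using Quotient.inductionOn with | h g => ?_
      exact coindPairFun_add_right χ Φ Ψ Ψ' g)
    (fun c Ψ Φ => by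
      unfold coindPair
      rw [Finset.smul_sum]
      refine Finset.sum_congr rfl fun q _ => ?_
      induction q using Quotient.inductionOn with | h g => ?_
      exact coindPairFun_smul_right χ c Φ Ψ g)
    (fun Ψ Φ Φ' => by
      unfold coindPair
      rw [← Finset.sum_add_distrib]
      refine Finset.sum_congr rfl fun q _ => ?_
      induction q using Quotient.inductionOn with | h g => ?_
      exact coindPairFun_add_left χ Φ Φ' Ψ g)
    (fun c Ψ Φ => by
      unfold coindPair
      rw [Finset.smul_sum]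
      refine Finset.sum_congr rfl fun q _ => ?_
      induction q using Quotient.inductionOn with | h g => ?_
      exact coindPairFun_smul_left χ c Φ Ψ g)

@[simp]
lemma coindPairing_apply (Ψ : coind S.subtype (dualTw S χ N)) (Φ : coind S.subtype N) :
    coindPairing S χ N Ψ Φ = coindPair χ Φ Ψ := rfl

variable (S N) in
/-- The morphism of `G`-representations `coind_S^G (N*) ⟶ (coind_S^G N)*`, `Ψ ↦ ⟨·, Ψ⟩`. -/
def coindDualHom : coind S.subtype (dualTw S χ N) ⟶ (coind S.subtype N).dualTwist χ :=
  Rep.ofHom ⟨coindPairing S χ N, fun x => by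
    ext Ψ Φ
    show coindPair χ Φ ((coind S.subtype (dualTw S χ N)).ρ x Ψ) =
      (χ x : k) • coindPair χ ((coind S.subtype N).ρ x⁻¹ Φ) Ψ
    rw [← coindPair_ρ χ _ Ψ x, ← Module.End.mul_apply, ← map_mul, mul_inv_cancel, map_one,
      Module.End.one_apply]⟩

lemma coindDualHom_apply (Ψ : coind S.subtype (dualTw S χ N)) (Φ : coind S.subtype N) :
    ((coindDualHom S χ N).hom Ψ : Module.Dual k (coind S.subtype N)) Φ = coindPair χ Φ Ψ := rfl

/-! ### The pairing is perfect: `coind_S^G (N*) ≅ (coind_S^G N)*` -/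

section Perfect

open scoped Classical in
variable (N) in
/-- The element of `coind_S^G N` supported on the right coset `S g`, with value `n` at `g`
(Mathlib's `indToCoindAux`), linear in `n`. -/
def coindDelta (g : G) : N →ₗ[k] coind S.subtype N :=
  LinearMap.codRestrict _ (indToCoindAux N g) fun n s g₁ => by simp

omit [S.FiniteIndex] in
open scoped Classical in
lemma coindDelta_apply (g : G) (n : N) (g₁ : G) :
    ((coindDelta N g n : coind S.subtype N).1 : G → N) g₁ = indToCoindAux N g n g₁ := rfl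

omit [S.FiniteIndex] in
lemma coindDelta_self (g : G) (n : N) : ((coindDelta N g n : coind S.subtype N).1 : G → N) g = n := by
  classical
  rw [coindDelta_apply, indToCoindAux_self]

omit [S.FiniteIndex] in
lemma coindDelta_of_not_rel (g g₁ : G) (n : N) (h : ¬ (QuotientGroup.rightRel S).r g₁ g) :
    ((coindDelta N g n : coind S.subtype N).1 : G → N) g₁ = 0 := by
  classical
  rw [coindDelta_apply, indToCoindAux_of_not_rel _ _ _ h]

omit [S.FiniteIndex] in
lemma coindDelta_mul (g : G) (s : S) (n : N) :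
    coindDelta N ((s : G) * g) (N.ρ s n) = coindDelta N g n := by
  classical
  apply Subtype.ext
  funext g₁
  rw [coindDelta_apply, coindDelta_apply, indToCoindAux_mul_fst]

lemma coindPair_coindDelta (Ψ : coind S.subtype (dualTw S χ N)) (g₀ : G) (n : N) :
    coindPair χ (coindDelta N g₀ n) Ψ = ((χ g₀)⁻¹ : kˣ) • (Ψ.1 g₀ : Module.Dual k N) n := by
  unfold coindPair
  rw [Finset.sum_eq_single (⟦g₀⟧ : Quotient (QuotientGroup.rightRel S))]
  · show coindPairFun χ (coindDelta N g₀ n) Ψ g₀ = _
    unfold coindPairFun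
    rw [coindDelta_self]
  · intro q _ hq
    induction q using Quotient.inductionOn with | h g => ?_
    show coindPairFun χ (coindDelta N g₀ n) Ψ g = 0
    unfold coindPairFun
    rw [coindDelta_of_not_rel g₀ g n (fun h => hq (Quotient.sound h)), map_zero, smul_zero]
  · intro h
    exact absurd (Finset.mem_univ _) h

/-- Every element of `coind_S^G N` is the sum of its restrictions to the right cosets. -/
lemma coind_eq_sum_coindDelta (Φ : coind S.subtype N) :
    Φ = ∑ q : Quotient (QuotientGroup.rightRel S),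
      Quotient.liftOn q (fun g => coindDelta N g (Φ.1 g)) (by
        rintro _ g ⟨s, rfl⟩
        show coindDelta N ((s : G) * g) (Φ.1 ((s : G) * g)) = coindDelta N g (Φ.1 g)
        rw [coind_apply_mul, coindDelta_mul]) := by
  apply Subtype.ext
  funext g
  rw [AddSubmonoidClass.coe_finsetSum, Finset.sum_apply,
    Finset.sum_eq_single (⟦g⟧ : Quotient (QuotientGroup.rightRel S))]
  · exact (coindDelta_self g (Φ.1 g)).symm
  · intro q _ hq
    induction q using Quotient.inductionOn with | h g' => ?_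
    exact coindDelta_of_not_rel g' g _ (fun h => hq (Quotient.sound h).symm)
  · intro h
    exact absurd (Finset.mem_univ _) h

theorem coindDualHom_injective : Function.Injective (coindDualHom S χ N).hom := by
  rw [injective_iff_map_eq_zero]
  intro Ψ hΨ
  apply Subtype.ext
  funext g₀
  apply LinearMap.ext
  intro n
  have h1 : coindPair χ (coindDelta N g₀ n) Ψ = 0 := by
    rw [← coindDualHom_apply, hΨ]
    rfl
  rw [coindPair_coindDelta] at h1
  have h2 := congrArg (fun c => (χ g₀ : kˣ) • c) h1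
  simp only [smul_smul, mul_inv_cancel, one_smul, smul_zero] at h2
  exact h2

/-- The inverse construction: a linear form `λ` on `coind_S^G N` gives the element
`g ↦ χ(g) • (λ ∘ δ_g)` of `coind_S^G (N*)`. -/
def coindDualInv (l : Module.Dual k (coind S.subtype N)) : coind S.subtype (dualTw S χ N) :=
  ⟨fun g => ((χ g : k) • (l ∘ₗ coindDelta N g) : Module.Dual k N), by
    intro s g
    apply LinearMap.ext
    intro n
    show (χ ((s : G) * g) : k) • l (coindDelta N ((s : G) * g) n) =
      (χ (s : G) : k) • ((χ g : k) • l (coindDelta N g (N.ρ s⁻¹ n)))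
    have h1 : coindDelta N ((s : G) * g) n = coindDelta N g (N.ρ s⁻¹ n) := by
      have := coindDelta_mul g s (N.ρ s⁻¹ n)
      rwa [← Module.End.mul_apply, ← map_mul, mul_inv_cancel, map_one, Module.End.one_apply]
        at this
    rw [h1, map_mul, Units.val_mul, mul_smul]⟩

omit [S.FiniteIndex] in
lemma coindDualInv_apply (l : Module.Dual k (coind S.subtype N)) (g : G) (n : N) :
    ((coindDualInv χ l).1 g : Module.Dual k N) n = (χ g : k) • l (coindDelta N g n) := rfl

theorem coindPair_coindDualInv (l : Module.Dual k (coind S.subtype N))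
    (Φ : coind S.subtype N) : coindPair χ Φ (coindDualInv χ l) = l Φ := by
  conv_rhs => rw [coind_eq_sum_coindDelta Φ, map_sum]
  unfold coindPair
  refine Finset.sum_congr rfl fun q _ => ?_
  induction q using Quotient.inductionOn with | h g => ?_
  show coindPairFun χ Φ (coindDualInv χ l) g = l (coindDelta N g (Φ.1 g))
  unfold coindPairFun
  rw [coindDualInv_apply, ← Units.smul_def, smul_smul, inv_mul_cancel, one_smul]

theorem coindDualHom_surjective : Function.Surjective (coindDualHom S χ N).hom := by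
  intro l
  refine ⟨coindDualInv χ l, ?_⟩
  apply LinearMap.ext
  intro Φ
  exact coindPair_coindDualInv χ l Φ

theorem coindDualHom_bijective : Function.Bijective (coindDualHom S χ N).hom :=
  ⟨coindDualHom_injective χ, coindDualHom_surjective χ⟩

instance : IsIso (coindDualHom S χ N) := by
  have : Mono (coindDualHom S χ N) := (Rep.mono_iff_injective _).2 (coindDualHom_injective χ)
  have : Epi (coindDualHom S χ N) := (Rep.epi_iff_surjective _).2 (coindDualHom_surjective χ)
  exact isIso_of_mono_of_epi _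

variable (S N) in
/-- **`Ind(N)* = Ind(N*)`**: the isomorphism of `G`-representations
`coind_S^G (N.dualTwist χ|_S) ≅ (coind_S^G N).dualTwist χ` given by the evaluation pairing. -/
def coindDualIso : coind S.subtype (dualTw S χ N) ≅ (coind S.subtype N).dualTwist χ :=
  asIso (coindDualHom S χ N)

@[simp]
lemma coindDualIso_hom : (coindDualIso S χ N).hom = coindDualHom S χ N := rfl

end Perfect

/-! ### Naturality in `N` -/

/-- Naturality of the evaluation pairing: `⟨f ∘ Φ, Ψ'⟩ = ⟨Φ, fᵗ ∘ Ψ'⟩`. -/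
theorem coindPair_coindMap {N' : Rep.{u} k S} (f : N ⟶ N') (Φ : coind S.subtype N)
    (Ψ' : coind S.subtype (dualTw S χ N')) :
    coindPair χ ((coindMap S.subtype f).hom Φ) Ψ' =
      coindPair χ Φ ((coindMap S.subtype (dualTwistMap (χ.comp S.subtype) f)).hom Ψ') := rfl

/-! ### Compatibility with evaluation at `1` (the coefficient map of the Shapiro morphism) -/

omit [S.FiniteIndex] in
/-- The summand of the evaluation pairing in terms of evaluation at `1` of the translates:
`χ(g)⁻¹ • ev₁(g • Ψ)(ev₁(g • Φ))`. -/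
lemma coindPairFun_eq_ev (Φ : coind S.subtype N) (Ψ : coind S.subtype (dualTw S χ N)) (g : G) :
    coindPairFun χ Φ Ψ g =
      ((χ g)⁻¹ : kˣ) • ((((coind S.subtype (dualTw S χ N)).ρ g Ψ).1 1 : Module.Dual k N)
        (((coind S.subtype N).ρ g Φ).1 1)) := by
  unfold coindPairFun
  show _ = ((χ g)⁻¹ : kˣ) • ((Ψ.1 (1 * g) : Module.Dual k N) (Φ.1 (1 * g)))
  rw [one_mul]

end Fermat.Agent.GC.Prof
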