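/-
GATE-C / C1 (PROFCOH), leaf (L5) COR (helper20): restriction and corestriction for `Hlc` along an
OPEN subgroup `S ≤ G`, via Shapiro (`Shapiro.lean`) and helper52's unit/trace of `Res ⊣ Coind`.

* `HlcMap_nsmul`, `HlcMap_add`, `HlcMap_smul` : additivity / linearity of `HlcMap` in the morphism;
* `HlcResS A n : Hlc 𝒰 A n ⟶ Hlc 𝒰_S (Res_S A) n`  (= helper5's `HlcRes` along `S.subtype`);
* `HlcMap_coindUnit_comp_HlcShapiro : HlcMap (coindUnit S A) ≫ HlcShapiro = HlcResS`;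
* `HlcCor hS A n : Hlc 𝒰_S (Res_S A) n ⟶ Hlc 𝒰 A n := Shapiro⁻¹ ≫ HlcMap (coindTrace S A)`;
* **`HlcResS_comp_HlcCor : HlcResS A n ≫ HlcCor hS A n = S.index • 𝟙`**, `HlcCor_HlcResS_apply`;
* `index_nsmul_eq_zero_of_HlcResS_eq_zero` : `res x = 0 → [G:S] • x = 0`;
* `HlcResS_injective_of_isUnit` : `res` is injective when `[G:S]` is invertible in `k`.
-/
import Fermat.Agent.GC.Prof.Shapiro

set_option autoImplicit false

open CategoryTheory

noncomputable section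

namespace Fermat.Agent.GC.Prof

open Fermat.Agent.GC.Tate

universe u

variable {k G : Type u} [CommRing k] [Group G] {𝒰 : LevelSystem G}

section Additive

variable {M N : Rep.{u} k G} [IsDiscrete 𝒰 M] [IsDiscrete 𝒰 N]

theorem lcMap_add (φ ψ : M ⟶ N) : lcMap 𝒰 (φ + ψ) = lcMap 𝒰 φ + lcMap 𝒰 ψ := by
  ext n f : 3
  rfl

theorem lcMap_nsmul (m : ℕ) (φ : M ⟶ N) : lcMap 𝒰 (m • φ) = m • lcMap 𝒰 φ := by
  induction m with
  | zero => rw [zero_smul, zero_smul, lcMap_zero]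
  | succ m ih => rw [succ_nsmul, succ_nsmul, lcMap_add, ih]

theorem HlcMap_add (φ ψ : M ⟶ N) (n : ℕ) :
    HlcMap 𝒰 (φ + ψ) n = HlcMap 𝒰 φ n + HlcMap 𝒰 ψ n := by
  unfold HlcMap
  rw [lcMap_add]
  exact HomologicalComplex.homologyMap_add _ _ n

theorem HlcMap_zero (n : ℕ) : HlcMap 𝒰 (0 : M ⟶ N) n = 0 := by
  unfold HlcMap
  rw [lcMap_zero]
  exact HomologicalComplex.homologyMap_zero _ _ n

theorem HlcMap_nsmul (m : ℕ) (φ : M ⟶ N) (n : ℕ) :
    HlcMap 𝒰 (m • φ) n = m • HlcMap 𝒰 φ n := by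
  induction m with
  | zero => rw [zero_smul, zero_smul, HlcMap_zero]
  | succ m ih => rw [succ_nsmul, succ_nsmul, HlcMap_add, ih]

end Additive

section ResCor

variable {S : Subgroup G} (A : Rep.{u} k G) [IsDiscrete 𝒰 A]
  [IsDiscrete (𝒰.comap S.subtype) (Rep.res S.subtype A)]
  [IsDiscrete 𝒰 (Rep.coind S.subtype (Rep.res S.subtype A))]

/-- restriction to an (open) subgroup -/
def HlcResS (n : ℕ) : Hlc 𝒰 A n ⟶ Hlc (𝒰.comap S.subtype) (Rep.res S.subtype A) n :=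
  HlcRes (isContHom_comap S.subtype 𝒰) A n

/-- `res = (unit of Res ⊣ Coind) ≫ Shapiro` -/
theorem HlcMap_coindUnit_comp_HlcShapiro (n : ℕ) :
    HlcMap 𝒰 (coindUnit S A) n ≫ HlcShapiro 𝒰 S (Rep.res S.subtype A) n =
      HlcResS (S := S) A n := by
  unfold HlcShapiro HlcResS HlcRes
  rw [HlcMap_comp_HlcPull]
  refine congrArg (fun ψ => HlcPull (isContHom_comap S.subtype 𝒰) ψ n) ?_
  ext a
  change ((coindUnit S A).hom a).1 1 = a
  rw [coindUnit_hom_apply]
  simp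

variable (hS : IsOpenSub 𝒰 S) [S.FiniteIndex]

/-- corestriction from an open subgroup: Shapiro⁻¹ followed by the trace -/
def HlcCor (n : ℕ) : Hlc (𝒰.comap S.subtype) (Rep.res S.subtype A) n ⟶ Hlc 𝒰 A n :=
  (HlcShapiroIso hS n (Rep.res S.subtype A)).inv ≫ HlcMap 𝒰 (coindTrace S A) n

/-- **`res ≫ cor = [G:S]`** -/
theorem HlcResS_comp_HlcCor (n : ℕ) :
    HlcResS (S := S) A n ≫ HlcCor A hS n = S.index • 𝟙 (Hlc 𝒰 A n) := by
  unfold HlcCor
  rw [← HlcMap_coindUnit_comp_HlcShapiro, ← HlcShapiroIso_hom hS, Category.assoc,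
    Iso.hom_inv_id_assoc, ← HlcMap_comp, coindUnit_comp_coindTrace_nsmul, HlcMap_nsmul, HlcMap_id]

theorem HlcCor_HlcResS_apply (n : ℕ) (x : Hlc 𝒰 A n) :
    HlcCor A hS n (HlcResS (S := S) A n x) = S.index • x := by
  have := congr($(HlcResS_comp_HlcCor A hS n) x)
  simpa using this

include hS in
/-- `res x = 0 → [G:S] • x = 0` -/
theorem index_nsmul_eq_zero_of_HlcResS_eq_zero (n : ℕ) (x : Hlc 𝒰 A n)
    (hx : HlcResS (S := S) A n x = 0) : S.index • x = 0 := by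
  rw [← HlcCor_HlcResS_apply A hS n x, hx, map_zero]

include hS in
/-- restriction to an open subgroup whose index is invertible in `k` is injective -/
theorem HlcResS_injective_of_isUnit (hu : IsUnit (S.index : k)) (n : ℕ) :
    Function.Injective (HlcResS (S := S) (𝒰 := 𝒰) A n) := by
  rw [injective_iff_map_eq_zero]
  intro x hx
  have h := index_nsmul_eq_zero_of_HlcResS_eq_zero A hS n x hx
  rw [← Nat.cast_smul_eq_nsmul k] at h
  obtain ⟨c, hc⟩ := hu
  have : (c⁻¹ : kˣ) • ((S.index : k) • x) = 0 := by rw [h, smul_zero]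
  rwa [← hc, Units.smul_def, smul_smul, Units.inv_mul, one_smul] at this

end ResCor

end Fermat.Agent.GC.Prof
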