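/-
GATE-C / C1 leaf (L7) CUP, part 3 (helper2): ABSTRACT cup products.
A `CupData C D E` is a family of bilinear maps `C^i × D^j → E^n` (`i + j = n`) on cochain complexes
of `k`-modules satisfying the Leibniz rule `d (a ∪ b) = (d a) ∪ b + (-1)^i • a ∪ (d b)`.
It induces `cupH : H^i(C) × H^j(D) → H^n(E)` (computed on representatives via helper20's
`Elt.hMk`), natural for morphisms of cup data, and compatible with connecting homomorphisms.
namespace Fermat.Agent.GC.Prof.CupAbs.   Imports Mathlib + GC.Prof.HElt.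
-/
import Mathlib
import Fermat.Agent.GC.Prof.HElt

set_option autoImplicit false

open CategoryTheory

noncomputable section

namespace Fermat.Agent.GC.Prof.CupAbs

universe v u

/-! ### descending a bilinear map along two surjections -/

section lift

variable {k : Type*} [CommRing k] {Z₁ Z₂ H₁ H₂ H₃ : Type*}
  [AddCommGroup Z₁] [Module k Z₁] [AddCommGroup Z₂] [Module k Z₂]
  [AddCommGroup H₁] [Module k H₁] [AddCommGroup H₂] [Module k H₂] [AddCommGroup H₃] [Module k H₃]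
  (π₁ : Z₁ →ₗ[k] H₁) (π₂ : Z₂ →ₗ[k] H₂)
  (hπ₁ : Function.Surjective π₁) (hπ₂ : Function.Surjective π₂)
  (β : Z₁ →ₗ[k] Z₂ →ₗ[k] H₃)
  (h₁ : ∀ z₁, π₁ z₁ = 0 → ∀ z₂, β z₁ z₂ = 0) (h₂ : ∀ z₁ z₂, π₂ z₂ = 0 → β z₁ z₂ = 0)

include h₁ h₂ in
lemma liftBilin_wd {z₁ z₁' : Z₁} {z₂ z₂' : Z₂} (e₁ : π₁ z₁ = π₁ z₁') (e₂ : π₂ z₂ = π₂ z₂') :
    β z₁ z₂ = β z₁' z₂' := by
  have a : β (z₁ - z₁') z₂ = 0 := h₁ _ (by rw [map_sub, e₁, sub_self]) _
  have b : β z₁' (z₂ - z₂') = 0 := h₂ _ _ (by rw [map_sub, e₂, sub_self])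
  rw [map_sub, LinearMap.sub_apply, sub_eq_zero] at a
  rw [map_sub, sub_eq_zero] at b
  rw [a, b]

/-- a bilinear map on `Z₁ × Z₂` killing `ker π₁ × Z₂` and `Z₁ × ker π₂` descends to `H₁ × H₂` -/
def liftBilin : H₁ →ₗ[k] H₂ →ₗ[k] H₃ :=
  LinearMap.mk₂ k (fun x y => β (Function.surjInv hπ₁ x) (Function.surjInv hπ₂ y))
    (fun x x' y => by
      rw [← LinearMap.add_apply, ← map_add]
      exact liftBilin_wd π₁ π₂ β h₁ h₂
        (by rw [map_add, Function.surjInv_eq hπ₁, Function.surjInv_eq hπ₁,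
          Function.surjInv_eq hπ₁]) rfl)
    (fun c x y => by
      rw [← LinearMap.smul_apply, ← map_smul]
      exact liftBilin_wd π₁ π₂ β h₁ h₂
        (by rw [map_smul, Function.surjInv_eq hπ₁, Function.surjInv_eq hπ₁]) rfl)
    (fun x y y' => by
      rw [← map_add]
      exact liftBilin_wd π₁ π₂ β h₁ h₂ rfl
        (by rw [map_add, Function.surjInv_eq hπ₂, Function.surjInv_eq hπ₂,
          Function.surjInv_eq hπ₂]))
    (fun c x y => by
      rw [← map_smul]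
      exact liftBilin_wd π₁ π₂ β h₁ h₂ rfl
        (by rw [map_smul, Function.surjInv_eq hπ₂, Function.surjInv_eq hπ₂]))

@[simp]
lemma liftBilin_apply (z₁ : Z₁) (z₂ : Z₂) :
    liftBilin π₁ π₂ hπ₁ hπ₂ β h₁ h₂ (π₁ z₁) (π₂ z₂) = β z₁ z₂ :=
  liftBilin_wd π₁ π₂ β h₁ h₂ (Function.surjInv_eq hπ₁ _) (Function.surjInv_eq hπ₂ _)

end lift

variable {k : Type u} [CommRing k]

/-! ### cup data -/

/-- A cup product on cochain complexes of `k`-modules: bilinear maps `C^i × D^j → E^n` for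
`i + j = n`, with the Leibniz rule. -/
structure CupData (C D E : CochainComplex (ModuleCat.{v} k) ℕ) where
  /-- the cup product on cochains -/
  cup : ∀ i j n : ℕ, i + j = n → (C.X i →ₗ[k] D.X j →ₗ[k] E.X n)
  leibniz : ∀ (i j n : ℕ) (h : i + j = n) (a : C.X i) (b : D.X j),
    (E.d n (n + 1)).hom (cup i j n h a b) =
      cup (i + 1) j (n + 1) (by omega) ((C.d i (i + 1)).hom a) b +
        (-1 : k) ^ i • cup i (j + 1) (n + 1) (by omega) a ((D.d j (j + 1)).hom b)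

namespace CupData

variable {C D E : CochainComplex (ModuleCat.{v} k) ℕ} (c : CupData C D E)

lemma cup_mem_zSub {i j n : ℕ} (h : i + j = n) (a : Elt.zSub C i) (b : Elt.zSub D j) :
    c.cup i j n h a.1 b.1 ∈ Elt.zSub E n := by
  have ha : (C.d i (i + 1)).hom a.1 = 0 := a.2
  have hb : (D.d j (j + 1)).hom b.1 = 0 := b.2
  change (E.d n (n + 1)).hom _ = 0
  rw [c.leibniz, ha, hb]
  simp

/-- the cup product on cocycles -/
def cupZ {i j n : ℕ} (h : i + j = n) : Elt.zSub C i →ₗ[k] Elt.zSub D j →ₗ[k] Elt.zSub E n :=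
  LinearMap.mk₂ k (fun a b => ⟨c.cup i j n h a.1 b.1, c.cup_mem_zSub h a b⟩)
    (fun a a' b => by ext; simp)
    (fun r a b => by ext; simp)
    (fun a b b' => by ext; simp)
    (fun r a b => by ext; simp)

@[simp]
lemma cupZ_coe {i j n : ℕ} (h : i + j = n) (a : Elt.zSub C i) (b : Elt.zSub D j) :
    (c.cupZ h a b : E.X n) = c.cup i j n h a.1 b.1 := rfl

lemma hMk_cupZ_left {i j n : ℕ} (h : i + j = n) (a : Elt.zSub C i) (ha : Elt.hMk C i a = 0)
    (b : Elt.zSub D j) : Elt.hMk E n (c.cupZ h a b) = 0 := by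
  cases i with
  | zero =>
    rw [(Elt.hMk_eq_zero_iff_zero C a).1 ha]
    simp
  | succ i' =>
    obtain ⟨m, rfl⟩ : ∃ m, n = m + 1 := ⟨i' + j, by omega⟩
    obtain ⟨x, hx⟩ := (Elt.hMk_eq_zero_iff_succ C i' a).1 ha
    rw [Elt.hMk_eq_zero_iff_succ]
    refine ⟨c.cup i' j m (by omega) x b.1, ?_⟩
    have hb : (D.d j (j + 1)).hom b.1 = 0 := b.2
    change (E.d m (m + 1)).hom _ = _
    rw [c.leibniz, hb]
    simp only [map_zero, smul_zero, add_zero, cupZ_coe]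
    rw [← hx]

lemma hMk_cupZ_right {i j n : ℕ} (h : i + j = n) (a : Elt.zSub C i) (b : Elt.zSub D j)
    (hb : Elt.hMk D j b = 0) : Elt.hMk E n (c.cupZ h a b) = 0 := by
  cases j with
  | zero =>
    rw [(Elt.hMk_eq_zero_iff_zero D b).1 hb]
    simp
  | succ j' =>
    obtain ⟨m, rfl⟩ : ∃ m, n = m + 1 := ⟨i + j', by omega⟩
    obtain ⟨y, hy⟩ := (Elt.hMk_eq_zero_iff_succ D j' b).1 hb
    rw [Elt.hMk_eq_zero_iff_succ]
    refine ⟨(-1 : k) ^ i • c.cup i j' m (by omega) a.1 y, ?_⟩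
    have ha : (C.d i (i + 1)).hom a.1 = 0 := a.2
    change (E.d m (m + 1)).hom _ = _
    rw [map_smul, c.leibniz, ha]
    simp only [map_zero, LinearMap.zero_apply, zero_add, cupZ_coe, smul_smul]
    rw [← pow_add, ← two_mul, pow_mul]
    simp only [even_two, Even.neg_pow, one_pow, one_smul]
    rw [← hy]

/-- the cup product on cohomology -/
def cupH {i j n : ℕ} (h : i + j = n) : C.homology i →ₗ[k] D.homology j →ₗ[k] E.homology n :=
  liftBilin (Elt.hMk C i) (Elt.hMk D j) (Elt.hMk_surjective C i) (Elt.hMk_surjective D j)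
    ((c.cupZ h).compr₂ (Elt.hMk E n))
    (fun a ha b => c.hMk_cupZ_left h a ha b) (fun a b hb => c.hMk_cupZ_right h a b hb)

@[simp]
theorem cupH_hMk {i j n : ℕ} (h : i + j = n) (a : Elt.zSub C i) (b : Elt.zSub D j) :
    c.cupH h (Elt.hMk C i a) (Elt.hMk D j b) = Elt.hMk E n (c.cupZ h a b) :=
  liftBilin_apply _ _ _ _ _ _ _ a b

/-! ### naturality -/

section naturality

variable {C' D' E' : CochainComplex (ModuleCat.{v} k) ℕ} (c' : CupData C' D' E')

/-- a triple of morphisms of complexes compatible with the cup products -/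
def IsMap (φ : C ⟶ C') (ψ : D ⟶ D') (θ : E ⟶ E') : Prop :=
  ∀ (i j n : ℕ) (h : i + j = n) (a : C.X i) (b : D.X j),
    (θ.f n).hom (c.cup i j n h a b) = c'.cup i j n h ((φ.f i).hom a) ((ψ.f j).hom b)

variable {c c'}

theorem cupH_map {φ : C ⟶ C'} {ψ : D ⟶ D'} {θ : E ⟶ E'} (hm : IsMap c c' φ ψ θ)
    {i j n : ℕ} (h : i + j = n) (x : C.homology i) (y : D.homology j) :
    HomologicalComplex.homologyMap θ n (c.cupH h x y) =
      c'.cupH h (HomologicalComplex.homologyMap φ i x) (HomologicalComplex.homologyMap ψ j y) := by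
  obtain ⟨a, rfl⟩ := Elt.hMk_surjective C i x
  obtain ⟨b, rfl⟩ := Elt.hMk_surjective D j y
  rw [cupH_hMk, Elt.homologyMap_hMk, Elt.homologyMap_hMk, Elt.homologyMap_hMk, cupH_hMk]
  congr 1
  apply Subtype.ext
  exact hm i j n h a.1 b.1

end naturality

end CupData

/-! ### the connecting homomorphism on representatives (generic complexes) -/

section delta

variable {S : ShortComplex (CochainComplex (ModuleCat.{v} k) ℕ)} (hS : S.ShortExact)

lemma cyclesMk_eq_zMkHom (K : CochainComplex (ModuleCat.{v} k) ℕ) (n : ℕ) (x : Elt.zSub K n)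
    (hx : ((forget₂ (ModuleCat k) Ab).map (K.d n (n + 1))) x.1 = 0) :
    K.cyclesMk x.1 (n + 1) (by simp) hx = Elt.zMkHom K n x := by
  apply Elt.iCycles_injective K n
  rw [Elt.iCycles_zMkHom]
  exact K.i_cyclesMk (i := n) x.1 (n + 1) (by simp) hx

/-- `δ [z] = [x]` whenever `y` lifts `z` and `f x = d y`. -/
theorem δ_hMk (i : ℕ) (z : Elt.zSub S.X₃ i) (y : S.X₂.X i) (hy : (S.g.f i).hom y = z.1)
    (x : Elt.zSub S.X₁ (i + 1)) (hx : (S.f.f (i + 1)).hom x.1 = (S.X₂.d i (i + 1)).hom y) :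
    hS.δ i (i + 1) rfl (Elt.hMk S.X₃ i z) = Elt.hMk S.X₁ (i + 1) x := by
  have hz' : ((forget₂ (ModuleCat k) Ab).map (S.X₃.d i (i + 1))) z.1 = 0 := z.2
  have hx' : ((forget₂ (ModuleCat k) Ab).map (S.f.f (i + 1))) x.1 =
      ((forget₂ (ModuleCat k) Ab).map (S.X₂.d i (i + 1))) y := hx
  have key := hS.δ_apply i (i + 1) rfl z.1 hz' y hy x.1 hx' (i + 2) (by simp)
  rw [cyclesMk_eq_zMkHom S.X₃ i z hz', cyclesMk_eq_zMkHom S.X₁ (i + 1) x] at key
  exact key

include hS in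
lemma g_surjective (i : ℕ) : Function.Surjective (S.g.f i).hom := by
  have h := hS.map_of_exact (HomologicalComplex.eval (ModuleCat.{v} k) (ComplexShape.up ℕ) i)
  exact (ModuleCat.epi_iff_surjective _).1 h.epi_g

include hS in
lemma f_injective (i : ℕ) : Function.Injective (S.f.f i).hom := by
  have h := hS.map_of_exact (HomologicalComplex.eval (ModuleCat.{v} k) (ComplexShape.up ℕ) i)
  exact (ModuleCat.mono_iff_injective _).1 h.mono_f

include hS in
lemma exact_at (i : ℕ) (y : S.X₂.X i) (hy : (S.g.f i).hom y = 0) :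
    ∃ x : S.X₁.X i, (S.f.f i).hom x = y := by
  have h := hS.map_of_exact (HomologicalComplex.eval (ModuleCat.{v} k) (ComplexShape.up ℕ) i)
  exact (ShortComplex.moduleCat_exact_iff _).1 h.exact y hy

include hS in
/-- every cocycle of `X₃` has a lift `y` and a cocycle `x` of `X₁` with `f x = d y`. -/
lemma exists_lift (i : ℕ) (z : Elt.zSub S.X₃ i) :
    ∃ (y : S.X₂.X i) (x : Elt.zSub S.X₁ (i + 1)), (S.g.f i).hom y = z.1 ∧
      (S.f.f (i + 1)).hom x.1 = (S.X₂.d i (i + 1)).hom y := by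
  obtain ⟨y, hy⟩ := g_surjective hS i z.1
  have h1 : (S.g.f (i + 1)).hom ((S.X₂.d i (i + 1)).hom y) = 0 := by
    have := congr($(S.g.comm i (i + 1)) y)
    simp only [ModuleCat.hom_comp, LinearMap.comp_apply] at this
    rw [← this, hy]
    exact z.2
  obtain ⟨x, hx⟩ := exact_at hS (i + 1) _ h1
  have hxz : x ∈ Elt.zSub S.X₁ (i + 1) := by
    rw [Elt.mem_zSub_iff]
    apply f_injective hS (i + 2)
    have := congr($(S.f.comm (i + 1) (i + 2)) x)
    simp only [ModuleCat.hom_comp, LinearMap.comp_apply] at this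
    rw [map_zero]
    refine this.symm.trans ?_
    rw [hx]
    exact congr($(S.X₂.d_comp_d i (i + 1) (i + 2)) y)
  exact ⟨y, ⟨x, hxz⟩, hy, hx⟩

end delta

/-! ### compatibility of the cup product with connecting homomorphisms -/

section compat

variable {S T R : ShortComplex (CochainComplex (ModuleCat.{v} k) ℕ)}
  (hS : S.ShortExact) (hT : T.ShortExact) (hR : R.ShortExact)

/-- **δ in the first variable**: for `0 → C' → C → C'' → 0`, `0 → E' → E → E'' → 0` and compatible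
cup products with a fixed `D`:  `δ (x ∪ y) = (δ x) ∪ y`. -/
theorem δ_cupH_left {D : CochainComplex (ModuleCat.{v} k) ℕ}
    (c₁ : CupData S.X₁ D R.X₁) (c₂ : CupData S.X₂ D R.X₂) (c₃ : CupData S.X₃ D R.X₃)
    (h₁₂ : ∀ (i j n : ℕ) (h : i + j = n) (a : S.X₁.X i) (b : D.X j),
      (R.f.f n).hom (c₁.cup i j n h a b) = c₂.cup i j n h ((S.f.f i).hom a) b)
    (h₂₃ : ∀ (i j n : ℕ) (h : i + j = n) (a : S.X₂.X i) (b : D.X j),
      (R.g.f n).hom (c₂.cup i j n h a b) = c₃.cup i j n h ((S.g.f i).hom a) b)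
    {i j n : ℕ} (h : i + j = n) (x : S.X₃.homology i) (y : D.homology j) :
    hR.δ n (n + 1) rfl (c₃.cupH h x y) =
      c₁.cupH (show i + 1 + j = n + 1 by omega) (hS.δ i (i + 1) rfl x) y := by
  obtain ⟨a'', rfl⟩ := Elt.hMk_surjective S.X₃ i x
  obtain ⟨b, rfl⟩ := Elt.hMk_surjective D j y
  obtain ⟨a, a', ha, ha'⟩ := exists_lift hS i a''
  rw [CupData.cupH_hMk, δ_hMk hS i a'' a ha a' ha', CupData.cupH_hMk]
  refine δ_hMk hR n (c₃.cupZ h a'' b) (c₂.cup i j n h a b.1) ?_ (c₁.cupZ _ a' b) ?_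
  · rw [h₂₃, ha]
    rfl
  · have hb : (D.d j (j + 1)).hom b.1 = 0 := b.2
    rw [c₂.leibniz, hb, CupData.cupZ_coe, h₁₂, ha']
    simp

/-- **δ in the second variable**: for `0 → D' → D → D'' → 0`, `0 → E' → E → E'' → 0` and
compatible cup products with a fixed `C`:  `δ (x ∪ y) = (-1)^i • x ∪ (δ y)`, `x ∈ H^i(C)`. -/
theorem δ_cupH_right {C : CochainComplex (ModuleCat.{v} k) ℕ}
    (c₁ : CupData C T.X₁ R.X₁) (c₂ : CupData C T.X₂ R.X₂) (c₃ : CupData C T.X₃ R.X₃)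
    (h₁₂ : ∀ (i j n : ℕ) (h : i + j = n) (a : C.X i) (b : T.X₁.X j),
      (R.f.f n).hom (c₁.cup i j n h a b) = c₂.cup i j n h a ((T.f.f j).hom b))
    (h₂₃ : ∀ (i j n : ℕ) (h : i + j = n) (a : C.X i) (b : T.X₂.X j),
      (R.g.f n).hom (c₂.cup i j n h a b) = c₃.cup i j n h a ((T.g.f j).hom b))
    {i j n : ℕ} (h : i + j = n) (x : C.homology i) (y : T.X₃.homology j) :
    hR.δ n (n + 1) rfl (c₃.cupH h x y) =
      (-1 : k) ^ i • c₁.cupH (show i + (j + 1) = n + 1 by omega) x (hT.δ j (j + 1) rfl y) := by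
  obtain ⟨a, rfl⟩ := Elt.hMk_surjective C i x
  obtain ⟨b'', rfl⟩ := Elt.hMk_surjective T.X₃ j y
  obtain ⟨b, b', hb, hb'⟩ := exists_lift hT j b''
  rw [CupData.cupH_hMk, δ_hMk hT j b'' b hb b' hb', CupData.cupH_hMk, ← map_smul]
  refine δ_hMk hR n (c₃.cupZ h a b'') (c₂.cup i j n h a.1 b) ?_ _ ?_
  · rw [h₂₃, hb]
    rfl
  · have ha : (C.d i (i + 1)).hom a.1 = 0 := a.2
    rw [c₂.leibniz, ha]
    simp only [map_zero, LinearMap.zero_apply, zero_add]
    rw [← hb', ← h₁₂]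
    simp

/-- **adjointness of the two connecting maps**: for `0 → C' → C → C'' → 0`,
`0 → D' → D → D'' → 0`, a fixed target `E` and cup products `c : C × D → E`, `c₁ : C' × D'' → E`,
`c₂ : C'' × D' → E` with `c (f a', b) = c₁ (a', g b)` and `c (a, f b') = c₂ (g a, b')`:
  `(δ x) ∪₁ y + (-1)^i • x ∪₂ (δ y) = 0`  for `x ∈ H^i(C'')`, `y ∈ H^j(D'')`. -/
theorem δ_cupH_adjoint {E : CochainComplex (ModuleCat.{v} k) ℕ}
    (c : CupData S.X₂ T.X₂ E) (c₁ : CupData S.X₁ T.X₃ E) (c₂ : CupData S.X₃ T.X₁ E)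
    (h₁ : ∀ (i j n : ℕ) (h : i + j = n) (a : S.X₁.X i) (b : T.X₂.X j),
      c.cup i j n h ((S.f.f i).hom a) b = c₁.cup i j n h a ((T.g.f j).hom b))
    (h₂ : ∀ (i j n : ℕ) (h : i + j = n) (a : S.X₂.X i) (b : T.X₁.X j),
      c.cup i j n h a ((T.f.f j).hom b) = c₂.cup i j n h ((S.g.f i).hom a) b)
    {i j n : ℕ} (h : i + j = n) (x : S.X₃.homology i) (y : T.X₃.homology j) :
    c₁.cupH (show i + 1 + j = n + 1 by omega) (hS.δ i (i + 1) rfl x) y +
      (-1 : k) ^ i • c₂.cupH (show i + (j + 1) = n + 1 by omega) x (hT.δ j (j + 1) rfl y) = 0 := by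
  obtain ⟨a'', rfl⟩ := Elt.hMk_surjective S.X₃ i x
  obtain ⟨b'', rfl⟩ := Elt.hMk_surjective T.X₃ j y
  obtain ⟨a, a', ha, ha'⟩ := exists_lift hS i a''
  obtain ⟨b, b', hb, hb'⟩ := exists_lift hT j b''
  rw [δ_hMk hS i a'' a ha a' ha', δ_hMk hT j b'' b hb b' hb', CupData.cupH_hMk,
    CupData.cupH_hMk, ← map_smul, ← map_add, Elt.hMk_eq_zero_iff_succ]
  refine ⟨c.cup i j n h a b, ?_⟩
  change (E.d n (n + 1)).hom _ = _
  rw [c.leibniz, ← ha', ← hb', h₁, h₂, hb, ha]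
  rfl

end compat

end Fermat.Agent.GC.Prof.CupAbs
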