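/-
GATE-C / C1 leaf (P5) CUP  (helper2).   namespace Fermat.Agent.GC.Prof.Cup,  Mathlib only.

Cochain-level cup products for an EQUIVARIANT BILINEAR PAIRING, written on plain functions
(`M`, `G → M`, `G × G → M`, `G × G × G → M`: the shapes of Mathlib's `groupCohomology` low-degree API
and of the prelude's `continuousH1S / continuousH2S`).

Data: a group `G`, a commutative ring `k`, `k`-modules `M N P` with representations `ρM ρN ρP`,
and a bilinear map `B : M →ₗ[k] N →ₗ[k] P` which is equivariant (`Equivariant ρM ρN ρP B`).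

Convention (the standard one):
  `(a ∪ b)(g₁,…,g_{i+j}) = B (a(g₁,…,g_i)) ((g₁⋯g_i) • b(g_{i+1},…,g_{i+j}))`.

Differentials `d0 d1 d2` are the formulas of Mathlib's `d₀₁ d₁₂ d₂₃` (`d1_eq_d₁₂` etc. are `rfl`).

Main results: the Leibniz rule `d (a ∪ b) = da ∪ b + (-1)^i a ∪ db` in all bidegrees `i + j ≤ 2`
(`d0_cup00`, `d1_cup01`, `d1_cup10`, `d2_cup11`, `d2_cup02`, `d2_cup20`), and their consequences
(cocycle ∪ cocycle is a cocycle, cocycle ∪ coboundary is a coboundary).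
-/
import Mathlib

set_option autoImplicit false
set_option linter.unusedSectionVars false

namespace Fermat.Agent.GC.Prof.Cup

variable {k G M N P : Type*} [CommRing k] [Group G]
  [AddCommGroup M] [Module k M] [AddCommGroup N] [Module k N] [AddCommGroup P] [Module k P]

/-! ### differentials on plain functions -/

section d
variable (ρ : Representation k G M)

/-- `d⁰ : M → (G → M)`, `m ↦ (g ↦ g m - m)` (Mathlib `d₀₁`). -/
def d0 (m : M) : G → M := fun g => ρ g m - m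

/-- `d¹ : (G → M) → (G × G → M)` (Mathlib `d₁₂`). -/
def d1 (f : G → M) : G × G → M := fun g => ρ g.1 (f g.2) - f (g.1 * g.2) + f g.1

/-- `d² : (G × G → M) → (G × G × G → M)` (Mathlib `d₂₃`). -/
def d2 (f : G × G → M) : G × G × G → M := fun g =>
  ρ g.1 (f (g.2.1, g.2.2)) - f (g.1 * g.2.1, g.2.2) + f (g.1, g.2.1 * g.2.2) - f (g.1, g.2.1)

@[simp] lemma d0_apply (m : M) (g : G) : d0 ρ m g = ρ g m - m := rfl
@[simp] lemma d1_apply (f : G → M) (g h : G) : d1 ρ f (g, h) = ρ g (f h) - f (g * h) + f g := rfl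
@[simp] lemma d2_apply (f : G × G → M) (g h j : G) :
    d2 ρ f (g, h, j) = ρ g (f (h, j)) - f (g * h, j) + f (g, h * j) - f (g, h) := rfl

lemma d1_d0 (m : M) : d1 ρ (d0 ρ m) = 0 := by
  funext ⟨g, h⟩
  simp [d1, d0, map_sub, map_mul]

lemma d2_d1 (f : G → M) : d2 ρ (d1 ρ f) = 0 := by
  funext ⟨g, h, j⟩
  simp only [d2, d1, map_add, map_sub, map_mul, Module.End.mul_apply, mul_assoc, Pi.zero_apply]
  abel

@[simp] lemma d0_zero : d0 ρ (0 : M) = 0 := by funext g; simp [d0]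
@[simp] lemma d1_zero : d1 ρ (0 : G → M) = 0 := by funext g; simp [d1]
@[simp] lemma d2_zero : d2 ρ (0 : G × G → M) = 0 := by funext g; simp [d2]

lemma d0_add (m m' : M) : d0 ρ (m + m') = d0 ρ m + d0 ρ m' := by
  funext g; simp [d0]; abel
lemma d1_add (f f' : G → M) : d1 ρ (f + f') = d1 ρ f + d1 ρ f' := by
  funext g; simp [d1]; abel
lemma d2_add (f f' : G × G → M) : d2 ρ (f + f') = d2 ρ f + d2 ρ f' := by
  funext g; simp [d2]; abel
lemma d0_neg (m : M) : d0 ρ (-m) = -d0 ρ m := by funext g; simp [d0]; abel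
lemma d1_neg (f : G → M) : d1 ρ (-f) = -d1 ρ f := by funext g; simp [d1]; abel
lemma d2_neg (f : G × G → M) : d2 ρ (-f) = -d2 ρ f := by funext g; simp [d2]; abel
lemma d0_smul (c : k) (m : M) : d0 ρ (c • m) = c • d0 ρ m := by
  funext g; simp [d0, smul_sub]
lemma d1_smul (c : k) (f : G → M) : d1 ρ (c • f) = c • d1 ρ f := by
  funext g; simp [d1, smul_sub, smul_add]
lemma d2_smul (c : k) (f : G × G → M) : d2 ρ (c • f) = c • d2 ρ f := by
  funext g; simp [d2, smul_sub, smul_add]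

end d

/-! ### equivariant pairings -/

/-- `B` is `G`-equivariant: `B (g m) (g n) = g (B m n)`. -/
def Equivariant (ρM : Representation k G M) (ρN : Representation k G N) (ρP : Representation k G P)
    (B : M →ₗ[k] N →ₗ[k] P) : Prop :=
  ∀ (g : G) (m : M) (n : N), B (ρM g m) (ρN g n) = ρP g (B m n)

/-! ### the cup products -/

section cup
variable (B : M →ₗ[k] N →ₗ[k] P) (ρN : Representation k G N)

/-- `H⁰ × H⁰` -/
def cup00 (m : M) (n : N) : P := B m n
/-- `C⁰ × C¹ → C¹` -/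
def cup01 (m : M) (b : G → N) : G → P := fun g => B m (b g)
/-- `C¹ × C⁰ → C¹`: `(a ∪ n)(g) = B (a g) (g n)` -/
def cup10 (a : G → M) (n : N) : G → P := fun g => B (a g) (ρN g n)
/-- `C¹ × C¹ → C²`: `(a ∪ b)(g,h) = B (a g) (g (b h))` -/
def cup11 (a : G → M) (b : G → N) : G × G → P := fun g => B (a g.1) (ρN g.1 (b g.2))
/-- `C⁰ × C² → C²` -/
def cup02 (m : M) (c : G × G → N) : G × G → P := fun g => B m (c g)
/-- `C² × C⁰ → C²`: `(c ∪ n)(g,h) = B (c (g,h)) (gh n)` -/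
def cup20 (c : G × G → M) (n : N) : G × G → P := fun g => B (c g) (ρN (g.1 * g.2) n)
/-- `C¹ × C² → C³` -/
def cup12 (a : G → M) (c : G × G → N) : G × G × G → P :=
  fun g => B (a g.1) (ρN g.1 (c g.2))
/-- `C² × C¹ → C³` -/
def cup21 (c : G × G → M) (b : G → N) : G × G × G → P :=
  fun g => B (c (g.1, g.2.1)) (ρN (g.1 * g.2.1) (b g.2.2))
/-- `C⁰ × C³ → C³` -/
def cup03 (m : M) (e : G × G × G → N) : G × G × G → P := fun g => B m (e g)
/-- `C³ × C⁰ → C³` -/
def cup30 (e : G × G × G → M) (n : N) : G × G × G → P :=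
  fun g => B (e g) (ρN (g.1 * g.2.1 * g.2.2) n)

@[simp] lemma cup00_apply (m : M) (n : N) : cup00 B m n = B m n := rfl
@[simp] lemma cup01_apply (m : M) (b : G → N) (g : G) : cup01 B m b g = B m (b g) := rfl
@[simp] lemma cup10_apply (a : G → M) (n : N) (g : G) : cup10 B ρN a n g = B (a g) (ρN g n) := rfl
@[simp] lemma cup11_apply (a : G → M) (b : G → N) (g h : G) :
    cup11 B ρN a b (g, h) = B (a g) (ρN g (b h)) := rfl
@[simp] lemma cup02_apply (m : M) (c : G × G → N) (g : G × G) : cup02 B m c g = B m (c g) := rfl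
@[simp] lemma cup20_apply (c : G × G → M) (n : N) (g h : G) :
    cup20 B ρN c n (g, h) = B (c (g, h)) (ρN (g * h) n) := rfl
@[simp] lemma cup12_apply (a : G → M) (c : G × G → N) (g h j : G) :
    cup12 B ρN a c (g, h, j) = B (a g) (ρN g (c (h, j))) := rfl
@[simp] lemma cup21_apply (c : G × G → M) (b : G → N) (g h j : G) :
    cup21 B ρN c b (g, h, j) = B (c (g, h)) (ρN (g * h) (b j)) := rfl
@[simp] lemma cup03_apply (m : M) (e : G × G × G → N) (g : G × G × G) :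
    cup03 B m e g = B m (e g) := rfl
@[simp] lemma cup30_apply (e : G × G × G → M) (n : N) (g h j : G) :
    cup30 B ρN e n (g, h, j) = B (e (g, h, j)) (ρN (g * h * j) n) := rfl

/-! #### bilinearity (the forms used to pass to cohomology) -/

@[simp] lemma cup01_zero_left (b : G → N) : cup01 B (0 : M) b = 0 := by funext g; simp [cup01]
@[simp] lemma cup01_zero_right (m : M) : cup01 B m (0 : G → N) = 0 := by funext g; simp [cup01]
@[simp] lemma cup10_zero_left (n : N) : cup10 B ρN (0 : G → M) n = 0 := by funext g; simp [cup10]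
@[simp] lemma cup10_zero_right (a : G → M) : cup10 B ρN a (0 : N) = 0 := by funext g; simp [cup10]
@[simp] lemma cup11_zero_left (b : G → N) : cup11 B ρN (0 : G → M) b = 0 := by
  funext g; simp [cup11]
@[simp] lemma cup11_zero_right (a : G → M) : cup11 B ρN a (0 : G → N) = 0 := by
  funext g; simp [cup11]
@[simp] lemma cup02_zero_left (c : G × G → N) : cup02 B (0 : M) c = 0 := by funext g; simp [cup02]
@[simp] lemma cup02_zero_right (m : M) : cup02 B m (0 : G × G → N) = 0 := by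
  funext g; simp [cup02]
@[simp] lemma cup20_zero_left (n : N) : cup20 B ρN (0 : G × G → M) n = 0 := by
  funext g; simp [cup20]
@[simp] lemma cup20_zero_right (c : G × G → M) : cup20 B ρN c (0 : N) = 0 := by
  funext g; simp [cup20]
@[simp] lemma cup12_zero_left (c : G × G → N) : cup12 B ρN (0 : G → M) c = 0 := by
  funext g; simp [cup12]
@[simp] lemma cup12_zero_right (a : G → M) : cup12 B ρN a (0 : G × G → N) = 0 := by
  funext g; simp [cup12]
@[simp] lemma cup21_zero_left (b : G → N) : cup21 B ρN (0 : G × G → M) b = 0 := by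
  funext g; simp [cup21]
@[simp] lemma cup21_zero_right (c : G × G → M) : cup21 B ρN c (0 : G → N) = 0 := by
  funext g; simp [cup21]
@[simp] lemma cup03_zero_right (m : M) : cup03 B m (0 : G × G × G → N) = 0 := by
  funext g; simp [cup03]
@[simp] lemma cup30_zero_left (n : N) : cup30 B ρN (0 : G × G × G → M) n = 0 := by
  funext g; simp [cup30]

lemma cup11_add_left (a a' : G → M) (b : G → N) :
    cup11 B ρN (a + a') b = cup11 B ρN a b + cup11 B ρN a' b := by funext g; simp [cup11]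
lemma cup11_add_right (a : G → M) (b b' : G → N) :
    cup11 B ρN a (b + b') = cup11 B ρN a b + cup11 B ρN a b' := by funext g; simp [cup11]
lemma cup11_smul_left (c : k) (a : G → M) (b : G → N) :
    cup11 B ρN (c • a) b = c • cup11 B ρN a b := by funext g; simp [cup11]
lemma cup11_smul_right (c : k) (a : G → M) (b : G → N) :
    cup11 B ρN a (c • b) = c • cup11 B ρN a b := by funext g; simp [cup11]
lemma cup01_add_left (m m' : M) (b : G → N) : cup01 B (m + m') b = cup01 B m b + cup01 B m' b := by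
  funext g; simp [cup01]
lemma cup01_add_right (m : M) (b b' : G → N) : cup01 B m (b + b') = cup01 B m b + cup01 B m b' := by
  funext g; simp [cup01]
lemma cup01_smul_left (c : k) (m : M) (b : G → N) : cup01 B (c • m) b = c • cup01 B m b := by
  funext g; simp [cup01]
lemma cup01_smul_right (c : k) (m : M) (b : G → N) : cup01 B m (c • b) = c • cup01 B m b := by
  funext g; simp [cup01]
lemma cup10_add_left (a a' : G → M) (n : N) :
    cup10 B ρN (a + a') n = cup10 B ρN a n + cup10 B ρN a' n := by funext g; simp [cup10]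
lemma cup10_add_right (a : G → M) (n n' : N) :
    cup10 B ρN a (n + n') = cup10 B ρN a n + cup10 B ρN a n' := by funext g; simp [cup10]
lemma cup10_smul_left (c : k) (a : G → M) (n : N) : cup10 B ρN (c • a) n = c • cup10 B ρN a n := by
  funext g; simp [cup10]
lemma cup10_smul_right (c : k) (a : G → M) (n : N) : cup10 B ρN a (c • n) = c • cup10 B ρN a n := by
  funext g; simp [cup10]
lemma cup02_add_left (m m' : M) (c : G × G → N) : cup02 B (m + m') c = cup02 B m c + cup02 B m' c := by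
  funext g; simp [cup02]
lemma cup02_add_right (m : M) (c c' : G × G → N) :
    cup02 B m (c + c') = cup02 B m c + cup02 B m c' := by funext g; simp [cup02]
lemma cup02_smul_left (r : k) (m : M) (c : G × G → N) : cup02 B (r • m) c = r • cup02 B m c := by
  funext g; simp [cup02]
lemma cup02_smul_right (r : k) (m : M) (c : G × G → N) : cup02 B m (r • c) = r • cup02 B m c := by
  funext g; simp [cup02]
lemma cup20_add_left (c c' : G × G → M) (n : N) :
    cup20 B ρN (c + c') n = cup20 B ρN c n + cup20 B ρN c' n := by funext g; simp [cup20]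
lemma cup20_add_right (c : G × G → M) (n n' : N) :
    cup20 B ρN c (n + n') = cup20 B ρN c n + cup20 B ρN c n' := by funext g; simp [cup20]
lemma cup20_smul_left (r : k) (c : G × G → M) (n : N) :
    cup20 B ρN (r • c) n = r • cup20 B ρN c n := by funext g; simp [cup20]
lemma cup20_smul_right (r : k) (c : G × G → M) (n : N) :
    cup20 B ρN c (r • n) = r • cup20 B ρN c n := by funext g; simp [cup20]

end cup

/-! ### Leibniz rules -/

section leibniz
variable {ρM : Representation k G M} {ρN : Representation k G N} {ρP : Representation k G P}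
  {B : M →ₗ[k] N →ₗ[k] P}

/-- bidegree (0,0): `d(m ∪ n) = dm ∪ n + m ∪ dn`. -/
theorem d0_cup00 (hB : Equivariant ρM ρN ρP B) (m : M) (n : N) :
    d0 ρP (cup00 B m n) = cup10 B ρN (d0 ρM m) n + cup01 B m (d0 ρN n) := by
  funext g
  simp only [d0_apply, cup00_apply, Pi.add_apply, cup10_apply, cup01_apply, map_sub,
    LinearMap.sub_apply, ← hB g m n]
  abel

/-- bidegree (0,1): `d(m ∪ b) = dm ∪ b + m ∪ db`. -/
theorem d1_cup01 (hB : Equivariant ρM ρN ρP B) (m : M) (b : G → N) :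
    d1 ρP (cup01 B m b) = cup11 B ρN (d0 ρM m) b + cup02 B m (d1 ρN b) := by
  funext ⟨g, h⟩
  simp only [d1_apply, cup01_apply, Pi.add_apply, cup11_apply, d0_apply, cup02_apply, map_sub,
    map_add, LinearMap.sub_apply, ← hB g m (b h)]
  abel

/-- bidegree (1,0): `d(a ∪ n) = da ∪ n - a ∪ dn`. -/
theorem d1_cup10 (hB : Equivariant ρM ρN ρP B) (a : G → M) (n : N) :
    d1 ρP (cup10 B ρN a n) = cup20 B ρN (d1 ρM a) n - cup11 B ρN a (d0 ρN n) := by
  funext ⟨g, h⟩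
  simp only [d1_apply, cup10_apply, Pi.sub_apply, cup20_apply, cup11_apply, d0_apply, map_sub,
    map_add, LinearMap.sub_apply, LinearMap.add_apply, ← hB g (a h) (ρN h n), map_mul,
    Module.End.mul_apply]
  abel

/-- bidegree (1,1): `d(a ∪ b) = da ∪ b - a ∪ db`. -/
theorem d2_cup11 (hB : Equivariant ρM ρN ρP B) (a : G → M) (b : G → N) :
    d2 ρP (cup11 B ρN a b) = cup21 B ρN (d1 ρM a) b - cup12 B ρN a (d1 ρN b) := by
  funext ⟨g, h, j⟩
  simp only [d2_apply, cup11_apply, Pi.sub_apply, cup21_apply, cup12_apply, d1_apply, map_sub,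
    map_add, LinearMap.sub_apply, LinearMap.add_apply, ← hB g (a h) (ρN h (b j)), map_mul,
    Module.End.mul_apply]
  abel

/-- bidegree (0,2): `d(m ∪ c) = dm ∪ c + m ∪ dc`. -/
theorem d2_cup02 (hB : Equivariant ρM ρN ρP B) (m : M) (c : G × G → N) :
    d2 ρP (cup02 B m c) = cup12 B ρN (d0 ρM m) c + cup03 B m (d2 ρN c) := by
  funext ⟨g, h, j⟩
  simp only [d2_apply, cup02_apply, Pi.add_apply, cup12_apply, d0_apply, cup03_apply, map_sub,
    map_add, LinearMap.sub_apply, ← hB g m (c (h, j))]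
  abel

/-- bidegree (2,0): `d(c ∪ n) = dc ∪ n + c ∪ dn`. -/
theorem d2_cup20 (hB : Equivariant ρM ρN ρP B) (c : G × G → M) (n : N) :
    d2 ρP (cup20 B ρN c n) = cup30 B ρN (d2 ρM c) n + cup21 B ρN c (d0 ρN n) := by
  funext ⟨g, h, j⟩
  simp only [d2_apply, cup20_apply, Pi.add_apply, cup30_apply, cup21_apply, d0_apply, map_sub,
    map_add, LinearMap.sub_apply, LinearMap.add_apply, map_mul, Module.End.mul_apply, mul_assoc]
  rw [← hB g (c (h, j)) (ρN h (ρN j n))]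
  abel

end leibniz

/-! ### consequences: cocycles and coboundaries

`dⁱ x = 0` is "x is an i-cocycle", `x = dⁱ⁻¹ y` is "x is a coboundary". -/

section closure
variable {ρM : Representation k G M} {ρN : Representation k G N} {ρP : Representation k G P}
  {B : M →ₗ[k] N →ₗ[k] P}

/-- (0,0): invariant ∪ invariant is invariant. -/
theorem d0_cup00_eq_zero (hB : Equivariant ρM ρN ρP B) {m : M} {n : N}
    (hm : d0 ρM m = 0) (hn : d0 ρN n = 0) : d0 ρP (cup00 B m n) = 0 := by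
  rw [d0_cup00 hB, hm, hn]; simp

/-- (0,1): invariant ∪ 1-cocycle is a 1-cocycle. -/
theorem d1_cup01_eq_zero (hB : Equivariant ρM ρN ρP B) {m : M} {b : G → N}
    (hm : d0 ρM m = 0) (hb : d1 ρN b = 0) : d1 ρP (cup01 B m b) = 0 := by
  rw [d1_cup01 hB, hm, hb]; simp

/-- (0,1): invariant ∪ 1-coboundary is a 1-coboundary. -/
theorem cup01_d0 (hB : Equivariant ρM ρN ρP B) {m : M} (hm : d0 ρM m = 0) (n : N) :
    cup01 B m (d0 ρN n) = d0 ρP (cup00 B m n) := by
  rw [d0_cup00 hB, hm]; simp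

/-- (1,0): 1-cocycle ∪ invariant is a 1-cocycle. -/
theorem d1_cup10_eq_zero (hB : Equivariant ρM ρN ρP B) {a : G → M} {n : N}
    (ha : d1 ρM a = 0) (hn : d0 ρN n = 0) : d1 ρP (cup10 B ρN a n) = 0 := by
  rw [d1_cup10 hB, ha, hn]; simp

/-- (1,0): 1-coboundary ∪ invariant is a 1-coboundary. -/
theorem cup10_d0 (hB : Equivariant ρM ρN ρP B) (m : M) {n : N} (hn : d0 ρN n = 0) :
    cup10 B ρN (d0 ρM m) n = d0 ρP (cup00 B m n) := by
  rw [d0_cup00 hB, hn]; simp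

/-- (1,1): 1-cocycle ∪ 1-cocycle is a 2-cocycle. -/
theorem d2_cup11_eq_zero (hB : Equivariant ρM ρN ρP B) {a : G → M} {b : G → N}
    (ha : d1 ρM a = 0) (hb : d1 ρN b = 0) : d2 ρP (cup11 B ρN a b) = 0 := by
  rw [d2_cup11 hB, ha, hb]; simp

/-- (1,1): 1-coboundary ∪ 1-cocycle is a 2-coboundary. -/
theorem cup11_d0_left (hB : Equivariant ρM ρN ρP B) (m : M) {b : G → N} (hb : d1 ρN b = 0) :
    cup11 B ρN (d0 ρM m) b = d1 ρP (cup01 B m b) := by
  rw [d1_cup01 hB, hb]; simp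

/-- (1,1): 1-cocycle ∪ 1-coboundary is a 2-coboundary. -/
theorem cup11_d0_right (hB : Equivariant ρM ρN ρP B) {a : G → M} (ha : d1 ρM a = 0) (n : N) :
    cup11 B ρN a (d0 ρN n) = d1 ρP (-cup10 B ρN a n) := by
  rw [d1_neg, d1_cup10 hB, ha]; simp

/-- (0,2): invariant ∪ 2-cocycle is a 2-cocycle. -/
theorem d2_cup02_eq_zero (hB : Equivariant ρM ρN ρP B) {m : M} {c : G × G → N}
    (hm : d0 ρM m = 0) (hc : d2 ρN c = 0) : d2 ρP (cup02 B m c) = 0 := by
  rw [d2_cup02 hB, hm, hc]; simp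

/-- (0,2): invariant ∪ 2-coboundary is a 2-coboundary. -/
theorem cup02_d1 (hB : Equivariant ρM ρN ρP B) {m : M} (hm : d0 ρM m = 0) (b : G → N) :
    cup02 B m (d1 ρN b) = d1 ρP (cup01 B m b) := by
  rw [d1_cup01 hB, hm]; simp

/-- (2,0): 2-cocycle ∪ invariant is a 2-cocycle. -/
theorem d2_cup20_eq_zero (hB : Equivariant ρM ρN ρP B) {c : G × G → M} {n : N}
    (hc : d2 ρM c = 0) (hn : d0 ρN n = 0) : d2 ρP (cup20 B ρN c n) = 0 := by
  rw [d2_cup20 hB, hc, hn]; simp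

/-- (2,0): 2-coboundary ∪ invariant is a 2-coboundary. -/
theorem cup20_d1 (hB : Equivariant ρM ρN ρP B) (a : G → M) {n : N} (hn : d0 ρN n = 0) :
    cup20 B ρN (d1 ρM a) n = d1 ρP (cup10 B ρN a n) := by
  rw [d1_cup10 hB, hn]; simp

/-- (1,2) as a coboundary statement: 1-coboundary ∪ 2-cocycle is a 3-coboundary. -/
theorem cup12_d0_left (hB : Equivariant ρM ρN ρP B) (m : M) {c : G × G → N} (hc : d2 ρN c = 0) :
    cup12 B ρN (d0 ρM m) c = d2 ρP (cup02 B m c) := by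
  rw [d2_cup02 hB, hc]; simp

/-- (2,1) as a coboundary statement: 2-cocycle ∪ 1-coboundary is a 3-coboundary. -/
theorem cup21_d0_right (hB : Equivariant ρM ρN ρP B) {c : G × G → M} (hc : d2 ρM c = 0) (n : N) :
    cup21 B ρN c (d0 ρN n) = d2 ρP (cup20 B ρN c n) := by
  rw [d2_cup20 hB, hc]; simp

/-- (2,1): 2-coboundary ∪ 1-cocycle is a 3-coboundary. -/
theorem cup21_d1_left (hB : Equivariant ρM ρN ρP B) (a : G → M) {b : G → N} (hb : d1 ρN b = 0) :
    cup21 B ρN (d1 ρM a) b = d2 ρP (cup11 B ρN a b) := by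
  rw [d2_cup11 hB, hb]; simp

/-- (1,2): 1-cocycle ∪ 2-coboundary is a 3-coboundary. -/
theorem cup12_d1_right (hB : Equivariant ρM ρN ρP B) {a : G → M} (ha : d1 ρM a = 0) (b : G → N) :
    cup12 B ρN a (d1 ρN b) = d2 ρP (-cup11 B ρN a b) := by
  rw [d2_neg, d2_cup11 hB, ha]; simp

end closure

/-! ### functoriality -/

section functoriality

variable {H : Type*} [Group H]

/-- change of group: cochains pulled back along `f : H →* G` (restriction / inflation) -/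
lemma d0_comp_hom (ρ : Representation k G M) (f : H →* G) (m : M) :
    d0 (ρ.comp f) m = d0 ρ m ∘ f := rfl

lemma d1_comp_hom (ρ : Representation k G M) (f : H →* G) (a : G → M) :
    d1 (ρ.comp f) (a ∘ f) = d1 ρ a ∘ Prod.map f f := by
  funext ⟨g, h⟩; simp [d1]

lemma d2_comp_hom (ρ : Representation k G M) (f : H →* G) (c : G × G → M) :
    d2 (ρ.comp f) (c ∘ Prod.map f f) = d2 ρ c ∘ Prod.map f (Prod.map f f) := by
  funext ⟨g, h, j⟩; simp [d2]

variable (B : M →ₗ[k] N →ₗ[k] P) (ρN : Representation k G N)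

lemma cup01_comp_hom (f : H → G) (m : M) (b : G → N) :
    cup01 B m (b ∘ f) = cup01 B m b ∘ f := rfl

lemma cup10_comp_hom (f : H →* G) (a : G → M) (n : N) :
    cup10 B (ρN.comp f) (a ∘ f) n = cup10 B ρN a n ∘ f := rfl

lemma cup11_comp_hom (f : H →* G) (a : G → M) (b : G → N) :
    cup11 B (ρN.comp f) (a ∘ f) (b ∘ f) = cup11 B ρN a b ∘ Prod.map f f := rfl

lemma cup02_comp_hom (f : H → G) (m : M) (c : G × G → N) :
    cup02 B m (c ∘ Prod.map f f) = cup02 B m c ∘ Prod.map f f := rfl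

lemma cup20_comp_hom (f : H →* G) (c : G × G → M) (n : N) :
    cup20 B (ρN.comp f) (c ∘ Prod.map f f) n = cup20 B ρN c n ∘ Prod.map f f := by
  funext ⟨g, h⟩; simp [cup20]

/-! change of coefficients.  `φ : M → M'`, `ψ : N → N'`, `χ : P → P'` with
`B' (φ m) (ψ n) = χ (B m n)` and `ψ` equivariant. -/

variable {M' N' P' : Type*} [AddCommGroup M'] [Module k M'] [AddCommGroup N'] [Module k N']
  [AddCommGroup P'] [Module k P']
variable (B' : M' →ₗ[k] N' →ₗ[k] P') (ρN' : Representation k G N')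

lemma cup01_map (φ : M → M') (ψ : N → N') (χ : P → P')
    (h : ∀ m n, B' (φ m) (ψ n) = χ (B m n)) (m : M) (b : G → N) :
    cup01 B' (φ m) (ψ ∘ b) = χ ∘ cup01 B m b := by
  funext g; simp [cup01, h]

lemma cup10_map (φ : M → M') (ψ : N → N') (χ : P → P')
    (h : ∀ m n, B' (φ m) (ψ n) = χ (B m n)) (hψ : ∀ g n, ψ (ρN g n) = ρN' g (ψ n))
    (a : G → M) (n : N) :
    cup10 B' ρN' (φ ∘ a) (ψ n) = χ ∘ cup10 B ρN a n := by
  funext g; simp [cup10, ← h, hψ]

lemma cup11_map (φ : M → M') (ψ : N → N') (χ : P → P')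
    (h : ∀ m n, B' (φ m) (ψ n) = χ (B m n)) (hψ : ∀ g n, ψ (ρN g n) = ρN' g (ψ n))
    (a : G → M) (b : G → N) :
    cup11 B' ρN' (φ ∘ a) (ψ ∘ b) = χ ∘ cup11 B ρN a b := by
  funext g; simp [cup11, ← h, hψ]

lemma cup02_map (φ : M → M') (ψ : N → N') (χ : P → P')
    (h : ∀ m n, B' (φ m) (ψ n) = χ (B m n)) (m : M) (c : G × G → N) :
    cup02 B' (φ m) (ψ ∘ c) = χ ∘ cup02 B m c := by
  funext g; simp [cup02, h]

lemma cup20_map (φ : M → M') (ψ : N → N') (χ : P → P')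
    (h : ∀ m n, B' (φ m) (ψ n) = χ (B m n)) (hψ : ∀ g n, ψ (ρN g n) = ρN' g (ψ n))
    (c : G × G → M) (n : N) :
    cup20 B' ρN' (φ ∘ c) (ψ n) = χ ∘ cup20 B ρN c n := by
  funext g; simp [cup20, ← h, hψ]

/-! adjoint ("dinatural") form, used for the compatibility with connecting homomorphisms:
`φ : M → M'` and `ψ : N' → N` (opposite directions) with `Bt (φ m) n' = B m (ψ n')`,
where `Bt : M' × N' → P` has the SAME target `P`. -/

variable (Bt : M' →ₗ[k] N' →ₗ[k] P)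

lemma cup11_adjoint (φ : M → M') (ψ : N' → N)
    (h : ∀ m n', Bt (φ m) n' = B m (ψ n')) (hψ : ∀ g n', ψ (ρN' g n') = ρN g (ψ n'))
    (a : G → M) (b' : G → N') :
    cup11 Bt ρN' (φ ∘ a) b' = cup11 B ρN a (ψ ∘ b') := by
  funext g; simp [cup11, h, hψ]

lemma cup01_adjoint (φ : M → M') (ψ : N' → N)
    (h : ∀ m n', Bt (φ m) n' = B m (ψ n')) (m : M) (b' : G → N') :
    cup01 Bt (φ m) b' = cup01 B m (ψ ∘ b') := by
  funext g; simp [cup01, h]

lemma cup10_adjoint (φ : M → M') (ψ : N' → N)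
    (h : ∀ m n', Bt (φ m) n' = B m (ψ n')) (hψ : ∀ g n', ψ (ρN' g n') = ρN g (ψ n'))
    (a : G → M) (n' : N') :
    cup10 Bt ρN' (φ ∘ a) n' = cup10 B ρN a (ψ n') := by
  funext g; simp [cup10, h, hψ]

lemma cup02_adjoint (φ : M → M') (ψ : N' → N)
    (h : ∀ m n', Bt (φ m) n' = B m (ψ n')) (m : M) (c' : G × G → N') :
    cup02 Bt (φ m) c' = cup02 B m (ψ ∘ c') := by
  funext g; simp [cup02, h]

lemma cup20_adjoint (φ : M → M') (ψ : N' → N)
    (h : ∀ m n', Bt (φ m) n' = B m (ψ n')) (hψ : ∀ g n', ψ (ρN' g n') = ρN g (ψ n'))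
    (c : G × G → M) (n' : N') :
    cup20 Bt ρN' (φ ∘ c) n' = cup20 B ρN c (ψ n') := by
  funext g; simp [cup20, h, hψ]

lemma cup12_adjoint (φ : M → M') (ψ : N' → N)
    (h : ∀ m n', Bt (φ m) n' = B m (ψ n')) (hψ : ∀ g n', ψ (ρN' g n') = ρN g (ψ n'))
    (a : G → M) (c' : G × G → N') :
    cup12 Bt ρN' (φ ∘ a) c' = cup12 B ρN a (ψ ∘ c') := by
  funext g; simp [cup12, h, hψ]

lemma cup21_adjoint (φ : M → M') (ψ : N' → N)
    (h : ∀ m n', Bt (φ m) n' = B m (ψ n')) (hψ : ∀ g n', ψ (ρN' g n') = ρN g (ψ n'))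
    (c : G × G → M) (b' : G → N') :
    cup21 Bt ρN' (φ ∘ c) b' = cup21 B ρN c (ψ ∘ b') := by
  funext g; simp [cup21, h, hψ]

end functoriality

/-! ### compatibility with connecting homomorphisms (cochain level)

Situation of the duality dévissage: maps `i : M₁ → M₂`, `π : M₂ → M₃` and (dually) `i' : N₃ → N₂`,
`π' : N₂ → N₁`, pairings `B₁ B₂ B₃` into the same `P` with
`B₂ (i m₁) n₂ = B₁ m₁ (π' n₂)` and `B₂ m₂ (i' n₃) = B₃ (π m₂) n₃`.
For lifts `ã` (of a cocycle `a₃ = π ∘ ã`, with `d ã = i ∘ α₁`) and `b̃` (of `b₁ = π' ∘ b̃`,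
`d b̃ = i' ∘ β₃`):   `α₁ ∪ b₁ + (-1)^{deg a} a₃ ∪ β₃ = d (ã ∪ b̃)`,
i.e. `δ a₃ ∪ b₁ + (-1)^{deg a} a₃ ∪ δ b₁` is a coboundary.  No exactness is needed. -/

section delta
variable {M₁ M₂ M₃ N₁ N₂ N₃ : Type*}
  [AddCommGroup M₁] [Module k M₁] [AddCommGroup M₂] [Module k M₂] [AddCommGroup M₃] [Module k M₃]
  [AddCommGroup N₁] [Module k N₁] [AddCommGroup N₂] [Module k N₂] [AddCommGroup N₃] [Module k N₃]
  {ρM₂ : Representation k G M₂}
  {ρN₁ : Representation k G N₁} {ρN₂ : Representation k G N₂} {ρN₃ : Representation k G N₃}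
  {ρP : Representation k G P}
  {B₁ : M₁ →ₗ[k] N₁ →ₗ[k] P} {B₂ : M₂ →ₗ[k] N₂ →ₗ[k] P} {B₃ : M₃ →ₗ[k] N₃ →ₗ[k] P}
  {i : M₁ → M₂} {π : M₂ → M₃} {i' : N₃ → N₂} {π' : N₂ → N₁}

/-- bidegree (0,1) → 2:  `δ(a₃) ∪ b₁ + a₃ ∪ δ(b₁) = d(ã ∪ b̃)` for `ã : M₂` (degree 0), `b̃ : G → N₂`. -/
theorem delta_cup_01 (hB₂ : Equivariant ρM₂ ρN₂ ρP B₂)
    (h₁ : ∀ m n, B₂ (i m) n = B₁ m (π' n)) (h₃ : ∀ m n, B₂ m (i' n) = B₃ (π m) n)
    (hπ' : ∀ g n, π' (ρN₂ g n) = ρN₁ g (π' n))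
    (a : M₂) (b : G → N₂) (α : G → M₁) (β : G × G → N₃)
    (hα : d0 ρM₂ a = i ∘ α) (hβ : d1 ρN₂ b = i' ∘ β) :
    cup11 B₁ ρN₁ α (π' ∘ b) + cup02 B₃ (π a) β = d1 ρP (cup01 B₂ a b) := by
  rw [d1_cup01 hB₂, hα, hβ]
  congr 1
  · exact (cup11_adjoint B₁ ρN₁ ρN₂ B₂ i π' h₁ hπ' α b).symm
  · funext g; simp [cup02, h₃]

/-- bidegree (1,0) → 2:  `δ(a₃) ∪ b₁ - a₃ ∪ δ(b₁) = d(ã ∪ b̃)` for `ã : G → M₂`, `b̃ : N₂`. -/
theorem delta_cup_10 (hB₂ : Equivariant ρM₂ ρN₂ ρP B₂)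
    (h₁ : ∀ m n, B₂ (i m) n = B₁ m (π' n)) (h₃ : ∀ m n, B₂ m (i' n) = B₃ (π m) n)
    (hπ' : ∀ g n, π' (ρN₂ g n) = ρN₁ g (π' n)) (hi' : ∀ g n, i' (ρN₃ g n) = ρN₂ g (i' n))
    (a : G → M₂) (b : N₂) (α : G × G → M₁) (β : G → N₃)
    (hα : d1 ρM₂ a = i ∘ α) (hβ : d0 ρN₂ b = i' ∘ β) :
    cup20 B₁ ρN₁ α (π' b) - cup11 B₃ ρN₃ (π ∘ a) β = d1 ρP (cup10 B₂ ρN₂ a b) := by
  rw [d1_cup10 hB₂, hα, hβ]
  congr 1
  · exact (cup20_adjoint B₁ ρN₁ ρN₂ B₂ i π' h₁ hπ' α b).symm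
  · funext g; simp [cup11, h₃, ← hi']

/-- bidegree (1,1) → 3:  `δ(a₃) ∪ b₁ - a₃ ∪ δ(b₁) = d(ã ∪ b̃)` for `ã : G → M₂`, `b̃ : G → N₂`. -/
theorem delta_cup_11 (hB₂ : Equivariant ρM₂ ρN₂ ρP B₂)
    (h₁ : ∀ m n, B₂ (i m) n = B₁ m (π' n)) (h₃ : ∀ m n, B₂ m (i' n) = B₃ (π m) n)
    (hπ' : ∀ g n, π' (ρN₂ g n) = ρN₁ g (π' n)) (hi' : ∀ g n, i' (ρN₃ g n) = ρN₂ g (i' n))
    (a : G → M₂) (b : G → N₂) (α : G × G → M₁) (β : G × G → N₃)
    (hα : d1 ρM₂ a = i ∘ α) (hβ : d1 ρN₂ b = i' ∘ β) :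
    cup21 B₁ ρN₁ α (π' ∘ b) - cup12 B₃ ρN₃ (π ∘ a) β = d2 ρP (cup11 B₂ ρN₂ a b) := by
  rw [d2_cup11 hB₂, hα, hβ]
  congr 1
  · exact (cup21_adjoint B₁ ρN₁ ρN₂ B₂ i π' h₁ hπ' α b).symm
  · funext g; simp [cup12, h₃, ← hi']

end delta

/-! ### level-constancy

If `a`, `b` are constant on right cosets of a subgroup `U` and `U` fixes the values of `b`,
then `a ∪ b` is constant on right cosets of `U` (in each variable). -/

section LC
variable (B : M →ₗ[k] N →ₗ[k] P) (ρN : Representation k G N) (U : Subgroup G)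

lemma cup01_const (m : M) {b : G → N} (hb : ∀ g, ∀ s ∈ U, b (g * s) = b g) :
    ∀ g, ∀ s ∈ U, cup01 B m b (g * s) = cup01 B m b g := by
  intro g s hs; simp [cup01, hb g s hs]

lemma cup10_const {a : G → M} (ha : ∀ g, ∀ s ∈ U, a (g * s) = a g) {n : N}
    (hn : ∀ s ∈ U, ρN s n = n) :
    ∀ g, ∀ s ∈ U, cup10 B ρN a n (g * s) = cup10 B ρN a n g := by
  intro g s hs; simp [cup10, ha g s hs, map_mul, hn s hs]

lemma cup11_const {a : G → M} (ha : ∀ g, ∀ s ∈ U, a (g * s) = a g) {b : G → N}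
    (hb : ∀ g, ∀ s ∈ U, b (g * s) = b g) (hfix : ∀ g, ∀ s ∈ U, ρN s (b g) = b g) :
    ∀ g g', ∀ s ∈ U, ∀ s' ∈ U, cup11 B ρN a b (g * s, g' * s') = cup11 B ρN a b (g, g') := by
  intro g g' s hs s' hs'
  simp [cup11, ha g s hs, hb g' s' hs', map_mul, hfix g' s hs]

lemma cup02_const (m : M) {c : G × G → N}
    (hc : ∀ g g', ∀ s ∈ U, ∀ s' ∈ U, c (g * s, g' * s') = c (g, g')) :
    ∀ g g', ∀ s ∈ U, ∀ s' ∈ U, cup02 B m c (g * s, g' * s') = cup02 B m c (g, g') := by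
  intro g g' s hs s' hs'; simp [cup02, hc g g' s hs s' hs']

lemma cup20_const [U.Normal] {c : G × G → M}
    (hc : ∀ g g', ∀ s ∈ U, ∀ s' ∈ U, c (g * s, g' * s') = c (g, g')) {n : N}
    (hn : ∀ s ∈ U, ρN s n = n) :
    ∀ g g', ∀ s ∈ U, ∀ s' ∈ U, cup20 B ρN c n (g * s, g' * s') = cup20 B ρN c n (g, g') := by
  intro g g' s hs s' hs'
  have key : g * s * (g' * s') = g * g' * ((g'⁻¹ * s * g') * s') := by group
  have hmem : (g'⁻¹ * s * g') * s' ∈ U := by
    refine U.mul_mem ?_ hs'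
    have := Subgroup.Normal.conj_mem (inferInstance : U.Normal) s hs g'⁻¹
    simpa using this
  simp only [cup20, hc g g' s hs s' hs', key, map_mul (ρN) (g * g'), Module.End.mul_apply,
    hn _ hmem]

end LC

end Fermat.Agent.GC.Prof.Cup
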