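/-
GATE-C / C1 leaf (L7) CUP, part 2 (helper2): the cup product in ALL degrees on Mathlib's
inhomogeneous cochains `(Fin n → G) → M`, with the general Leibniz rule
  `d (a ∪ b) = (d a) ∪ b + (-1)^i • a ∪ (d b)`.
namespace Fermat.Agent.GC.Prof.CupN,  Mathlib only.

`dN ρ n` is the formula of Mathlib's `inhomogeneousCochains.d A n` (for `A : Rep k G`:
`(inhomogeneousCochains.d A n).hom f = dN A.ρ n f`, see `dN_eq`).

`cupF B ρN i j a b g = B (a (g ∘ castAdd)) ((g 0 * ⋯ * g (i-1)) • b (g ∘ natAdd))`.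

Technique: everything is evaluated on "segments" `seg x s n = (x s, x (s+1), …, x (s+n-1))` of an
infinite sequence `x : ℕ → G`; contraction of a segment is the segment of the contracted sequence
`con t x`, so no `Fin` casts occur inside the proof.
-/
import Mathlib
import Fermat.Agent.GC.Prof.Cup

set_option autoImplicit false
set_option linter.unusedSectionVars false

namespace Fermat.Agent.GC.Prof.CupN

variable {k G M N P : Type*} [CommRing k] [Group G]
  [AddCommGroup M] [Module k M] [AddCommGroup N] [Module k N] [AddCommGroup P] [Module k P]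

/-! ### sequences, segments, contraction, ordered products -/

/-- the segment `(x s, …, x (s+n-1))` -/
def seg (x : ℕ → G) (s n : ℕ) : Fin n → G := fun t => x (s + t)

/-- contract positions `t, t+1` of a sequence -/
def con (t : ℕ) (x : ℕ → G) : ℕ → G :=
  fun m => if m < t then x m else if m = t then x m * x (m + 1) else x (m + 1)

/-- extend a tuple by `1` to a sequence -/
def ext {n : ℕ} (g : Fin n → G) : ℕ → G := fun m => if h : m < n then g ⟨m, h⟩ else 1

/-- ordered product `x s * x (s+1) * ⋯ * x (s+i-1)` -/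
def pr (x : ℕ → G) (s : ℕ) : ℕ → G
  | 0 => 1
  | i + 1 => pr x s i * x (s + i)

@[simp] lemma seg_apply (x : ℕ → G) (s n : ℕ) (t : Fin n) : seg x s n t = x (s + t) := rfl

lemma ext_apply_of_lt {n : ℕ} (g : Fin n → G) {m : ℕ} (h : m < n) : ext g m = g ⟨m, h⟩ := by
  simp [ext, h]

lemma seg_ext {n : ℕ} (g : Fin n → G) : seg (ext g) 0 n = g := by
  funext t
  simp [seg, ext]

lemma seg_congr {x y : ℕ → G} {s s' n : ℕ} (h : ∀ m < n, x (s + m) = y (s' + m)) :
    seg x s n = seg y s' n := by
  funext t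
  exact h t t.2

lemma seg_ext_seg (x : ℕ → G) (s n s' n' : ℕ) (h : s' + n' ≤ n) :
    seg (ext (seg x s n)) s' n' = seg x (s + s') n' := by
  funext t
  have ht : s' + (t : ℕ) < n := by have := t.2; omega
  simp [seg, ext_apply_of_lt _ ht, add_assoc]

@[simp] lemma pr_zero (x : ℕ → G) (s : ℕ) : pr x s 0 = 1 := rfl
lemma pr_succ (x : ℕ → G) (s i : ℕ) : pr x s (i + 1) = pr x s i * x (s + i) := rfl

lemma pr_congr {x y : ℕ → G} {s s' : ℕ} :
    ∀ {i : ℕ}, (∀ m < i, x (s + m) = y (s' + m)) → pr x s i = pr y s' i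
  | 0, _ => rfl
  | i + 1, h => by
      rw [pr_succ, pr_succ, pr_congr (fun m hm => h m (Nat.lt_succ_of_lt hm)), h i (Nat.lt_succ_self i)]

lemma pr_succ' (x : ℕ → G) (s : ℕ) : ∀ i : ℕ, pr x s (i + 1) = x s * pr x (s + 1) i
  | 0 => by simp [pr]
  | i + 1 => by
      rw [pr_succ, pr_succ' x s i, pr_succ, mul_assoc]
      congr 2
      congr 1
      omega

lemma pr_ext_seg (x : ℕ → G) (s n i : ℕ) (h : i ≤ n) :
    pr (ext (seg x s n)) 0 i = pr x s i := by
  refine pr_congr fun m hm => ?_
  have hm' : m < n := by omega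
  simp [ext, hm', seg]

lemma con_apply_of_lt {t m : ℕ} (x : ℕ → G) (h : m < t) : con t x m = x m := by simp [con, h]
lemma con_apply_self (t : ℕ) (x : ℕ → G) : con t x t = x t * x (t + 1) := by simp [con]
lemma con_apply_of_gt {t m : ℕ} (x : ℕ → G) (h : t < m) : con t x m = x (m + 1) := by
  have h1 : ¬ m < t := by omega
  have h2 : m ≠ t := by omega
  simp [con, h1, h2]

/-- contraction below the segment does not change it -/
lemma seg_con_of_le (x : ℕ → G) {s t i : ℕ} (h : i ≤ t) :
    seg (con (s + t) x) s i = seg x s i :=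
  seg_congr fun m hm => con_apply_of_lt x (by omega)

/-- contraction strictly before the segment shifts it -/
lemma seg_con_of_lt (x : ℕ → G) {s t i' : ℕ} (h : t < i') (j : ℕ) :
    seg (con (s + t) x) (s + i') j = seg x (s + i' + 1) j := by
  funext m
  simp only [seg_apply]
  rw [con_apply_of_gt x (by omega)]
  congr 1
  omega

lemma pr_con_of_le (x : ℕ → G) {s t i : ℕ} (h : i ≤ t) :
    pr (con (s + t) x) s i = pr x s i :=
  pr_congr fun m hm => con_apply_of_lt x (by omega)

lemma pr_con_of_lt (x : ℕ → G) (s t : ℕ) :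
    ∀ d : ℕ, pr (con (s + t) x) s (t + 1 + d) = pr x s (t + 1 + d + 1)
  | 0 => by
      rw [Nat.add_zero, pr_succ, pr_con_of_le x le_rfl, con_apply_self, pr_succ, pr_succ, mul_assoc,
        Nat.add_assoc]
  | d + 1 => by
      rw [← Nat.add_assoc, pr_succ, pr_con_of_lt x s t d, con_apply_of_gt x (by omega),
        pr_succ (i := t + 1 + d + 1)]
      congr 2

lemma pr_con_of_lt' (x : ℕ → G) {s t i : ℕ} (h : t < i) :
    pr (con (s + t) x) s i = pr x s (i + 1) := by
  obtain ⟨d, rfl⟩ : ∃ d, i = t + 1 + d := ⟨i - (t + 1), by omega⟩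
  exact pr_con_of_lt x s t d

lemma contractNth_seg (x : ℕ → G) (s n : ℕ) (j : Fin (n + 1)) :
    Fin.contractNth j (· * ·) (seg x s (n + 1)) = seg (con (s + j) x) s n := by
  funext m
  rcases lt_trichotomy (m : ℕ) (j : ℕ) with h | h | h
  · rw [Fin.contractNth_apply_of_lt _ _ _ _ h]
    simp only [seg_apply]
    rw [con_apply_of_lt x (by omega)]
    simp
  · rw [Fin.contractNth_apply_of_eq _ _ _ _ h]
    simp only [seg_apply]
    rw [← h, con_apply_self]
    simp [add_assoc]
  · rw [Fin.contractNth_apply_of_gt _ _ _ _ h]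
    simp only [seg_apply]
    rw [con_apply_of_gt x (by omega)]
    simp [add_assoc]

/-! ### the differential -/

/-- the inhomogeneous differential (formula of Mathlib's `inhomogeneousCochains.d`) -/
def dN (ρ : Representation k G M) (n : ℕ) (f : (Fin n → G) → M) : (Fin (n + 1) → G) → M :=
  fun g => ρ (g 0) (f fun i => g i.succ) +
    ∑ j : Fin (n + 1), (-1 : k) ^ ((j : ℕ) + 1) • f (Fin.contractNth j (· * ·) g)

lemma dN_seg (ρ : Representation k G M) (n : ℕ) (f : (Fin n → G) → M) (x : ℕ → G) (s : ℕ) :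
    dN ρ n f (seg x s (n + 1)) = ρ (x s) (f (seg x (s + 1) n)) +
      ∑ t ∈ Finset.range (n + 1), (-1 : k) ^ (t + 1) • f (seg (con (s + t) x) s n) := by
  unfold dN
  congr 1
  · have h1 : (fun i : Fin n => seg x s (n + 1) i.succ) = seg x (s + 1) n := by
      funext i
      simp only [seg_apply, Fin.val_succ]
      congr 1
      omega
    rw [h1]
    simp
  · rw [← Fin.sum_univ_eq_sum_range (fun t => (-1 : k) ^ (t + 1) • f (seg (con (s + t) x) s n))]
    refine Finset.sum_congr rfl fun j _ => ?_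
    rw [contractNth_seg]

/-! ### the cup product -/

variable (B : M →ₗ[k] N →ₗ[k] P) (ρN : Representation k G N)

/-- `(a ∪ b)(g) = B (a (g₀,…,g_{i-1})) ((g₀⋯g_{i-1}) • b (g_i,…,g_{i+j-1}))` -/
def cupF (i j : ℕ) (a : (Fin i → G) → M) (b : (Fin j → G) → N) : (Fin (i + j) → G) → P :=
  fun g => B (a (seg (ext g) 0 i)) (ρN (pr (ext g) 0 i) (b (seg (ext g) i j)))

lemma cupF_seg (i j : ℕ) (a : (Fin i → G) → M) (b : (Fin j → G) → N) (x : ℕ → G) (s : ℕ) :
    cupF B ρN i j a b (seg x s (i + j)) =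
      B (a (seg x s i)) (ρN (pr x s i) (b (seg x (s + i) j))) := by
  unfold cupF
  rw [seg_ext_seg x s (i + j) 0 i (by omega), seg_ext_seg x s (i + j) i j (by omega),
    pr_ext_seg x s (i + j) i (by omega)]
  simp

/-- the cup product written with `Fin.castAdd` / `Fin.natAdd` -/
lemma cupF_apply (i j : ℕ) (a : (Fin i → G) → M) (b : (Fin j → G) → N) (g : Fin (i + j) → G) :
    cupF B ρN i j a b g =
      B (a fun t => g (Fin.castAdd j t)) (ρN (pr (ext g) 0 i) (b fun t => g (Fin.natAdd i t))) := by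
  have h1 : seg (ext g) 0 i = fun t => g (Fin.castAdd j t) := by
    funext t
    have : 0 + (t : ℕ) < i + j := by have := t.2; omega
    simp only [seg_apply, ext_apply_of_lt g this]
    congr 1
    ext; simp
  have h2 : seg (ext g) i j = fun t => g (Fin.natAdd i t) := by
    funext t
    have : i + (t : ℕ) < i + j := by have := t.2; omega
    simp only [seg_apply, ext_apply_of_lt g this]
    congr 1
  unfold cupF
  rw [h1, h2]

/-! ### the general Leibniz rule -/

section leibniz
open Fermat.Agent.GC.Prof.Cup (Equivariant)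

variable {ρM : Representation k G M} {ρN} {ρP : Representation k G P} {B}

/-- Leibniz rule, evaluated on segments of a sequence (no casts). -/
theorem dN_cupF_seg (hB : Equivariant ρM ρN ρP B) (i j : ℕ)
    (a : (Fin i → G) → M) (b : (Fin j → G) → N) (x : ℕ → G) (s : ℕ) :
    dN ρP (i + j) (cupF B ρN i j a b) (seg x s (i + j + 1)) =
      cupF B ρN (i + 1) j (dN ρM i a) b (seg x s (i + 1 + j)) +
        (-1 : k) ^ i • cupF B ρN i (j + 1) a (dN ρN j b) (seg x s (i + (j + 1))) := by
  -- abbreviations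
  let a0 : M := a (seg x s i)
  let b0 : N := b (seg x (s + i + 1) j)
  -- the three expansions
  have hL : dN ρP (i + j) (cupF B ρN i j a b) (seg x s (i + j + 1)) =
      B (ρM (x s) (a (seg x (s + 1) i))) (ρN (pr x s (i + 1)) b0) +
      (∑ t ∈ Finset.range i, (-1 : k) ^ (t + 1) •
          B (a (seg (con (s + t) x) s i)) (ρN (pr x s (i + 1)) b0) +
       ∑ u ∈ Finset.range (j + 1), (-1 : k) ^ (i + u + 1) •
          B a0 (ρN (pr x s i) (b (seg (con (s + i + u) x) (s + i) j)))) := by
    rw [dN_seg, cupF_seg, ← hB, ← Module.End.mul_apply, ← map_mul, ← pr_succ']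
    have e1 : seg x (s + 1 + i) j = seg x (s + i + 1) j := by
      congr 1; omega
    rw [e1]
    congr 1
    have : i + j + 1 = i + (j + 1) := rfl
    rw [this, Finset.sum_range_add]
    congr 1
    · refine Finset.sum_congr rfl fun t ht => ?_
      have ht' : t < i := Finset.mem_range.1 ht
      rw [cupF_seg, pr_con_of_lt' x ht', seg_con_of_lt x ht']
    · refine Finset.sum_congr rfl fun u _ => ?_
      rw [cupF_seg, seg_con_of_le x (Nat.le_add_right i u),
        pr_con_of_le x (Nat.le_add_right i u), ← Nat.add_assoc]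
  have hR1 : cupF B ρN (i + 1) j (dN ρM i a) b (seg x s (i + 1 + j)) =
      B (ρM (x s) (a (seg x (s + 1) i))) (ρN (pr x s (i + 1)) b0) +
      (∑ t ∈ Finset.range i, (-1 : k) ^ (t + 1) •
          B (a (seg (con (s + t) x) s i)) (ρN (pr x s (i + 1)) b0) +
       (-1 : k) ^ (i + 1) • B a0 (ρN (pr x s (i + 1)) b0)) := by
    rw [cupF_seg, dN_seg, Finset.sum_range_succ, seg_con_of_le x le_rfl, ← Nat.add_assoc s i 1]
    simp only [map_add, map_sum, map_smul, LinearMap.add_apply, LinearMap.sum_apply,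
      LinearMap.smul_apply]
    rfl
  have hR2 : cupF B ρN i (j + 1) a (dN ρN j b) (seg x s (i + (j + 1))) =
      B a0 (ρN (pr x s (i + 1)) b0) +
      ∑ u ∈ Finset.range (j + 1), (-1 : k) ^ (u + 1) •
          B a0 (ρN (pr x s i) (b (seg (con (s + i + u) x) (s + i) j))) := by
    rw [cupF_seg, dN_seg, pr_succ, map_mul, Module.End.mul_apply]
    simp only [map_add, map_sum, map_smul]
    rfl
  rw [hL, hR1, hR2, smul_add, Finset.smul_sum]
  have hS : ∀ u ∈ Finset.range (j + 1), (-1 : k) ^ (i + u + 1) •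
        B a0 (ρN (pr x s i) (b (seg (con (s + i + u) x) (s + i) j))) =
      (-1 : k) ^ i • ((-1 : k) ^ (u + 1) •
        B a0 (ρN (pr x s i) (b (seg (con (s + i + u) x) (s + i) j)))) := by
    intro u _
    rw [smul_smul, ← pow_add, Nat.add_assoc]
  rw [Finset.sum_congr rfl hS]
  have hC : (-1 : k) ^ (i + 1) • B a0 (ρN (pr x s (i + 1)) b0) +
      (-1 : k) ^ i • B a0 (ρN (pr x s (i + 1)) b0) = 0 := by
    rw [pow_succ, mul_neg_one, neg_smul, neg_add_cancel]
  generalize (∑ t ∈ Finset.range i, (-1 : k) ^ (t + 1) •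
      B (a (seg (con (s + t) x) s i)) (ρN (pr x s (i + 1)) b0)) = S1 at *
  generalize (∑ u ∈ Finset.range (j + 1), (-1 : k) ^ i • ((-1 : k) ^ (u + 1) •
      B a0 (ρN (pr x s i) (b (seg (con (s + i + u) x) (s + i) j))))) = S2 at *
  generalize B (ρM (x s) (a (seg x (s + 1) i))) (ρN (pr x s (i + 1)) b0) = A at *
  generalize (-1 : k) ^ (i + 1) • B a0 (ρN (pr x s (i + 1)) b0) = C1 at *
  generalize (-1 : k) ^ i • B a0 (ρN (pr x s (i + 1)) b0) = C2 at *
  calc A + (S1 + S2) = A + (S1 + S2) + (C1 + C2) := by rw [hC, add_zero]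
    _ = A + (S1 + C1) + (C2 + S2) := by abel

/-- **General Leibniz rule** `d (a ∪ b) = (d a) ∪ b + (-1)^i • a ∪ (d b)`. The first summand lives on
`Fin (i + 1 + j)`, which is identified with `Fin (i + j + 1)` by `Fin.cast`. -/
theorem dN_cupF (hB : Equivariant ρM ρN ρP B) (i j : ℕ)
    (a : (Fin i → G) → M) (b : (Fin j → G) → N) (g : Fin (i + j + 1) → G) :
    dN ρP (i + j) (cupF B ρN i j a b) g =
      cupF B ρN (i + 1) j (dN ρM i a) b (g ∘ Fin.cast (Nat.add_right_comm i 1 j)) +
        (-1 : k) ^ i • cupF B ρN i (j + 1) a (dN ρN j b) g := by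
  have h2 : g ∘ Fin.cast (Nat.add_right_comm i 1 j) = seg (ext g) 0 (i + 1 + j) := by
    funext t
    have ht : 0 + (t : ℕ) < i + j + 1 := by have := t.2; omega
    simp only [Function.comp_apply, seg_apply, ext_apply_of_lt g ht]
    congr 1
    ext; simp
  have h1 : seg (ext g) 0 (i + j + 1) = g := seg_ext g
  have h3 : seg (ext g) 0 (i + (j + 1)) = g := seg_ext g
  have key := dN_cupF_seg hB i j a b (ext g) 0
  rw [← h2, h1, h3] at key
  exact key

end leibniz

/-! ### linearity -/

section linearity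
variable (ρ : Representation k G M) (n : ℕ)

lemma dN_add (f f' : (Fin n → G) → M) : dN ρ n (f + f') = dN ρ n f + dN ρ n f' := by
  funext g
  simp only [dN, Pi.add_apply, map_add, smul_add, Finset.sum_add_distrib]
  abel

lemma dN_smul (c : k) (f : (Fin n → G) → M) : dN ρ n (c • f) = c • dN ρ n f := by
  funext g
  simp only [dN, Pi.smul_apply, map_smul, smul_add, Finset.smul_sum]
  congr 1
  refine Finset.sum_congr rfl fun j _ => ?_
  rw [smul_comm]

@[simp] lemma dN_zero : dN ρ n (0 : (Fin n → G) → M) = 0 := by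
  funext g; simp [dN]

lemma dN_neg (f : (Fin n → G) → M) : dN ρ n (-f) = -dN ρ n f := by
  have := dN_smul ρ n (-1 : k) f
  simpa using this

/-- `dN` as a linear map -/
def dNLin : ((Fin n → G) → M) →ₗ[k] ((Fin (n + 1) → G) → M) where
  toFun := dN ρ n
  map_add' := dN_add ρ n
  map_smul' := dN_smul ρ n

@[simp] lemma dNLin_apply (f : (Fin n → G) → M) : dNLin ρ n f = dN ρ n f := rfl

variable (i j : ℕ)

lemma cupF_add_left (a a' : (Fin i → G) → M) (b : (Fin j → G) → N) :
    cupF B ρN i j (a + a') b = cupF B ρN i j a b + cupF B ρN i j a' b := by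
  funext g; simp [cupF]

lemma cupF_add_right (a : (Fin i → G) → M) (b b' : (Fin j → G) → N) :
    cupF B ρN i j a (b + b') = cupF B ρN i j a b + cupF B ρN i j a b' := by
  funext g; simp [cupF]

lemma cupF_smul_left (c : k) (a : (Fin i → G) → M) (b : (Fin j → G) → N) :
    cupF B ρN i j (c • a) b = c • cupF B ρN i j a b := by
  funext g; simp [cupF]

lemma cupF_smul_right (c : k) (a : (Fin i → G) → M) (b : (Fin j → G) → N) :
    cupF B ρN i j a (c • b) = c • cupF B ρN i j a b := by
  funext g; simp [cupF]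

@[simp] lemma cupF_zero_left (b : (Fin j → G) → N) :
    cupF B ρN i j (0 : (Fin i → G) → M) b = 0 := by
  funext g; simp [cupF]

@[simp] lemma cupF_zero_right (a : (Fin i → G) → M) :
    cupF B ρN i j a (0 : (Fin j → G) → N) = 0 := by
  funext g; simp [cupF]

/-- the cup product as a bilinear map on cochains -/
def cupFLin : ((Fin i → G) → M) →ₗ[k] ((Fin j → G) → N) →ₗ[k] ((Fin (i + j) → G) → P) :=
  LinearMap.mk₂ k (cupF B ρN i j) (cupF_add_left B ρN i j) (cupF_smul_left B ρN i j)
    (cupF_add_right B ρN i j) (cupF_smul_right B ρN i j)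

@[simp] lemma cupFLin_apply (a : (Fin i → G) → M) (b : (Fin j → G) → N) :
    cupFLin B ρN i j a b = cupF B ρN i j a b := rfl

end linearity

/-! ### consequences of the Leibniz rule -/

section closure
open Fermat.Agent.GC.Prof.Cup (Equivariant)
variable {ρM : Representation k G M} {ρN} {ρP : Representation k G P} {B}

/-- cocycle ∪ cocycle is a cocycle -/
theorem dN_cupF_eq_zero (hB : Equivariant ρM ρN ρP B) {i j : ℕ}
    {a : (Fin i → G) → M} {b : (Fin j → G) → N} (ha : dN ρM i a = 0) (hb : dN ρN j b = 0) :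
    dN ρP (i + j) (cupF B ρN i j a b) = 0 := by
  funext g
  rw [dN_cupF hB, ha, hb]
  simp

/-- coboundary ∪ cocycle is a coboundary: `(d a) ∪ b = d (a ∪ b)` up to the cast `i+1+j = i+j+1` -/
theorem cupF_dN_left (hB : Equivariant ρM ρN ρP B) {i j : ℕ}
    (a : (Fin i → G) → M) {b : (Fin j → G) → N} (hb : dN ρN j b = 0)
    (g : Fin (i + j + 1) → G) :
    cupF B ρN (i + 1) j (dN ρM i a) b (g ∘ Fin.cast (Nat.add_right_comm i 1 j)) =
      dN ρP (i + j) (cupF B ρN i j a b) g := by
  rw [dN_cupF hB, hb]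
  simp

/-- cocycle ∪ coboundary is a coboundary: `a ∪ (d b) = d ((-1)^i • a ∪ b)` -/
theorem cupF_dN_right (hB : Equivariant ρM ρN ρP B) {i j : ℕ}
    {a : (Fin i → G) → M} (ha : dN ρM i a = 0) (b : (Fin j → G) → N) :
    cupF B ρN i (j + 1) a (dN ρN j b) =
      dN ρP (i + j) ((-1 : k) ^ i • cupF B ρN i j a b) := by
  funext g
  rw [dN_smul, Pi.smul_apply, dN_cupF hB, ha]
  simp only [cupF_zero_left, Pi.zero_apply, zero_add, smul_smul]
  rw [← pow_add, ← two_mul, pow_mul]
  simp

end closure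

/-! ### comparison with Mathlib -/

section mathlib
universe u
variable {k' G' : Type u} [CommRing k'] [Group G']

/-- `dN` is Mathlib's inhomogeneous differential. -/
lemma dN_eq (A : Rep k' G') (n : ℕ) (f : (Fin n → G') → A) :
    (inhomogeneousCochains.d A n).hom f = dN A.ρ n f := rfl

end mathlib

end Fermat.Agent.GC.Prof.CupN
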