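/-
GATE-C / C1 leaf (L7) CUP, part 4 (helper2): the cup product on LEVEL-CONSTANT cochains and on
`Hlc`.  For discrete representations `M N P` and an equivariant bilinear map `B : M × N → P`:
* `IsLC.cupF`   : `cupF` preserves level-constant cochains;
* `lcCup`       : `lcSub 𝒰 M i →ₗ lcSub 𝒰 N j →ₗ lcSub 𝒰 P n` (`i + j = n`), `lcCup_leibniz`;
* `lcCupData`   : the `CupAbs.CupData (lcCochains 𝒰 M) (lcCochains 𝒰 N) (lcCochains 𝒰 P)`;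
* `HlcCup`      : `Hlc 𝒰 M i →ₗ Hlc 𝒰 N j →ₗ Hlc 𝒰 P n`, computed on `HlcMk` by `HlcCup_mk`.
namespace Fermat.Agent.GC.Prof (same as the core).
-/
import Fermat.Agent.GC.Prof.Concrete
import Fermat.Agent.GC.Prof.CupN
import Fermat.Agent.GC.Prof.CupAbs

set_option autoImplicit false
set_option linter.unusedSectionVars false

open CategoryTheory

noncomputable section

namespace Fermat.Agent.GC.Prof

open Cup (Equivariant)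
open CupN

universe u

section seq

variable {G : Type*} [Group G]

lemma CupN.ext_mul {n : ℕ} (g s : Fin n → G) : ext (g * s) = ext g * ext s := by
  funext m
  by_cases h : m < n
  · simp [ext, h]
  · simp [ext, h]

lemma CupN.ext_mem {n : ℕ} (W : Subgroup G) (s : Fin n → G) (hs : ∀ i, s i ∈ W) (m : ℕ) :
    ext s m ∈ W := by
  by_cases h : m < n
  · simp [ext, h, hs]
  · simp [ext, h, W.one_mem]

/-- multiplying a sequence entrywise on the right by elements of a normal subgroup `W` changes the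
ordered products by an element of `W` on the right -/
lemma CupN.pr_mul_mem (W : Subgroup G) [W.Normal] (x t : ℕ → G) (ht : ∀ m, t m ∈ W) (s : ℕ) :
    ∀ i : ℕ, (pr x s i)⁻¹ * pr (x * t) s i ∈ W
  | 0 => by simp [W.one_mem]
  | i + 1 => by
      have ih := CupN.pr_mul_mem W x t ht s i
      rw [pr_succ, pr_succ, Pi.mul_apply]
      have : (pr x s i * x (s + i))⁻¹ * (pr (x * t) s i * (x (s + i) * t (s + i))) =
          ((x (s + i))⁻¹ * ((pr x s i)⁻¹ * pr (x * t) s i) * (x (s + i))⁻¹⁻¹) * t (s + i) := by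
        group
      rw [this]
      exact W.mul_mem (Subgroup.Normal.conj_mem inferInstance _ ih _) (ht _)

lemma CupN.seg_mul (x t : ℕ → G) (s n : ℕ) : seg (x * t) s n = seg x s n * seg t s n := rfl

end seq

/-! ### the cup product with the target degree as a parameter (`i + j = n`) -/

section cupC

variable {k G M N P : Type*} [CommRing k] [Group G]
  [AddCommGroup M] [Module k M] [AddCommGroup N] [Module k N] [AddCommGroup P] [Module k P]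
  (B : M →ₗ[k] N →ₗ[k] P) (ρN : Representation k G N)

/-- `cupF` transported to `Fin n`, `n = i + j` -/
def CupN.cupC {i j n : ℕ} (h : i + j = n) (a : (Fin i → G) → M) (b : (Fin j → G) → N) :
    (Fin n → G) → P :=
  fun g => cupF B ρN i j a b (g ∘ Fin.cast h)

lemma CupN.cupC_rfl {i j : ℕ} (a : (Fin i → G) → M) (b : (Fin j → G) → N) :
    CupN.cupC B ρN (rfl : i + j = i + j) a b = cupF B ρN i j a b := rfl

lemma CupN.cupC_apply {i j n : ℕ} (h : i + j = n) (a : (Fin i → G) → M) (b : (Fin j → G) → N)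
    (g : Fin n → G) : CupN.cupC B ρN h a b g = cupF B ρN i j a b (g ∘ Fin.cast h) := rfl

variable {B ρN} {ρM : Representation k G M} {ρP : Representation k G P}

/-- Leibniz rule for `cupC` -/
theorem CupN.dN_cupC (hB : Equivariant ρM ρN ρP B) {i j n : ℕ} (h : i + j = n)
    (a : (Fin i → G) → M) (b : (Fin j → G) → N) :
    dN ρP n (CupN.cupC B ρN h a b) =
      CupN.cupC B ρN (show i + 1 + j = n + 1 by omega) (dN ρM i a) b +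
        (-1 : k) ^ i • CupN.cupC B ρN (show i + (j + 1) = n + 1 by omega) a (dN ρN j b) := by
  subst h
  funext g
  exact dN_cupF hB i j a b g

end cupC

variable {k G : Type u} [CommRing k] [Group G] (𝒰 : LevelSystem G)
variable {M N P : Rep.{u} k G}

/-! ### the cup product preserves level-constant cochains -/

variable {𝒰} in
/-- The cup product of level-constant cochains is level-constant (the second coefficient module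
must be discrete). -/
lemma IsLC.cupF [IsDiscrete 𝒰 N] (B : M →ₗ[k] N →ₗ[k] P) {i j : ℕ} {a : (Fin i → G) → M}
    {b : (Fin j → G) → N} (ha : IsLC 𝒰 a) (hb : IsLC 𝒰 b) :
    IsLC 𝒰 (CupN.cupF B N.ρ i j a b) := by
  obtain ⟨U, hU, hUa⟩ := ha
  obtain ⟨V, hV, -, -, hVb, hVfix⟩ := hb.exists_level N
  obtain ⟨W, hW, hWU, hWV, hn, -⟩ := 𝒰.exists_normal_le_inf hU hV
  refine ⟨W, hW, fun g s hs => ?_⟩
  unfold CupN.cupF
  rw [CupN.ext_mul, CupN.seg_mul, CupN.seg_mul]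
  have hes : ∀ m, ext s m ∈ W := CupN.ext_mem W s hs
  rw [hUa (seg (ext g) 0 i) (seg (ext s) 0 i) (fun t => hWU (hes _)),
    hVb (seg (ext g) i j) (seg (ext s) i j) (fun t => hWV (hes _))]
  have hp := CupN.pr_mul_mem W (ext g) (ext s) hes 0 i
  have e : pr (ext g * ext s) 0 i = pr (ext g) 0 i * ((pr (ext g) 0 i)⁻¹ * pr (ext g * ext s) 0 i) := by
    group
  rw [e, map_mul, Module.End.mul_apply, hVfix _ (hWV hp)]

variable {𝒰} in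
lemma IsLC.cupC [IsDiscrete 𝒰 N] (B : M →ₗ[k] N →ₗ[k] P) {i j n : ℕ} (h : i + j = n)
    {a : (Fin i → G) → M} {b : (Fin j → G) → N} (ha : IsLC 𝒰 a) (hb : IsLC 𝒰 b) :
    IsLC 𝒰 (CupN.cupC B N.ρ h a b) := by
  subst h
  exact IsLC.cupF B ha hb

/-! ### the cup product on level-constant cochains -/

section lcCup

variable [IsDiscrete 𝒰 N] (B : M →ₗ[k] N →ₗ[k] P)

/-- the cup product `lcSub 𝒰 M i × lcSub 𝒰 N j → lcSub 𝒰 P n`, `i + j = n` -/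
def lcCup {i j n : ℕ} (h : i + j = n) : lcSub 𝒰 M i →ₗ[k] lcSub 𝒰 N j →ₗ[k] lcSub 𝒰 P n :=
  LinearMap.mk₂ k (fun a b => ⟨CupN.cupC B N.ρ h a.1 b.1, IsLC.cupC B h a.2 b.2⟩)
    (fun a a' b => by
      apply Subtype.ext; funext g; simp [CupN.cupC, CupN.cupF])
    (fun c a b => by
      apply Subtype.ext; funext g; simp [CupN.cupC, CupN.cupF])
    (fun a b b' => by
      apply Subtype.ext; funext g; simp [CupN.cupC, CupN.cupF])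
    (fun c a b => by
      apply Subtype.ext; funext g; simp [CupN.cupC, CupN.cupF])

@[simp]
lemma lcCup_coe {i j n : ℕ} (h : i + j = n) (a : lcSub 𝒰 M i) (b : lcSub 𝒰 N j) :
    ((lcCup 𝒰 B h a b : lcSub 𝒰 P n) : (Fin n → G) → P) = CupN.cupC B N.ρ h a.1 b.1 := rfl

variable [IsDiscrete 𝒰 M] [IsDiscrete 𝒰 P] {B}

/-- Leibniz rule on level-constant cochains -/
theorem lcCup_leibniz (hB : Equivariant M.ρ N.ρ P.ρ B) {i j n : ℕ} (h : i + j = n)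
    (a : lcSub 𝒰 M i) (b : lcSub 𝒰 N j) :
    lcD 𝒰 P n (lcCup 𝒰 B h a b) =
      lcCup 𝒰 B (show i + 1 + j = n + 1 by omega) (lcD 𝒰 M i a) b +
        (-1 : k) ^ i • lcCup 𝒰 B (show i + (j + 1) = n + 1 by omega) a (lcD 𝒰 N j b) := by
  apply Subtype.ext
  exact CupN.dN_cupC hB h a.1 b.1

variable (B) in
/-- the cup data on level-constant cochain complexes attached to an equivariant bilinear map -/
def lcCupData (hB : Equivariant M.ρ N.ρ P.ρ B) :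
    CupAbs.CupData (lcCochains 𝒰 M) (lcCochains 𝒰 N) (lcCochains 𝒰 P) where
  cup _ _ _ h := lcCup 𝒰 B h
  leibniz i j n h a b := by
    rw [lcCochains_d, lcCochains_d, lcCochains_d]
    exact lcCup_leibniz 𝒰 hB h a b

variable (B) in
/-- **the cup product on level-constant cohomology** `Hlc^i(M) × Hlc^j(N) → Hlc^n(P)`, `i + j = n` -/
def HlcCup (hB : Equivariant M.ρ N.ρ P.ρ B) {i j n : ℕ} (h : i + j = n) :
    Hlc 𝒰 M i →ₗ[k] Hlc 𝒰 N j →ₗ[k] Hlc 𝒰 P n :=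
  (lcCupData 𝒰 B hB).cupH h

end lcCup

/-! ### `HlcMk` versus `Elt.hMk` -/

section bridge

variable (M) [IsDiscrete 𝒰 M]

/-- a level-constant cocycle as an element of helper20's `Elt.zSub` -/
def lcToZ {n : ℕ} (f : lcSub 𝒰 M n) (hf : lcD 𝒰 M n f = 0) : Elt.zSub (lcCochains 𝒰 M) n :=
  ⟨(show (lcCochains 𝒰 M).X n from f), by
    rw [Elt.mem_zSub_iff, lcCochains_d]
    exact hf⟩

lemma HlcMk_eq_hMk {n : ℕ} (f : lcSub 𝒰 M n) (hf : lcD 𝒰 M n f = 0) :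
    HlcMk 𝒰 M f hf = Elt.hMk (lcCochains 𝒰 M) n (lcToZ 𝒰 M f hf) := by
  rw [Elt.hMk_apply]
  unfold HlcMk lcCyclesMk
  congr 1
  exact CupAbs.cyclesMk_eq_zMkHom (lcCochains 𝒰 M) n (lcToZ 𝒰 M f hf) _

end bridge

section mk

variable [IsDiscrete 𝒰 M] [IsDiscrete 𝒰 N] [IsDiscrete 𝒰 P] {B : M →ₗ[k] N →ₗ[k] P}

lemma lcD_lcCup_eq_zero (hB : Equivariant M.ρ N.ρ P.ρ B) {i j n : ℕ} (h : i + j = n)
    {a : lcSub 𝒰 M i} {b : lcSub 𝒰 N j} (ha : lcD 𝒰 M i a = 0) (hb : lcD 𝒰 N j b = 0) :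
    lcD 𝒰 P n (lcCup 𝒰 B h a b) = 0 := by
  rw [lcCup_leibniz 𝒰 hB, ha, hb]
  simp

/-- the cup product on classes of level-constant cocycles -/
theorem HlcCup_mk (hB : Equivariant M.ρ N.ρ P.ρ B) {i j n : ℕ} (h : i + j = n)
    (a : lcSub 𝒰 M i) (ha : lcD 𝒰 M i a = 0) (b : lcSub 𝒰 N j) (hb : lcD 𝒰 N j b = 0) :
    HlcCup 𝒰 B hB h (HlcMk 𝒰 M a ha) (HlcMk 𝒰 N b hb) =
      HlcMk 𝒰 P (lcCup 𝒰 B h a b) (lcD_lcCup_eq_zero 𝒰 hB h ha hb) := by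
  rw [HlcMk_eq_hMk, HlcMk_eq_hMk, HlcMk_eq_hMk]
  exact (lcCupData 𝒰 B hB).cupH_hMk h _ _

end mk

/-! ### naturality in the coefficients -/

section naturality

variable {M' N' P' : Rep.{u} k G}
variable [IsDiscrete 𝒰 M] [IsDiscrete 𝒰 N] [IsDiscrete 𝒰 P]
  [IsDiscrete 𝒰 M'] [IsDiscrete 𝒰 N'] [IsDiscrete 𝒰 P']
  {B : M →ₗ[k] N →ₗ[k] P} {B' : M' →ₗ[k] N' →ₗ[k] P'}

omit [IsDiscrete 𝒰 M] [IsDiscrete 𝒰 P] [IsDiscrete 𝒰 M'] [IsDiscrete 𝒰 P'] in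
/-- covariant functoriality of the cochain cup product in all three coefficient modules -/
lemma lcMapLin_lcCup (φ : M ⟶ M') (ψ : N ⟶ N') (θ : P ⟶ P')
    (hc : ∀ m n, θ.hom (B m n) = B' (φ.hom m) (ψ.hom n)) {i j n : ℕ} (h : i + j = n)
    (a : lcSub 𝒰 M i) (b : lcSub 𝒰 N j) :
    lcMapLin 𝒰 θ n (lcCup 𝒰 B h a b) = lcCup 𝒰 B' h (lcMapLin 𝒰 φ i a) (lcMapLin 𝒰 ψ j b) := by
  apply Subtype.ext
  funext g
  simp only [lcMapLin_coe, lcCup_coe, CupN.cupC, CupN.cupF, hc, Rep.hom_comm_apply]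

/-- naturality of the cup product on `Hlc` -/
theorem HlcCup_map (hB : Equivariant M.ρ N.ρ P.ρ B) (hB' : Equivariant M'.ρ N'.ρ P'.ρ B')
    (φ : M ⟶ M') (ψ : N ⟶ N') (θ : P ⟶ P')
    (hc : ∀ m n, θ.hom (B m n) = B' (φ.hom m) (ψ.hom n)) {i j n : ℕ} (h : i + j = n)
    (x : Hlc 𝒰 M i) (y : Hlc 𝒰 N j) :
    HlcMap 𝒰 θ n (HlcCup 𝒰 B hB h x y) =
      HlcCup 𝒰 B' hB' h (HlcMap 𝒰 φ i x) (HlcMap 𝒰 ψ j y) := by
  refine CupAbs.CupData.cupH_map (c := lcCupData 𝒰 B hB) (c' := lcCupData 𝒰 B' hB')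
    (φ := lcMap 𝒰 φ) (ψ := lcMap 𝒰 ψ) (θ := lcMap 𝒰 θ) ?_ h x y
  intro i j n h a b
  exact lcMapLin_lcCup 𝒰 φ ψ θ hc h a b

end naturality

/-! ### compatibility with the connecting homomorphisms -/

section delta

variable {X Y : ShortComplex (Rep.{u} k G)} (hX : X.ShortExact) (hY : Y.ShortExact)
  [IsDiscrete 𝒰 X.X₁] [IsDiscrete 𝒰 X.X₂] [IsDiscrete 𝒰 X.X₃]
  [IsDiscrete 𝒰 Y.X₁] [IsDiscrete 𝒰 Y.X₂] [IsDiscrete 𝒰 Y.X₃]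

/-- **δ in the first variable.**  `0 → M' → M → M'' → 0` (`X`), `0 → P' → P → P'' → 0` (`Y`), a
fixed `N`, compatible pairings `B₁ B₂ B₃`:  `δ (x ∪ y) = (δ x) ∪ y`. -/
theorem Hlcδ_HlcCup_left [IsDiscrete 𝒰 N]
    {B₁ : X.X₁ →ₗ[k] N →ₗ[k] Y.X₁} {B₂ : X.X₂ →ₗ[k] N →ₗ[k] Y.X₂} {B₃ : X.X₃ →ₗ[k] N →ₗ[k] Y.X₃}
    (hB₁ : Equivariant X.X₁.ρ N.ρ Y.X₁.ρ B₁) (hB₂ : Equivariant X.X₂.ρ N.ρ Y.X₂.ρ B₂)
    (hB₃ : Equivariant X.X₃.ρ N.ρ Y.X₃.ρ B₃)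
    (h₁₂ : ∀ m n, Y.f.hom (B₁ m n) = B₂ (X.f.hom m) n)
    (h₂₃ : ∀ m n, Y.g.hom (B₂ m n) = B₃ (X.g.hom m) n)
    {i j n : ℕ} (h : i + j = n) (x : Hlc 𝒰 X.X₃ i) (y : Hlc 𝒰 N j) :
    Hlcδ 𝒰 hY n (n + 1) rfl (HlcCup 𝒰 B₃ hB₃ h x y) =
      HlcCup 𝒰 B₁ hB₁ (show i + 1 + j = n + 1 by omega) (Hlcδ 𝒰 hX i (i + 1) rfl x) y := by
  refine CupAbs.δ_cupH_left (lcShortComplex_shortExact 𝒰 hX) (lcShortComplex_shortExact 𝒰 hY)
    (lcCupData 𝒰 B₁ hB₁) (lcCupData 𝒰 B₂ hB₂) (lcCupData 𝒰 B₃ hB₃) ?_ ?_ h x y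
  · intro i j n h a b
    have := lcMapLin_lcCup 𝒰 X.f (𝟙 N) Y.f (B := B₁) (B' := B₂) (fun m n => h₁₂ m n) h a b
    exact this
  · intro i j n h a b
    have := lcMapLin_lcCup 𝒰 X.g (𝟙 N) Y.g (B := B₂) (B' := B₃) (fun m n => h₂₃ m n) h a b
    exact this

/-- **δ in the second variable.**  `0 → N' → N → N'' → 0` (`X`), `0 → P' → P → P'' → 0` (`Y`), a
fixed `M`, compatible pairings:  `δ (x ∪ y) = (-1)^i • x ∪ (δ y)` for `x ∈ Hlc^i(M)`. -/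
theorem Hlcδ_HlcCup_right [IsDiscrete 𝒰 M]
    {B₁ : M →ₗ[k] X.X₁ →ₗ[k] Y.X₁} {B₂ : M →ₗ[k] X.X₂ →ₗ[k] Y.X₂} {B₃ : M →ₗ[k] X.X₃ →ₗ[k] Y.X₃}
    (hB₁ : Equivariant M.ρ X.X₁.ρ Y.X₁.ρ B₁) (hB₂ : Equivariant M.ρ X.X₂.ρ Y.X₂.ρ B₂)
    (hB₃ : Equivariant M.ρ X.X₃.ρ Y.X₃.ρ B₃)
    (h₁₂ : ∀ m n, Y.f.hom (B₁ m n) = B₂ m (X.f.hom n))
    (h₂₃ : ∀ m n, Y.g.hom (B₂ m n) = B₃ m (X.g.hom n))
    {i j n : ℕ} (h : i + j = n) (x : Hlc 𝒰 M i) (y : Hlc 𝒰 X.X₃ j) :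
    Hlcδ 𝒰 hY n (n + 1) rfl (HlcCup 𝒰 B₃ hB₃ h x y) =
      (-1 : k) ^ i • HlcCup 𝒰 B₁ hB₁ (show i + (j + 1) = n + 1 by omega) x
        (Hlcδ 𝒰 hX j (j + 1) rfl y) := by
  refine CupAbs.δ_cupH_right (lcShortComplex_shortExact 𝒰 hX) (lcShortComplex_shortExact 𝒰 hY)
    (lcCupData 𝒰 B₁ hB₁) (lcCupData 𝒰 B₂ hB₂) (lcCupData 𝒰 B₃ hB₃) ?_ ?_ h x y
  · intro i j n h a b
    have := lcMapLin_lcCup 𝒰 (𝟙 M) X.f Y.f (B := B₁) (B' := B₂) (fun m n => h₁₂ m n) h a b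
    exact this
  · intro i j n h a b
    have := lcMapLin_lcCup 𝒰 (𝟙 M) X.g Y.g (B := B₂) (B' := B₃) (fun m n => h₂₃ m n) h a b
    exact this

omit [IsDiscrete 𝒰 X.X₃] [IsDiscrete 𝒰 Y.X₁] in
/-- the cochain-level adjunction identities used by `Hlcδ_HlcCup_adjoint` -/
lemma lcCup_adjoint_left {P : Rep.{u} k G}
    {B : X.X₂ →ₗ[k] Y.X₂ →ₗ[k] P} {B₁ : X.X₁ →ₗ[k] Y.X₃ →ₗ[k] P}
    (h₁ : ∀ m n, B (X.f.hom m) n = B₁ m (Y.g.hom n)) {i j n : ℕ} (h : i + j = n)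
    (a : lcSub 𝒰 X.X₁ i) (b : lcSub 𝒰 Y.X₂ j) :
    lcCup 𝒰 B h (lcMapLin 𝒰 X.f i a) b = lcCup 𝒰 B₁ h a (lcMapLin 𝒰 Y.g j b) := by
  apply Subtype.ext
  funext g
  simp only [lcMapLin_coe, lcCup_coe, CupN.cupC, CupN.cupF, h₁, Rep.hom_comm_apply]

omit [IsDiscrete 𝒰 X.X₁] [IsDiscrete 𝒰 Y.X₃] in
lemma lcCup_adjoint_right {P : Rep.{u} k G}
    {B : X.X₂ →ₗ[k] Y.X₂ →ₗ[k] P} {B₂ : X.X₃ →ₗ[k] Y.X₁ →ₗ[k] P}
    (h₂ : ∀ m n, B m (Y.f.hom n) = B₂ (X.g.hom m) n) {i j n : ℕ} (h : i + j = n)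
    (a : lcSub 𝒰 X.X₂ i) (b : lcSub 𝒰 Y.X₁ j) :
    lcCup 𝒰 B h a (lcMapLin 𝒰 Y.f j b) = lcCup 𝒰 B₂ h (lcMapLin 𝒰 X.g i a) b := by
  apply Subtype.ext
  funext g
  simp only [lcMapLin_coe, lcCup_coe, CupN.cupC, CupN.cupF, ← h₂, Rep.hom_comm_apply]

/-- **Adjointness of the two connecting maps.**  `0 → M' → M → M'' → 0` (`X`),
`0 → N' → N → N'' → 0` (`Y`), one target `P`, pairings `B : M × N → P`, `B₁ : M' × N'' → P`,
`B₂ : M'' × N' → P` with `B (f m', n) = B₁ (m', g n)` and `B (m, f n') = B₂ (g m, n')`.  Then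
`(δ x) ∪₁ y + (-1)^i • x ∪₂ (δ y) = 0` for `x ∈ Hlc^i(M'')`, `y ∈ Hlc^j(N'')`.
(Typical use: `Y` = the `Hom(-, μ)`-dual of `X`.) -/
theorem Hlcδ_HlcCup_adjoint {P : Rep.{u} k G} [IsDiscrete 𝒰 P]
    {B : X.X₂ →ₗ[k] Y.X₂ →ₗ[k] P} {B₁ : X.X₁ →ₗ[k] Y.X₃ →ₗ[k] P} {B₂ : X.X₃ →ₗ[k] Y.X₁ →ₗ[k] P}
    (hB : Equivariant X.X₂.ρ Y.X₂.ρ P.ρ B) (hB₁ : Equivariant X.X₁.ρ Y.X₃.ρ P.ρ B₁)
    (hB₂ : Equivariant X.X₃.ρ Y.X₁.ρ P.ρ B₂)
    (h₁ : ∀ m n, B (X.f.hom m) n = B₁ m (Y.g.hom n))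
    (h₂ : ∀ m n, B m (Y.f.hom n) = B₂ (X.g.hom m) n)
    {i j n : ℕ} (h : i + j = n) (x : Hlc 𝒰 X.X₃ i) (y : Hlc 𝒰 Y.X₃ j) :
    HlcCup 𝒰 B₁ hB₁ (show i + 1 + j = n + 1 by omega) (Hlcδ 𝒰 hX i (i + 1) rfl x) y +
      (-1 : k) ^ i • HlcCup 𝒰 B₂ hB₂ (show i + (j + 1) = n + 1 by omega) x
        (Hlcδ 𝒰 hY j (j + 1) rfl y) = 0 := by
  refine CupAbs.δ_cupH_adjoint (lcShortComplex_shortExact 𝒰 hX) (lcShortComplex_shortExact 𝒰 hY)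
    (lcCupData 𝒰 B hB) (lcCupData 𝒰 B₁ hB₁) (lcCupData 𝒰 B₂ hB₂) ?_ ?_ h x y
  · intro i j n h a b
    exact lcCup_adjoint_left 𝒰 h₁ h a b
  · intro i j n h a b
    exact lcCup_adjoint_right 𝒰 h₂ h a b

end delta

end Fermat.Agent.GC.Prof
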