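/-
GATE-C / C1 (PROFCOH), leaf (L15) CUP ↔ RES / SHAPIRO / COR (helper20).

Compatibility of helper2's cup product `HlcCup` on level-constant cohomology with helper5's
pull-back `HlcPull`, with the Shapiro map `HlcShapiro` and with the corestriction `HlcCor`.
-/
import Fermat.Agent.GC.Prof.CupLC
import Fermat.Agent.GC.Prof.Cor

set_option autoImplicit false
set_option linter.unusedSectionVars false

open CategoryTheory

noncomputable section

namespace Fermat.Agent.GC.Prof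

open Cup (Equivariant)
open CupN
open Fermat.Agent.GC.Tate

universe u

/-! ### sequences and homomorphisms -/

section seq

variable {G D : Type*} [Group G] [Group D] (f : D →* G)

lemma CupN.ext_comp_hom {n : ℕ} (g : Fin n → D) : ext (f ∘ g) = f ∘ ext g := by
  funext m
  by_cases h : m < n
  · simp [ext, h]
  · simp [ext, h]

lemma CupN.seg_comp_hom (x : ℕ → D) (s n : ℕ) : seg (f ∘ x) s n = f ∘ seg x s n := rfl

lemma CupN.pr_comp_hom (x : ℕ → D) (s : ℕ) : ∀ i : ℕ, pr (f ∘ x) s i = f (pr x s i)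
  | 0 => by simp
  | i + 1 => by rw [pr_succ, pr_succ, CupN.pr_comp_hom x s i, map_mul]; rfl

end seq

/-! ### the cup product and pull-back along a continuous homomorphism -/

section pull

variable {k G D : Type u} [CommRing k] [Group G] [Group D]
  {𝒰 : LevelSystem G} {𝒱 : LevelSystem D} {f : D →* G} (hf : IsContHom 𝒱 𝒰 f)
  {M N P : Rep.{u} k G} {M' N' P' : Rep.{u} k D}
  {B : M →ₗ[k] N →ₗ[k] P} {B' : M' →ₗ[k] N' →ₗ[k] P'}

/-- cochain level: the pull-back of a cup product is the cup product of the pull-backs -/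
lemma lcPullLin_lcCup [IsDiscrete 𝒰 N] [IsDiscrete 𝒱 N']
    (φ : Rep.res f M ⟶ M') (ψ : Rep.res f N ⟶ N') (θ : Rep.res f P ⟶ P')
    (hc : ∀ m n, θ.hom (B m n) = B' (φ.hom m) (ψ.hom n)) {i j n : ℕ} (h : i + j = n)
    (a : lcSub 𝒰 M i) (b : lcSub 𝒰 N j) :
    lcPullLin hf θ n (lcCup 𝒰 B h a b) =
      lcCup 𝒱 B' h (lcPullLin hf φ i a) (lcPullLin hf ψ j b) := by
  subst h
  apply Subtype.ext
  funext g
  have hψ : ∀ (d : D) (x : N), ψ.hom (N.ρ (f d) x) = N'.ρ d (ψ.hom x) := fun d x =>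
    Rep.hom_comm_apply ψ d x
  simp only [lcPullLin_coe, lcCup_coe, CupN.cupC, CupN.cupF, hc]
  have e : (f ∘ g) ∘ Fin.cast (rfl : i + j = i + j) = f ∘ (g ∘ Fin.cast rfl) := rfl
  rw [e, CupN.ext_comp_hom, CupN.seg_comp_hom, CupN.seg_comp_hom, CupN.pr_comp_hom, hψ]

variable [IsDiscrete 𝒰 M] [IsDiscrete 𝒰 N] [IsDiscrete 𝒰 P]
  [IsDiscrete 𝒱 M'] [IsDiscrete 𝒱 N'] [IsDiscrete 𝒱 P']

/-- **the pull-back is multiplicative**: `(f, θ)^* (x ∪ y) = (f, φ)^* x ∪ (f, ψ)^* y` -/
theorem HlcPull_HlcCup (hB : Equivariant M.ρ N.ρ P.ρ B) (hB' : Equivariant M'.ρ N'.ρ P'.ρ B')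
    (φ : Rep.res f M ⟶ M') (ψ : Rep.res f N ⟶ N') (θ : Rep.res f P ⟶ P')
    (hc : ∀ m n, θ.hom (B m n) = B' (φ.hom m) (ψ.hom n)) {i j n : ℕ} (h : i + j = n)
    (x : Hlc 𝒰 M i) (y : Hlc 𝒰 N j) :
    HlcPull hf θ n (HlcCup 𝒰 B hB h x y) =
      HlcCup 𝒱 B' hB' h (HlcPull hf φ i x) (HlcPull hf ψ j y) := by
  refine CupAbs.CupData.cupH_map (c := lcCupData 𝒰 B hB) (c' := lcCupData 𝒱 B' hB')
    (φ := lcPull hf φ) (ψ := lcPull hf ψ) (θ := lcPull hf θ) ?_ h x y
  intro i j n h a b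
  exact lcPullLin_lcCup hf φ ψ θ hc h a b

/-- an equivariant pairing stays equivariant after restriction along a homomorphism -/
lemma Equivariant_res (hB : Equivariant M.ρ N.ρ P.ρ B) :
    Equivariant (Rep.res f M).ρ (Rep.res f N).ρ (Rep.res f P).ρ B :=
  fun d m n => hB (f d) m n

variable [IsDiscrete 𝒱 (Rep.res f M)] [IsDiscrete 𝒱 (Rep.res f N)] [IsDiscrete 𝒱 (Rep.res f P)]

/-- **restriction is multiplicative** -/
theorem HlcRes_HlcCup (hB : Equivariant M.ρ N.ρ P.ρ B) {i j n : ℕ} (h : i + j = n)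
    (x : Hlc 𝒰 M i) (y : Hlc 𝒰 N j) :
    HlcRes hf P n (HlcCup 𝒰 B hB h x y) =
      HlcCup 𝒱 (M := Rep.res f M) (N := Rep.res f N) (P := Rep.res f P) B
        (Equivariant_res (f := f) hB) h (HlcRes hf M i x) (HlcRes hf N j y) :=
  HlcPull_HlcCup hf hB (Equivariant_res (f := f) hB) (𝟙 _) (𝟙 _) (𝟙 _) (fun _ _ => rfl) h x y

end pull

/-! ### the pointwise pairing on coinduced modules and the Shapiro map -/

section coindCup

variable {k G : Type u} [CommRing k] [Group G] (S : Subgroup G) {N N' P : Rep.{u} k S}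
  (B : N →ₗ[k] N' →ₗ[k] P) (hB : Equivariant N.ρ N'.ρ P.ρ B)

/-- the pointwise pairing `Coind N × Coind N' → Coind P`, `(Φ, Ψ) ↦ (g ↦ B (Φ g) (Ψ g))` -/
def coindCup : Rep.coind S.subtype N →ₗ[k] Rep.coind S.subtype N' →ₗ[k] Rep.coind S.subtype P :=
  LinearMap.mk₂ k
    (fun Φ Ψ => ⟨fun g => B (Φ.1 g) (Ψ.1 g), fun s g => by
      show B (Φ.1 (S.subtype s * g)) (Ψ.1 (S.subtype s * g)) = P.ρ s (B (Φ.1 g) (Ψ.1 g))
      rw [Φ.2 s g, Ψ.2 s g, hB]⟩)
    (fun Φ Φ' Ψ => by
      apply Subtype.ext; funext g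
      show B ((Φ + Φ').1 g) (Ψ.1 g) = B (Φ.1 g) (Ψ.1 g) + B (Φ'.1 g) (Ψ.1 g)
      rw [← LinearMap.add_apply, ← map_add]; rfl)
    (fun c Φ Ψ => by
      apply Subtype.ext; funext g
      show B ((c • Φ).1 g) (Ψ.1 g) = c • B (Φ.1 g) (Ψ.1 g)
      rw [← LinearMap.smul_apply, ← map_smul]; rfl)
    (fun Φ Ψ Ψ' => by
      apply Subtype.ext; funext g
      show B (Φ.1 g) ((Ψ + Ψ').1 g) = B (Φ.1 g) (Ψ.1 g) + B (Φ.1 g) (Ψ'.1 g)
      rw [← map_add]; rfl)
    (fun c Φ Ψ => by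
      apply Subtype.ext; funext g
      show B (Φ.1 g) ((c • Ψ).1 g) = c • B (Φ.1 g) (Ψ.1 g)
      rw [← map_smul]; rfl)

@[simp]
lemma coindCup_apply (Φ : Rep.coind S.subtype N) (Ψ : Rep.coind S.subtype N') (g : G) :
    (coindCup S B hB Φ Ψ).1 g = B (Φ.1 g) (Ψ.1 g) := rfl

lemma coindCup_equivariant :
    Equivariant (Rep.coind S.subtype N).ρ (Rep.coind S.subtype N').ρ (Rep.coind S.subtype P).ρ
      (coindCup S B hB) := fun _ _ _ => rfl

variable {𝒰 : LevelSystem G}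
  [IsDiscrete (𝒰.comap S.subtype) N] [IsDiscrete (𝒰.comap S.subtype) N']
  [IsDiscrete (𝒰.comap S.subtype) P]
  [IsDiscrete 𝒰 (Rep.coind S.subtype N)] [IsDiscrete 𝒰 (Rep.coind S.subtype N')]
  [IsDiscrete 𝒰 (Rep.coind S.subtype P)]

/-- **the Shapiro map is multiplicative** for the pointwise pairing on coinduced modules -/
theorem HlcShapiro_HlcCup {i j n : ℕ} (h : i + j = n)
    (X : Hlc 𝒰 (Rep.coind S.subtype N) i) (Y : Hlc 𝒰 (Rep.coind S.subtype N') j) :
    HlcShapiro 𝒰 S P n (HlcCup 𝒰 (coindCup S B hB) (coindCup_equivariant S B hB) h X Y) =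
      HlcCup (𝒰.comap S.subtype) B hB h (HlcShapiro 𝒰 S N i X) (HlcShapiro 𝒰 S N' j Y) :=
  HlcPull_HlcCup (isContHom_comap S.subtype 𝒰) (coindCup_equivariant S B hB) hB
    (coindEv S N) (coindEv S N') (coindEv S P) (fun _ _ => rfl) h X Y

end coindCup

/-! ### mixed pairings and the projection formula -/

section projection

variable {k G : Type u} [CommRing k] [Group G] (S : Subgroup G) {M N P : Rep.{u} k G}
  (B : M →ₗ[k] N →ₗ[k] P) (hB : Equivariant M.ρ N.ρ P.ρ B)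

/-- the mixed pairing `M × Coind Res N → Coind Res P`, `(m, F) ↦ (g ↦ B (g m) (F g))` -/
def coindCupL : M →ₗ[k] Rep.coind S.subtype (Rep.res S.subtype N) →ₗ[k]
    Rep.coind S.subtype (Rep.res S.subtype P) :=
  LinearMap.mk₂ k
    (fun m F => ⟨fun g => B (M.ρ g m) (F.1 g), fun s g => by
      show B (M.ρ (S.subtype s * g) m) (F.1 (S.subtype s * g)) =
        P.ρ (S.subtype s) (B (M.ρ g m) (F.1 g))
      rw [F.2 s g, map_mul, Module.End.mul_apply, ← hB]; rfl⟩)
    (fun m m' F => by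
      apply Subtype.ext; funext g
      show B (M.ρ g (m + m')) (F.1 g) = B (M.ρ g m) (F.1 g) + B (M.ρ g m') (F.1 g)
      rw [map_add, map_add, LinearMap.add_apply])
    (fun c m F => by
      apply Subtype.ext; funext g
      show B (M.ρ g (c • m)) (F.1 g) = c • B (M.ρ g m) (F.1 g)
      rw [map_smul, map_smul, LinearMap.smul_apply])
    (fun m F F' => by
      apply Subtype.ext; funext g
      show B (M.ρ g m) ((F + F').1 g) = B (M.ρ g m) (F.1 g) + B (M.ρ g m) (F'.1 g)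
      rw [← map_add]; rfl)
    (fun c m F => by
      apply Subtype.ext; funext g
      show B (M.ρ g m) ((c • F).1 g) = c • B (M.ρ g m) (F.1 g)
      rw [← map_smul]; rfl)

@[simp]
lemma coindCupL_apply (m : M) (F : Rep.coind S.subtype (Rep.res S.subtype N)) (g : G) :
    (coindCupL S B hB m F).1 g = B (M.ρ g m) (F.1 g) := rfl

lemma coindCupL_equivariant :
    Equivariant M.ρ (Rep.coind S.subtype (Rep.res S.subtype N)).ρ
      (Rep.coind S.subtype (Rep.res S.subtype P)).ρ (coindCupL S B hB) := by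
  intro x m F
  apply Subtype.ext; funext g
  show B (M.ρ g (M.ρ x m)) (F.1 (g * x)) = B (M.ρ (g * x) m) (F.1 (g * x))
  rw [map_mul, Module.End.mul_apply]

/-- the mixed pairing `Coind Res M × N → Coind Res P`, `(F, n) ↦ (g ↦ B (F g) (g n))` -/
def coindCupR : Rep.coind S.subtype (Rep.res S.subtype M) →ₗ[k] N →ₗ[k]
    Rep.coind S.subtype (Rep.res S.subtype P) :=
  LinearMap.mk₂ k
    (fun F n => ⟨fun g => B (F.1 g) (N.ρ g n), fun s g => by
      show B (F.1 (S.subtype s * g)) (N.ρ (S.subtype s * g) n) =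
        P.ρ (S.subtype s) (B (F.1 g) (N.ρ g n))
      rw [F.2 s g, map_mul, Module.End.mul_apply, ← hB]; rfl⟩)
    (fun F F' n => by
      apply Subtype.ext; funext g
      show B ((F + F').1 g) (N.ρ g n) = B (F.1 g) (N.ρ g n) + B (F'.1 g) (N.ρ g n)
      rw [← LinearMap.add_apply, ← map_add]; rfl)
    (fun c F n => by
      apply Subtype.ext; funext g
      show B ((c • F).1 g) (N.ρ g n) = c • B (F.1 g) (N.ρ g n)
      rw [← LinearMap.smul_apply, ← map_smul]; rfl)
    (fun F n n' => by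
      apply Subtype.ext; funext g
      show B (F.1 g) (N.ρ g (n + n')) = B (F.1 g) (N.ρ g n) + B (F.1 g) (N.ρ g n')
      rw [map_add, map_add])
    (fun c F n => by
      apply Subtype.ext; funext g
      show B (F.1 g) (N.ρ g (c • n)) = c • B (F.1 g) (N.ρ g n)
      rw [map_smul, map_smul])

@[simp]
lemma coindCupR_apply (F : Rep.coind S.subtype (Rep.res S.subtype M)) (n : N) (g : G) :
    (coindCupR S B hB F n).1 g = B (F.1 g) (N.ρ g n) := rfl

lemma coindCupR_equivariant :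
    Equivariant (Rep.coind S.subtype (Rep.res S.subtype M)).ρ N.ρ
      (Rep.coind S.subtype (Rep.res S.subtype P)).ρ (coindCupR S B hB) := by
  intro x F n
  apply Subtype.ext; funext g
  show B (F.1 (g * x)) (N.ρ g (N.ρ x n)) = B (F.1 (g * x)) (N.ρ (g * x) n)
  rw [map_mul, Module.End.mul_apply]

section trace

variable [S.FiniteIndex]

include hB in
/-- the trace is `M`-linear for the mixed pairing: `tr (m ∪ F) = m ∪ tr F` -/
lemma coindTrace_coindCupL (m : M) (F : Rep.coind S.subtype (Rep.res S.subtype N)) :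
    (coindTrace S P).hom (coindCupL S B hB m F) = B m ((coindTrace S N).hom F) := by
  rw [coindTrace_hom_apply, coindTrace_hom_apply, map_sum]
  refine Finset.sum_congr rfl fun q _ => ?_
  unfold twistFun
  rw [coindCupL_apply, ← hB, ← Module.End.mul_apply, ← map_mul, mul_inv_cancel, map_one,
    Module.End.one_apply]

include hB in
lemma coindTrace_coindCupR (F : Rep.coind S.subtype (Rep.res S.subtype M)) (n : N) :
    (coindTrace S P).hom (coindCupR S B hB F n) = B ((coindTrace S M).hom F) n := by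
  rw [coindTrace_hom_apply, coindTrace_hom_apply, map_sum, LinearMap.sum_apply]
  refine Finset.sum_congr rfl fun q _ => ?_
  unfold twistFun
  rw [coindCupR_apply, ← hB, ← Module.End.mul_apply, ← map_mul, mul_inv_cancel, map_one,
    Module.End.one_apply]

end trace

variable {𝒰 : LevelSystem G} [IsDiscrete 𝒰 M] [IsDiscrete 𝒰 N] [IsDiscrete 𝒰 P]
  [IsDiscrete (𝒰.comap S.subtype) (Rep.res S.subtype M)]
  [IsDiscrete (𝒰.comap S.subtype) (Rep.res S.subtype N)]
  [IsDiscrete (𝒰.comap S.subtype) (Rep.res S.subtype P)]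
  [IsDiscrete 𝒰 (Rep.coind S.subtype (Rep.res S.subtype M))]
  [IsDiscrete 𝒰 (Rep.coind S.subtype (Rep.res S.subtype N))]
  [IsDiscrete 𝒰 (Rep.coind S.subtype (Rep.res S.subtype P))]

/-- Shapiro for the mixed pairing: `sh (x ∪ Y) = res x ∪ sh Y` -/
theorem HlcShapiro_HlcCup_coindCupL {i j n : ℕ} (h : i + j = n)
    (x : Hlc 𝒰 M i) (Y : Hlc 𝒰 (Rep.coind S.subtype (Rep.res S.subtype N)) j) :
    HlcShapiro 𝒰 S (Rep.res S.subtype P) n
        (HlcCup 𝒰 (coindCupL S B hB) (coindCupL_equivariant S B hB) h x Y) =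
      HlcCup (𝒰.comap S.subtype) (M := Rep.res S.subtype M) (N := Rep.res S.subtype N)
        (P := Rep.res S.subtype P) B (Equivariant_res (f := S.subtype) hB) h
        (HlcResS (S := S) M i x) (HlcShapiro 𝒰 S (Rep.res S.subtype N) j Y) :=
  HlcPull_HlcCup (isContHom_comap S.subtype 𝒰) (coindCupL_equivariant S B hB)
    (Equivariant_res (f := S.subtype) hB)
    (𝟙 _) (coindEv S (Rep.res S.subtype N)) (coindEv S (Rep.res S.subtype P))
    (fun m F => by
      show B (M.ρ 1 m) (F.1 1) = B m (F.1 1)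
      rw [map_one, Module.End.one_apply]) h x Y

/-- Shapiro for the mixed pairing: `sh (X ∪ y) = sh X ∪ res y` -/
theorem HlcShapiro_HlcCup_coindCupR {i j n : ℕ} (h : i + j = n)
    (X : Hlc 𝒰 (Rep.coind S.subtype (Rep.res S.subtype M)) i) (y : Hlc 𝒰 N j) :
    HlcShapiro 𝒰 S (Rep.res S.subtype P) n
        (HlcCup 𝒰 (coindCupR S B hB) (coindCupR_equivariant S B hB) h X y) =
      HlcCup (𝒰.comap S.subtype) (M := Rep.res S.subtype M) (N := Rep.res S.subtype N)
        (P := Rep.res S.subtype P) B (Equivariant_res (f := S.subtype) hB) h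
        (HlcShapiro 𝒰 S (Rep.res S.subtype M) i X) (HlcResS (S := S) N j y) :=
  HlcPull_HlcCup (isContHom_comap S.subtype 𝒰) (coindCupR_equivariant S B hB)
    (Equivariant_res (f := S.subtype) hB)
    (coindEv S (Rep.res S.subtype M)) (𝟙 _) (coindEv S (Rep.res S.subtype P))
    (fun F n => by
      show B (F.1 1) (N.ρ 1 n) = B (F.1 1) n
      rw [map_one, Module.End.one_apply]) h X y

variable (hS : IsOpenSub 𝒰 S) [S.FiniteIndex]

/-- `cor ∘ sh = tr_*` -/
lemma HlcCor_HlcShapiro (A : Rep.{u} k G) [IsDiscrete 𝒰 A]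
    [IsDiscrete (𝒰.comap S.subtype) (Rep.res S.subtype A)]
    [IsDiscrete 𝒰 (Rep.coind S.subtype (Rep.res S.subtype A))] (n : ℕ)
    (Z : Hlc 𝒰 (Rep.coind S.subtype (Rep.res S.subtype A)) n) :
    HlcCor A hS n (HlcShapiro 𝒰 S (Rep.res S.subtype A) n Z) = HlcMap 𝒰 (coindTrace S A) n Z := by
  unfold HlcCor
  have := congr($((HlcShapiroIso hS n (Rep.res S.subtype A)).hom_inv_id) Z)
  rw [HlcShapiroIso_hom] at this
  simp only [ModuleCat.hom_comp, LinearMap.comp_apply] at this ⊢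
  rw [this]
  rfl

/-- **projection formula**: `cor (res x ∪ y) = x ∪ cor y` -/
theorem HlcCor_HlcCup_left {i j n : ℕ} (h : i + j = n) (x : Hlc 𝒰 M i)
    (y : Hlc (𝒰.comap S.subtype) (Rep.res S.subtype N) j) :
    HlcCor P hS n
        (HlcCup (𝒰.comap S.subtype) (M := Rep.res S.subtype M) (N := Rep.res S.subtype N)
          (P := Rep.res S.subtype P) B (Equivariant_res (f := S.subtype) hB) h
          (HlcResS (S := S) M i x) y) =
      HlcCup 𝒰 B hB h x (HlcCor N hS j y) := by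
  obtain ⟨Y, rfl⟩ := (HlcShapiro_bijective hS j (Rep.res S.subtype N)).2 y
  rw [← HlcShapiro_HlcCup_coindCupL S B hB h x Y, HlcCor_HlcShapiro, HlcCor_HlcShapiro]
  have := HlcCup_map 𝒰 (coindCupL_equivariant S B hB) hB (𝟙 M) (coindTrace S N) (coindTrace S P)
    (fun m F => coindTrace_coindCupL S B hB m F) h x Y
  rw [this, HlcMap_id]
  rfl

/-- **projection formula**: `cor (y ∪ res x) = cor y ∪ x` -/
theorem HlcCor_HlcCup_right {i j n : ℕ} (h : i + j = n)
    (y : Hlc (𝒰.comap S.subtype) (Rep.res S.subtype M) i) (x : Hlc 𝒰 N j) :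
    HlcCor P hS n
        (HlcCup (𝒰.comap S.subtype) (M := Rep.res S.subtype M) (N := Rep.res S.subtype N)
          (P := Rep.res S.subtype P) B (Equivariant_res (f := S.subtype) hB) h
          y (HlcResS (S := S) N j x)) =
      HlcCup 𝒰 B hB h (HlcCor M hS i y) x := by
  obtain ⟨Y, rfl⟩ := (HlcShapiro_bijective hS i (Rep.res S.subtype M)).2 y
  rw [← HlcShapiro_HlcCup_coindCupR S B hB h Y x, HlcCor_HlcShapiro, HlcCor_HlcShapiro]
  have := HlcCup_map 𝒰 (coindCupR_equivariant S B hB) hB (coindTrace S M) (𝟙 N) (coindTrace S P)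
    (fun F n => coindTrace_coindCupR S B hB F n) h Y x
  rw [this, HlcMap_id]
  rfl

end projection

/-! ### the trace pairing `Coind N × Coind N' → P` -/

section tracePairing

variable {k G : Type u} [CommRing k] [Group G] (S : Subgroup G) [S.FiniteIndex]
  {N N' : Rep.{u} k S} {P : Rep.{u} k G}
  (B : N →ₗ[k] N' →ₗ[k] (Rep.res S.subtype P))
  (hB : Equivariant N.ρ N'.ρ (Rep.res S.subtype P).ρ B)

/-- the trace pairing `Coind N × Coind N' → P`,
`(Φ, Ψ) ↦ ∑_{gS ∈ G/S} g • B (Φ g⁻¹) (Ψ g⁻¹)`: the pointwise pairing followed by the trace -/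
def coindTr : Rep.coind S.subtype N →ₗ[k] Rep.coind S.subtype N' →ₗ[k] P :=
  (coindCup S B hB).compr₂ (coindTrace S P).hom.toLinearMap

lemma coindTr_apply (Φ : Rep.coind S.subtype N) (Ψ : Rep.coind S.subtype N') :
    coindTr S B hB Φ Ψ = (coindTrace S P).hom (coindCup S B hB Φ Ψ) := rfl

lemma coindTr_equivariant :
    Equivariant (Rep.coind S.subtype N).ρ (Rep.coind S.subtype N').ρ P.ρ (coindTr S B hB) := by
  intro x Φ Ψ
  rw [coindTr_apply, coindTr_apply, coindCup_equivariant S B hB x Φ Ψ]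
  exact Rep.hom_comm_apply (coindTrace S P) x _

variable {𝒰 : LevelSystem G}
  [IsDiscrete (𝒰.comap S.subtype) N] [IsDiscrete (𝒰.comap S.subtype) N']
  [IsDiscrete (𝒰.comap S.subtype) (Rep.res S.subtype P)] [IsDiscrete 𝒰 P]
  [IsDiscrete 𝒰 (Rep.coind S.subtype N)] [IsDiscrete 𝒰 (Rep.coind S.subtype N')]
  [IsDiscrete 𝒰 (Rep.coind S.subtype (Rep.res S.subtype P))]
  (hS : IsOpenSub 𝒰 S)

/-- **the cup product for the trace pairing is the corestriction of the cup product of the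
Shapiro images**: `X ∪_{tr B} Y = cor (sh X ∪_B sh Y)` -/
theorem HlcCup_coindTr {i j n : ℕ} (h : i + j = n)
    (X : Hlc 𝒰 (Rep.coind S.subtype N) i) (Y : Hlc 𝒰 (Rep.coind S.subtype N') j) :
    HlcCup 𝒰 (coindTr S B hB) (coindTr_equivariant S B hB) h X Y =
      HlcCor P hS n
        (HlcCup (𝒰.comap S.subtype) B hB h (HlcShapiro 𝒰 S N i X) (HlcShapiro 𝒰 S N' j Y)) := by
  rw [← HlcShapiro_HlcCup S B hB h X Y, HlcCor_HlcShapiro]
  have := HlcCup_map 𝒰 (coindCup_equivariant S B hB) (coindTr_equivariant S B hB)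
    (𝟙 _) (𝟙 _) (coindTrace S P) (fun _ _ => rfl) h X Y
  rw [this, HlcMap_id, HlcMap_id]
  rfl

end tracePairing

end Fermat.Agent.GC.Prof
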