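/-
GATE-C / C1 (PROFCOH) leaf (L16) COIND-DUAL ↔ CUP, helper5.

Glue between `CoindDual.lean` (helper5: `coind_S^G (N*) ≅ (coind_S^G N)*`) and `CupShapiro.lean`
(helper20: the trace pairing `coindTr` and `X ∪_{tr B} Y = cor (sh X ∪_B sh Y)`).

* `chiRep χ := (Rep.trivial k G k).twist χ` : the rank one representation `k(χ)`; discrete if
  `χ` is trivial on a level; `Rep.res f (chiRep χ) = chiRep (χ.comp f)` by `rfl`;
* `evPair χ M : M →ₗ M.dualTwist χ →ₗ chiRep χ` : the evaluation pairing, `Cup.Equivariant`,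
  adjoint to `dualTwistMap` (`evPair_dualTwistMap`);
* `coindTr_evPair` : the trace pairing of the evaluation pairing `N × N* → k(χ|_S)` is
  `coindPair`, i.e. (`evPair_coindDualIso`) it is the evaluation pairing of `coind_S^G N`
  transported along `coindDualIso`;
* **`HlcCup_evPair_coindDualIso`** :
  `X ∪_ev (coindDualIso_* Y) = cor (sh X ∪_ev sh Y)` for `X ∈ Hlc^i(G, coind N)`,
  `Y ∈ Hlc^j(G, coind N*)`: the duality pairing of `W = coind_S^G N` against `W*`, computed in
  `S`-language.
-/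
import Fermat.Agent.GC.Prof.CoindDual
import Fermat.Agent.GC.Prof.CupShapiro

set_option autoImplicit false

open CategoryTheory

noncomputable section

namespace Fermat.Agent.GC.Prof

open Cup (Equivariant)
open Fermat.Agent.GC.Tate

universe u

open Rep

/-! ### The rank one representation `k(χ)` and the evaluation pairing -/

section Chi

variable {k G : Type u} [CommRing k] [Group G] (χ : G →* kˣ)

/-- `k(χ)`: the representation of `G` on `k` through the character `χ`. -/
abbrev chiRep : Rep.{u} k G := (Rep.trivial k G k).twist χ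

lemma chiRep_ρ_apply (g : G) (c : k) : (chiRep χ).ρ g c = (χ g : k) * c := rfl

/-- `k(χ)` restricted along `f` is `k(χ ∘ f)`. -/
lemma res_chiRep {D : Type u} [Group D] (f : D →* G) :
    Rep.res f (chiRep χ) = chiRep (χ.comp f) := rfl

/-- `k(χ)` is discrete as soon as `χ` is trivial on a member of the level system. -/
theorem isDiscrete_chiRep (𝒰 : LevelSystem G) (hχ : ∃ U ∈ 𝒰.sets, ∀ g ∈ U, χ g = 1) :
    IsDiscrete 𝒰 (chiRep χ) where
  exists_fix c := by
    obtain ⟨U, hU, h⟩ := hχ
    refine ⟨U, hU, fun s hs => ?_⟩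
    rw [chiRep_ρ_apply, h s hs, Units.val_one, one_mul]

/-- The evaluation pairing `M × M* → k(χ)`, `(m, f) ↦ f m`. -/
def evPair (M : Rep.{u} k G) : M →ₗ[k] (M.dualTwist χ) →ₗ[k] chiRep χ :=
  (LinearMap.id : Module.Dual k M →ₗ[k] Module.Dual k M).flip

lemma evPair_apply (M : Rep.{u} k G) (m : M) (f : M.dualTwist χ) :
    evPair χ M m f = (f : Module.Dual k M) m := rfl

theorem evPair_equivariant (M : Rep.{u} k G) :
    Equivariant M.ρ (M.dualTwist χ).ρ (chiRep χ).ρ (evPair χ M) := by
  intro g m f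
  show (χ g : k) • (f : Module.Dual k M) (M.ρ g⁻¹ (M.ρ g m)) = (χ g : k) * (f : Module.Dual k M) m
  rw [← Module.End.mul_apply, ← map_mul, inv_mul_cancel, map_one, Module.End.one_apply,
    smul_eq_mul]

/-- The evaluation pairings are adjoint with respect to the transpose. -/
lemma evPair_dualTwistMap {M M₁ : Rep.{u} k G} (φ : M ⟶ M₁) (m : M) (f : M₁.dualTwist χ) :
    evPair χ M m ((dualTwistMap χ φ).hom f) = evPair χ M₁ (φ.hom m) f := rfl

end Chi

/-! ### The trace pairing of the evaluation pairing is `coindPair` -/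

section Coind

variable {k G : Type u} [CommRing k] [Group G] (S : Subgroup G) (χ : G →* kˣ) (N : Rep.{u} k S)

/-- The evaluation pairing `N × N* → Res_S k(χ)` of an `S`-representation, for the restriction to
`S` of a character of `G`. -/
def evPairS : N →ₗ[k] (dualTw S χ N) →ₗ[k] (Rep.res S.subtype (chiRep χ)) :=
  evPair (χ.comp S.subtype) N

lemma evPairS_apply (n : N) (f : dualTw S χ N) :
    evPairS S χ N n f = (f : Module.Dual k N) n := rfl

theorem evPairS_equivariant :
    Equivariant N.ρ (dualTw S χ N).ρ (Rep.res S.subtype (chiRep χ)).ρ (evPairS S χ N) :=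
  evPair_equivariant (χ.comp S.subtype) N

variable [S.FiniteIndex]

attribute [local instance] Subgroup.fintypeQuotientOfFiniteIndex

variable {S N}

omit [S.FiniteIndex] in
/-- The summand of the trace pairing at `g` is the summand of `coindPair` at `g⁻¹`. -/
lemma twistFun_coindCup_evPairS (Φ : coind S.subtype N) (Ψ : coind S.subtype (dualTw S χ N))
    (g : G) :
    twistFun S (chiRep χ) (coindCup S (evPairS S χ N) (evPairS_equivariant S χ N) Φ Ψ) g =
      coindPairFun χ Φ Ψ g⁻¹ := by
  show (χ g : k) * (Ψ.1 g⁻¹ : Module.Dual k N) (Φ.1 g⁻¹) =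
    ((χ g⁻¹)⁻¹ : kˣ) • (Ψ.1 g⁻¹ : Module.Dual k N) (Φ.1 g⁻¹)
  rw [map_inv, inv_inv, Units.smul_def, smul_eq_mul]

/-- **The trace pairing of the evaluation pairing is `coindPair`.** -/
theorem coindTr_evPairS (Φ : coind S.subtype N) (Ψ : coind S.subtype (dualTw S χ N)) :
    coindTr S (P := chiRep χ) (evPairS S χ N) (evPairS_equivariant S χ N) Φ Ψ =
      coindPair χ Φ Ψ := by
  rw [coindTr_apply, coindTrace_hom_apply]
  unfold coindPair
  refine Eq.trans ?_ (Equiv.sum_comp (QuotientGroup.quotientRightRelEquivQuotientLeftRel S).symm _)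
  refine Finset.sum_congr rfl fun q => ?_
  intro _
  rw [twistFun_coindCup_evPairS]
  have h : (QuotientGroup.quotientRightRelEquivQuotientLeftRel S).symm q =
      (⟦(q.out)⁻¹⟧ : Quotient (QuotientGroup.rightRel S)) := by
    conv_lhs => rw [← QuotientGroup.out_eq' q]
    rfl
  rw [h]
  rfl

/-- The evaluation pairing of `coind_S^G N`, transported along `coindDualIso`, is the trace
pairing of the evaluation pairing of `N`. -/
theorem evPair_coindDualIso (Φ : coind S.subtype N) (Ψ : coind S.subtype (dualTw S χ N)) :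
    evPair χ (coind S.subtype N) Φ ((coindDualIso S χ N).hom.hom Ψ) =
      coindTr S (P := chiRep χ) (evPairS S χ N) (evPairS_equivariant S χ N) Φ Ψ := by
  rw [coindTr_evPairS]
  rfl

end Coind

/-! ### The duality pairing of `coind_S^G N` in `S`-language -/

section Hlc

variable {k G : Type u} [CommRing k] [Group G] (S : Subgroup G) [S.FiniteIndex] (χ : G →* kˣ)
  (N : Rep.{u} k S) {𝒰 : LevelSystem G}
  [IsDiscrete (𝒰.comap S.subtype) N] [IsDiscrete (𝒰.comap S.subtype) (dualTw S χ N)]
  [IsDiscrete (𝒰.comap S.subtype) (Rep.res S.subtype (chiRep χ))] [IsDiscrete 𝒰 (chiRep χ)]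
  [IsDiscrete 𝒰 (Rep.coind S.subtype N)] [IsDiscrete 𝒰 (Rep.coind S.subtype (dualTw S χ N))]
  [IsDiscrete 𝒰 (Rep.coind S.subtype (Rep.res S.subtype (chiRep χ)))]
  [IsDiscrete 𝒰 ((Rep.coind S.subtype N).dualTwist χ)]
  (hS : IsOpenSub 𝒰 S)

/-- **The duality pairing of `W = coind_S^G N` against `W* ≅ coind_S^G N*` in `S`-language**:
`X ∪_ev (coindDualIso_* Y) = cor (sh X ∪_ev sh Y)`. -/
theorem HlcCup_evPair_coindDualIso {i j n : ℕ} (h : i + j = n)
    (X : Hlc 𝒰 (Rep.coind S.subtype N) i) (Y : Hlc 𝒰 (Rep.coind S.subtype (dualTw S χ N)) j) :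
    HlcCup 𝒰 (evPair χ (Rep.coind S.subtype N)) (evPair_equivariant χ _) h X
        (HlcMap 𝒰 (coindDualIso S χ N).hom j Y) =
      HlcCor (chiRep χ) hS n
        (HlcCup (𝒰.comap S.subtype) (evPairS S χ N) (evPairS_equivariant S χ N) h
          (HlcShapiro 𝒰 S N i X) (HlcShapiro 𝒰 S (dualTw S χ N) j Y)) := by
  rw [← HlcCup_coindTr S (evPairS S χ N) (evPairS_equivariant S χ N) hS h X Y]
  have := HlcCup_map 𝒰 (coindTr_equivariant S (P := chiRep χ) (evPairS S χ N)
      (evPairS_equivariant S χ N)) (evPair_equivariant χ (Rep.coind S.subtype N))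
    (𝟙 _) (coindDualIso S χ N).hom (𝟙 _)
    (fun Φ Ψ => (evPair_coindDualIso χ Φ Ψ).symm) h X Y
  rw [HlcMap_id, HlcMap_id] at this
  exact this.symm

end Hlc

end Fermat.Agent.GC.Prof
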