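/-
GATE-C / C1 (PROFCOH) leaf (L17) COIND-TRIV-DUAL, helper5.

The BASE triple.  `S ≤ G` of finite index, `χ : G →* kˣ` with `χ|_S = 1`,
`W = coind_S^G(1) = Rep.coind S.subtype (Rep.trivial k S k)`.  Then `W` is self-dual up to the
twist: `coindTrivDualIso : W ≅ W.dualTwist χ`, and under this isomorphism the evaluation pairing
`evPair χ W : W × W.dualTwist χ → k(χ)` becomes helper20's trace pairing `coindTr S mul` of the
multiplication `k × k → k(χ)|_S`:
* `evPair_coindTrivDualIso : evPair χ W Φ (iso Ψ) = coindTr S (mulS S χ) _ Φ Ψ`;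
* `HlcCup_evPair_coindTrivDualIso` : the same on `Hlc`, hence (`HlcCup_coindTr`)
  `X ∪_ev iso_* Y = cor (sh X ∪_mul sh Y)`.
So a duality statement proved for the triple `(W, W, coindTr S mul)` (the language of
`CupShapiro.lean`) transports to `(W, W.dualTwist χ, evPair χ W)`.
-/
import Fermat.Agent.GC.Prof.CoindDualCup

set_option autoImplicit false

open CategoryTheory

noncomputable section

namespace Fermat.Agent.GC.Prof

open Cup (Equivariant)
open Fermat.Agent.GC.Tate

universe u

open Rep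

variable {k G : Type u} [CommRing k] [Group G] (S : Subgroup G) (χ : G →* kˣ)

/-! ### The trivial representation is self-dual up to a character that is trivial on `S` -/

/-- `k ≅ k*` (twisted by `χ|_S = 1`) as representations of `S`: `c ↦ (x ↦ x * c)`. -/
def trivDualTwIso (hχ : ∀ s : S, χ (s : G) = 1) :
    Rep.trivial k S k ≅ dualTw S χ (Rep.trivial k S k) :=
  Rep.mkIso (Representation.Equiv.mk (LinearMap.ringLmapEquivSelf k k k).symm fun s => by
    ext
    show (1 : k) • (1 : k) = (χ.comp S.subtype s : k) • ((1 : k) • (1 : k))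
    rw [MonoidHom.comp_apply, Subgroup.coe_subtype, hχ s, Units.val_one, one_smul, one_smul])

lemma trivDualTwIso_hom_apply (hχ : ∀ s : S, χ (s : G) = 1) (c x : k) :
    (((trivDualTwIso S χ hχ).hom.hom c : dualTw S χ (Rep.trivial k S k)) : Module.Dual k k) x =
      x * c := rfl

/-- Multiplication `k × k → k(χ)|_S`. -/
def mulS : (Rep.trivial k S k) →ₗ[k] (Rep.trivial k S k) →ₗ[k] (Rep.res S.subtype (chiRep χ)) :=
  LinearMap.mul k k

lemma mulS_apply (a b : k) : mulS S χ a b = a * b := rfl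

theorem mulS_equivariant (hχ : ∀ s : S, χ (s : G) = 1) :
    Equivariant (Rep.trivial k S k).ρ (Rep.trivial k S k).ρ (Rep.res S.subtype (chiRep χ)).ρ
      (mulS S χ) := by
  intro s a b
  show a * b = (χ (s : G) : k) * (a * b)
  rw [hχ s, Units.val_one, one_mul]

/-- `evPairS` is `mulS` after identifying `k*` with `k`. -/
lemma evPairS_trivDualTwIso (hχ : ∀ s : S, χ (s : G) = 1) (a c : k) :
    evPairS S χ (Rep.trivial k S k) a ((trivDualTwIso S χ hχ).hom.hom c) = mulS S χ a c := rfl

/-! ### `W = coind_S^G(1)` is self-dual up to the twist -/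

variable [S.FiniteIndex]

/-- **`W ≅ W.dualTwist χ`** for `W = coind_S^G(1)`, `χ|_S = 1`. -/
def coindTrivDualIso (hχ : ∀ s : S, χ (s : G) = 1) :
    Rep.coind S.subtype (Rep.trivial k S k) ≅
      (Rep.coind S.subtype (Rep.trivial k S k)).dualTwist χ :=
  (Rep.coindFunctor k S.subtype).mapIso (trivDualTwIso S χ hχ) ≪≫
    coindDualIso S χ (Rep.trivial k S k)

lemma coindTrivDualIso_hom (hχ : ∀ s : S, χ (s : G) = 1) :
    (coindTrivDualIso S χ hχ).hom =
      Rep.coindMap S.subtype (trivDualTwIso S χ hχ).hom ≫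
        (coindDualIso S χ (Rep.trivial k S k)).hom := rfl

/-- The trace pairing of the multiplication is the trace pairing of the evaluation pairing after
identifying `k*` with `k` pointwise. -/
lemma coindTr_mulS (hχ : ∀ s : S, χ (s : G) = 1)
    (Φ Ψ : Rep.coind S.subtype (Rep.trivial k S k)) :
    coindTr S (P := chiRep χ) (mulS S χ) (mulS_equivariant S χ hχ) Φ Ψ =
      coindTr S (P := chiRep χ) (evPairS S χ (Rep.trivial k S k))
        (evPairS_equivariant S χ (Rep.trivial k S k)) Φ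
        ((Rep.coindMap S.subtype (trivDualTwIso S χ hχ).hom).hom Ψ) := rfl

/-- **Under `W ≅ W.dualTwist χ` the evaluation pairing is the trace pairing of the
multiplication.** -/
theorem evPair_coindTrivDualIso (hχ : ∀ s : S, χ (s : G) = 1)
    (Φ Ψ : Rep.coind S.subtype (Rep.trivial k S k)) :
    evPair χ (Rep.coind S.subtype (Rep.trivial k S k)) Φ
        ((coindTrivDualIso S χ hχ).hom.hom Ψ) =
      coindTr S (P := chiRep χ) (mulS S χ) (mulS_equivariant S χ hχ) Φ Ψ := by
  rw [coindTr_mulS, ← evPair_coindDualIso]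
  rfl

/-! ### On `Hlc` -/

section Hlc

variable {𝒰 : LevelSystem G}
  [IsDiscrete 𝒰 (chiRep χ)]
  [IsDiscrete 𝒰 (Rep.coind S.subtype (Rep.trivial k S k))]
  [IsDiscrete 𝒰 ((Rep.coind S.subtype (Rep.trivial k S k)).dualTwist χ)]

/-- **The duality pairing `W × W.dualTwist χ → k(χ)` on `Hlc` is the cup product for the trace
pairing `coindTr S mul` on `W × W`**, along `W ≅ W.dualTwist χ`. -/
theorem HlcCup_evPair_coindTrivDualIso (hχ : ∀ s : S, χ (s : G) = 1) {i j n : ℕ} (h : i + j = n)
    (X : Hlc 𝒰 (Rep.coind S.subtype (Rep.trivial k S k)) i)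
    (Y : Hlc 𝒰 (Rep.coind S.subtype (Rep.trivial k S k)) j) :
    HlcCup 𝒰 (evPair χ (Rep.coind S.subtype (Rep.trivial k S k))) (evPair_equivariant χ _) h X
        (HlcMap 𝒰 (coindTrivDualIso S χ hχ).hom j Y) =
      HlcCup 𝒰 (coindTr S (P := chiRep χ) (mulS S χ) (mulS_equivariant S χ hχ))
        (coindTr_equivariant S (mulS S χ) (mulS_equivariant S χ hχ)) h X Y := by
  have := HlcCup_map 𝒰 (coindTr_equivariant S (P := chiRep χ) (mulS S χ)
      (mulS_equivariant S χ hχ)) (evPair_equivariant χ (Rep.coind S.subtype (Rep.trivial k S k)))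
    (𝟙 _) (coindTrivDualIso S χ hχ).hom (𝟙 _)
    (fun Φ Ψ => (evPair_coindTrivDualIso S χ hχ Φ Ψ).symm) h X Y
  rw [HlcMap_id, HlcMap_id] at this
  exact this.symm

variable [IsDiscrete (𝒰.comap S.subtype) (Rep.trivial k S k)]
  [IsDiscrete (𝒰.comap S.subtype) (Rep.res S.subtype (chiRep χ))]
  [IsDiscrete 𝒰 (Rep.coind S.subtype (Rep.res S.subtype (chiRep χ)))]

/-- ... and hence the corestriction of the cup product of the Shapiro images:
`X ∪_ev iso_* Y = cor (sh X ∪_mul sh Y)`. -/
theorem HlcCup_evPair_coindTrivDualIso_eq_cor (hχ : ∀ s : S, χ (s : G) = 1) (hS : IsOpenSub 𝒰 S)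
    {i j n : ℕ} (h : i + j = n)
    (X : Hlc 𝒰 (Rep.coind S.subtype (Rep.trivial k S k)) i)
    (Y : Hlc 𝒰 (Rep.coind S.subtype (Rep.trivial k S k)) j) :
    HlcCup 𝒰 (evPair χ (Rep.coind S.subtype (Rep.trivial k S k))) (evPair_equivariant χ _) h X
        (HlcMap 𝒰 (coindTrivDualIso S χ hχ).hom j Y) =
      HlcCor (chiRep χ) hS n
        (HlcCup (𝒰.comap S.subtype) (mulS S χ) (mulS_equivariant S χ hχ) h
          (HlcShapiro 𝒰 S (Rep.trivial k S k) i X) (HlcShapiro 𝒰 S (Rep.trivial k S k) j Y)) := by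
  rw [HlcCup_evPair_coindTrivDualIso S χ hχ h X Y]
  exact HlcCup_coindTr S (mulS S χ) (mulS_equivariant S χ hχ) hS h X Y

end Hlc

end Fermat.Agent.GC.Prof
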