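/-
GATE-C / C1 (PROFCOH) leaf (L17b), helper5: symmetry of the trace pairing `coindTr` (requested by
helper74, BASE-TOP).  `coindTr S B.flip _ Ψ Φ = coindTr S B _ Φ Ψ`; for the multiplication pairing
`mulS S χ` of the BASE triple (`CoindTrivDual.lean`) the trace pairing is symmetric:
`(coindTr S (mulS S χ) _).flip = coindTr S (mulS S χ) _`.
-/
import Fermat.Agent.GC.Prof.CoindTrivDual

set_option autoImplicit false

open CategoryTheory

noncomputable section

namespace Fermat.Agent.GC.Prof

open Cup (Equivariant)
open Fermat.Agent.GC.Tate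

universe u

section General

variable {k G : Type u} [CommRing k] [Group G] (S : Subgroup G) [S.FiniteIndex]
  {N N' : Rep.{u} k S} {P : Rep.{u} k G}
  (B : N →ₗ[k] N' →ₗ[k] (Rep.res S.subtype P))
  (hB : Equivariant N.ρ N'.ρ (Rep.res S.subtype P).ρ B)

omit [S.FiniteIndex] in
include hB in
/-- The flipped pairing is equivariant. -/
lemma equivariant_flip_res :
    Equivariant N'.ρ N.ρ (Rep.res S.subtype P).ρ B.flip := fun s n' n => hB s n n'

omit [S.FiniteIndex] in
/-- The pointwise pairing of the flipped form is the flipped pointwise pairing. -/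
lemma coindCup_flip_apply (Φ : Rep.coind S.subtype N) (Ψ : Rep.coind S.subtype N') :
    coindCup S B.flip (equivariant_flip_res S B hB) Ψ Φ = coindCup S B hB Φ Ψ := rfl

/-- The trace pairing of the flipped form is the flipped trace pairing (pointwise). -/
lemma coindTr_flip_apply (Φ : Rep.coind S.subtype N) (Ψ : Rep.coind S.subtype N') :
    coindTr S B.flip (equivariant_flip_res S B hB) Ψ Φ = coindTr S B hB Φ Ψ := rfl

/-- The trace pairing of the flipped form is the flipped trace pairing. -/
theorem coindTr_flip :
    coindTr S B.flip (equivariant_flip_res S B hB) = (coindTr S B hB).flip := rfl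

end General

section Mul

variable {k G : Type u} [CommRing k] [Group G] (S : Subgroup G) (χ : G →* kˣ) [S.FiniteIndex]

omit [S.FiniteIndex] in
/-- The multiplication pairing is symmetric. -/
lemma mulS_flip : (mulS S χ).flip = mulS S χ := by
  ext
  rfl

/-- **The trace pairing of the multiplication on `W = coind_S^G(1)` is symmetric** (pointwise). -/
theorem coindTr_mulS_symm (hχ : ∀ s : S, χ (s : G) = 1)
    (Φ Ψ : Rep.coind S.subtype (Rep.trivial k S k)) :
    coindTr S (P := chiRep χ) (mulS S χ) (mulS_equivariant S χ hχ) Φ Ψ =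
      coindTr S (P := chiRep χ) (mulS S χ) (mulS_equivariant S χ hχ) Ψ Φ := by
  rw [coindTr_apply, coindTr_apply]
  congr 1
  apply Subtype.ext
  funext g
  exact mul_comm _ _

/-- **The trace pairing of the multiplication on `W = coind_S^G(1)` is symmetric.** -/
theorem coindTr_mulS_flip (hχ : ∀ s : S, χ (s : G) = 1) :
    (coindTr S (P := chiRep χ) (mulS S χ) (mulS_equivariant S χ hχ)).flip =
      coindTr S (P := chiRep χ) (mulS S χ) (mulS_equivariant S χ hχ) := by
  ext Φ Ψ
  exact coindTr_mulS_symm S χ hχ Ψ Φ

end Mul

end Fermat.Agent.GC.Prof
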