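/-
GATE-C / C1 (PROFCOH) → C5 BASE-INST, leaf (I2) MACKEY-CUP (helper20).

`r : D →* G`, `H ≤ G` of finite index, a finite family `t : ι → G` of representatives of the double
cosets `H \ G / r(D)`, `D_i = mackeySub r H (t i)`, `φ_i = mackeyHom r H (t i)` (helper5's
`Mackey.lean`).  For an `H`-equivariant pairing `B : N × N' → Res_H P` the trace pairing
`coindTr H B : Coind N × Coind N' → P` restricted to `D` decomposes as the sum over `i` of the trace
pairings for `D_i ≤ D` of the Mackey components, hence on `Hlc`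
`x ∪ y = ∑ i, cor_{D_i}^D (μ_i x ∪ μ_i y)`.
-/
import Fermat.Agent.GC.Prof.CupShapiro
import Fermat.Agent.GC.Prof.Mackey

set_option autoImplicit false
set_option linter.unusedSectionVars false

open CategoryTheory

noncomputable section

namespace Fermat.Agent.GC.Prof

open Cup (Equivariant)
open Fermat.Agent.GC.Tate

universe u

/-! ### additivity of the cup product in the pairing -/

section additive

theorem CupAbs.CupData.cupH_eq_sum {k : Type u} [CommRing k]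
    {C D E : CochainComplex (ModuleCat.{u} k) ℕ} {ι : Type*} [Fintype ι]
    (c : CupAbs.CupData C D E) (c' : ι → CupAbs.CupData C D E)
    (hsum : ∀ (i j n : ℕ) (h : i + j = n) (a : C.X i) (b : D.X j),
      c.cup i j n h a b = ∑ s, (c' s).cup i j n h a b)
    {i j n : ℕ} (h : i + j = n) (x : C.homology i) (y : D.homology j) :
    c.cupH h x y = ∑ s, (c' s).cupH h x y := by
  obtain ⟨a, rfl⟩ := Elt.hMk_surjective C i x
  obtain ⟨b, rfl⟩ := Elt.hMk_surjective D j y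
  rw [c.cupH_hMk h a b]
  simp_rw [(c' _).cupH_hMk h a b]
  rw [← map_sum]
  congr 1
  apply Subtype.ext
  rw [CupAbs.CupData.cupZ_coe, AddSubmonoidClass.coe_finsetSum, hsum]
  rfl

variable {k G : Type u} [CommRing k] [Group G] (𝒰 : LevelSystem G) {M N P : Rep.{u} k G}
  [IsDiscrete 𝒰 M] [IsDiscrete 𝒰 N] [IsDiscrete 𝒰 P]

omit [IsDiscrete 𝒰 M] [IsDiscrete 𝒰 P] in
lemma lcCup_eq_sum {ι : Type*} [Fintype ι] {B : M →ₗ[k] N →ₗ[k] P}
    {B' : ι → (M →ₗ[k] N →ₗ[k] P)} (hsum : ∀ m n, B m n = ∑ s, B' s m n)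
    {i j n : ℕ} (h : i + j = n) (a : lcSub 𝒰 M i) (b : lcSub 𝒰 N j) :
    lcCup 𝒰 B h a b = ∑ s, lcCup 𝒰 (B' s) h a b := by
  apply Subtype.ext
  funext g
  rw [AddSubmonoidClass.coe_finsetSum, Finset.sum_apply]
  simp only [lcCup_coe, CupN.cupC, CupN.cupF, hsum]

/-- the cup product on `Hlc` is additive in the pairing -/
theorem HlcCup_eq_sum {ι : Type*} [Fintype ι] {B : M →ₗ[k] N →ₗ[k] P}
    (hB : Equivariant M.ρ N.ρ P.ρ B) {B' : ι → (M →ₗ[k] N →ₗ[k] P)}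
    (hB' : ∀ s, Equivariant M.ρ N.ρ P.ρ (B' s)) (hsum : ∀ m n, B m n = ∑ s, B' s m n)
    {i j n : ℕ} (h : i + j = n) (x : Hlc 𝒰 M i) (y : Hlc 𝒰 N j) :
    HlcCup 𝒰 B hB h x y = ∑ s, HlcCup 𝒰 (B' s) (hB' s) h x y := by
  refine CupAbs.CupData.cupH_eq_sum (lcCupData 𝒰 B hB) (fun s => lcCupData 𝒰 (B' s) (hB' s))
    ?_ h x y
  intro i j n h a b
  exact lcCup_eq_sum 𝒰 hsum h a b

end additive

/-! ### the Mackey decomposition of the trace -/

section trace

variable {k G D : Type u} [CommRing k] [Group G] [Group D] {r : D →* G} {H : Subgroup G}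
  {P : Rep.{u} k G}

section single

variable {t : G} {Dt : Subgroup D} {φ : Dt →* H}

lemma mackey_conj_eq (hφ : ∀ d : Dt, ((φ d : H) : G) * t = t * r d) (d : Dt) :
    t * r (d : D) * t⁻¹ = ((φ d : H) : G) := by
  rw [← hφ d, mul_inv_cancel_right]

/-- the `t`-component of `F ∈ Coind_H^G Res_H P`, twisted back to a `D`-equivariant function:
`d ↦ t⁻¹ • F (t * r d)` -/
def mackeyTwP (hφ : ∀ d : Dt, ((φ d : H) : G) * t = t * r d)
    (F : Rep.coind H.subtype (Rep.res H.subtype P)) :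
    Rep.coind Dt.subtype (Rep.res Dt.subtype (Rep.res r P)) :=
  ⟨fun d => P.ρ t⁻¹ (F.1 (t * r d)), fun e d => by
    show P.ρ t⁻¹ (F.1 (t * r ((e : D) * d))) = P.ρ (r (e : D)) (P.ρ t⁻¹ (F.1 (t * r d)))
    have h1 : t * r ((e : D) * d) = ((φ e : H) : G) * (t * r d) := by
      rw [map_mul, ← mul_assoc, ← hφ e, mul_assoc]
    have hF : F.1 (((φ e : H) : G) * (t * r d)) =
        P.ρ ((φ e : H) : G) (F.1 (t * r d)) := F.2 (φ e) (t * r d)
    rw [h1, hF]
    rw [← Module.End.mul_apply, ← map_mul, ← Module.End.mul_apply, ← map_mul,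
      ← mackey_conj_eq hφ e]
    congr 2
    group⟩

@[simp]
lemma mackeyTwP_apply (hφ : ∀ d : Dt, ((φ d : H) : G) * t = t * r d)
    (F : Rep.coind H.subtype (Rep.res H.subtype P)) (d : D) :
    (mackeyTwP hφ F).1 d = P.ρ t⁻¹ (F.1 (t * r d)) := rfl

end single

variable [H.FiniteIndex] {ι : Type} [Fintype ι] (t : ι → G) (Dt : ι → Subgroup D)
  [∀ i, (Dt i).FiniteIndex] {φ : ∀ i, Dt i →* H}

attribute [local instance] Subgroup.fintypeQuotientOfFiniteIndex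

/-- the map `⊔_i D / D_i → G / H`, `(i, d D_i) ↦ r d (t i)⁻¹ H` -/
def mackeyCosetMap (x : Σ i, D ⧸ Dt i) : G ⧸ H :=
  QuotientGroup.mk (r x.2.out * (t x.1)⁻¹)

lemma mackeyCosetMap_injective
    (hfull : ∀ i (d : D), t i * r d * (t i)⁻¹ ∈ H → d ∈ Dt i)
    (hdisj : ∀ i j, ∀ h ∈ H, ∀ d : D, h * t i * r d = t j → i = j) :
    Function.Injective (mackeyCosetMap (r := r) (H := H) t Dt) := by
  rintro ⟨i, a⟩ ⟨j, b⟩ hab
  unfold mackeyCosetMap at hab
  rw [QuotientGroup.eq] at hab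
  have hij : i = j := by
    refine hdisj i j _ (H.inv_mem hab) (a.out⁻¹ * b.out) ?_
    simp only [map_mul, map_inv]
    group
  subst hij
  have hmem : a.out⁻¹ * b.out ∈ Dt i := by
    apply hfull
    have : t i * r (a.out⁻¹ * b.out) * (t i)⁻¹ =
        (r a.out * (t i)⁻¹)⁻¹ * (r b.out * (t i)⁻¹) := by
      simp only [map_mul, map_inv]; group
    rw [this]
    exact hab
  have : a = b := by
    rw [← QuotientGroup.out_eq' a, ← QuotientGroup.out_eq' b]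
    exact QuotientGroup.eq.2 hmem
  rw [this]

lemma mackeyCosetMap_surjective
    (hφ : ∀ i (d : Dt i), ((φ i d : H) : G) * t i = t i * r d)
    (hcov : ∀ g : G, ∃ i, ∃ h ∈ H, ∃ d : D, g = h * t i * r d) :
    Function.Surjective (mackeyCosetMap (r := r) (H := H) t Dt) := by
  intro q
  induction q using QuotientGroup.induction_on with | H g => ?_
  obtain ⟨i, h, hh, d, hg⟩ := hcov g⁻¹
  refine ⟨⟨i, QuotientGroup.mk d⁻¹⟩, ?_⟩
  unfold mackeyCosetMap
  rw [QuotientGroup.eq]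
  obtain ⟨e, he⟩ := QuotientGroup.mk_out_eq_mul (Dt i) d⁻¹
  show (r (QuotientGroup.mk d⁻¹ : D ⧸ Dt i).out * (t i)⁻¹)⁻¹ * g ∈ H
  rw [he]
  have hg' : g = (h * t i * r d)⁻¹ := by rw [← hg, inv_inv]
  have : (r (d⁻¹ * (e : D)) * (t i)⁻¹)⁻¹ * g =
      (t i * r (e : D) * (t i)⁻¹)⁻¹ * h⁻¹ := by
    rw [hg']
    simp only [map_mul, map_inv]
    group
  rw [this, mackey_conj_eq (hφ i) e]
  exact H.mul_mem (H.inv_mem (φ i e).2) (H.inv_mem hh)

/-- **Mackey decomposition of the trace**: `tr_H^G F = ∑ i, tr_{D_i}^D (t i)⁻¹ • F (t i * r ·)` -/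
theorem coindTrace_eq_sum_mackey
    (hφ : ∀ i (d : Dt i), ((φ i d : H) : G) * t i = t i * r d)
    (hfull : ∀ i (d : D), t i * r d * (t i)⁻¹ ∈ H → d ∈ Dt i)
    (hcov : ∀ g : G, ∃ i, ∃ h ∈ H, ∃ d : D, g = h * t i * r d)
    (hdisj : ∀ i j, ∀ h ∈ H, ∀ d : D, h * t i * r d = t j → i = j)
    (F : Rep.coind H.subtype (Rep.res H.subtype P)) :
    (coindTrace H P).hom F =
      ∑ i, (coindTrace (Dt i) (Rep.res r P)).hom (mackeyTwP (hφ i) F) := by
  rw [coindTrace_hom_apply]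
  have hR : ∀ i, (coindTrace (Dt i) (Rep.res r P)).hom (mackeyTwP (hφ i) F) =
      ∑ q : D ⧸ Dt i, twistFun (Dt i) (Rep.res r P) (mackeyTwP (hφ i) F) q.out :=
    fun i => coindTrace_hom_apply _ _ _
  rw [Finset.sum_congr rfl (fun i _ => hR i)]
  rw [← Fintype.sum_sigma
    (f := fun x : Σ i, D ⧸ Dt i =>
      twistFun (Dt x.1) (Rep.res r P) (mackeyTwP (hφ x.1) F) x.2.out)]
  refine (Fintype.sum_bijective (mackeyCosetMap (r := r) (H := H) t Dt)
    ⟨mackeyCosetMap_injective t Dt hfull hdisj, mackeyCosetMap_surjective t Dt hφ hcov⟩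
    _ _ ?_).symm
  rintro ⟨i, a⟩
  show twistFun (Dt i) (Rep.res r P) (mackeyTwP (hφ i) F) a.out =
    twistFun H P F (QuotientGroup.mk (r a.out * (t i)⁻¹) : G ⧸ H).out
  rw [twistFun_out]
  unfold twistFun
  show P.ρ (r a.out) (P.ρ (t i)⁻¹ (F.1 (t i * r a.out⁻¹))) =
    P.ρ (r a.out * (t i)⁻¹) (F.1 (r a.out * (t i)⁻¹)⁻¹)
  rw [map_mul, Module.End.mul_apply]
  congr 3
  rw [map_inv]
  group

end trace

/-! ### the Mackey decomposition of the trace pairing -/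

section pairing

variable {k G D : Type u} [CommRing k] [Group G] [Group D] {r : D →* G} {H : Subgroup G}
  {N N' : Rep.{u} k H} {P : Rep.{u} k G}
  (B : N →ₗ[k] N' →ₗ[k] (Rep.res H.subtype P))
  (hB : Equivariant N.ρ N'.ρ (Rep.res H.subtype P).ρ B)

section single

variable {t : G} {Dt : Subgroup D} {φ : Dt →* H}

/-- the pairing `B_t (n, n') = t⁻¹ • B (n, n')` on the `t`-twisted restrictions -/
def mackeyB (t : G) (Dt : Subgroup D) (φ : Dt →* H) :
    (Rep.res φ N) →ₗ[k] (Rep.res φ N') →ₗ[k] (Rep.res Dt.subtype (Rep.res r P)) :=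
  B.compr₂ (P.ρ t⁻¹)

@[simp]
lemma mackeyB_apply (n : N) (n' : N') :
    mackeyB (r := r) B t Dt φ n n' = P.ρ t⁻¹ (B n n') := rfl

include hB in
lemma mackeyB_equivariant (hφ : ∀ d : Dt, ((φ d : H) : G) * t = t * r d) :
    Equivariant (Rep.res φ N).ρ (Rep.res φ N').ρ (Rep.res Dt.subtype (Rep.res r P)).ρ
      (mackeyB (r := r) B t Dt φ) := by
  intro e n n'
  show P.ρ t⁻¹ (B (N.ρ (φ e) n) (N'.ρ (φ e) n')) = P.ρ (r (e : D)) (P.ρ t⁻¹ (B n n'))
  rw [hB]
  show P.ρ t⁻¹ (P.ρ ((φ e : H) : G) (B n n')) = _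
  rw [← Module.End.mul_apply, ← map_mul, ← Module.End.mul_apply, ← map_mul,
    ← mackey_conj_eq hφ e]
  congr 2
  group

end single

variable [H.FiniteIndex] {ι : Type} [Fintype ι] (t : ι → G) (Dt : ι → Subgroup D)
  [∀ i, (Dt i).FiniteIndex] (φ : ∀ i, Dt i →* H)
  (hφ : ∀ i (d : Dt i), ((φ i d : H) : G) * t i = t i * r d)

/-- **Mackey decomposition of the trace pairing** (representation level) -/
theorem coindTr_eq_sum_mackey
    (hfull : ∀ i (d : D), t i * r d * (t i)⁻¹ ∈ H → d ∈ Dt i)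
    (hcov : ∀ g : G, ∃ i, ∃ h ∈ H, ∃ d : D, g = h * t i * r d)
    (hdisj : ∀ i j, ∀ h ∈ H, ∀ d : D, h * t i * r d = t j → i = j)
    (Φ : Rep.coind H.subtype N) (Ψ : Rep.coind H.subtype N') :
    coindTr H B hB Φ Ψ =
      ∑ i, coindTr (Dt i) (mackeyB (r := r) B (t i) (Dt i) (φ i)) (mackeyB_equivariant B hB (hφ i))
        ((mackeyP N (hφ i)).hom Φ) ((mackeyP N' (hφ i)).hom Ψ) := by
  rw [coindTr_apply, coindTrace_eq_sum_mackey t Dt hφ hfull hcov hdisj]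
  refine Finset.sum_congr rfl fun i _ => ?_
  rw [coindTr_apply]
  rfl

/-- the `i`-th summand of the restricted trace pairing -/
def mackeyTrB (i : ι) : (mackeyW r H N) →ₗ[k] (mackeyW r H N') →ₗ[k] (Rep.res r P) :=
  (coindTr (Dt i) (mackeyB (r := r) B (t i) (Dt i) (φ i))
    (mackeyB_equivariant B hB (hφ i))).compl₁₂
      (mackeyP N (hφ i)).hom.toLinearMap (mackeyP N' (hφ i)).hom.toLinearMap

lemma mackeyTrB_apply (i : ι) (Φ : mackeyW r H N) (Ψ : mackeyW r H N') :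
    mackeyTrB B hB t Dt φ hφ i Φ Ψ =
      coindTr (Dt i) (mackeyB (r := r) B (t i) (Dt i) (φ i)) (mackeyB_equivariant B hB (hφ i))
        ((mackeyP N (hφ i)).hom Φ) ((mackeyP N' (hφ i)).hom Ψ) := rfl

lemma mackeyTrB_equivariant (i : ι) :
    Equivariant (mackeyW r H N).ρ (mackeyW r H N').ρ (Rep.res r P).ρ
      (mackeyTrB B hB t Dt φ hφ i) := by
  intro d Φ Ψ
  rw [mackeyTrB_apply, mackeyTrB_apply, Rep.hom_comm_apply, Rep.hom_comm_apply]
  exact coindTr_equivariant (Dt i) (mackeyB (r := r) B (t i) (Dt i) (φ i))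
    (mackeyB_equivariant B hB (hφ i)) d _ _

variable (𝒱 : LevelSystem D)
  [IsDiscrete 𝒱 (mackeyW r H N)] [IsDiscrete 𝒱 (mackeyW r H N')] [IsDiscrete 𝒱 (Rep.res r P)]
  [∀ i, IsDiscrete (𝒱.comap (Dt i).subtype) (Rep.res (φ i) N)]
  [∀ i, IsDiscrete (𝒱.comap (Dt i).subtype) (Rep.res (φ i) N')]
  [∀ i, IsDiscrete (𝒱.comap (Dt i).subtype) (Rep.res (Dt i).subtype (Rep.res r P))]
  [∀ i, IsDiscrete 𝒱 (Rep.coind (Dt i).subtype (Rep.res (φ i) N))]
  [∀ i, IsDiscrete 𝒱 (Rep.coind (Dt i).subtype (Rep.res (φ i) N'))]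
  [∀ i, IsDiscrete 𝒱 (Rep.coind (Dt i).subtype (Rep.res (Dt i).subtype (Rep.res r P)))]
  (hD : ∀ i, IsOpenSub 𝒱 (Dt i))

/-- **MACKEY-CUP**: on `Hlc(D, -)` the cup product for the restricted trace pairing is the sum of
the corestrictions of the cup products of the Mackey components:
`x ∪ y = ∑ i, cor_{D_i}^D (μ_i x ∪_{B_i} μ_i y)`. -/
theorem HlcCup_mackey
    (hfull : ∀ i (d : D), t i * r d * (t i)⁻¹ ∈ H → d ∈ Dt i)
    (hcov : ∀ g : G, ∃ i, ∃ h ∈ H, ∃ d : D, g = h * t i * r d)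
    (hdisj : ∀ i j, ∀ h ∈ H, ∀ d : D, h * t i * r d = t j → i = j)
    {a b n : ℕ} (h : a + b = n) (X : Hlc 𝒱 (mackeyW r H N) a) (Y : Hlc 𝒱 (mackeyW r H N') b) :
    HlcCup 𝒱 (M := mackeyW r H N) (N := mackeyW r H N') (P := Rep.res r P) (coindTr H B hB)
        (Equivariant_res (f := r) (coindTr_equivariant H B hB)) h X Y =
      ∑ i, HlcCor (Rep.res r P) (hD i) n
        (HlcCup (𝒱.comap (Dt i).subtype) (mackeyB (r := r) B (t i) (Dt i) (φ i))
          (mackeyB_equivariant B hB (hφ i)) h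
          (mackeyμ N 𝒱 (hφ i) a X) (mackeyμ N' 𝒱 (hφ i) b Y)) := by
  rw [HlcCup_eq_sum 𝒱 (M := mackeyW r H N) (N := mackeyW r H N') (P := Rep.res r P)
    (Equivariant_res (f := r) (coindTr_equivariant H B hB))
    (B' := mackeyTrB B hB t Dt φ hφ) (mackeyTrB_equivariant B hB t Dt φ hφ)
    (fun Φ Ψ => coindTr_eq_sum_mackey B hB t Dt φ hφ hfull hcov hdisj Φ Ψ) h X Y]
  refine Finset.sum_congr rfl fun i _ => ?_
  have h1 := HlcCup_map 𝒱 (mackeyTrB_equivariant B hB t Dt φ hφ i)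
    (coindTr_equivariant (Dt i) (mackeyB (r := r) B (t i) (Dt i) (φ i))
      (mackeyB_equivariant B hB (hφ i)))
    (mackeyP N (hφ i)) (mackeyP N' (hφ i))
    (𝟙 (Rep.res r P)) (fun _ _ => rfl) h X Y
  rw [HlcMap_id] at h1
  have h2 : ∀ (Z : Hlc 𝒱 (mackeyW r H N) a),
      HlcShapiro 𝒱 (Dt i) (Rep.res (φ i) N) a (HlcMap 𝒱 (mackeyP N (hφ i)) a Z) =
      mackeyμ N 𝒱 (hφ i) a Z := fun Z => by
    rw [mackeyμ_eq]; rfl
  have h3 : ∀ (Z : Hlc 𝒱 (mackeyW r H N') b),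
      HlcShapiro 𝒱 (Dt i) (Rep.res (φ i) N') b (HlcMap 𝒱 (mackeyP N' (hφ i)) b Z) =
      mackeyμ N' 𝒱 (hφ i) b Z := fun Z => by
    rw [mackeyμ_eq]; rfl
  rw [← h2 X, ← h3 Y, ← HlcCup_coindTr (Dt i) (mackeyB (r := r) B (t i) (Dt i) (φ i))
    (mackeyB_equivariant B hB (hφ i)) (hD i) h]
  exact h1

end pairing

/-! ### openness / continuity / finiteness for the canonical Mackey data -/

section canonical

variable {G D : Type u} [Group G] [Group D] (r : D →* G) (H : Subgroup G)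

lemma mackeySub_eq_comap (t : G) :
    mackeySub r H t = (H.comap (MulAut.conj t).toMonoidHom).comap r := by
  ext d
  rw [mem_mackeySub, Subgroup.mem_comap, Subgroup.mem_comap]
  rfl

instance finiteIndex_mackeySub [H.FiniteIndex] (t : G) : (mackeySub r H t).FiniteIndex := by
  rw [mackeySub_eq_comap]
  have h1 : (H.comap (MulAut.conj t).toMonoidHom).FiniteIndex := by
    refine ⟨?_⟩
    rw [Subgroup.index_comap_of_surjective H (MulAut.conj t).surjective]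
    exact Subgroup.FiniteIndex.index_ne_zero
  refine ⟨?_⟩
  rw [Subgroup.index_comap]
  exact (Subgroup.instFiniteIndex_subgroupOf _ _).index_ne_zero

lemma mackeySub_full (t : G) (d : D) (hd : t * r d * t⁻¹ ∈ H) : d ∈ mackeySub r H t := hd

variable {r H} {𝒰 : LevelSystem G} {𝒱 : LevelSystem D}

/-- the Mackey subgroups are open when `r` is continuous and `H` is open -/
theorem isOpenSub_mackeySub (hr : IsContHom 𝒱 𝒰 r) (hH : IsOpenSub 𝒰 H) (t : G) :
    IsOpenSub 𝒱 (mackeySub r H t) := by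
  obtain ⟨U, hU, hUH⟩ := hH
  obtain ⟨U', hU', hle, hn, -⟩ := 𝒰.normal_below U hU
  obtain ⟨V, hV, hVU⟩ := hr U' hU'
  refine ⟨V, hV, fun d hd => ?_⟩
  rw [mem_mackeySub]
  exact hUH (hle (hn.conj_mem _ (hVU hd) t))

/-- any `φ : Dt →* H` with `φ d * t = t * r d` is continuous for the induced level systems -/
theorem isContHom_of_mackey (hr : IsContHom 𝒱 𝒰 r) {t : G} {Dt : Subgroup D} {φ : Dt →* H}
    (hφ : ∀ d : Dt, ((φ d : H) : G) * t = t * r d) :
    IsContHom (𝒱.comap Dt.subtype) (𝒰.comap H.subtype) φ := by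
  rintro _ ⟨U, hU, rfl⟩
  obtain ⟨U', hU', hle, hn, -⟩ := 𝒰.normal_below U hU
  obtain ⟨V, hV, hVU⟩ := hr U' hU'
  refine ⟨V.comap Dt.subtype, ⟨V, hV, rfl⟩, fun e he => ?_⟩
  rw [Subgroup.mem_comap, Subgroup.mem_comap, Subgroup.coe_subtype, ← mackey_conj_eq hφ e]
  exact hle (hn.conj_mem _ (hVU he) t)

end canonical

end Fermat.Agent.GC.Prof
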