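/-
GATE-C / C1 (PROFCOH), leaf (P2) COLIM (helper20): finite-level description of level-constant
cochains, on top of helper78's `GC/Prof/Basic.lean`.

For `U ∈ 𝒰.sets` normal, `M^U := M.quotientToInvariants U : Rep k (G ⧸ U)`.
* `inflFun U f` : inflation of a cochain of `(G ⧸ U, M^U)` to a cochain of `(G, M)`; it is
  level-constant, injective in `f`, and commutes with the inhomogeneous differentials.
* `deflFun` / `inflFun_deflFun` : descent of a `V`-level cochain with `V`-invariant values.
* `exists_eq_inflFun` **(A)** : every level-constant cochain with discrete coefficients is inflated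
  from an arbitrarily deep normal level; `exists_eq_inflFun₂` for two cochains at once.
* `inflLevel` : change of level `V ≤ U`; `inflFun_inflLevel`, `d_inflLevel`.
* `exists_cocycle_eq_inflFun` **(A')** : level-constant cocycles come from finite-level cocycles.
* `exists_inflLevel_eq_d` **(B')** : a finite-level cochain whose inflation is the coboundary of a
  level-constant cochain becomes a coboundary at a deeper finite level.
Together: `Hlc 𝒰 M n = colim_U Hⁿ(G ⧸ U, M^U)` (homology-level wrappers: `FiniteLevelH.lean`).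
-/
import Fermat.Agent.GC.Prof.Basic

set_option autoImplicit false

open CategoryTheory

noncomputable section

namespace Fermat.Agent.GC.Prof

universe u

variable {k G : Type u} [CommRing k] [Group G]

section Infl

variable (M : Rep.{u} k G) (U : Subgroup G) [U.Normal]

/-- inflation of cochains from the finite level `(G ⧸ U, M^U)` -/
def inflFun {n : ℕ} (f : (Fin n → G ⧸ U) → M.quotientToInvariants U) : (Fin n → G) → M :=
  fun g => (f fun i => (g i : G ⧸ U)).1

theorem inflFun_apply {n : ℕ} (f : (Fin n → G ⧸ U) → M.quotientToInvariants U) (g : Fin n → G) :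
    inflFun M U f g = (f fun i => (g i : G ⧸ U)).1 := rfl

theorem inflFun_injective {n : ℕ} :
    Function.Injective (inflFun M U : ((Fin n → G ⧸ U) → M.quotientToInvariants U) → _) := by
  intro f f' h
  funext c
  apply Subtype.ext
  have := congrFun h fun i => (c i).out
  simpa [inflFun_apply] using this

theorem inflFun_mul_right {n : ℕ} (f : (Fin n → G ⧸ U) → M.quotientToInvariants U)
    (g s : Fin n → G) (hs : ∀ i, s i ∈ U) : inflFun M U f (g * s) = inflFun M U f g := by
  rw [inflFun_apply, inflFun_apply]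
  congr 2
  funext i
  rw [Pi.mul_apply, QuotientGroup.mk_mul, (QuotientGroup.eq_one_iff (s i)).2 (hs i), mul_one]

theorem inflFun_fixed {n : ℕ} (f : (Fin n → G ⧸ U) → M.quotientToInvariants U)
    (g : Fin n → G) (s : G) (hs : s ∈ U) : M.ρ s (inflFun M U f g) = inflFun M U f g :=
  (f fun i => (g i : G ⧸ U)).2 ⟨s, hs⟩

end Infl

end Fermat.Agent.GC.Prof

namespace Fermat.Agent.GC.Prof

universe u

variable {k G : Type u} [CommRing k] [Group G]

section InflD

variable (M : Rep.{u} k G) (U : Subgroup G) [U.Normal]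

theorem coe_quotientToInvariants_ρ (g : G) (x : M.quotientToInvariants U) :
    ((M.quotientToInvariants U).ρ (g : G ⧸ U) x).1 = M.ρ g x.1 := rfl

theorem contractNth_mk {n : ℕ} (j : Fin (n + 1)) (g : Fin (n + 1) → G) :
    (fun i => ((Fin.contractNth j (· * ·) g i : G) : G ⧸ U)) =
      Fin.contractNth j (· * ·) fun i => (g i : G ⧸ U) := by
  funext i
  simp only [Fin.contractNth]
  split_ifs <;> simp

/-- inflation commutes with the inhomogeneous differential -/
theorem d_inflFun {n : ℕ} (f : (Fin n → G ⧸ U) → M.quotientToInvariants U) :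
    inhomogeneousCochains.d M n (inflFun M U f) =
      inflFun M U (inhomogeneousCochains.d (M.quotientToInvariants U) n f) := by
  funext g
  rw [inflFun_apply]
  erw [inhomogeneousCochains.d_hom_apply, inhomogeneousCochains.d_hom_apply]
  simp only [inflFun_apply]
  rw [Submodule.coe_add, Submodule.coe_sum, coe_quotientToInvariants_ρ]
  congr 1
  refine Finset.sum_congr rfl fun j _ => ?_
  rw [Submodule.coe_smul, contractNth_mk]

end InflD

end Fermat.Agent.GC.Prof

namespace Fermat.Agent.GC.Prof

universe u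

variable {k G : Type u} [CommRing k] [Group G]

section Defl

variable (M : Rep.{u} k G) (V : Subgroup G) [V.Normal]

/-- descent of a cochain whose values are `V`-invariant to the finite level `(G ⧸ V, M^V)`
(evaluate at coset representatives) -/
def deflFun {n : ℕ} (f : (Fin n → G) → M) (hfix : ∀ s ∈ V, ∀ g, M.ρ s (f g) = f g) :
    (Fin n → G ⧸ V) → M.quotientToInvariants V :=
  fun c => ⟨f fun i => (c i).out, fun s => hfix s.1 s.2 _⟩

theorem inflFun_deflFun {n : ℕ} (f : (Fin n → G) → M)
    (hlev : ∀ g s : Fin n → G, (∀ i, s i ∈ V) → f (g * s) = f g)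
    (hfix : ∀ s ∈ V, ∀ g, M.ρ s (f g) = f g) : inflFun M V (deflFun M V f hfix) = f := by
  funext g
  show f (fun i => ((g i : G ⧸ V)).out) = f g
  have h : (fun i => ((g i : G ⧸ V)).out) = g * fun i => (g i)⁻¹ * ((g i : G ⧸ V)).out := by
    funext i
    simp
  rw [h]
  refine hlev g _ fun i => ?_
  have h1 : ((((g i : G ⧸ V)).out : G) : G ⧸ V) = (g i : G ⧸ V) := QuotientGroup.out_eq' _
  exact QuotientGroup.eq.1 h1.symm

theorem deflFun_inflFun {n : ℕ} (f' : (Fin n → G ⧸ V) → M.quotientToInvariants V) :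
    deflFun M V (inflFun M V f') (fun s hs g => inflFun_fixed M V f' g s hs) = f' := by
  apply inflFun_injective M V
  rw [inflFun_deflFun M V _ (fun g s hs => inflFun_mul_right M V f' g s hs)]

end Defl

section Exists

variable (𝒰 : LevelSystem G) (M : Rep.{u} k G) [IsDiscrete 𝒰 M]

omit [IsDiscrete 𝒰 M] in
/-- the inflation of a finite-level cochain is level-constant -/
theorem isLC_inflFun {U : Subgroup G} [U.Normal] (hU : U ∈ 𝒰.sets) {n : ℕ}
    (f : (Fin n → G ⧸ U) → M.quotientToInvariants U) : IsLC 𝒰 (inflFun M U f) :=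
  ⟨U, hU, fun g s hs => inflFun_mul_right M U f g s hs⟩

/-- **(A)** every level-constant cochain with discrete coefficients is inflated from an
arbitrarily deep normal finite-index level -/
theorem exists_eq_inflFun {n : ℕ} {f : (Fin n → G) → M} (hf : IsLC 𝒰 f) {U₀ : Subgroup G}
    (hU₀ : U₀ ∈ 𝒰.sets) :
    ∃ V ∈ 𝒰.sets, V ≤ U₀ ∧ V.FiniteIndex ∧ ∃ _ : V.Normal,
      ∃ f' : (Fin n → G ⧸ V) → M.quotientToInvariants V, inflFun M V f' = f := by
  obtain ⟨W, hW, -, -, hlev, hfix⟩ := hf.exists_level M
  obtain ⟨V, hV, hVW, hVU₀, hn, hfi⟩ := 𝒰.exists_normal_le_inf hW hU₀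
  refine ⟨V, hV, hVU₀, hfi, hn, deflFun M V f fun s hs g => hfix s (hVW hs) g, ?_⟩
  exact inflFun_deflFun M V f (IsLC.mono_level hVW hlev) _

/-- **(A), two cochains at once** (used for "cocycle + its primitive") -/
theorem exists_eq_inflFun₂ {n m : ℕ} {f : (Fin n → G) → M} {h : (Fin m → G) → M}
    (hf : IsLC 𝒰 f) (hh : IsLC 𝒰 h) {U₀ : Subgroup G} (hU₀ : U₀ ∈ 𝒰.sets) :
    ∃ V ∈ 𝒰.sets, V ≤ U₀ ∧ V.FiniteIndex ∧ ∃ _ : V.Normal,
      (∃ f' : (Fin n → G ⧸ V) → M.quotientToInvariants V, inflFun M V f' = f) ∧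
      ∃ h' : (Fin m → G ⧸ V) → M.quotientToInvariants V, inflFun M V h' = h := by
  obtain ⟨W, hW, -, -, hlev, hfix⟩ := hf.exists_level M
  obtain ⟨W', hW', -, -, hlev', hfix'⟩ := hh.exists_level M
  obtain ⟨W'', hW'', hle, hle', -, -⟩ := 𝒰.exists_normal_le_inf hW hW'
  obtain ⟨V, hV, hVW, hVU₀, hn, hfi⟩ := 𝒰.exists_normal_le_inf hW'' hU₀
  refine ⟨V, hV, hVU₀, hfi, hn,
    ⟨deflFun M V f fun s hs g => hfix s (hle (hVW hs)) g, ?_⟩,
    ⟨deflFun M V h fun s hs g => hfix' s (hle' (hVW hs)) g, ?_⟩⟩
  · exact inflFun_deflFun M V f (IsLC.mono_level (hVW.trans hle) hlev) _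
  · exact inflFun_deflFun M V h (IsLC.mono_level (hVW.trans hle') hlev') _

end Exists

end Fermat.Agent.GC.Prof

namespace Fermat.Agent.GC.Prof

universe u

variable {k G : Type u} [CommRing k] [Group G]

section Transition

variable (M : Rep.{u} k G) (U V : Subgroup G) [U.Normal] [V.Normal]

/-- inflation from level `U` to a deeper level `V ≤ U` -/
def inflLevel (hVU : V ≤ U) {n : ℕ} (f : (Fin n → G ⧸ U) → M.quotientToInvariants U) :
    (Fin n → G ⧸ V) → M.quotientToInvariants V :=
  deflFun M V (inflFun M U f) fun s hs g => inflFun_fixed M U f g s (hVU hs)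

theorem inflFun_inflLevel (hVU : V ≤ U) {n : ℕ}
    (f : (Fin n → G ⧸ U) → M.quotientToInvariants U) :
    inflFun M V (inflLevel M U V hVU f) = inflFun M U f :=
  inflFun_deflFun M V _ (fun g s hs => inflFun_mul_right M U f g s fun i => hVU (hs i)) _

theorem inflLevel_apply_mk (hVU : V ≤ U) {n : ℕ}
    (f : (Fin n → G ⧸ U) → M.quotientToInvariants U) (g : Fin n → G) :
    (inflLevel M U V hVU f fun i => (g i : G ⧸ V)).1 = (f fun i => (g i : G ⧸ U)).1 := by
  have := congrFun (inflFun_inflLevel M U V hVU f) g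
  simpa [inflFun_apply] using this

/-- level change commutes with the differentials -/
theorem d_inflLevel (hVU : V ≤ U) {n : ℕ} (f : (Fin n → G ⧸ U) → M.quotientToInvariants U) :
    inhomogeneousCochains.d (M.quotientToInvariants V) n (inflLevel M U V hVU f) =
      inflLevel M U V hVU (inhomogeneousCochains.d (M.quotientToInvariants U) n f) := by
  apply inflFun_injective M V
  rw [← d_inflFun, inflFun_inflLevel, inflFun_inflLevel, d_inflFun]

end Transition

section Colim

variable (𝒰 : LevelSystem G) (M : Rep.{u} k G) [IsDiscrete 𝒰 M]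

/-- **(A')** every level-constant cocycle is inflated from a cocycle of an arbitrarily deep
finite level -/
theorem exists_cocycle_eq_inflFun {n : ℕ} {f : (Fin n → G) → M} (hf : IsLC 𝒰 f)
    (hd : inhomogeneousCochains.d M n f = 0) {U₀ : Subgroup G} (hU₀ : U₀ ∈ 𝒰.sets) :
    ∃ V ∈ 𝒰.sets, V ≤ U₀ ∧ V.FiniteIndex ∧ ∃ _ : V.Normal,
      ∃ f' : (Fin n → G ⧸ V) → M.quotientToInvariants V,
        inhomogeneousCochains.d (M.quotientToInvariants V) n f' = 0 ∧ inflFun M V f' = f := by
  obtain ⟨V, hV, hVU₀, hfi, hn, f', rfl⟩ := exists_eq_inflFun 𝒰 M hf hU₀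
  refine ⟨V, hV, hVU₀, hfi, hn, f', ?_, rfl⟩
  apply inflFun_injective M V
  rw [← d_inflFun, hd]
  rfl

/-- **(B')** if the inflation of a finite-level cochain `f'` is the coboundary of a level-constant
cochain, then `f'` becomes a coboundary at some deeper finite level -/
theorem exists_inflLevel_eq_d {n : ℕ} {U : Subgroup G} [U.Normal] (hU : U ∈ 𝒰.sets)
    (f' : (Fin (n + 1) → G ⧸ U) → M.quotientToInvariants U) {h : (Fin n → G) → M}
    (hh : IsLC 𝒰 h) (hfh : inflFun M U f' = inhomogeneousCochains.d M n h) :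
    ∃ V ∈ 𝒰.sets, V.FiniteIndex ∧ ∃ _ : V.Normal, ∃ hVU : V ≤ U,
      ∃ h' : (Fin n → G ⧸ V) → M.quotientToInvariants V,
        inflFun M V h' = h ∧
        inflLevel M U V hVU f' = inhomogeneousCochains.d (M.quotientToInvariants V) n h' := by
  obtain ⟨V, hV, hVU, hfi, hn, h', rfl⟩ := exists_eq_inflFun 𝒰 M hh hU
  refine ⟨V, hV, hfi, hn, hVU, h', rfl, ?_⟩
  apply inflFun_injective M V
  rw [inflFun_inflLevel, hfh, d_inflFun]

end Colim

end Fermat.Agent.GC.Prof
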