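/-
GATE-C / C1 (PROFCOH), leaf (L3) FINITE LEVELS, homology level (helper20).
On top of `FiniteLevel.lean` (cochain level) and `HElt.lean` (classes of cocycles).

For `U ∈ 𝒰.sets` normal, `M^U := M.quotientToInvariants U : Rep k (G ⧸ U)`.
* `inflLin`, `inflChain hU : inhomogeneousCochains (M^U) ⟶ lcCochains 𝒰 M`,
  `Hinfl hU n : groupCohomology (M^U) n ⟶ Hlc 𝒰 M n`   (inflation from a finite level);
* `inflLevelLin`, `inflLevelChain hVU`, `HinflLevel hVU n : Hⁿ(G ⧸ U, M^U) ⟶ Hⁿ(G ⧸ V, M^V)`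
  (change of level, `V ≤ U`), `HinflLevel_comp_Hinfl`, `HinflLevel_trans`, `HinflLevel_refl`;
* `Hinfl_hMk`, `HinflLevel_hMk` : the maps on classes of cocycles;
* **`exists_Hinfl_eq`**      : every class of `Hlc 𝒰 M n` is inflated from an arbitrarily deep level;
* **`exists_HinflLevel_eq_zero`** : a finite-level class dying in `Hlc` dies at a deeper level;
* **`Hinfl_eq_Hinfl_iff`**   : two finite-level classes agree in `Hlc` iff they agree at a deeper
  level.   Together: `Hlc 𝒰 M n = colim_U Hⁿ(G ⧸ U, M^U)`.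
* compatibility with Mathlib: `HinflLevel_eq_map` (`HinflLevel = groupCohomology.map levelProj
  levelHom`), `Hinfl_comp_HlcToH` (`Hinfl ≫ HlcToH` = Mathlib's inflation `Hⁿ(G ⧸ U, M^U) ⟶ Hⁿ(G, M)`).
-/
import Fermat.Agent.GC.Prof.FiniteLevel
import Fermat.Agent.GC.Prof.HElt

set_option autoImplicit false

open CategoryTheory

noncomputable section

namespace Fermat.Agent.GC.Prof

universe u

variable {k G : Type u} [CommRing k] [Group G]

section Lin

variable (M : Rep.{u} k G) (U V W : Subgroup G) [U.Normal] [V.Normal] [W.Normal]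

theorem inflFun_add {n : ℕ} (f f' : (Fin n → G ⧸ U) → M.quotientToInvariants U) :
    inflFun M U (f + f') = inflFun M U f + inflFun M U f' := rfl

theorem inflFun_smul {n : ℕ} (c : k) (f : (Fin n → G ⧸ U) → M.quotientToInvariants U) :
    inflFun M U (c • f) = c • inflFun M U f := rfl

theorem inflFun_zero {n : ℕ} :
    inflFun M U (0 : (Fin n → G ⧸ U) → M.quotientToInvariants U) = 0 := rfl

/-- change of level as a linear map -/
def inflLevelLin (hVU : V ≤ U) (n : ℕ) :
    ((Fin n → G ⧸ U) → M.quotientToInvariants U) →ₗ[k]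
      ((Fin n → G ⧸ V) → M.quotientToInvariants V) where
  toFun := inflLevel M U V hVU
  map_add' f f' := by
    apply inflFun_injective M V
    rw [inflFun_add, inflFun_inflLevel, inflFun_inflLevel, inflFun_inflLevel, inflFun_add]
  map_smul' c f := by
    apply inflFun_injective M V
    rw [RingHom.id_apply, inflFun_smul, inflFun_inflLevel, inflFun_inflLevel, inflFun_smul]

@[simp]
theorem inflLevelLin_apply (hVU : V ≤ U) (n : ℕ) (f : (Fin n → G ⧸ U) → M.quotientToInvariants U) :
    inflLevelLin M U V hVU n f = inflLevel M U V hVU f := rfl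

theorem inflLevel_trans (hVU : V ≤ U) (hWV : W ≤ V) {n : ℕ}
    (f : (Fin n → G ⧸ U) → M.quotientToInvariants U) :
    inflLevel M V W hWV (inflLevel M U V hVU f) = inflLevel M U W (hWV.trans hVU) f := by
  apply inflFun_injective M W
  rw [inflFun_inflLevel, inflFun_inflLevel, inflFun_inflLevel]

theorem inflLevel_refl {n : ℕ} (f : (Fin n → G ⧸ U) → M.quotientToInvariants U) :
    inflLevel M U U le_rfl f = f := by
  apply inflFun_injective M U
  rw [inflFun_inflLevel]

/-- change of level as a morphism of cochain complexes -/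
def inflLevelChain (hVU : V ≤ U) :
    groupCohomology.inhomogeneousCochains (M.quotientToInvariants U) ⟶
      groupCohomology.inhomogeneousCochains (M.quotientToInvariants V) :=
  CochainComplex.ofHom (fun n => ModuleCat.ofHom (inflLevelLin M U V hVU n)) fun n => by
    ext f : 2
    simp only [CochainComplex.of_d]
    exact d_inflLevel M U V hVU f

@[simp]
theorem inflLevelChain_f (hVU : V ≤ U) (n : ℕ) :
    (inflLevelChain M U V hVU).f n = ModuleCat.ofHom (inflLevelLin M U V hVU n) := rfl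

theorem inflLevelChain_trans (hVU : V ≤ U) (hWV : W ≤ V) :
    inflLevelChain M U V hVU ≫ inflLevelChain M V W hWV =
      inflLevelChain M U W (hWV.trans hVU) := by
  ext n f : 3
  exact inflLevel_trans M U V W hVU hWV f

theorem inflLevelChain_refl : inflLevelChain M U U le_rfl = 𝟙 _ := by
  ext n f : 3
  exact inflLevel_refl M U f

/-- change of level on cohomology, `Hⁿ(G ⧸ U, M^U) ⟶ Hⁿ(G ⧸ V, M^V)` for `V ≤ U` -/
def HinflLevel (hVU : V ≤ U) (n : ℕ) :
    groupCohomology (M.quotientToInvariants U) n ⟶ groupCohomology (M.quotientToInvariants V) n :=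
  HomologicalComplex.homologyMap (inflLevelChain M U V hVU) n

theorem HinflLevel_trans (hVU : V ≤ U) (hWV : W ≤ V) (n : ℕ) :
    HinflLevel M U V hVU n ≫ HinflLevel M V W hWV n = HinflLevel M U W (hWV.trans hVU) n := by
  have := HomologicalComplex.homologyMap_comp (inflLevelChain M U V hVU)
    (inflLevelChain M V W hWV) n
  rw [inflLevelChain_trans] at this
  exact this.symm

theorem HinflLevel_trans_apply (hVU : V ≤ U) (hWV : W ≤ V) (n : ℕ)
    (y : groupCohomology (M.quotientToInvariants U) n) :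
    HinflLevel M V W hWV n (HinflLevel M U V hVU n y) = HinflLevel M U W (hWV.trans hVU) n y := by
  rw [← HinflLevel_trans M U V W hVU hWV n]
  rfl

theorem HinflLevel_refl (n : ℕ) : HinflLevel M U U le_rfl n = 𝟙 _ := by
  have := HomologicalComplex.homologyMap_id
    (groupCohomology.inhomogeneousCochains (M.quotientToInvariants U)) n
  rw [← inflLevelChain_refl] at this
  exact this

end Lin

section Infl

variable (𝒰 : LevelSystem G) (M : Rep.{u} k G) [IsDiscrete 𝒰 M]
  {U V : Subgroup G} [U.Normal] [V.Normal]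

omit [IsDiscrete 𝒰 M] in
/-- inflation from the finite level `U`, as a linear map to level-constant cochains -/
def inflLin (hU : U ∈ 𝒰.sets) (n : ℕ) :
    ((Fin n → G ⧸ U) → M.quotientToInvariants U) →ₗ[k] lcSub 𝒰 M n where
  toFun f := ⟨inflFun M U f, isLC_inflFun 𝒰 M hU f⟩
  map_add' _ _ := rfl
  map_smul' _ _ := rfl

omit [IsDiscrete 𝒰 M] in
@[simp]
theorem inflLin_coe (hU : U ∈ 𝒰.sets) (n : ℕ) (f : (Fin n → G ⧸ U) → M.quotientToInvariants U) :
    ((inflLin 𝒰 M hU n f : lcSub 𝒰 M n) : (Fin n → G) → M) = inflFun M U f := rfl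

omit [IsDiscrete 𝒰 M] in
theorem inflLin_injective (hU : U ∈ 𝒰.sets) (n : ℕ) : Function.Injective (inflLin 𝒰 M hU n) :=
  fun _ _ h => inflFun_injective M U (congrArg Subtype.val h)

/-- inflation from the finite level `U`, as a morphism of cochain complexes -/
def inflChain (hU : U ∈ 𝒰.sets) :
    groupCohomology.inhomogeneousCochains (M.quotientToInvariants U) ⟶ lcCochains 𝒰 M :=
  CochainComplex.ofHom (fun n => ModuleCat.ofHom (inflLin 𝒰 M hU n)) fun n => by
    ext f : 2
    simp only [lcCochains, CochainComplex.of_d]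
    apply Subtype.ext
    show inhomogeneousCochains.d M n (inflFun M U f) =
      inflFun M U (inhomogeneousCochains.d (M.quotientToInvariants U) n f)
    exact d_inflFun M U f

@[simp]
theorem inflChain_f (hU : U ∈ 𝒰.sets) (n : ℕ) :
    (inflChain 𝒰 M hU).f n = ModuleCat.ofHom (inflLin 𝒰 M hU n) := rfl

theorem inflLevelChain_comp_inflChain (hU : U ∈ 𝒰.sets) (hV : V ∈ 𝒰.sets) (hVU : V ≤ U) :
    inflLevelChain M U V hVU ≫ inflChain 𝒰 M hV = inflChain 𝒰 M hU := by
  ext n f : 3
  apply Subtype.ext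
  exact inflFun_inflLevel M U V hVU f

/-- inflation `Hⁿ(G ⧸ U, M^U) ⟶ Hlc 𝒰 M n` from a finite level -/
def Hinfl (hU : U ∈ 𝒰.sets) (n : ℕ) :
    groupCohomology (M.quotientToInvariants U) n ⟶ Hlc 𝒰 M n :=
  HomologicalComplex.homologyMap (inflChain 𝒰 M hU) n

theorem HinflLevel_comp_Hinfl (hU : U ∈ 𝒰.sets) (hV : V ∈ 𝒰.sets) (hVU : V ≤ U) (n : ℕ) :
    HinflLevel M U V hVU n ≫ Hinfl 𝒰 M hV n = Hinfl 𝒰 M hU n := by
  have := HomologicalComplex.homologyMap_comp (inflLevelChain M U V hVU) (inflChain 𝒰 M hV) n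
  rw [inflLevelChain_comp_inflChain 𝒰 M hU hV hVU] at this
  exact this.symm

theorem Hinfl_HinflLevel_apply (hU : U ∈ 𝒰.sets) (hV : V ∈ 𝒰.sets) (hVU : V ≤ U) (n : ℕ)
    (y : groupCohomology (M.quotientToInvariants U) n) :
    Hinfl 𝒰 M hV n (HinflLevel M U V hVU n y) = Hinfl 𝒰 M hU n y := by
  rw [← HinflLevel_comp_Hinfl 𝒰 M hU hV hVU n]
  rfl

end Infl

section Colim

open Elt

variable (𝒰 : LevelSystem G) (M : Rep.{u} k G) [IsDiscrete 𝒰 M]

/-- the cocycle condition in the complex of level-constant cochains -/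
theorem mem_zSub_lcCochains_iff {n : ℕ} (f : lcSub 𝒰 M n) :
    (show (lcCochains 𝒰 M).X n from f) ∈ zSub (lcCochains 𝒰 M) n ↔
      inhomogeneousCochains.d M n (f : (Fin n → G) → M) = 0 := by
  rw [mem_zSub_iff]
  simp only [lcCochains, CochainComplex.of_d]
  constructor
  · intro h
    exact congrArg Subtype.val h
  · intro h
    apply Subtype.ext
    exact h

/-- the cocycle condition in the complex of inhomogeneous cochains -/
theorem mem_zSub_inhomogeneousCochains_iff {H : Type u} [Group H] (A : Rep.{u} k H) {n : ℕ}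
    (f : (Fin n → H) → A) :
    f ∈ zSub (groupCohomology.inhomogeneousCochains A) n ↔
      inhomogeneousCochains.d A n f = 0 := by
  rw [mem_zSub_iff]
  simp only [CochainComplex.of_d]

variable {U V : Subgroup G} [U.Normal] [V.Normal]

/-- inflation on classes of cocycles -/
theorem Hinfl_hMk (hU : U ∈ 𝒰.sets) (n : ℕ)
    (z : zSub (groupCohomology.inhomogeneousCochains (M.quotientToInvariants U)) n) :
    Hinfl 𝒰 M hU n (hMk _ n z) = hMk (lcCochains 𝒰 M) n (zMap (inflChain 𝒰 M hU) n z) :=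
  homologyMap_hMk (inflChain 𝒰 M hU) n z

omit [IsDiscrete 𝒰 M] in
/-- change of level on classes of cocycles -/
theorem HinflLevel_hMk (hVU : V ≤ U) (n : ℕ)
    (z : zSub (groupCohomology.inhomogeneousCochains (M.quotientToInvariants U)) n) :
    HinflLevel M U V hVU n (hMk _ n z) =
      hMk (groupCohomology.inhomogeneousCochains (M.quotientToInvariants V)) n
        (zMap (inflLevelChain M U V hVU) n z) :=
  homologyMap_hMk (inflLevelChain M U V hVU) n z

/-- **surjectivity**: every class of `Hlc 𝒰 M n` is inflated from an arbitrarily deep normal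
finite-index level -/
theorem exists_Hinfl_eq {n : ℕ} (x : Hlc 𝒰 M n) {U₀ : Subgroup G} (hU₀ : U₀ ∈ 𝒰.sets) :
    ∃ V, ∃ hV : V ∈ 𝒰.sets, V ≤ U₀ ∧ V.FiniteIndex ∧ ∃ _ : V.Normal,
      ∃ y : groupCohomology (M.quotientToInvariants V) n, Hinfl 𝒰 M hV n y = x := by
  obtain ⟨z, rfl⟩ := hMk_surjective (lcCochains 𝒰 M) n x
  have hz := (mem_zSub_lcCochains_iff 𝒰 M z.1).1 z.2
  obtain ⟨V, hV, hVU₀, hfi, hn, f', hf', hff'⟩ :=
    exists_cocycle_eq_inflFun 𝒰 M z.1.2 hz hU₀
  refine ⟨V, hV, hVU₀, hfi, hn,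
    hMk _ n ⟨f', (mem_zSub_inhomogeneousCochains_iff _ f').2 hf'⟩, ?_⟩
  rw [Hinfl_hMk]
  congr 1
  apply Subtype.ext
  apply Subtype.ext
  exact hff'

/-- **injectivity in the colimit**: a finite-level class which dies in `Hlc 𝒰 M n` already dies
at some deeper normal finite-index level -/
theorem exists_HinflLevel_eq_zero (hU : U ∈ 𝒰.sets) {n : ℕ}
    (y : groupCohomology (M.quotientToInvariants U) n) (hy : Hinfl 𝒰 M hU n y = 0) :
    ∃ V ∈ 𝒰.sets, V.FiniteIndex ∧ ∃ _ : V.Normal, ∃ hVU : V ≤ U,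
      HinflLevel M U V hVU n y = 0 := by
  obtain ⟨z, rfl⟩ := hMk_surjective
    (groupCohomology.inhomogeneousCochains (M.quotientToInvariants U)) n y
  rw [Hinfl_hMk] at hy
  cases n with
  | zero =>
    replace hy := (hMk_eq_zero_iff_zero (lcCochains 𝒰 M) _).1 hy
    have hz : z = 0 := by
      apply Subtype.ext
      apply inflLin_injective 𝒰 M hU 0
      rw [Submodule.coe_zero, map_zero]
      exact congrArg Subtype.val hy
    refine ⟨U, hU, 𝒰.finiteIndex_of_mem hU, inferInstance, le_rfl, ?_⟩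
    rw [hz, map_zero]
    exact map_zero (HinflLevel M U U le_rfl 0).hom
  | succ n =>
    obtain ⟨b, hb⟩ := (hMk_eq_zero_iff_succ (lcCochains 𝒰 M) n _).1 hy
    change lcSub 𝒰 M n at b
    have hb' : inflFun M U z.1 = inhomogeneousCochains.d M n (b : (Fin n → G) → M) := by
      have h1 := congrArg Subtype.val hb
      simp only [lcCochains, CochainComplex.of_d] at h1
      exact h1.symm
    obtain ⟨V, hV, hfi, hn, hVU, h', -, hh'⟩ := exists_inflLevel_eq_d 𝒰 M hU z.1 b.2 hb'
    refine ⟨V, hV, hfi, hn, hVU, ?_⟩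
    rw [HinflLevel_hMk]
    refine (hMk_eq_zero_iff_succ
      (groupCohomology.inhomogeneousCochains (M.quotientToInvariants V)) n _).2 ⟨h', ?_⟩
    simp only [CochainComplex.of_d]
    exact hh'.symm

/-- two finite-level classes have the same image in `Hlc 𝒰 M n` iff they agree at some deeper
normal finite-index level -/
theorem Hinfl_eq_Hinfl_iff (hU : U ∈ 𝒰.sets) (hV : V ∈ 𝒰.sets) {n : ℕ}
    (y : groupCohomology (M.quotientToInvariants U) n)
    (y' : groupCohomology (M.quotientToInvariants V) n) :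
    Hinfl 𝒰 M hU n y = Hinfl 𝒰 M hV n y' ↔
      ∃ W ∈ 𝒰.sets, W.FiniteIndex ∧ ∃ _ : W.Normal, ∃ (hWU : W ≤ U) (hWV : W ≤ V),
        HinflLevel M U W hWU n y = HinflLevel M V W hWV n y' := by
  constructor
  · intro h
    obtain ⟨W₀, hW₀, hW₀U, hW₀V, hn₀, -⟩ := 𝒰.exists_normal_le_inf hU hV
    have h0 : Hinfl 𝒰 M hW₀ n (HinflLevel M U W₀ hW₀U n y - HinflLevel M V W₀ hW₀V n y') = 0 := by
      rw [map_sub, Hinfl_HinflLevel_apply 𝒰 M hU hW₀ hW₀U, Hinfl_HinflLevel_apply 𝒰 M hV hW₀ hW₀V,
        h, sub_self]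
    obtain ⟨W, hW, hfi, hn, hWW₀, hz⟩ := exists_HinflLevel_eq_zero 𝒰 M hW₀ _ h0
    refine ⟨W, hW, hfi, hn, hWW₀.trans hW₀U, hWW₀.trans hW₀V, ?_⟩
    rw [map_sub, HinflLevel_trans_apply, HinflLevel_trans_apply, sub_eq_zero] at hz
    exact hz
  · rintro ⟨W, hW, -, hn, hWU, hWV, h⟩
    rw [← Hinfl_HinflLevel_apply 𝒰 M hU hW hWU, ← Hinfl_HinflLevel_apply 𝒰 M hV hW hWV, h]

end Colim

section CompatLevel
variable (M : Rep.{u} k G) (U V : Subgroup G) [U.Normal] [V.Normal]

/-- the projection `G ⧸ V → G ⧸ U` for `V ≤ U` -/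
def levelProj (hVU : V ≤ U) : G ⧸ V →* G ⧸ U :=
  QuotientGroup.map V U (MonoidHom.id G) (by simpa using hVU)

@[simp]
theorem levelProj_mk (hVU : V ≤ U) (g : G) : levelProj U V hVU (g : G ⧸ V) = (g : G ⧸ U) := rfl

/-- the inclusion `M^U → M^V` for `V ≤ U`, as a morphism of representations of `G ⧸ V` -/
def levelHom (hVU : V ≤ U) :
    Rep.res (levelProj U V hVU) (M.quotientToInvariants U) ⟶ M.quotientToInvariants V :=
  Rep.ofHom ⟨(Submodule.inclusion (fun x hx s => hx ⟨s.1, hVU s.2⟩) :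
      Representation.invariants (M.ρ.comp U.subtype) →ₗ[k]
        Representation.invariants (M.ρ.comp V.subtype)), fun g =>
    QuotientGroup.induction_on g fun g => by
      ext x
      rfl⟩

theorem inflLevelChain_eq_cochainsMap (hVU : V ≤ U) :
    inflLevelChain M U V hVU =
      groupCohomology.cochainsMap (levelProj U V hVU) (levelHom M U V hVU) := by
  ext n f : 3
  funext c
  apply Subtype.ext
  have h : (fun i => levelProj U V hVU (c i)) = fun i => (((c i).out : G) : G ⧸ U) := by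
    funext i
    conv_lhs => rw [← QuotientGroup.out_eq' (c i)]
    rfl
  show (f fun i => (((c i).out : G) : G ⧸ U)).1 = (f fun i => levelProj U V hVU (c i)).1
  rw [h]

theorem HinflLevel_eq_map (hVU : V ≤ U) (n : ℕ) :
    HinflLevel M U V hVU n =
      groupCohomology.map (levelProj U V hVU) (levelHom M U V hVU) n := by
  rw [HinflLevel, inflLevelChain_eq_cochainsMap]

end CompatLevel

section Compat
variable (𝒰 : LevelSystem G) (M : Rep.{u} k G) [IsDiscrete 𝒰 M]
  {U V : Subgroup G} [U.Normal] [V.Normal]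

theorem inflChain_comp_lcCochainsι (hU : U ∈ 𝒰.sets) :
    inflChain 𝒰 M hU ≫ lcCochainsι 𝒰 M =
      groupCohomology.cochainsMap (QuotientGroup.mk' U)
        (Rep.ofHom <| M.ρ.quotientToInvariants_lift U) := by
  ext n f : 3
  rfl

theorem Hinfl_comp_HlcToH (hU : U ∈ 𝒰.sets) (n : ℕ) :
    Hinfl 𝒰 M hU n ≫ HlcToH 𝒰 M n =
      groupCohomology.map (QuotientGroup.mk' U)
        (Rep.ofHom <| M.ρ.quotientToInvariants_lift U) n := by
  have := HomologicalComplex.homologyMap_comp (inflChain 𝒰 M hU) (lcCochainsι 𝒰 M) n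
  rw [inflChain_comp_lcCochainsι] at this
  exact this.symm

end Compat

end Fermat.Agent.GC.Prof
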