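/-
GATE-C / C1 (PROFCOH) leaf (L18) COEFF-CHANGE, helper5.

Change of the coefficient RING for level-constant cohomology.  `A : Rep k G`, `M : Rep k' G` over
two (possibly different) commutative rings, `f : A →+ M` an ADDITIVE `G`-equivariant map
(`f (g • a) = g • f a`).  Typical use: `k = ℤ` (the number-theoretic side: `μ_p`, units, ...),
`k' = ZMod p` (the duality side: `Rep (ZMod p) G`), `f` an additive equivariant isomorphism.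
* `lcAddMap 𝒰 f n : lcSub 𝒰 A n →+ lcSub 𝒰 M n`, `x ↦ f ∘ x`, commuting with `lcD`;
* `HlcAdd 𝒰 f hf n : Hlc 𝒰 A n →+ Hlc 𝒰 M n`, `HlcAdd_mk` on representatives,
  `HlcAdd_id`, `HlcAdd_comp`;
* `HlcAddEquiv 𝒰 e he n : Hlc 𝒰 A n ≃+ Hlc 𝒰 M n` for an additive equivariant equivalence;
* `HlcAdd_smul` (semilinearity), transfer of `IsZero` / `Finite` / `Nat.card`;
* naturality with respect to `HlcMap`, `HlcPull` (restriction, Shapiro, Mackey components) and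
  the connecting homomorphisms `Hlcδ`.
-/
import Fermat.Agent.GC.Prof.Res

set_option autoImplicit false

open CategoryTheory

noncomputable section

namespace Fermat.Agent.GC.Prof

universe u

section Basic

variable {k k' k'' G : Type u} [CommRing k] [CommRing k'] [CommRing k''] [Group G]
  (𝒰 : LevelSystem G)
variable {A : Rep.{u} k G} {M : Rep.{u} k' G} {P : Rep.{u} k'' G}

/-- An additive map commutes with the signs `(-1)^m`, whatever the rings of scalars. -/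
lemma addHom_neg_one_pow_smul (f : A →+ M) (m : ℕ) (a : A) :
    f ((-1 : k) ^ m • a) = (-1 : k') ^ m • f a := by
  rcases Nat.even_or_odd m with h | h
  · rw [h.neg_one_pow, h.neg_one_pow, one_smul, one_smul]
  · rw [h.neg_one_pow, h.neg_one_pow, neg_one_smul, neg_one_smul, map_neg]

/-- An additive equivariant map commutes with the inhomogeneous differentials. -/
lemma d_comp_addHom (f : A →+ M) (hf : ∀ g a, f (A.ρ g a) = M.ρ g (f a)) (n : ℕ)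
    (x : (Fin n → G) → A) :
    inhomogeneousCochains.d M n (fun g => f (x g)) =
      fun g => f (inhomogeneousCochains.d A n x g) := by
  funext g
  simp only [inhomogeneousCochains.d_hom_apply]
  rw [map_add, hf, map_sum]
  congr 1
  refine Finset.sum_congr rfl fun j _ => ?_
  rw [addHom_neg_one_pow_smul]

/-- Post-composition with an additive map, on level-constant cochains. -/
def lcAddMap (f : A →+ M) (n : ℕ) : lcSub 𝒰 A n →+ lcSub 𝒰 M n where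
  toFun x := ⟨fun g => f ((x : (Fin n → G) → A) g), x.2.comp f⟩
  map_zero' := by
    apply Subtype.ext
    funext g
    exact map_zero f
  map_add' x y := by
    apply Subtype.ext
    funext g
    exact map_add f _ _

@[simp]
lemma lcAddMap_coe (f : A →+ M) (n : ℕ) (x : lcSub 𝒰 A n) (g : Fin n → G) :
    ((lcAddMap 𝒰 f n x : lcSub 𝒰 M n) : (Fin n → G) → M) g = f ((x : (Fin n → G) → A) g) := rfl

lemma lcAddMap_id (n : ℕ) (x : lcSub 𝒰 A n) : lcAddMap 𝒰 (AddMonoidHom.id A) n x = x := rfl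

lemma lcAddMap_comp (f : A →+ M) (f' : M →+ P) (n : ℕ) (x : lcSub 𝒰 A n) :
    lcAddMap 𝒰 (f'.comp f) n x = lcAddMap 𝒰 f' n (lcAddMap 𝒰 f n x) := rfl

variable [IsDiscrete 𝒰 A] [IsDiscrete 𝒰 M] [IsDiscrete 𝒰 P]

lemma lcD_lcAddMap (f : A →+ M) (hf : ∀ g a, f (A.ρ g a) = M.ρ g (f a)) (n : ℕ)
    (x : lcSub 𝒰 A n) :
    lcD 𝒰 M n (lcAddMap 𝒰 f n x) = lcAddMap 𝒰 f (n + 1) (lcD 𝒰 A n x) := by
  apply Subtype.ext
  exact d_comp_addHom f hf n _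

lemma lcD_lcAddMap_eq_zero (f : A →+ M) (hf : ∀ g a, f (A.ρ g a) = M.ρ g (f a)) {n : ℕ}
    (x : lcSub 𝒰 A n) (hx : lcD 𝒰 A n x = 0) : lcD 𝒰 M n (lcAddMap 𝒰 f n x) = 0 := by
  rw [lcD_lcAddMap 𝒰 f hf, hx, map_zero]

/-! ### The induced map on `Hlc` -/

/-- `HlcMk` as an additive map on cocycles. -/
def HlcMkAdd (A : Rep.{u} k G) [IsDiscrete 𝒰 A] (n : ℕ) : lcZ 𝒰 A n →+ Hlc 𝒰 A n :=
  (HlcMkₗ 𝒰 A n).toAddMonoidHom

lemma HlcMkAdd_surjective (n : ℕ) : Function.Surjective (HlcMkAdd 𝒰 A n) :=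
  HlcMkₗ_surjective 𝒰 A n

/-- the map on cocycles induced by an additive equivariant map, followed by the class map -/
def lcZAddMap (f : A →+ M) (hf : ∀ g a, f (A.ρ g a) = M.ρ g (f a)) (n : ℕ) :
    lcZ 𝒰 A n →+ Hlc 𝒰 M n where
  toFun z := HlcMk 𝒰 M (lcAddMap 𝒰 f n z.1) (lcD_lcAddMap_eq_zero 𝒰 f hf z.1 z.2)
  map_zero' := by
    have : HlcMk 𝒰 M (lcAddMap 𝒰 f n (0 : lcSub 𝒰 A n))
        (lcD_lcAddMap_eq_zero 𝒰 f hf 0 (map_zero _)) = HlcMkₗ 𝒰 M n 0 := by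
      refine (HlcMk_congr 𝒰 M (map_zero (lcAddMap 𝒰 f n)) _).trans ?_
      rfl
    exact this.trans (map_zero _)
  map_add' z z' := by
    have h1 := HlcMk_add 𝒰 M (lcAddMap 𝒰 f n z.1) (lcAddMap 𝒰 f n z'.1)
      (lcD_lcAddMap_eq_zero 𝒰 f hf z.1 z.2) (lcD_lcAddMap_eq_zero 𝒰 f hf z'.1 z'.2)
    rw [← h1]
    exact HlcMk_congr 𝒰 M (map_add (lcAddMap 𝒰 f n) z.1 z'.1) _

/-- The kernel of the class map is killed. -/
lemma lcZAddMap_eq_zero_of_HlcMk_eq_zero (f : A →+ M) (hf : ∀ g a, f (A.ρ g a) = M.ρ g (f a))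
    {n : ℕ} (z : lcZ 𝒰 A n) (hz : HlcMkAdd 𝒰 A n z = 0) : lcZAddMap 𝒰 f hf n z = 0 := by
  have hz' : HlcMk 𝒰 A z.1 z.2 = 0 := hz
  show HlcMk 𝒰 M (lcAddMap 𝒰 f n z.1) _ = 0
  cases n with
  | zero =>
    rw [HlcMk_zero_eq_zero_iff] at hz' ⊢
    rw [hz', map_zero]
  | succ n =>
    rw [HlcMk_succ_eq_zero_iff] at hz' ⊢
    obtain ⟨b, hb⟩ := hz'
    exact ⟨lcAddMap 𝒰 f n b, by rw [lcD_lcAddMap 𝒰 f hf, hb]⟩

/-- **The map on `Hlc` induced by an additive equivariant map of coefficients** (over possibly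
different rings of scalars). -/
def HlcAdd (f : A →+ M) (hf : ∀ g a, f (A.ρ g a) = M.ρ g (f a)) (n : ℕ) :
    Hlc 𝒰 A n →+ Hlc 𝒰 M n :=
  (QuotientAddGroup.lift (HlcMkAdd 𝒰 A n).ker (lcZAddMap 𝒰 f hf n) (fun z hz =>
      lcZAddMap_eq_zero_of_HlcMk_eq_zero 𝒰 f hf z hz)).comp
    (QuotientAddGroup.quotientKerEquivOfSurjective (HlcMkAdd 𝒰 A n)
      (HlcMkAdd_surjective 𝒰 n)).symm.toAddMonoidHom

/-- `HlcAdd` on the class of a level-constant cocycle. -/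
theorem HlcAdd_mk (f : A →+ M) (hf : ∀ g a, f (A.ρ g a) = M.ρ g (f a)) {n : ℕ}
    (x : lcSub 𝒰 A n) (hx : lcD 𝒰 A n x = 0) :
    HlcAdd 𝒰 f hf n (HlcMk 𝒰 A x hx) =
      HlcMk 𝒰 M (lcAddMap 𝒰 f n x) (lcD_lcAddMap_eq_zero 𝒰 f hf x hx) := by
  have h1 : (QuotientAddGroup.quotientKerEquivOfSurjective (HlcMkAdd 𝒰 A n)
      (HlcMkAdd_surjective 𝒰 n)).symm (HlcMk 𝒰 A x hx) =
      QuotientAddGroup.mk (⟨x, hx⟩ : lcZ 𝒰 A n) := by
    rw [AddEquiv.symm_apply_eq]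
    rfl
  have h2 : HlcAdd 𝒰 f hf n (HlcMk 𝒰 A x hx) =
      QuotientAddGroup.lift (HlcMkAdd 𝒰 A n).ker (lcZAddMap 𝒰 f hf n)
        (fun z hz => lcZAddMap_eq_zero_of_HlcMk_eq_zero 𝒰 f hf z hz)
        ((QuotientAddGroup.quotientKerEquivOfSurjective (HlcMkAdd 𝒰 A n)
          (HlcMkAdd_surjective 𝒰 n)).symm (HlcMk 𝒰 A x hx)) := rfl
  rw [h2, h1]
  rfl

theorem HlcAdd_id (n : ℕ) (x : Hlc 𝒰 A n) :
    HlcAdd 𝒰 (AddMonoidHom.id A) (fun _ _ => rfl) n x = x := by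
  obtain ⟨z, hz, rfl⟩ := Hlc_exists_mk 𝒰 A x
  rw [HlcAdd_mk]
  rfl

theorem HlcAdd_comp (f : A →+ M) (hf : ∀ g a, f (A.ρ g a) = M.ρ g (f a))
    (f' : M →+ P) (hf' : ∀ g a, f' (M.ρ g a) = P.ρ g (f' a)) (n : ℕ) (x : Hlc 𝒰 A n) :
    HlcAdd 𝒰 (f'.comp f) (fun g a => by
        rw [AddMonoidHom.comp_apply, AddMonoidHom.comp_apply, hf, hf']) n x =
      HlcAdd 𝒰 f' hf' n (HlcAdd 𝒰 f hf n x) := by
  obtain ⟨z, hz, rfl⟩ := Hlc_exists_mk 𝒰 A x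
  rw [HlcAdd_mk, HlcAdd_mk, HlcAdd_mk]
  rfl

/-- `HlcAdd` only depends on the underlying function. -/
theorem HlcAdd_congr {f f' : A →+ M} (hf : ∀ g a, f (A.ρ g a) = M.ρ g (f a))
    (hf' : ∀ g a, f' (A.ρ g a) = M.ρ g (f' a)) (h : f = f') (n : ℕ) (x : Hlc 𝒰 A n) :
    HlcAdd 𝒰 f hf n x = HlcAdd 𝒰 f' hf' n x := by
  subst h
  rfl

/-- Semilinearity: if `f (c • a) = c' • f a` then `HlcAdd (c • x) = c' • HlcAdd x`. -/
theorem HlcAdd_smul (f : A →+ M) (hf : ∀ g a, f (A.ρ g a) = M.ρ g (f a)) (c : k) (c' : k')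
    (hc : ∀ a, f (c • a) = c' • f a) (n : ℕ) (x : Hlc 𝒰 A n) :
    HlcAdd 𝒰 f hf n (c • x) = c' • HlcAdd 𝒰 f hf n x := by
  obtain ⟨z, hz, rfl⟩ := Hlc_exists_mk 𝒰 A x
  rw [← HlcMk_smul, HlcAdd_mk, HlcAdd_mk, ← HlcMk_smul]
  refine HlcMk_congr 𝒰 M ?_ _
  apply Subtype.ext
  funext g
  exact hc _

/-! ### Equivalences -/

/-- **An additive equivariant equivalence of coefficients induces an additive equivalence on
`Hlc`** (over possibly different rings of scalars). -/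
def HlcAddEquiv (e : A ≃+ M) (he : ∀ g a, e (A.ρ g a) = M.ρ g (e a)) (n : ℕ) :
    Hlc 𝒰 A n ≃+ Hlc 𝒰 M n where
  toFun := HlcAdd 𝒰 e.toAddMonoidHom he n
  invFun := HlcAdd 𝒰 e.symm.toAddMonoidHom (fun g m => by
    show e.symm (M.ρ g m) = A.ρ g (e.symm m)
    rw [AddEquiv.symm_apply_eq, he, AddEquiv.apply_symm_apply]) n
  left_inv x := by
    rw [← HlcAdd_comp]
    refine (HlcAdd_congr 𝒰 _ (fun _ _ => rfl) ?_ n x).trans (HlcAdd_id 𝒰 n x)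
    ext a
    exact e.symm_apply_apply a
  right_inv y := by
    rw [← HlcAdd_comp]
    refine (HlcAdd_congr 𝒰 _ (fun _ _ => rfl) ?_ n y).trans (HlcAdd_id 𝒰 n y)
    ext m
    exact e.apply_symm_apply m
  map_add' := map_add _

@[simp]
lemma HlcAddEquiv_apply (e : A ≃+ M) (he : ∀ g a, e (A.ρ g a) = M.ρ g (e a)) (n : ℕ)
    (x : Hlc 𝒰 A n) : HlcAddEquiv 𝒰 e he n x = HlcAdd 𝒰 e.toAddMonoidHom he n x := rfl

theorem HlcAddEquiv_mk (e : A ≃+ M) (he : ∀ g a, e (A.ρ g a) = M.ρ g (e a)) {n : ℕ}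
    (x : lcSub 𝒰 A n) (hx : lcD 𝒰 A n x = 0) :
    HlcAddEquiv 𝒰 e he n (HlcMk 𝒰 A x hx) =
      HlcMk 𝒰 M (lcAddMap 𝒰 e.toAddMonoidHom n x)
        (lcD_lcAddMap_eq_zero 𝒰 e.toAddMonoidHom he x hx) :=
  HlcAdd_mk 𝒰 e.toAddMonoidHom he x hx

/-- Transfer of vanishing. -/
theorem isZero_Hlc_iff_of_addEquiv (e : A ≃+ M) (he : ∀ g a, e (A.ρ g a) = M.ρ g (e a)) (n : ℕ) :
    Limits.IsZero (Hlc 𝒰 A n) ↔ Limits.IsZero (Hlc 𝒰 M n) := by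
  rw [ModuleCat.isZero_iff_subsingleton, ModuleCat.isZero_iff_subsingleton]
  exact (HlcAddEquiv 𝒰 e he n).toEquiv.subsingleton_congr

/-- Transfer of finiteness. -/
theorem finite_Hlc_iff_of_addEquiv (e : A ≃+ M) (he : ∀ g a, e (A.ρ g a) = M.ρ g (e a)) (n : ℕ) :
    Finite (Hlc 𝒰 A n) ↔ Finite (Hlc 𝒰 M n) :=
  (HlcAddEquiv 𝒰 e he n).toEquiv.finite_iff

/-- Transfer of cardinality. -/
theorem card_Hlc_eq_of_addEquiv (e : A ≃+ M) (he : ∀ g a, e (A.ρ g a) = M.ρ g (e a)) (n : ℕ) :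
    Nat.card (Hlc 𝒰 A n) = Nat.card (Hlc 𝒰 M n) :=
  Nat.card_congr (HlcAddEquiv 𝒰 e he n).toEquiv

end Basic

/-! ### Naturality -/

section Naturality

variable {k k' G : Type u} [CommRing k] [CommRing k'] [Group G] (𝒰 : LevelSystem G)

/-- **Naturality with respect to coefficient maps**: a commutative square
`f' ∘ ψ = ψ' ∘ f` of coefficient maps (`ψ`, `ψ'` linear over `k`, `k'`; `f`, `f'` additive)
gives `HlcAdd f' ∘ HlcMap ψ = HlcMap ψ' ∘ HlcAdd f`. -/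
theorem HlcAdd_HlcMap {A A' : Rep.{u} k G} {M M' : Rep.{u} k' G}
    [IsDiscrete 𝒰 A] [IsDiscrete 𝒰 A'] [IsDiscrete 𝒰 M] [IsDiscrete 𝒰 M']
    (f : A →+ M) (hf : ∀ g a, f (A.ρ g a) = M.ρ g (f a))
    (f' : A' →+ M') (hf' : ∀ g a, f' (A'.ρ g a) = M'.ρ g (f' a))
    (ψ : A ⟶ A') (ψ' : M ⟶ M') (hsq : ∀ a, f' (ψ.hom a) = ψ'.hom (f a)) (n : ℕ)
    (x : Hlc 𝒰 A n) :
    HlcAdd 𝒰 f' hf' n (HlcMap 𝒰 ψ n x) = HlcMap 𝒰 ψ' n (HlcAdd 𝒰 f hf n x) := by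
  obtain ⟨z, hz, rfl⟩ := Hlc_exists_mk 𝒰 A x
  rw [HlcMap_mk, HlcAdd_mk, HlcAdd_mk, HlcMap_mk]
  refine HlcMk_congr 𝒰 M' ?_ _
  apply Subtype.ext
  funext g
  exact hsq _

/-- **Naturality with respect to pull-backs** along a continuous homomorphism `r : D → G`
(restriction, Shapiro maps, Mackey components, ...). -/
theorem HlcAdd_HlcPull {D : Type u} [Group D] {𝒱 : LevelSystem D} {r : D →* G}
    (hr : IsContHom 𝒱 𝒰 r)
    {A : Rep.{u} k G} {B : Rep.{u} k D} {M : Rep.{u} k' G} {N : Rep.{u} k' D}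
    [IsDiscrete 𝒰 A] [IsDiscrete 𝒱 B] [IsDiscrete 𝒰 M] [IsDiscrete 𝒱 N]
    (f : A →+ M) (hf : ∀ g a, f (A.ρ g a) = M.ρ g (f a))
    (fD : B →+ N) (hfD : ∀ d b, fD (B.ρ d b) = N.ρ d (fD b))
    (φ : Rep.res r A ⟶ B) (φ' : Rep.res r M ⟶ N) (hsq : ∀ a, fD (φ.hom a) = φ'.hom (f a))
    (n : ℕ) (x : Hlc 𝒰 A n) :
    HlcAdd 𝒱 fD hfD n (HlcPull hr φ n x) = HlcPull hr φ' n (HlcAdd 𝒰 f hf n x) := by
  obtain ⟨z, hz, rfl⟩ := Hlc_exists_mk 𝒰 A x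
  rw [HlcPull_mk, HlcAdd_mk, HlcAdd_mk, HlcPull_mk]
  refine HlcMk_congr 𝒱 N ?_ _
  apply Subtype.ext
  funext g
  exact hsq _

/-- **Naturality with respect to restriction.** -/
theorem HlcAdd_HlcRes {D : Type u} [Group D] {𝒱 : LevelSystem D} {r : D →* G}
    (hr : IsContHom 𝒱 𝒰 r) {A : Rep.{u} k G} {M : Rep.{u} k' G}
    [IsDiscrete 𝒰 A] [IsDiscrete 𝒱 (Rep.res r A)] [IsDiscrete 𝒰 M] [IsDiscrete 𝒱 (Rep.res r M)]
    (f : A →+ M) (hf : ∀ g a, f (A.ρ g a) = M.ρ g (f a)) (n : ℕ) (x : Hlc 𝒰 A n) :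
    HlcAdd 𝒱 (A := Rep.res r A) (M := Rep.res r M) f (fun d a => hf (r d) a) n
        (HlcRes hr A n x) =
      HlcRes hr M n (HlcAdd 𝒰 f hf n x) :=
  HlcAdd_HlcPull 𝒰 hr f hf (A := A) (B := Rep.res r A) (M := M) (N := Rep.res r M) f
    (fun d a => hf (r d) a) (𝟙 _) (𝟙 _) (fun _ => rfl) n x

section Delta

variable {X : ShortComplex (Rep.{u} k G)} {Y : ShortComplex (Rep.{u} k' G)}
  (hX : X.ShortExact) (hY : Y.ShortExact)
  [IsDiscrete 𝒰 X.X₁] [IsDiscrete 𝒰 X.X₂] [IsDiscrete 𝒰 X.X₃]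
  [IsDiscrete 𝒰 Y.X₁] [IsDiscrete 𝒰 Y.X₂] [IsDiscrete 𝒰 Y.X₃]

omit [IsDiscrete 𝒰 X.X₁] in
include hX in
/-- Representatives for the connecting homomorphism: a cocycle `z` with values in `X₃` has a
level-constant lift `y` to `X₂`, and `d y = f ∘ x` for a level-constant cochain `x`. -/
lemma exists_Hlcδ_rep {i : ℕ} (z : lcSub 𝒰 X.X₃ i) (hz : lcD 𝒰 X.X₃ i z = 0) :
    ∃ (y : lcSub 𝒰 X.X₂ i) (x : lcSub 𝒰 X.X₁ (i + 1)),
      lcMapLin 𝒰 X.g i y = z ∧ lcMapLin 𝒰 X.f (i + 1) x = lcD 𝒰 X.X₂ i y := by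
  have hinj : Function.Injective X.f.hom := (Rep.mono_iff_injective X.f).1 hX.mono_f
  have hsurj : Function.Surjective X.g.hom := (Rep.epi_iff_surjective X.g).1 hX.epi_g
  have hex : ∀ y : X.X₂, X.g.hom y = 0 → ∃ x : X.X₁, X.f.hom x = y := by
    intro y hy
    have := (hX.exact.map (forget₂ (Rep k G) (ModuleCat k))).moduleCat_range_eq_ker
    have hy' : y ∈ LinearMap.ker (ModuleCat.Hom.hom
        (X.map (forget₂ (Rep.{u} k G) (ModuleCat k))).g) := hy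
    rw [← this] at hy'
    exact hy'
  obtain ⟨y', hlc, hy'⟩ := IsLC.exists_lift (X.g.hom : X.X₂ → X.X₃) hsurj z.2
  let y : lcSub 𝒰 X.X₂ i := ⟨y', hlc⟩
  have hyz : lcMapLin 𝒰 X.g i y = z := by
    apply Subtype.ext
    funext g
    exact hy' g
  have hdy : ∀ g, X.g.hom ((lcD 𝒰 X.X₂ i y : lcSub 𝒰 X.X₂ (i + 1)).1 g) = 0 := by
    intro g
    have h1 := congr($(lcMapLin_comm 𝒰 X.g i) y)
    simp only [LinearMap.comp_apply] at h1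
    rw [hyz, hz] at h1
    have := congrFun (congrArg Subtype.val h1) g
    exact this.symm
  choose x' hx' using fun g => hex _ (hdy g)
  have hlcx : IsLC 𝒰 x' := by
    obtain ⟨U, hU, h⟩ := (lcD 𝒰 X.X₂ i y).2
    refine ⟨U, hU, fun g s hs => hinj ?_⟩
    rw [hx', hx', h g s hs]
  refine ⟨y, ⟨x', hlcx⟩, hyz, ?_⟩
  apply Subtype.ext
  funext g
  exact hx' g

/-- **Naturality with respect to the connecting homomorphisms**: additive equivariant maps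
`f₁ f₂ f₃` between two short exact sequences of discrete representations (over `k` and `k'`),
commuting with the maps of the sequences, commute with `Hlcδ`. -/
theorem HlcAdd_Hlcδ
    (f₁ : X.X₁ →+ Y.X₁) (hf₁ : ∀ g a, f₁ (X.X₁.ρ g a) = Y.X₁.ρ g (f₁ a))
    (f₂ : X.X₂ →+ Y.X₂)
    (f₃ : X.X₃ →+ Y.X₃) (hf₃ : ∀ g a, f₃ (X.X₃.ρ g a) = Y.X₃.ρ g (f₃ a))
    (hf₂ : ∀ g a, f₂ (X.X₂.ρ g a) = Y.X₂.ρ g (f₂ a))
    (h₁₂ : ∀ a, f₂ (X.f.hom a) = Y.f.hom (f₁ a)) (h₂₃ : ∀ a, f₃ (X.g.hom a) = Y.g.hom (f₂ a))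
    (i : ℕ) (z : Hlc 𝒰 X.X₃ i) :
    HlcAdd 𝒰 f₁ hf₁ (i + 1) (Hlcδ 𝒰 hX i (i + 1) rfl z) =
      Hlcδ 𝒰 hY i (i + 1) rfl (HlcAdd 𝒰 f₃ hf₃ i z) := by
  obtain ⟨z, hz, rfl⟩ := Hlc_exists_mk 𝒰 X.X₃ z
  obtain ⟨y, x, hyz, hxy⟩ := exists_Hlcδ_rep 𝒰 hX z hz
  rw [Hlcδ_mk 𝒰 hX z hz y hyz x hxy, HlcAdd_mk, HlcAdd_mk]
  refine (Hlcδ_mk 𝒰 hY _ _ (lcAddMap 𝒰 f₂ i y) ?_ (lcAddMap 𝒰 f₁ (i + 1) x) ?_).symm
  · apply Subtype.ext
    funext g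
    show Y.g.hom (f₂ (y.1 g)) = f₃ (z.1 g)
    rw [← h₂₃, ← hyz]
    rfl
  · rw [lcD_lcAddMap 𝒰 f₂ hf₂, ← hxy]
    apply Subtype.ext
    funext g
    show Y.f.hom (f₁ (x.1 g)) = f₂ (X.f.hom (x.1 g))
    rw [h₁₂]

end Delta

end Naturality

end Fermat.Agent.GC.Prof
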