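/-
GATE-C / C1 (PROFCOH) leaf (L18) COEFF-CHANGE, part 2 (helper5): the change of coefficient ring
`HlcAdd` (`CoeffChange.lean`) is compatible with the cup product `HlcCup`, with the Shapiro map
and its inverse, and with the corestriction `HlcCor`; for `k' = ZMod p`, finite-dimensionality and
`finrank` of `Hlc` in terms of finiteness and cardinality.
-/
import Fermat.Agent.GC.Prof.CoeffChange
import Fermat.Agent.GC.Prof.CupShapiro

set_option autoImplicit false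

open CategoryTheory

noncomputable section

namespace Fermat.Agent.GC.Prof

open Cup (Equivariant)
open Fermat.Agent.GC.Tate

universe u

/-! ### Cup products -/

section Cup

variable {k k' G : Type u} [CommRing k] [CommRing k'] [Group G] (𝒰 : LevelSystem G)
  {A₁ A₂ A₃ : Rep.{u} k G} {M₁ M₂ M₃ : Rep.{u} k' G}
  [IsDiscrete 𝒰 A₁] [IsDiscrete 𝒰 A₂] [IsDiscrete 𝒰 A₃]
  [IsDiscrete 𝒰 M₁] [IsDiscrete 𝒰 M₂] [IsDiscrete 𝒰 M₃]
  {B : A₁ →ₗ[k] A₂ →ₗ[k] A₃} {B' : M₁ →ₗ[k'] M₂ →ₗ[k'] M₃}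

omit [IsDiscrete 𝒰 A₁] [IsDiscrete 𝒰 A₃] [IsDiscrete 𝒰 M₁] [IsDiscrete 𝒰 M₃] in
/-- cochain level: additive equivariant maps compatible with two pairings commute with the cup
product -/
lemma lcAddMap_lcCup (f₁ : A₁ →+ M₁) (f₂ : A₂ →+ M₂) (f₃ : A₃ →+ M₃)
    (hf₂ : ∀ g a, f₂ (A₂.ρ g a) = M₂.ρ g (f₂ a))
    (hc : ∀ a b, f₃ (B a b) = B' (f₁ a) (f₂ b)) {i j n : ℕ} (h : i + j = n)
    (a : lcSub 𝒰 A₁ i) (b : lcSub 𝒰 A₂ j) :
    lcAddMap 𝒰 f₃ n (lcCup 𝒰 B h a b) =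
      lcCup 𝒰 B' h (lcAddMap 𝒰 f₁ i a) (lcAddMap 𝒰 f₂ j b) := by
  apply Subtype.ext
  funext g
  simp only [lcAddMap_coe, lcCup_coe, CupN.cupC, CupN.cupF, hc, hf₂]

/-- **`HlcAdd` is compatible with cup products.** -/
theorem HlcAdd_HlcCup (hB : Equivariant A₁.ρ A₂.ρ A₃.ρ B) (hB' : Equivariant M₁.ρ M₂.ρ M₃.ρ B')
    (f₁ : A₁ →+ M₁) (hf₁ : ∀ g a, f₁ (A₁.ρ g a) = M₁.ρ g (f₁ a))
    (f₂ : A₂ →+ M₂) (hf₂ : ∀ g a, f₂ (A₂.ρ g a) = M₂.ρ g (f₂ a))
    (f₃ : A₃ →+ M₃) (hf₃ : ∀ g a, f₃ (A₃.ρ g a) = M₃.ρ g (f₃ a))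
    (hc : ∀ a b, f₃ (B a b) = B' (f₁ a) (f₂ b)) {i j n : ℕ} (h : i + j = n)
    (x : Hlc 𝒰 A₁ i) (y : Hlc 𝒰 A₂ j) :
    HlcAdd 𝒰 f₃ hf₃ n (HlcCup 𝒰 B hB h x y) =
      HlcCup 𝒰 B' hB' h (HlcAdd 𝒰 f₁ hf₁ i x) (HlcAdd 𝒰 f₂ hf₂ j y) := by
  obtain ⟨a, ha, rfl⟩ := Hlc_exists_mk 𝒰 A₁ x
  obtain ⟨b, hb, rfl⟩ := Hlc_exists_mk 𝒰 A₂ y
  rw [HlcCup_mk, HlcAdd_mk, HlcAdd_mk, HlcAdd_mk, HlcCup_mk]
  exact HlcMk_congr 𝒰 M₃ (lcAddMap_lcCup 𝒰 f₁ f₂ f₃ hf₂ hc h a b) _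

end Cup

/-! ### Coinduction, Shapiro, corestriction -/

section Coind

variable {k k' G : Type u} [CommRing k] [CommRing k'] [Group G] (S : Subgroup G)

/-- Pointwise composition with an additive `S`-equivariant map, on coinduced modules. -/
def coindAddMap {A : Rep.{u} k S} {M : Rep.{u} k' S} (f : A →+ M)
    (hf : ∀ s a, f (A.ρ s a) = M.ρ s (f a)) :
    Rep.coind S.subtype A →+ Rep.coind S.subtype M where
  toFun F := ⟨fun g => f (F.1 g), fun s g => by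
    show f (F.1 ((s : G) * g)) = M.ρ s (f (F.1 g))
    rw [← hf]
    exact congrArg f (F.2 s g)⟩
  map_zero' := by
    apply Subtype.ext
    funext g
    exact map_zero f
  map_add' F F' := by
    apply Subtype.ext
    funext g
    exact map_add f _ _

lemma coindAddMap_apply {A : Rep.{u} k S} {M : Rep.{u} k' S} (f : A →+ M)
    (hf : ∀ s a, f (A.ρ s a) = M.ρ s (f a)) (F : Rep.coind S.subtype A) (g : G) :
    (coindAddMap S f hf F).1 g = f (F.1 g) := rfl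

lemma coindAddMap_equivariant {A : Rep.{u} k S} {M : Rep.{u} k' S} (f : A →+ M)
    (hf : ∀ s a, f (A.ρ s a) = M.ρ s (f a)) (x : G) (F : Rep.coind S.subtype A) :
    coindAddMap S f hf ((Rep.coind S.subtype A).ρ x F) =
      (Rep.coind S.subtype M).ρ x (coindAddMap S f hf F) := rfl

variable {𝒰 : LevelSystem G}

/-- **`HlcAdd` is compatible with the Shapiro maps.** -/
theorem HlcAdd_HlcShapiro {A : Rep.{u} k S} {M : Rep.{u} k' S}
    [IsDiscrete (𝒰.comap S.subtype) A] [IsDiscrete 𝒰 (Rep.coind S.subtype A)]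
    [IsDiscrete (𝒰.comap S.subtype) M] [IsDiscrete 𝒰 (Rep.coind S.subtype M)]
    (f : A →+ M) (hf : ∀ s a, f (A.ρ s a) = M.ρ s (f a)) (n : ℕ)
    (X : Hlc 𝒰 (Rep.coind S.subtype A) n) :
    HlcAdd (𝒰.comap S.subtype) f hf n (HlcShapiro 𝒰 S A n X) =
      HlcShapiro 𝒰 S M n
        (HlcAdd 𝒰 (coindAddMap S f hf) (coindAddMap_equivariant S f hf) n X) :=
  HlcAdd_HlcPull 𝒰 (isContHom_comap S.subtype 𝒰) (coindAddMap S f hf)
    (coindAddMap_equivariant S f hf) f hf (coindEv S A) (coindEv S M) (fun _ => rfl) n X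

variable [S.FiniteIndex]

attribute [local instance] Subgroup.fintypeQuotientOfFiniteIndex

/-- The trace commutes with additive equivariant maps. -/
lemma coindTrace_coindAddMap {A : Rep.{u} k G} {M : Rep.{u} k' G} (f : A →+ M)
    (hf : ∀ g a, f (A.ρ g a) = M.ρ g (f a)) (F : Rep.coind S.subtype (Rep.res S.subtype A)) :
    f ((coindTrace S A).hom F) =
      (coindTrace S M).hom (coindAddMap S (A := Rep.res S.subtype A) (M := Rep.res S.subtype M) f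
        (fun s a => hf (s : G) a) F) := by
  rw [coindTrace_hom_apply, coindTrace_hom_apply, map_sum]
  refine Finset.sum_congr rfl fun q _ => ?_
  exact hf _ _

/-- **`HlcAdd` is compatible with corestriction.** -/
theorem HlcAdd_HlcCor {A : Rep.{u} k G} {M : Rep.{u} k' G}
    [IsDiscrete 𝒰 A] [IsDiscrete (𝒰.comap S.subtype) (Rep.res S.subtype A)]
    [IsDiscrete 𝒰 (Rep.coind S.subtype (Rep.res S.subtype A))]
    [IsDiscrete 𝒰 M] [IsDiscrete (𝒰.comap S.subtype) (Rep.res S.subtype M)]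
    [IsDiscrete 𝒰 (Rep.coind S.subtype (Rep.res S.subtype M))]
    (hS : IsOpenSub 𝒰 S) (f : A →+ M) (hf : ∀ g a, f (A.ρ g a) = M.ρ g (f a)) (n : ℕ)
    (z : Hlc (𝒰.comap S.subtype) (Rep.res S.subtype A) n) :
    HlcAdd 𝒰 f hf n (HlcCor A hS n z) =
      HlcCor M hS n (HlcAdd (𝒰.comap S.subtype) (A := Rep.res S.subtype A)
        (M := Rep.res S.subtype M) f (fun s a => hf (s : G) a) n z) := by
  obtain ⟨Z, rfl⟩ := (HlcShapiro_bijective hS n (Rep.res S.subtype A)).2 z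
  rw [HlcCor_HlcShapiro, HlcAdd_HlcShapiro S (A := Rep.res S.subtype A)
    (M := Rep.res S.subtype M) f (fun s a => hf (s : G) a) n Z, HlcCor_HlcShapiro]
  exact HlcAdd_HlcMap 𝒰 (coindAddMap S (A := Rep.res S.subtype A) (M := Rep.res S.subtype M) f
      (fun s a => hf (s : G) a)) (coindAddMap_equivariant S _ _) f hf
    (coindTrace S A) (coindTrace S M) (fun F => coindTrace_coindAddMap S f hf F) n Z

end Coind

/-! ### Coefficients in `ZMod p` -/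

section ZModP

variable {G : Type} [Group G] (𝒰 : LevelSystem G) (p : ℕ) [Fact p.Prime]
  (M : Rep.{0} (ZMod p) G) [IsDiscrete 𝒰 M]

/-- Over `ZMod p`, `Hlc` is finite-dimensional iff it is finite. -/
theorem finiteDimensional_Hlc_iff_finite (n : ℕ) :
    FiniteDimensional (ZMod p) (Hlc 𝒰 M n) ↔ Finite (Hlc 𝒰 M n) :=
  Module.finite_iff_finite

/-- Over `ZMod p`, the cardinality of a finite `Hlc` is `p ^ finrank`. -/
theorem card_Hlc_eq_pow_finrank (n : ℕ) [Finite (Hlc 𝒰 M n)] :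
    Nat.card (Hlc 𝒰 M n) = p ^ Module.finrank (ZMod p) (Hlc 𝒰 M n) := by
  have : Module.Finite (ZMod p) (Hlc 𝒰 M n) := Module.finite_iff_finite.2 inferInstance
  rw [Module.natCard_eq_pow_finrank (K := ZMod p), Nat.card_zmod]

/-- Transfer of finite-dimensionality from `ℤ`-coefficients to `ZMod p`-coefficients. -/
theorem finiteDimensional_Hlc_of_addEquiv {A : Rep.{0} ℤ G} [IsDiscrete 𝒰 A]
    (e : A ≃+ M) (he : ∀ g a, e (A.ρ g a) = M.ρ g (e a)) (n : ℕ) [Finite (Hlc 𝒰 A n)] :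
    FiniteDimensional (ZMod p) (Hlc 𝒰 M n) := by
  rw [finiteDimensional_Hlc_iff_finite]
  exact (finite_Hlc_iff_of_addEquiv 𝒰 e he n).1 inferInstance

/-- `p ^ finrank (Hlc over ZMod p) = card (Hlc over ℤ)`. -/
theorem pow_finrank_Hlc_eq_card_of_addEquiv {A : Rep.{0} ℤ G} [IsDiscrete 𝒰 A]
    (e : A ≃+ M) (he : ∀ g a, e (A.ρ g a) = M.ρ g (e a)) (n : ℕ) [Finite (Hlc 𝒰 A n)] :
    p ^ Module.finrank (ZMod p) (Hlc 𝒰 M n) = Nat.card (Hlc 𝒰 A n) := by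
  have : Finite (Hlc 𝒰 M n) := (finite_Hlc_iff_of_addEquiv 𝒰 e he n).1 inferInstance
  rw [← card_Hlc_eq_pow_finrank, card_Hlc_eq_of_addEquiv 𝒰 e he n]

end ZModP

end Fermat.Agent.GC.Prof
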