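/-
GATE-C / HLC-ISO (helper69), abstract part: `Hlc` along a bicontinuous group isomorphism.

For `e : G ≃* H` continuous in both directions for level systems `𝒰` on `G`, `𝒱` on `H`, and a
`𝒱`-discrete representation `A` of `H`, restriction `HlcRes : Hlc 𝒱 A n ⟶ Hlc 𝒰 (Rep.res e A) n`
is an isomorphism, natural in `A` and compatible with the connecting homomorphisms.
Mathlib + helper78's `Basic` + helper5's `Res` only.
-/
import Fermat.Agent.GC.Prof.Res

set_option autoImplicit false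

open CategoryTheory

noncomputable section

namespace Fermat.Agent.GC.Prof

universe u

variable {k G H : Type u} [CommRing k] [Group G] [Group H]
  {𝒰 : LevelSystem G} {𝒱 : LevelSystem H}

section

variable (e : G ≃* H) (A : Rep.{u} k H)

/-- The identity of the underlying module, as a morphism
`Res_{e⁻¹} (Res_e A) ⟶ A`. -/
def resSymmResHom : Rep.res e.symm.toMonoidHom (Rep.res e.toMonoidHom A) ⟶ A :=
  Rep.ofHom ⟨LinearMap.id, fun h => by
    ext a
    show A.ρ (e (e.symm h)) a = A.ρ h a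
    rw [e.apply_symm_apply]⟩

@[simp]
lemma resSymmResHom_apply (a : A) : (resSymmResHom e A).hom a = a := rfl

variable (he : IsContHom 𝒰 𝒱 e.toMonoidHom) (he' : IsContHom 𝒱 𝒰 e.symm.toMonoidHom)
  [IsDiscrete 𝒱 A] [IsDiscrete 𝒰 (Rep.res e.toMonoidHom A)]

/-- The inverse of restriction along a bicontinuous group isomorphism. -/
def HlcCoresIso (n : ℕ) : Hlc 𝒰 (Rep.res e.toMonoidHom A) n ⟶ Hlc 𝒱 A n :=
  HlcPull he' (resSymmResHom e A) n

lemma HlcRes_comp_HlcCoresIso (n : ℕ) :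
    HlcRes he A n ≫ HlcCoresIso e A he' n = 𝟙 (Hlc 𝒱 A n) := by
  unfold HlcRes HlcCoresIso
  rw [← HlcPull_comp he he' (A := A) (B := Rep.res e.toMonoidHom A) (C := A)
    (𝟙 _) (resSymmResHom e A) n, ← HlcPull_id (𝒰 := 𝒱) (A := A) n]
  refine HlcPull_congr _ _ ?_ ?_ n
  · ext h
    exact e.apply_symm_apply h
  · rfl

lemma HlcCoresIso_comp_HlcRes (n : ℕ) :
    HlcCoresIso e A he' n ≫ HlcRes he A n = 𝟙 (Hlc 𝒰 (Rep.res e.toMonoidHom A) n) := by
  unfold HlcRes HlcCoresIso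
  rw [← HlcPull_comp he' he (A := Rep.res e.toMonoidHom A) (B := A)
    (C := Rep.res e.toMonoidHom A) (resSymmResHom e A) (𝟙 _) n,
    ← HlcPull_id (𝒰 := 𝒰) (A := Rep.res e.toMonoidHom A) n]
  refine HlcPull_congr _ _ ?_ ?_ n
  · ext g
    exact e.symm_apply_apply g
  · rfl

/-- **`Hlc` along a bicontinuous group isomorphism.** -/
def HlcMulEquivIso (n : ℕ) : Hlc 𝒱 A n ≅ Hlc 𝒰 (Rep.res e.toMonoidHom A) n where
  hom := HlcRes he A n
  inv := HlcCoresIso e A he' n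
  hom_inv_id := HlcRes_comp_HlcCoresIso e A he he' n
  inv_hom_id := HlcCoresIso_comp_HlcRes e A he he' n

@[simp] lemma HlcMulEquivIso_hom (n : ℕ) :
    (HlcMulEquivIso e A he he' n).hom = HlcRes he A n := rfl

/-- The linear equivalence underlying `HlcMulEquivIso`. -/
def HlcMulEquivEquiv (n : ℕ) : Hlc 𝒱 A n ≃ₗ[k] Hlc 𝒰 (Rep.res e.toMonoidHom A) n :=
  (HlcMulEquivIso e A he he' n).toLinearEquiv

@[simp] lemma HlcMulEquivEquiv_apply (n : ℕ) (x : Hlc 𝒱 A n) :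
    HlcMulEquivEquiv e A he he' n x = HlcRes he A n x := rfl

include he' in
theorem HlcRes_bijective_of_mulEquiv (n : ℕ) : Function.Bijective (HlcRes he A n) :=
  (HlcMulEquivEquiv e A he he' n).bijective

end

/-! ### Discreteness -/

/-- Restriction along a continuous isomorphism preserves discreteness (a restatement of
`IsDiscrete.res`, for convenience). -/
theorem isDiscrete_res_mulEquiv (e : G ≃* H) (he : IsContHom 𝒰 𝒱 e.toMonoidHom) (A : Rep.{u} k H)
    [IsDiscrete 𝒱 A] : IsDiscrete 𝒰 (Rep.res e.toMonoidHom A) :=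
  IsDiscrete.res he A

/-! ### Naturality -/

section Natural

variable (e : G ≃* H) (he : IsContHom 𝒰 𝒱 e.toMonoidHom) (he' : IsContHom 𝒱 𝒰 e.symm.toMonoidHom)

/-- `HlcMulEquivIso` is natural in the coefficients. -/
theorem HlcMap_comp_HlcMulEquivIso {A B : Rep.{u} k H} [IsDiscrete 𝒱 A] [IsDiscrete 𝒱 B]
    [IsDiscrete 𝒰 (Rep.res e.toMonoidHom A)] [IsDiscrete 𝒰 (Rep.res e.toMonoidHom B)]
    (φ : A ⟶ B) (n : ℕ) :
    HlcMap 𝒱 φ n ≫ (HlcMulEquivIso e B he he' n).hom =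
      (HlcMulEquivIso e A he he' n).hom ≫
        HlcMap 𝒰 ((Rep.resFunctor e.toMonoidHom).map φ) n :=
  HlcMap_comp_HlcRes he φ n

/-- `HlcMulEquivIso` commutes with the connecting homomorphisms. -/
theorem Hlcδ_comp_HlcMulEquivIso {X : ShortComplex (Rep.{u} k H)}
    [IsDiscrete 𝒱 X.X₁] [IsDiscrete 𝒱 X.X₂] [IsDiscrete 𝒱 X.X₃]
    [h₁ : IsDiscrete 𝒰 (Rep.res e.toMonoidHom X.X₁)]
    [h₂ : IsDiscrete 𝒰 (Rep.res e.toMonoidHom X.X₂)]
    [h₃ : IsDiscrete 𝒰 (Rep.res e.toMonoidHom X.X₃)]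
    (hX : X.ShortExact) (i j : ℕ) (hij : i + 1 = j) :
    Hlcδ 𝒱 hX i j hij ≫ (HlcMulEquivIso e X.X₁ he he' j).hom =
      (HlcMulEquivIso e X.X₃ he he' i).hom ≫
        @Hlcδ k G _ _ 𝒰 (X.map (Rep.resFunctor e.toMonoidHom)) h₁ h₂ h₃
          (hX.map_of_exact (Rep.resFunctor e.toMonoidHom)) i j hij :=
  Hlcδ_comp_HlcRes he hX i j hij

end Natural

/-! ### Transport of size statements -/

section Size

variable (e : G ≃* H) (he : IsContHom 𝒰 𝒱 e.toMonoidHom) (he' : IsContHom 𝒱 𝒰 e.symm.toMonoidHom)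
  (A : Rep.{u} k H) [IsDiscrete 𝒱 A] [IsDiscrete 𝒰 (Rep.res e.toMonoidHom A)]

include he he' in
theorem finrank_Hlc_res_mulEquiv (n : ℕ) :
    Module.finrank k (Hlc 𝒰 (Rep.res e.toMonoidHom A) n) = Module.finrank k (Hlc 𝒱 A n) :=
  (HlcMulEquivEquiv e A he he' n).finrank_eq.symm

include he he' in
theorem card_Hlc_res_mulEquiv (n : ℕ) :
    Nat.card (Hlc 𝒰 (Rep.res e.toMonoidHom A) n) = Nat.card (Hlc 𝒱 A n) :=
  (Nat.card_congr (HlcMulEquivEquiv e A he he' n).toEquiv).symm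

include he he' in
theorem finite_Hlc_res_mulEquiv (n : ℕ) [Module.Finite k (Hlc 𝒱 A n)] :
    Module.Finite k (Hlc 𝒰 (Rep.res e.toMonoidHom A) n) :=
  Module.Finite.equiv (HlcMulEquivEquiv e A he he' n)

include he he' in
theorem subsingleton_Hlc_res_mulEquiv (n : ℕ) [Subsingleton (Hlc 𝒱 A n)] :
    Subsingleton (Hlc 𝒰 (Rep.res e.toMonoidHom A) n) :=
  (HlcMulEquivEquiv e A he he' n).symm.toEquiv.subsingleton

end Size

end Fermat.Agent.GC.Prof
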