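/-
GATE-C / LEVEL-BRIDGE (helper69), abstract part: change of the level system on a fixed group.

If `𝒰` is *finer* than `𝒰'` (`IsContHom 𝒰 𝒰' (MonoidHom.id G)`: every member of `𝒰'` contains a
member of `𝒰`), every `𝒰'`-discrete representation is `𝒰`-discrete and there is a canonical map
`HlcChange : Hlc 𝒰' M n ⟶ Hlc 𝒰 M n` (`HlcPull` along the identity).  If the two systems are
mutually finer ("cofinal") this is an isomorphism `HlcLevelIso`, natural with respect to `HlcMap`,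
`HlcPull` / `HlcRes` along continuous homomorphisms, and the connecting homomorphisms.
Mathlib + helper78's `Basic` + helper5's `Res` only.
-/
import Fermat.Agent.GC.Prof.Res

set_option autoImplicit false

open CategoryTheory

noncomputable section

namespace Fermat.Agent.GC.Prof

universe u

variable {k G H : Type u} [CommRing k] [Group G] [Group H]

section Finer

variable {𝒰 𝒰' 𝒰'' : LevelSystem G}

/-- A `𝒰'`-discrete representation is discrete for every finer level system. -/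
theorem IsDiscrete.of_finer (h : IsContHom 𝒰 𝒰' (MonoidHom.id G)) (M : Rep.{u} k G)
    [IsDiscrete 𝒰' M] : IsDiscrete 𝒰 M where
  exists_fix m := by
    obtain ⟨V, hV, hfix⟩ := IsDiscrete.exists_fix (𝒰 := 𝒰') (M := M) m
    obtain ⟨U, hU, hUV⟩ := h V hV
    exact ⟨U, hU, fun s hs => hfix s (hUV hs)⟩

theorem isDiscrete_iff_of_cofinal (h : IsContHom 𝒰 𝒰' (MonoidHom.id G))
    (h' : IsContHom 𝒰' 𝒰 (MonoidHom.id G)) (M : Rep.{u} k G) :
    IsDiscrete 𝒰 M ↔ IsDiscrete 𝒰' M :=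
  ⟨fun _ => IsDiscrete.of_finer h' M, fun _ => IsDiscrete.of_finer h M⟩

/-- An open subgroup for `𝒰'` is open for every finer level system. -/
theorem IsLC.of_finer (h : IsContHom 𝒰 𝒰' (MonoidHom.id G)) {n : ℕ} {X : Type*}
    {f : (Fin n → G) → X} (hf : IsLC 𝒰' f) : IsLC 𝒰 f := by
  obtain ⟨V, hV, hfV⟩ := hf
  obtain ⟨U, hU, hUV⟩ := h V hV
  exact ⟨U, hU, fun g s hs => hfV g s fun i => hUV (hs i)⟩

variable (M : Rep.{u} k G) [IsDiscrete 𝒰 M] [IsDiscrete 𝒰' M] [IsDiscrete 𝒰'' M]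

/-- Change of level system on cochains: the inclusion of the `𝒰'`-level-constant cochains into the
`𝒰`-level-constant ones, for `𝒰` finer than `𝒰'`. -/
def lcChange (h : IsContHom 𝒰 𝒰' (MonoidHom.id G)) : lcCochains 𝒰' M ⟶ lcCochains 𝒰 M :=
  lcPull h (A := M) (B := M) (𝟙 M)

/-- Change of level system on `Hlc`, for `𝒰` finer than `𝒰'`. -/
def HlcChange (h : IsContHom 𝒰 𝒰' (MonoidHom.id G)) (n : ℕ) : Hlc 𝒰' M n ⟶ Hlc 𝒰 M n :=
  HlcPull h (A := M) (B := M) (𝟙 M) n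

lemma HlcChange_mk (h : IsContHom 𝒰 𝒰' (MonoidHom.id G)) {n : ℕ} (x : lcSub 𝒰' M n)
    (hx : lcD 𝒰' M n x = 0) :
    HlcChange M h n (HlcMk 𝒰' M x hx) =
      HlcMk 𝒰 M (lcPullLin h (A := M) (B := M) (𝟙 M) n x) (lcD_lcPullLin h _ x hx) :=
  HlcPull_mk h _ x hx

omit [IsDiscrete 𝒰 M] [IsDiscrete 𝒰' M] in
@[simp]
lemma lcPullLin_id_coe (h : IsContHom 𝒰 𝒰' (MonoidHom.id G)) {n : ℕ} (x : lcSub 𝒰' M n) :
    ((lcPullLin h (A := M) (B := M) (𝟙 M) n x : lcSub 𝒰 M n) : (Fin n → G) → M) = x.1 := rfl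

lemma HlcChange_self (h : IsContHom 𝒰 𝒰 (MonoidHom.id G)) (n : ℕ) :
    HlcChange M h n = 𝟙 (Hlc 𝒰 M n) :=
  HlcPull_id n

lemma HlcChange_comp (h : IsContHom 𝒰 𝒰' (MonoidHom.id G))
    (h' : IsContHom 𝒰' 𝒰'' (MonoidHom.id G)) (n : ℕ) :
    HlcChange M h' n ≫ HlcChange M h n =
      HlcChange M (h'.comp h : IsContHom 𝒰 𝒰'' (MonoidHom.id G)) n := by
  unfold HlcChange
  rw [← HlcPull_comp h' h (A := M) (B := M) (C := M) (𝟙 M) (𝟙 M) n]
  exact HlcPull_congr _ _ rfl rfl n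

/-- For mutually finer level systems, `Hlc` does not change. -/
def HlcLevelIso (h : IsContHom 𝒰 𝒰' (MonoidHom.id G)) (h' : IsContHom 𝒰' 𝒰 (MonoidHom.id G))
    (n : ℕ) : Hlc 𝒰' M n ≅ Hlc 𝒰 M n where
  hom := HlcChange M h n
  inv := HlcChange M h' n
  hom_inv_id := by rw [HlcChange_comp, HlcChange_self]
  inv_hom_id := by rw [HlcChange_comp, HlcChange_self]

@[simp] lemma HlcLevelIso_hom (h : IsContHom 𝒰 𝒰' (MonoidHom.id G))
    (h' : IsContHom 𝒰' 𝒰 (MonoidHom.id G)) (n : ℕ) :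
    (HlcLevelIso M h h' n).hom = HlcChange M h n := rfl

@[simp] lemma HlcLevelIso_inv (h : IsContHom 𝒰 𝒰' (MonoidHom.id G))
    (h' : IsContHom 𝒰' 𝒰 (MonoidHom.id G)) (n : ℕ) :
    (HlcLevelIso M h h' n).inv = HlcChange M h' n := rfl

/-- The linear equivalence underlying `HlcLevelIso`. -/
def HlcLevelEquiv (h : IsContHom 𝒰 𝒰' (MonoidHom.id G)) (h' : IsContHom 𝒰' 𝒰 (MonoidHom.id G))
    (n : ℕ) : Hlc 𝒰' M n ≃ₗ[k] Hlc 𝒰 M n :=
  (HlcLevelIso M h h' n).toLinearEquiv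

@[simp] lemma HlcLevelEquiv_apply (h : IsContHom 𝒰 𝒰' (MonoidHom.id G))
    (h' : IsContHom 𝒰' 𝒰 (MonoidHom.id G)) (n : ℕ) (x : Hlc 𝒰' M n) :
    HlcLevelEquiv M h h' n x = HlcChange M h n x := rfl

@[simp] lemma HlcLevelEquiv_symm_apply (h : IsContHom 𝒰 𝒰' (MonoidHom.id G))
    (h' : IsContHom 𝒰' 𝒰 (MonoidHom.id G)) (n : ℕ) (x : Hlc 𝒰 M n) :
    (HlcLevelEquiv M h h' n).symm x = HlcChange M h' n x := rfl

theorem HlcChange_bijective (h : IsContHom 𝒰 𝒰' (MonoidHom.id G))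
    (h' : IsContHom 𝒰' 𝒰 (MonoidHom.id G)) (n : ℕ) :
    Function.Bijective (HlcChange M h n) :=
  (HlcLevelEquiv M h h' n).bijective

end Finer

/-! ### Naturality -/

section Natural

variable {𝒰 𝒰' : LevelSystem G}

/-- `HlcChange` is natural in the coefficients. -/
theorem HlcMap_comp_HlcChange (h : IsContHom 𝒰 𝒰' (MonoidHom.id G)) {M N : Rep.{u} k G}
    [IsDiscrete 𝒰 M] [IsDiscrete 𝒰' M] [IsDiscrete 𝒰 N] [IsDiscrete 𝒰' N] (φ : M ⟶ N) (n : ℕ) :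
    HlcMap 𝒰' φ n ≫ HlcChange N h n = HlcChange M h n ≫ HlcMap 𝒰 φ n := by
  unfold HlcChange
  rw [HlcMap_comp_HlcPull, HlcPull_comp_HlcMap]
  exact HlcPull_congr _ _ rfl rfl n

variable {𝒱 𝒱' : LevelSystem H}

/-- `HlcChange` is compatible with `HlcPull` along a homomorphism which is continuous for both
pairs of level systems. -/
theorem HlcChange_comp_HlcPull {f : G →* H} (hf : IsContHom 𝒰 𝒱 f) (hf' : IsContHom 𝒰' 𝒱' f)
    (hG : IsContHom 𝒰 𝒰' (MonoidHom.id G)) (hH : IsContHom 𝒱 𝒱' (MonoidHom.id H))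
    {A : Rep.{u} k H} {B : Rep.{u} k G}
    [IsDiscrete 𝒱 A] [IsDiscrete 𝒱' A] [IsDiscrete 𝒰 B] [IsDiscrete 𝒰' B]
    (φ : Rep.res f A ⟶ B) (n : ℕ) :
    HlcChange A hH n ≫ HlcPull hf φ n = HlcPull hf' φ n ≫ HlcChange B hG n := by
  unfold HlcChange
  rw [← HlcPull_comp hH hf (A := A) (B := A) (C := B) (𝟙 A) φ n,
    ← HlcPull_comp hf' hG (A := A) (B := B) (C := B) φ (𝟙 B) n]
  refine HlcPull_congr _ _ rfl ?_ n
  rfl

/-- `HlcChange` is compatible with restriction. -/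
theorem HlcChange_comp_HlcRes {f : G →* H} (hf : IsContHom 𝒰 𝒱 f) (hf' : IsContHom 𝒰' 𝒱' f)
    (hG : IsContHom 𝒰 𝒰' (MonoidHom.id G)) (hH : IsContHom 𝒱 𝒱' (MonoidHom.id H))
    (A : Rep.{u} k H)
    [IsDiscrete 𝒱 A] [IsDiscrete 𝒱' A] [IsDiscrete 𝒰 (Rep.res f A)] [IsDiscrete 𝒰' (Rep.res f A)]
    (n : ℕ) :
    HlcChange A hH n ≫ HlcRes hf A n = HlcRes hf' A n ≫ HlcChange (Rep.res f A) hG n :=
  HlcChange_comp_HlcPull hf hf' hG hH (𝟙 (Rep.res f A)) n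

/-- The special case where only the level system of the source group changes. -/
theorem HlcPull_comp_HlcChange {𝒱 : LevelSystem H} {f : G →* H} (hf : IsContHom 𝒰 𝒱 f)
    (hf' : IsContHom 𝒰' 𝒱 f) (hG : IsContHom 𝒰 𝒰' (MonoidHom.id G))
    {A : Rep.{u} k H} {B : Rep.{u} k G} [IsDiscrete 𝒱 A] [IsDiscrete 𝒰 B] [IsDiscrete 𝒰' B]
    (φ : Rep.res f A ⟶ B) (n : ℕ) :
    HlcPull hf' φ n ≫ HlcChange B hG n = HlcPull hf φ n := by
  unfold HlcChange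
  rw [← HlcPull_comp hf' hG (A := A) (B := B) (C := B) φ (𝟙 B) n]
  refine HlcPull_congr _ _ rfl ?_ n
  rfl

/-- `HlcChange` commutes with the connecting homomorphisms. -/
theorem Hlcδ_comp_HlcChange (h : IsContHom 𝒰 𝒰' (MonoidHom.id G))
    {X : ShortComplex (Rep.{u} k G)}
    [IsDiscrete 𝒰 X.X₁] [IsDiscrete 𝒰 X.X₂] [IsDiscrete 𝒰 X.X₃]
    [IsDiscrete 𝒰' X.X₁] [IsDiscrete 𝒰' X.X₂] [IsDiscrete 𝒰' X.X₃]
    (hX : X.ShortExact) (i j : ℕ) (hij : i + 1 = j) :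
    Hlcδ 𝒰' hX i j hij ≫ HlcChange X.X₁ h j = HlcChange X.X₃ h i ≫ Hlcδ 𝒰 hX i j hij :=
  Hlcδ_comp_HlcPull h (X := X) (Y := X) hX hX (𝟙 X.X₁) (𝟙 X.X₂) (𝟙 X.X₃) rfl rfl i j hij

end Natural

end Fermat.Agent.GC.Prof
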