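/-
GATE-C / C1 (PROFCOH) leaf (L8) CONE part 5, helper10: cup products on the shifted cone.
Given cup data `c : CupData C B E`, `c' : CupData D B' E'` (helper2's `CupAbs.CupData`) and chain
maps `φ : C ⟶ D`, `ψ : B ⟶ B'`, `θ : E ⟶ E'` with `IsMap c c' φ ψ θ` (`θ (a ∪ y) = φ a ∪ ψ y`),
we get `coneCupData : CupData (cone φ) B (cone θ)`, `(a, b) ∪ y = (a ∪ y, b ∪ ψ y)`.
Also the product of a family of cup data, `piCupData`.
-/
import Fermat.Agent.GC.Prof.ConePi
import Fermat.Agent.GC.Prof.CupAbs

set_option autoImplicit false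

open CategoryTheory

noncomputable section

namespace Fermat.Agent.GC.Prof.Cone

open Fermat.Agent.GC.Prof.Elt Fermat.Agent.GC.Prof.CupAbs

universe u v

variable {k : Type u} [CommRing k]
variable {C D B B' E E' : CochainComplex (ModuleCat.{v} k) ℕ}

/-- The cup product `Dⁱ⁻¹ × B'ʲ → E'ⁿ⁻¹` on the shifted terms (`0` when `i = 0`). -/
def shCup (c' : CupData D B' E') :
    ∀ i j n : ℕ, i + j = n → (shX D i →ₗ[k] B'.X j →ₗ[k] shX E' n)
  | 0, _, _, _ => 0
  | _ + 1, _, 0, _ => 0
  | i + 1, j, n + 1, h => c'.cup i j n (by omega)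

lemma shCup_zero (c' : CupData D B' E') (j n : ℕ) (h : 0 + j = n) (b : shX D 0) (z : B'.X j) :
    shCup c' 0 j n h b z = 0 := by
  unfold shCup
  rfl

lemma shCup_succ (c' : CupData D B' E') (i j n : ℕ) (h : i + 1 + j = n + 1) (b : D.X i)
    (z : B'.X j) : shCup c' (i + 1) j (n + 1) h b z = c'.cup i j n (by omega) b z := rfl

/-- Leibniz rule for the shifted cup (everything typed in `shX E' (n + 1)`). -/
lemma shD_shCup (c' : CupData D B' E') (i j n : ℕ) (h : i + j = n) (b : shX D i) (z : B'.X j) :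
    shD E' n (shCup c' i j n h b z) =
      shCup c' (i + 1) j (n + 1) (by omega) (shD D i b) z +
        (-1 : k) ^ i • shCup c' i (j + 1) (n + 1) (by omega) b (B'.d j (j + 1) z) := by
  cases i with
  | zero =>
    rw [shCup_zero, shCup_zero, smul_zero, add_zero, map_zero]
    show (0 : E'.X n) = c'.cup 0 j n (by omega) (shDX D 0 b) z
    rw [shDX_zero, map_zero, LinearMap.zero_apply]
  | succ i' =>
    cases n with
    | zero => omega
    | succ n' =>
      change D.X i' at b
      show shDX E' (n' + 1) (c'.cup i' j n' (by omega) b z) =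
        c'.cup (i' + 1) j (n' + 1) (by omega) (shDX D (i' + 1) b) z +
          (-1 : k) ^ (i' + 1) • c'.cup i' (j + 1) (n' + 1) (by omega) b (B'.d j (j + 1) z)
      rw [shDX_succ, shDX_succ]
      have hl : E'.d n' (n' + 1) (c'.cup i' j n' (by omega) b z) =
          c'.cup (i' + 1) j (n' + 1) (by omega) (D.d i' (i' + 1) b) z +
            (-1 : k) ^ i' • c'.cup i' (j + 1) (n' + 1) (by omega) b (B'.d j (j + 1) z) :=
        c'.leibniz i' j n' (by omega) b z
      rw [hl, map_neg, LinearMap.neg_apply, pow_succ, mul_neg_one, neg_smul, neg_add]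

/-- The cup product on the cone, as a bilinear map on pairs. -/
def coneCupLin (c : CupData C B E) (c' : CupData D B' E') (ψ : B ⟶ B') (i j n : ℕ)
    (h : i + j = n) : (C.X i × shX D i) →ₗ[k] B.X j →ₗ[k] (E.X n × shX E' n) :=
  LinearMap.mk₂ k (fun (x : C.X i × shX D i) (y : B.X j) =>
      ((c.cup i j n h x.1 y, shCup c' i j n h x.2 (ψ.f j y)) : E.X n × shX E' n))
    (fun x x' y => by simp)
    (fun r x y => by simp)
    (fun x y y' => by simp)
    (fun r x y => by simp)

@[simp]
lemma coneCupLin_apply (c : CupData C B E) (c' : CupData D B' E') (ψ : B ⟶ B') (i j n : ℕ)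
    (h : i + j = n) (a : C.X i) (b : shX D i) (y : B.X j) :
    coneCupLin c c' ψ i j n h (a, b) y = (c.cup i j n h a y, shCup c' i j n h b (ψ.f j y)) := rfl

variable {φ : C ⟶ D} {ψ : B ⟶ B'} {θ : E ⟶ E'}

/-- Leibniz rule for `coneCupLin`. -/
lemma coneDLin_coneCupLin (c : CupData C B E) (c' : CupData D B' E')
    (hm : CupData.IsMap c c' φ ψ θ) (i j n : ℕ) (h : i + j = n) (x : C.X i × shX D i)
    (y : B.X j) :
    coneDLin θ n (coneCupLin c c' ψ i j n h x y) =
      coneCupLin c c' ψ (i + 1) j (n + 1) (by omega) (coneDLin φ i x) y +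
        (-1 : k) ^ i • coneCupLin c c' ψ i (j + 1) (n + 1) (by omega) x (B.d j (j + 1) y) := by
  obtain ⟨a, b⟩ := x
  rw [coneCupLin_apply, coneDLin_apply, coneDLin_apply, coneCupLin_apply, coneCupLin_apply,
    Prod.smul_mk, Prod.mk_add_mk, Prod.mk.injEq]
  constructor
  · exact c.leibniz i j n h a y
  · rw [shD_shCup, map_add, LinearMap.add_apply]
    have e1 : φsh θ n (c.cup i j n h a y) =
        shCup c' (i + 1) j (n + 1) (by omega) (φsh φ i a) (ψ.f j y) := hm i j n h a y
    have e2 : B'.d j (j + 1) (ψ.f j y) = ψ.f (j + 1) (B.d j (j + 1) y) :=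
      congr($(ψ.comm j (j + 1)) y)
    rw [e1, e2]
    exact (add_assoc _ _ _).symm

/-- The cup product on the cone: `(a, b) ∪ y = (a ∪ y, b ∪ ψ y)`. -/
def coneCupData (c : CupData C B E) (c' : CupData D B' E') (hm : CupData.IsMap c c' φ ψ θ) :
    CupData (cone φ) B (cone θ) where
  cup i j n h := ((coneCupLin c c' ψ i j n h).compr₂ (coneXEquiv θ n).symm.toLinearMap) ∘ₗ
    (coneXEquiv φ i).toLinearMap
  leibniz i j n h x y := by
    apply (coneXEquiv θ (n + 1)).injective
    show coneXEquiv θ (n + 1) ((cone θ).d n (n + 1)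
        ((coneXEquiv θ n).symm (coneCupLin c c' ψ i j n h (coneXEquiv φ i x) y))) =
      coneXEquiv θ (n + 1) ((coneXEquiv θ (n + 1)).symm (coneCupLin c c' ψ (i + 1) j (n + 1)
        (by omega) (coneXEquiv φ (i + 1) ((cone φ).d i (i + 1) x)) y) +
          (-1 : k) ^ i • (coneXEquiv θ (n + 1)).symm (coneCupLin c c' ψ i (j + 1) (n + 1)
            (by omega) (coneXEquiv φ i x) (B.d j (j + 1) y)))
    rw [coneXEquiv_d, LinearEquiv.apply_symm_apply, map_add, map_smul,
      LinearEquiv.apply_symm_apply, LinearEquiv.apply_symm_apply, coneXEquiv_d]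
    exact coneDLin_coneCupLin c c' hm i j n h _ y

lemma coneCupData_cup (c : CupData C B E) (c' : CupData D B' E')
    (hm : CupData.IsMap c c' φ ψ θ) (i j n : ℕ) (h : i + j = n) (x : (cone φ).X i) (y : B.X j) :
    coneXEquiv θ n ((coneCupData c c' hm).cup i j n h x y) =
      coneCupLin c c' ψ i j n h (coneXEquiv φ i x) y := rfl

/-- `(a, b) ∪ y = (a ∪ y, b ∪ ψ y)` in degree `i + 1`. -/
lemma coneCupData_cup_succ (c : CupData C B E) (c' : CupData D B' E')
    (hm : CupData.IsMap c c' φ ψ θ) (i j n : ℕ) (h : i + 1 + j = n + 1) (a : C.X (i + 1))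
    (b : D.X i) (y : B.X j) :
    (coneCupData c c' hm).cup (i + 1) j (n + 1) h ((coneXEquiv φ (i + 1)).symm (a, b)) y =
      (coneXEquiv θ (n + 1)).symm
        (c.cup (i + 1) j (n + 1) h a y, c'.cup i j n (by omega) b (ψ.f j y)) := rfl

/-- `(a, *) ∪ y = (a ∪ y, 0)` in degree `0`. -/
lemma coneCupData_cup_zero (c : CupData C B E) (c' : CupData D B' E')
    (hm : CupData.IsMap c c' φ ψ θ) (j n : ℕ) (h : 0 + j = n) (a : C.X 0) (b : shX D 0)
    (y : B.X j) :
    (coneCupData c c' hm).cup 0 j n h ((coneXEquiv φ 0).symm (a, b)) y =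
      (coneXEquiv θ n).symm (c.cup 0 j n h a y, 0) := by
  apply (coneXEquiv θ n).injective
  rw [coneCupData_cup, LinearEquiv.apply_symm_apply, LinearEquiv.apply_symm_apply,
    coneCupLin_apply, shCup_zero]

/-- The projection `π` is compatible with the cups: `π (x ∪ y) = π x ∪ y`. -/
lemma isMap_coneCupData_π (c : CupData C B E) (c' : CupData D B' E')
    (hm : CupData.IsMap c c' φ ψ θ) :
    CupData.IsMap (coneCupData c c' hm) c (π φ) (𝟙 B) (π θ) := by
  intro i j n h x y
  rfl

/-! ### Products of cup data -/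

section PiCup

variable {ι : Type v} {Dw Bw Ew : ι → CochainComplex (ModuleCat.{v} k) ℕ}

/-- The componentwise cup product on product complexes. -/
def piCupData (c : ∀ w, CupData (Dw w) (Bw w) (Ew w)) :
    CupData (piComplex Dw) (piComplex Bw) (piComplex Ew) where
  cup i j n h := LinearMap.mk₂ k
    (fun (x : (piComplex Dw).X i) (y : (piComplex Bw).X j) =>
      (piXEquiv Ew n).symm fun w => (c w).cup i j n h (piXEquiv Dw i x w) (piXEquiv Bw j y w))
    (fun x x' y => by
      apply (piXEquiv Ew n).injective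
      funext w
      simp)
    (fun r x y => by
      apply (piXEquiv Ew n).injective
      funext w
      simp)
    (fun x y y' => by
      apply (piXEquiv Ew n).injective
      funext w
      simp)
    (fun r x y => by
      apply (piXEquiv Ew n).injective
      funext w
      simp)
  leibniz i j n h x y := by
    apply (piXEquiv Ew (n + 1)).injective
    funext w
    have hl := (c w).leibniz i j n h (piXEquiv Dw i x w) (piXEquiv Bw j y w)
    have e1 := piXEquiv_d Ew n ((piXEquiv Ew n).symm fun w =>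
      (c w).cup i j n h (piXEquiv Dw i x w) (piXEquiv Bw j y w)) w
    rw [LinearEquiv.apply_symm_apply] at e1
    refine e1.trans (hl.trans ?_)
    rw [map_add, map_smul]
    show _ = (c w).cup (i + 1) j (n + 1) (by omega) (piXEquiv Dw (i + 1)
        ((piComplex Dw).d i (i + 1) x) w) (piXEquiv Bw j y w) +
      (-1 : k) ^ i • (c w).cup i (j + 1) (n + 1) (by omega) (piXEquiv Dw i x w)
        (piXEquiv Bw (j + 1) ((piComplex Bw).d j (j + 1) y) w)
    rw [piXEquiv_d, piXEquiv_d]

lemma piCupData_cup (c : ∀ w, CupData (Dw w) (Bw w) (Ew w)) (i j n : ℕ) (h : i + j = n)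
    (x : (piComplex Dw).X i) (y : (piComplex Bw).X j) (w : ι) :
    piXEquiv Ew n ((piCupData c).cup i j n h x y) w =
      (c w).cup i j n h (piXEquiv Dw i x w) (piXEquiv Bw j y w) := rfl

/-- A family of maps of cup data induces a map into the product cup data. -/
lemma isMap_piCupData {C B E : CochainComplex (ModuleCat.{v} k) ℕ} (c : CupData C B E)
    (c' : ∀ w, CupData (Dw w) (Bw w) (Ew w)) (φ : ∀ w, C ⟶ Dw w) (ψ : ∀ w, B ⟶ Bw w)
    (θ : ∀ w, E ⟶ Ew w) (hm : ∀ w, CupData.IsMap c (c' w) (φ w) (ψ w) (θ w)) :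
    CupData.IsMap c (piCupData c') (piLift φ) (piLift ψ) (piLift θ) := by
  intro i j n h a b
  apply (piXEquiv Ew n).injective
  funext w
  exact hm w i j n h a b

end PiCup

end Fermat.Agent.GC.Prof.Cone
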