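/-
GATE-C / C1 (PROFCOH) leaf (L8) CONE part 6, helper10: the cup product
`coneC L M × lcCochains 𝒰 N → coneC L P` for an equivariant bilinear map `B : M × N → P`
(helper2's `lcCupData` globally and at each place, glued by `coneCupData`):
  `(a, (b_v)_v) ∪ y = (a ∪ y, (b_v ∪ res_v y)_v)`.
This is the cup data for (E5) of board 1683: `conePairing := CPairing.ofCup (coneCCupData …) tr htr`.
-/
import Fermat.Agent.GC.Prof.ConeLC
import Fermat.Agent.GC.Prof.ConeCup
import Fermat.Agent.GC.Prof.CupLC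

set_option autoImplicit false

open CategoryTheory

noncomputable section

namespace Fermat.Agent.GC.Prof.Cone

open Fermat.Agent.GC.Prof.Elt Fermat.Agent.GC.Prof.CupAbs
open Fermat.Agent.GC.Prof.Cup (Equivariant)
open Fermat.Agent.GC.Prof.CupN

universe u

/-! ### `cupF` and change of group -/

section Pull

variable {k G H M N P : Type*} [CommRing k] [Group G] [Group H]
  [AddCommGroup M] [Module k M] [AddCommGroup N] [Module k N] [AddCommGroup P] [Module k P]

lemma ext_comp (f : H →* G) {n : ℕ} (g : Fin n → H) : ext (f ∘ g) = f ∘ ext g := by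
  funext m
  by_cases h : m < n
  · simp [ext, h]
  · simp [ext, h]

lemma pr_comp (f : H →* G) (x : ℕ → H) (s : ℕ) : ∀ i : ℕ, pr (f ∘ x) s i = f (pr x s i)
  | 0 => by simp
  | i + 1 => by rw [pr_succ, pr_succ, pr_comp f x s i, map_mul]; rfl

lemma seg_comp (f : H →* G) (x : ℕ → H) (s n : ℕ) : seg (f ∘ x) s n = f ∘ seg x s n := rfl

/-- The cup product commutes with pull-back along a group homomorphism. -/
lemma cupF_comp (B : M →ₗ[k] N →ₗ[k] P) (ρN : Representation k G N) (f : H →* G) (i j : ℕ)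
    (a : (Fin i → G) → M) (b : (Fin j → G) → N) (g : Fin (i + j) → H) :
    cupF B ρN i j a b (f ∘ g) =
      cupF B (ρN.comp f) i j (fun x => a (f ∘ x)) (fun x => b (f ∘ x)) g := by
  unfold cupF
  rw [ext_comp, seg_comp, seg_comp, pr_comp]
  rfl

lemma cupC_comp (B : M →ₗ[k] N →ₗ[k] P) (ρN : Representation k G N) (f : H →* G) {i j n : ℕ}
    (h : i + j = n) (a : (Fin i → G) → M) (b : (Fin j → G) → N) (g : Fin n → H) :
    cupC B ρN h a b (f ∘ g) =
      cupC B (ρN.comp f) h (fun x => a (f ∘ x)) (fun x => b (f ∘ x)) g := by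
  subst h
  exact cupF_comp B ρN f i j a b g

end Pull

variable {k G : Type u} [CommRing k] [Group G] {𝒰 : LevelSystem G} (L : LocalData 𝒰)
variable {M N P : Rep.{u} k G} [IsDiscrete 𝒰 M] [IsDiscrete 𝒰 N] [IsDiscrete 𝒰 P]
variable (B : M →ₗ[k] N →ₗ[k] P)

/-- The same bilinear map, viewed on the restrictions to the local group at `v`. -/
def locB (v : L.ι) :
    (Rep.res (L.r v) M) →ₗ[k] (Rep.res (L.r v) N) →ₗ[k] (Rep.res (L.r v) P) := B

omit [IsDiscrete 𝒰 M] [IsDiscrete 𝒰 N] [IsDiscrete 𝒰 P] in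
lemma locB_apply (v : L.ι) (m : M) (n : N) : locB L B v m n = B m n := rfl

variable {B}

omit [IsDiscrete 𝒰 M] [IsDiscrete 𝒰 N] [IsDiscrete 𝒰 P] in
lemma equivariant_locB (hB : Equivariant M.ρ N.ρ P.ρ B) (v : L.ι) :
    Equivariant (Rep.res (L.r v) M).ρ (Rep.res (L.r v) N).ρ (Rep.res (L.r v) P).ρ (locB L B v) :=
  fun g m n => hB (L.r v g) m n

/-- Restriction to the local group at `v` is compatible with the cup products. -/
lemma isMap_resC (hB : Equivariant M.ρ N.ρ P.ρ B) (v : L.ι) :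
    CupData.IsMap (lcCupData 𝒰 B hB) (lcCupData (L.𝒰v v) (locB L B v) (equivariant_locB L hB v))
      (resC L M v) (resC L N v) (resC L P v) := by
  intro i j n h a b
  change lcSub 𝒰 M i at a
  change lcSub 𝒰 N j at b
  show lcPullLin (L.cont v) (𝟙 (Rep.res (L.r v) P)) n (lcCup 𝒰 B h a b) =
    lcCup (L.𝒰v v) (locB L B v) h (lcPullLin (L.cont v) (𝟙 (Rep.res (L.r v) M)) i a)
      (lcPullLin (L.cont v) (𝟙 (Rep.res (L.r v) N)) j b)
  apply Subtype.ext
  funext g
  exact cupC_comp B N.ρ (L.r v) h a.1 b.1 g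

/-- The local cup data, all places at once. -/
def locCupData (hB : Equivariant M.ρ N.ρ P.ρ B) :
    CupData (piComplex (locC L M)) (piComplex (locC L N)) (piComplex (locC L P)) :=
  piCupData fun v => lcCupData (L.𝒰v v) (locB L B v) (equivariant_locB L hB v)

lemma isMap_resTot (hB : Equivariant M.ρ N.ρ P.ρ B) :
    CupData.IsMap (lcCupData 𝒰 B hB) (locCupData L hB) (resTot L M) (resTot L N) (resTot L P) :=
  isMap_piCupData _ _ _ _ _ fun v => isMap_resC L hB v

/-- **The cup product on the compact-support complex**: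
`(a, (b_v)_v) ∪ y = (a ∪ y, (b_v ∪ res_v y)_v)`. -/
def coneCCupData (hB : Equivariant M.ρ N.ρ P.ρ B) :
    CupData (coneC L M) (lcCochains 𝒰 N) (coneC L P) :=
  coneCupData (lcCupData 𝒰 B hB) (locCupData L hB) (isMap_resTot L hB)

/-- Explicit formula in degree `i + 1`. -/
lemma coneCCupData_cup_succ (hB : Equivariant M.ρ N.ρ P.ρ B) (i j n : ℕ)
    (h : i + 1 + j = n + 1) (x : (coneC L M).X (i + 1)) (y : lcSub 𝒰 N j) :
    coneCXEquivSucc L P n ((coneCCupData L hB).cup (i + 1) j (n + 1) h x y) =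
      (lcCup 𝒰 B h (coneCXEquivSucc L M i x).1 y,
        fun v => lcCup (L.𝒰v v) (locB L B v) (show i + j = n by omega)
          ((coneCXEquivSucc L M i x).2 v) (lcPullLin (L.cont v) (𝟙 (Rep.res (L.r v) N)) j y)) :=
  rfl

/-- Explicit formula in degree `0`, target degree `j + 1`: `a ∪ y = (a ∪ y, 0)`. -/
lemma coneCCupData_cup_zero_succ (hB : Equivariant M.ρ N.ρ P.ρ B) (j : ℕ)
    (h : 0 + (j + 1) = j + 1) (x : (coneC L M).X 0) (y : lcSub 𝒰 N (j + 1)) :
    coneCXEquivSucc L P j ((coneCCupData L hB).cup 0 (j + 1) (j + 1) h x y) =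
      (lcCup 𝒰 B h (coneCXEquivZero L M x) y, 0) := by
  obtain ⟨⟨a, b⟩, rfl⟩ := (coneXEquiv (resTot L M) 0).symm.surjective x
  have := coneCupData_cup_zero (lcCupData 𝒰 B hB) (locCupData L hB) (isMap_resTot L hB)
    (j + 1) (j + 1) h a b y
  exact congrArg (coneXEquiv (resTot L P) (j + 1)) this

/-- `coneFst` is compatible with the cup products: `fst (x ∪ y) = fst x ∪ y`. -/
lemma isMap_coneFst (hB : Equivariant M.ρ N.ρ P.ρ B) :
    CupData.IsMap (coneCCupData L hB) (lcCupData 𝒰 B hB) (coneFst L M) (𝟙 _) (coneFst L P) :=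
  isMap_coneCupData_π _ _ _

end Fermat.Agent.GC.Prof.Cone
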