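/-
GATE-C / C4 leaf (D)-INJ (helper78): CHANGE OF LEVEL SYSTEM + SUB-COEFFICIENTS is injective on
`Hlc¹` and (under Hilbert 90 for the coarse open subgroups) on `Hlc²`.

Setting: one group `G` with a COARSE level system `𝒰` and a FINER one `𝒱`
(`hUV : IsContHom 𝒱 𝒰 (MonoidHom.id G)`: every member of `𝒰` contains a member of `𝒱`);
`A : Rep k G` discrete for `𝒱`, `B : Rep k G` discrete for `𝒰`, `j : B ⟶ A` injective whose image
is the `𝒰`-discrete part of `A` (`hdisc`).  Then
* `HlcPull hUV j 1 : Hlc 𝒰 B 1 ⟶ Hlc 𝒱 A 1` is injective (`HlcPull_one_injective_of_discPart`);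
* if every `𝒱`-level-constant `1`-cochain of `G` which is a cocycle on a normal member `U` of `𝒰`
  is a coboundary on `U` (`h90`), then `HlcPull hUV j 2 : Hlc 𝒰 B 2 ⟶ Hlc 𝒱 A 2` is injective
  (`HlcPull_two_injective_of_discPart`).
This is "inflation is injective" with NO quotient group: the finite level is replaced by the coarse
level system on the same group.  (In use: `G = Gal(Ω_q/K_w)`, `𝒰` = the pull-back of the global
level system `levelK S K`, `𝒱` = all finite extensions of `K_w`, `A = Ω_qˣ`,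
`B = ((ℚ_S)_q)ˣ`; this is the local comparison needed for the Hasse principle of `Hlc²(O_Sˣ)`.)
Same cochain argument as helper81's `Abs.exists_coboundary_of_infl_eq`.
-/
import Fermat.Agent.GC.Prof.LowMap
import Fermat.Agent.GC.Prof.LevelEquiv

set_option autoImplicit false
set_option linter.unusedSectionVars false

open CategoryTheory groupCohomology

noncomputable section

namespace Fermat.Agent.GC.Prof

universe u

variable {k G : Type u} [CommRing k] [Group G] {𝒰 𝒱 : LevelSystem G}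
variable {B A : Rep.{u} k G} (j : B ⟶ A)

/-! ### Plain-function cores -/

/-- **Degree 1 core.**  A `𝒰`-level-constant `1`-cocycle with values in `B` which becomes the
coboundary of `a : A` is the coboundary of an element of `B`: `a` is fixed by the level of `z`. -/
theorem exists_coboundary₁_of_discPart (hj : Function.Injective j.hom)
    (hdisc : ∀ a : A, (∃ U ∈ 𝒰.sets, ∀ u ∈ U, A.ρ u a = a) → ∃ b : B, j.hom b = a)
    (z : G → B) (hz : z ∈ cocycles₁ B) (hlc : IsLC₁ 𝒰 z) (a : A)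
    (ha : ∀ g, j.hom (z g) = A.ρ g a - a) : ∃ b : B, ∀ g, z g = B.ρ g b - b := by
  rw [mem_cocycles₁_iff] at hz
  obtain ⟨U, hU, hzU⟩ := hlc
  have hz1 : z 1 = 0 := by
    have h := hz 1 1
    rw [mul_one, map_one, Module.End.one_apply] at h
    exact left_eq_add.1 h
  have hfix : ∀ s ∈ U, A.ρ s a = a := by
    intro s hs
    have h1 : z s = 0 := by
      have := hzU 1 s hs
      rwa [one_mul, hz1] at this
    have h2 := ha s
    rw [h1, map_zero] at h2
    exact (sub_eq_zero.1 h2.symm)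
  obtain ⟨b, hb⟩ := hdisc a ⟨U, hU, hfix⟩
  refine ⟨b, fun g => hj ?_⟩
  rw [ha g, map_sub, Rep.hom_comm_apply, hb]

/-- **Degree 2 core.**  A `𝒰`-level-constant `2`-cocycle `z` with values in `B` whose image in `A`
is the coboundary of a `𝒱`-level-constant `1`-cochain is the coboundary of a `𝒰`-level-constant
`1`-cochain with values in `B`, provided Hilbert 90 holds for `A` on the normal members of `𝒰`. -/
theorem exists_lc_coboundary₂_of_discPart [IsDiscrete 𝒰 B] (hj : Function.Injective j.hom)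
    (hdisc : ∀ a : A, (∃ U ∈ 𝒰.sets, ∀ u ∈ U, A.ρ u a = a) → ∃ b : B, j.hom b = a)
    (h90 : ∀ U ∈ 𝒰.sets, U.Normal → ∀ x : G → A, IsLC₁ 𝒱 x →
      (∀ s ∈ U, ∀ t ∈ U, x (s * t) = A.ρ s (x t) + x s) → ∃ a : A, ∀ s ∈ U, x s = A.ρ s a - a)
    (z : G × G → B) (hz : z ∈ cocycles₂ B) (hlc : IsLC₂ 𝒰 z)
    (x : G → A) (hx : IsLC₁ 𝒱 x)
    (hxz : ∀ g h, A.ρ g (x h) - x (g * h) + x g = j.hom (z (g, h))) :
    ∃ y : G → B, IsLC₁ 𝒰 y ∧ ∀ g h, B.ρ g (y h) - y (g * h) + y g = z (g, h) := by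
  classical
  rw [mem_cocycles₂_iff] at hz
  -- normalisation of the cocycle
  obtain ⟨e, he⟩ : ∃ e : B, z (1, 1) = e := ⟨_, rfl⟩
  have hz1 : ∀ h, z (1, h) = e := by
    intro h
    have := hz 1 1 h
    rw [one_mul, one_mul, map_one, Module.End.one_apply] at this
    rw [← he]
    exact (add_left_cancel this).symm
  have hz2 : ∀ g, z (g, 1) = B.ρ g e := by
    intro g
    have := hz g 1 1
    rw [mul_one, mul_one] at this
    rw [← he]
    exact add_right_cancel this
  -- a normal level `U` of `z` fixing `e`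
  obtain ⟨U₀, hU₀, hzU₀⟩ := hlc
  obtain ⟨Ue, hUe, hefix⟩ := IsDiscrete.exists_fix (𝒰 := 𝒰) (M := B) e
  obtain ⟨U, hU, hUU₀, hUUe, hUn, -⟩ := 𝒰.exists_normal_le_inf hU₀ hUe
  have hzU : ∀ g g' s s', s ∈ U → s' ∈ U → z (g * s, g' * s') = z (g, g') :=
    fun g g' s s' hs hs' => hzU₀ g g' s s' (hUU₀ hs) (hUU₀ hs')
  have heU : ∀ s ∈ U, B.ρ s e = e := fun s hs => hefix s (hUUe hs)
  have hjeU : ∀ s ∈ U, A.ρ s (j.hom e) = j.hom e := by
    intro s hs
    rw [← Rep.hom_comm_apply, heU s hs]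
  -- `x' := x - j e` is a cocycle on `U`
  have hx' : IsLC₁ 𝒱 (fun g => x g - j.hom e) := hx.comp (fun v => v - j.hom e)
  have hcoc : ∀ s ∈ U, ∀ t ∈ U, x (s * t) - j.hom e = A.ρ s (x t - j.hom e) + (x s - j.hom e) := by
    intro s hs t ht
    have h1 := hxz s t
    have h2 : z (s, t) = e := by
      have := hzU 1 1 s t hs ht
      rw [one_mul, one_mul] at this
      rw [this, he]
    rw [h2] at h1
    rw [map_sub, hjeU s hs, ← h1]
    abel
  obtain ⟨a, ha⟩ := h90 U hU hUn _ hx' hcoc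
  -- `x'' := x - j e - d a` vanishes on `U`
  set x'' : G → A := fun g => x g - j.hom e - (A.ρ g a - a) with hx''def
  have hx''U : ∀ s ∈ U, x'' s = 0 := by
    intro s hs
    simp only [hx''def]
    rw [ha s hs, sub_self]
  have hdx'' : ∀ g h, A.ρ g (x'' h) - x'' (g * h) + x'' g = j.hom (z (g, h) - B.ρ g e) := by
    intro g h
    simp only [hx''def]
    rw [map_sub (j.hom), ← hxz g h, Rep.hom_comm_apply, map_sub, map_sub, map_sub, map_mul,
      Module.End.mul_apply]
    abel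
  -- right `U`-invariance
  have hinv : ∀ g, ∀ s ∈ U, x'' (g * s) = x'' g := by
    intro g s hs
    have h1 := hdx'' g s
    have h2 : z (g, s) = B.ρ g e := by
      have := hzU g 1 1 s U.one_mem hs
      rw [mul_one, one_mul] at this
      rw [this, hz2]
    rw [h2, sub_self, map_zero, hx''U s hs, map_zero, zero_sub] at h1
    have := neg_add_eq_zero.1 h1
    exact this
  -- values fixed by `U`
  have hval : ∀ g, ∀ s ∈ U, A.ρ s (x'' g) = x'' g := by
    intro g s hs
    have h1 := hdx'' s g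
    have h2 : z (s, g) = e := by
      have := hzU 1 g s 1 hs U.one_mem
      rw [one_mul, mul_one] at this
      rw [this, hz1]
    have h3 : x'' (s * g) = x'' g := by
      have h4 : s * g = g * (g⁻¹ * s * g) := by group
      rw [h4]
      apply hinv
      have := hUn.conj_mem s hs g⁻¹
      rwa [inv_inv] at this
    rw [h2, heU s hs, sub_self, map_zero, hx''U s hs, add_zero, h3] at h1
    exact sub_eq_zero.1 h1
  -- descend to `B`
  have hex : ∀ g, ∃ b : B, j.hom b = x'' g := fun g => hdisc _ ⟨U, hU, hval g⟩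
  choose y hy using hex
  have hyU : ∀ g, ∀ s ∈ U, y (g * s) = y g := by
    intro g s hs
    apply hj
    rw [hy, hy, hinv g s hs]
  refine ⟨fun g => y g + e, ⟨U, hU, fun g s hs => ?_⟩, fun g h => ?_⟩
  · show y (g * s) + e = y g + e
    rw [hyU g s hs]
  · show B.ρ g (y h + e) - (y (g * h) + e) + (y g + e) = z (g, h)
    have h1 := hdx'' g h
    rw [← hy, ← hy, ← hy, ← Rep.hom_comm_apply, ← map_sub, ← map_add] at h1
    have h2 := hj h1
    rw [map_add]
    have h3 : z (g, h) = (B.ρ g (y h) - y (g * h) + y g) + B.ρ g e := by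
      rw [h2]; abel
    rw [h3]
    abel

/-! ### `Hlc` forms -/

variable (hUV : IsContHom 𝒱 𝒰 (MonoidHom.id G)) [IsDiscrete 𝒰 B] [IsDiscrete 𝒱 A]

/-- **(D)-INJ, degree 1**: passing to a finer level system and to bigger coefficients whose
`𝒰`-discrete part is `B` is injective on `Hlc¹`. -/
theorem HlcPull_one_injective_of_discPart (hj : Function.Injective j.hom)
    (hdisc : ∀ a : A, (∃ U ∈ 𝒰.sets, ∀ u ∈ U, A.ρ u a = a) → ∃ b : B, j.hom b = a) :
    Function.Injective (HlcPull hUV (A := B) (B := A) j 1) := by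
  refine (injective_iff_map_eq_zero (HlcPull hUV (A := B) (B := A) j 1).hom).2 fun c hc => ?_
  obtain ⟨z, rfl⟩ := Hlc1π_surjective 𝒰 B c
  have hc' : HlcPull hUV (A := B) (B := A) j 1 (Hlc1π 𝒰 B z) = 0 := hc
  rw [HlcPull_Hlc1π, Hlc1π_eq_zero_iff] at hc'
  obtain ⟨a, ha⟩ := hc'
  rw [Hlc1π_eq_zero_iff]
  obtain ⟨b, hb⟩ := exists_coboundary₁_of_discPart (𝒰 := 𝒰) j hj hdisc z.1 z.2.1 z.2.2 a
    (fun g => by
      have := congrFun ha g
      rw [d₀₁_hom_apply] at this
      exact this.symm)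
  refine ⟨b, ?_⟩
  funext g
  rw [d₀₁_hom_apply]
  exact (hb g).symm

/-- **(D)-INJ, degree 2**: under Hilbert 90 for `A` on the normal members of the coarse level
system, passing to the finer level system and to the bigger coefficients is injective on `Hlc²`. -/
theorem HlcPull_two_injective_of_discPart (hj : Function.Injective j.hom)
    (hdisc : ∀ a : A, (∃ U ∈ 𝒰.sets, ∀ u ∈ U, A.ρ u a = a) → ∃ b : B, j.hom b = a)
    (h90 : ∀ U ∈ 𝒰.sets, U.Normal → ∀ x : G → A, IsLC₁ 𝒱 x →
      (∀ s ∈ U, ∀ t ∈ U, x (s * t) = A.ρ s (x t) + x s) → ∃ a : A, ∀ s ∈ U, x s = A.ρ s a - a) :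
    Function.Injective (HlcPull hUV (A := B) (B := A) j 2) := by
  refine (injective_iff_map_eq_zero (HlcPull hUV (A := B) (B := A) j 2).hom).2 fun c hc => ?_
  obtain ⟨z, rfl⟩ := Hlc2π_surjective 𝒰 B c
  have hc' : HlcPull hUV (A := B) (B := A) j 2 (Hlc2π 𝒰 B z) = 0 := hc
  rw [HlcPull_Hlc2π, Hlc2π_eq_zero_iff, mem_lcCoboundaries₂_iff] at hc'
  obtain ⟨x, hx, hxz⟩ := hc'
  rw [Hlc2π_eq_zero_iff, mem_lcCoboundaries₂_iff]
  obtain ⟨y, hy, hyz⟩ := exists_lc_coboundary₂_of_discPart (𝒰 := 𝒰) (𝒱 := 𝒱) j hj hdisc h90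
    z.1 z.2.1 z.2.2 x hx (fun g h => by
      have := congrFun hxz (g, h)
      rw [d₁₂_hom_apply] at this
      exact this)
  refine ⟨y, hy, ?_⟩
  funext ⟨g, h⟩
  rw [d₁₂_hom_apply]
  exact hyz g h

end Fermat.Agent.GC.Prof
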