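/-
GATE-C / C1 (PROFCOH), leaf (L3) FINITE LEVELS (helper20): dictionary between the finite-level
description of `FiniteLevelH.lean` and the concrete cocycle API (`HlcMk` of helper78's
`Concrete.lean`, Mathlib's `groupCohomology.π`/`cocyclesMk`).

* `hMk_lcCochains_eq_HlcMk`, `hMk_inhomogeneousCochains_eq_π` : the generic class map `Elt.hMk` is
  `HlcMk`, resp. `groupCohomology.π ∘ cocyclesMk`;
* `Hinfl_π_cocyclesMk`     : `Hinfl` of the class of a finite-level cocycle `f'` is the class
  `HlcMk` of the level-constant cocycle `inflFun f'`;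
* `HinflLevel_π_cocyclesMk`: the same for the change of level;
* `exists_HlcMk_eq_Hinfl`  : every `HlcMk f hf` is `Hinfl` of the class of a finite-level cocycle
  `f'` with `inflFun f' = f`, at an arbitrarily deep level;
* `π_cocyclesMk_surjective` : every class of `groupCohomology A n` is the class of a cocycle.
-/
import Fermat.Agent.GC.Prof.FiniteLevelH
import Fermat.Agent.GC.Prof.Concrete

set_option autoImplicit false

open CategoryTheory

noncomputable section

namespace Fermat.Agent.GC.Prof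

universe u

variable {k G : Type u} [CommRing k] [Group G]

section Dict

open Elt

variable (𝒰 : LevelSystem G) (M : Rep.{u} k G) [IsDiscrete 𝒰 M]

theorem mem_zSub_of_lcD_eq_zero {n : ℕ} (f : lcSub 𝒰 M n) (hf : lcD 𝒰 M n f = 0) :
    (show (lcCochains 𝒰 M).X n from f) ∈ zSub (lcCochains 𝒰 M) n :=
  (mem_zSub_lcCochains_iff 𝒰 M f).2 (congrArg Subtype.val hf)

/-- the generic class map on `lcCochains` is helper78's `HlcMk` -/
theorem hMk_lcCochains_eq_HlcMk {n : ℕ} (f : lcSub 𝒰 M n) (hf : lcD 𝒰 M n f = 0) :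
    hMk (lcCochains 𝒰 M) n ⟨f, mem_zSub_of_lcD_eq_zero 𝒰 M f hf⟩ = HlcMk 𝒰 M f hf := by
  rw [hMk_apply]
  show (lcCochains 𝒰 M).homologyπ n _ = (lcCochains 𝒰 M).homologyπ n (lcCyclesMk 𝒰 M f hf)
  congr 1
  apply iCycles_injective (lcCochains 𝒰 M) n
  rw [iCycles_zMkHom, iCycles_lcCyclesMk]

/-- the generic class map on inhomogeneous cochains is Mathlib's `π ∘ cocyclesMk` -/
theorem hMk_inhomogeneousCochains_eq_π {H : Type u} [Group H] (A : Rep.{u} k H) {n : ℕ}
    (f : (Fin n → H) → A) (hf : inhomogeneousCochains.d A n f = 0) :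
    hMk (groupCohomology.inhomogeneousCochains A) n
        ⟨f, (mem_zSub_inhomogeneousCochains_iff A f).2 hf⟩ =
      groupCohomology.π A n (groupCohomology.cocyclesMk f hf) := by
  rw [hMk_apply]
  show (groupCohomology.inhomogeneousCochains A).homologyπ n _ =
    (groupCohomology.inhomogeneousCochains A).homologyπ n (groupCohomology.cocyclesMk f hf)
  congr 1
  apply iCycles_injective (groupCohomology.inhomogeneousCochains A) n
  rw [iCycles_zMkHom]
  exact (groupCohomology.iCocycles_mk f hf).symm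

/-- every class of `groupCohomology A n` is the class of a cocycle (all `n`) -/
theorem π_cocyclesMk_surjective {H : Type u} [Group H] (A : Rep.{u} k H) {n : ℕ}
    (x : groupCohomology A n) :
    ∃ (f : (Fin n → H) → A) (hf : inhomogeneousCochains.d A n f = 0),
      groupCohomology.π A n (groupCohomology.cocyclesMk f hf) = x := by
  obtain ⟨z, rfl⟩ := hMk_surjective (groupCohomology.inhomogeneousCochains A) n x
  refine ⟨z.1, (mem_zSub_inhomogeneousCochains_iff A z.1).1 z.2, ?_⟩
  rw [← hMk_inhomogeneousCochains_eq_π]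

/-- in degree `n + 1` the class of a cocycle vanishes iff the cocycle is a coboundary (all `n`) -/
theorem π_cocyclesMk_eq_zero_iff {H : Type u} [Group H] (A : Rep.{u} k H) {n : ℕ}
    (f : (Fin (n + 1) → H) → A) (hf : inhomogeneousCochains.d A (n + 1) f = 0) :
    groupCohomology.π A (n + 1) (groupCohomology.cocyclesMk f hf) = 0 ↔
      ∃ b : (Fin n → H) → A, inhomogeneousCochains.d A n b = f := by
  rw [← hMk_inhomogeneousCochains_eq_π]
  refine (hMk_eq_zero_iff_succ (groupCohomology.inhomogeneousCochains A) n _).trans ?_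
  simp only [CochainComplex.of_d]

variable {U V : Subgroup G} [U.Normal] [V.Normal]

omit 𝒰 [IsDiscrete 𝒰 M] in
theorem d_inflFun_eq_zero {n : ℕ}
    (f' : (Fin n → G ⧸ U) → M.quotientToInvariants U)
    (hf' : inhomogeneousCochains.d (M.quotientToInvariants U) n f' = 0) :
    inhomogeneousCochains.d M n (inflFun M U f') = 0 := by
  rw [d_inflFun, hf']
  rfl

theorem lcD_inflLin_eq_zero (hU : U ∈ 𝒰.sets) {n : ℕ}
    (f' : (Fin n → G ⧸ U) → M.quotientToInvariants U)
    (hf' : inhomogeneousCochains.d (M.quotientToInvariants U) n f' = 0) :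
    lcD 𝒰 M n (inflLin 𝒰 M hU n f') = 0 :=
  Subtype.ext (d_inflFun_eq_zero M f' hf')

/-- `Hinfl` on the class of a finite-level cocycle -/
theorem Hinfl_π_cocyclesMk (hU : U ∈ 𝒰.sets) {n : ℕ}
    (f' : (Fin n → G ⧸ U) → M.quotientToInvariants U)
    (hf' : inhomogeneousCochains.d (M.quotientToInvariants U) n f' = 0) :
    Hinfl 𝒰 M hU n (groupCohomology.π _ n (groupCohomology.cocyclesMk f' hf')) =
      HlcMk 𝒰 M (inflLin 𝒰 M hU n f') (lcD_inflLin_eq_zero 𝒰 M hU f' hf') := by
  rw [← hMk_inhomogeneousCochains_eq_π, Hinfl_hMk, ← hMk_lcCochains_eq_HlcMk]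
  rfl

omit [IsDiscrete 𝒰 M] in
theorem d_inflLevel_eq_zero (hVU : V ≤ U) {n : ℕ}
    (f' : (Fin n → G ⧸ U) → M.quotientToInvariants U)
    (hf' : inhomogeneousCochains.d (M.quotientToInvariants U) n f' = 0) :
    inhomogeneousCochains.d (M.quotientToInvariants V) n (inflLevel M U V hVU f') = 0 := by
  rw [d_inflLevel, hf']
  exact map_zero (inflLevelLin M U V hVU (n + 1))

omit [IsDiscrete 𝒰 M] in
/-- change of level on the class of a finite-level cocycle -/
theorem HinflLevel_π_cocyclesMk (hVU : V ≤ U) {n : ℕ}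
    (f' : (Fin n → G ⧸ U) → M.quotientToInvariants U)
    (hf' : inhomogeneousCochains.d (M.quotientToInvariants U) n f' = 0) :
    HinflLevel M U V hVU n (groupCohomology.π _ n (groupCohomology.cocyclesMk f' hf')) =
      groupCohomology.π _ n
        (groupCohomology.cocyclesMk (inflLevel M U V hVU f') (d_inflLevel_eq_zero M hVU f' hf')) := by
  rw [← hMk_inhomogeneousCochains_eq_π, HinflLevel_hMk, ← hMk_inhomogeneousCochains_eq_π]
  rfl

/-- every class `HlcMk f hf` is inflated from the class of a finite-level cocycle `f'` with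
`inflFun f' = f`, at an arbitrarily deep normal finite-index level -/
theorem exists_HlcMk_eq_Hinfl {n : ℕ} (f : lcSub 𝒰 M n) (hf : lcD 𝒰 M n f = 0) {U₀ : Subgroup G}
    (hU₀ : U₀ ∈ 𝒰.sets) :
    ∃ V, ∃ hV : V ∈ 𝒰.sets, V ≤ U₀ ∧ V.FiniteIndex ∧ ∃ _ : V.Normal,
      ∃ (f' : (Fin n → G ⧸ V) → M.quotientToInvariants V)
        (hf' : inhomogeneousCochains.d (M.quotientToInvariants V) n f' = 0),
        inflFun M V f' = (f : (Fin n → G) → M) ∧
        HlcMk 𝒰 M f hf =
          Hinfl 𝒰 M hV n (groupCohomology.π _ n (groupCohomology.cocyclesMk f' hf')) := by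
  obtain ⟨V, hV, hVU₀, hfi, hn, f', hf', hff'⟩ :=
    exists_cocycle_eq_inflFun 𝒰 M f.2 (congrArg Subtype.val hf) hU₀
  refine ⟨V, hV, hVU₀, hfi, hn, f', hf', hff', ?_⟩
  rw [Hinfl_π_cocyclesMk]
  exact HlcMk_congr 𝒰 M (Subtype.ext hff'.symm) hf

end Dict

end Fermat.Agent.GC.Prof
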