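/-
GATE-C / C1 (PROFCOH), leaf COR-FIN part 1 (helper20): GENERALISED INFLATION.

`π : G →* Q` a homomorphism whose kernel contains a member of the level system `𝒰` of `G`
(`IsOpenKer 𝒰 π`: `π` is continuous for the discrete topology on `Q`), `Ā : Rep k Q`,
`A : Rep k G` discrete, `β : Res_π Ā ⟶ A`.  Then `f ↦ (g ↦ β (f (π ∘ g)))` maps ALL inhomogeneous
cochains of `Q` to level-constant cochains of `G`:
* `inflGenChain π hπ β : inhomogeneousCochains Ā ⟶ lcCochains 𝒰 A`,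
* `HinflGen π hπ β n : groupCohomology Ā n ⟶ Hlc 𝒰 A n`,
with functoriality for `HlcPull` (after), `groupCohomology.map` (before), the coefficients, and
`HinflGen ≫ HlcToH = groupCohomology.map π β`.
(Special cases: `Hinfl` of `FiniteLevelH.lean` for `π = mk' U`, `β` = inclusion of `A^U`;
helper81's `Abs.inflBr K N Ω` for `π = resN`, `β = unitsIncl`.)
-/
import Fermat.Agent.GC.Prof.Res

set_option autoImplicit false
set_option linter.unusedSectionVars false

open CategoryTheory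

noncomputable section

namespace Fermat.Agent.GC.Prof

universe u

section openKer

variable {G Q : Type u} [Group G] [Group Q]

/-- the kernel of `π` contains a member of the level system (`π` is locally constant) -/
def IsOpenKer (𝒰 : LevelSystem G) (π : G →* Q) : Prop := ∃ U ∈ 𝒰.sets, U ≤ π.ker

variable {𝒰 : LevelSystem G} {π : G →* Q}

lemma IsOpenKer.isLC (hπ : IsOpenKer 𝒰 π) {n : ℕ} {X : Type*} (f : (Fin n → Q) → X) :
    IsLC 𝒰 (fun g : Fin n → G => f (π ∘ g)) := by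
  obtain ⟨U, hU, hUk⟩ := hπ
  refine ⟨U, hU, fun g s hs => ?_⟩
  show f (π ∘ (g * s)) = f (π ∘ g)
  congr 1
  funext i
  show π (g i * s i) = π (g i)
  rw [map_mul, MonoidHom.mem_ker.1 (hUk (hs i)), mul_one]

lemma IsOpenKer.comp {D : Type u} [Group D] {𝒱 : LevelSystem D} {f : D →* G}
    (hπ : IsOpenKer 𝒰 π) (hf : IsContHom 𝒱 𝒰 f) : IsOpenKer 𝒱 (π.comp f) := by
  obtain ⟨U, hU, hUk⟩ := hπ
  obtain ⟨V, hV, hVU⟩ := hf U hU
  exact ⟨V, hV, fun d hd => MonoidHom.mem_ker.2 (MonoidHom.mem_ker.1 (hUk (hVU hd)))⟩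

lemma IsOpenKer.comp_left {Q' : Type u} [Group Q'] (hπ : IsOpenKer 𝒰 π) (ρ : Q →* Q') :
    IsOpenKer 𝒰 (ρ.comp π) := by
  obtain ⟨U, hU, hUk⟩ := hπ
  refine ⟨U, hU, fun g hg => MonoidHom.mem_ker.2 ?_⟩
  show ρ (π g) = 1
  rw [MonoidHom.mem_ker.1 (hUk hg), map_one]

lemma isOpenKer_mk' (U : Subgroup G) [U.Normal] (hU : U ∈ 𝒰.sets) :
    IsOpenKer 𝒰 (QuotientGroup.mk' U) :=
  ⟨U, hU, by rw [QuotientGroup.ker_mk']⟩

end openKer

variable {k G Q : Type u} [CommRing k] [Group G] [Group Q] {𝒰 : LevelSystem G}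

section chain

variable (π : G →* Q) (hπ : IsOpenKer 𝒰 π) {Ā : Rep.{u} k Q} {A : Rep.{u} k G}
  (β : Rep.res π Ā ⟶ A)

/-- generalised inflation on cochains: `f ↦ (g ↦ β (f (π ∘ g)))` -/
def inflGenLin (n : ℕ) : ((Fin n → Q) → Ā) →ₗ[k] lcSub 𝒰 A n :=
  ((β.hom.toLinearMap.compLeft (Fin n → G) ∘ₗ
      LinearMap.funLeft k Ā (fun x : Fin n → G => π ∘ x))).codRestrict _
    (fun f => (hπ.isLC f).comp β.hom)

@[simp]
lemma inflGenLin_coe (n : ℕ) (f : (Fin n → Q) → Ā) (g : Fin n → G) :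
    ((inflGenLin π hπ β n f : lcSub 𝒰 A n) : (Fin n → G) → A) g = β.hom (f (π ∘ g)) := rfl

variable [IsDiscrete 𝒰 A]

/-- generalised inflation as a morphism of cochain complexes -/
def inflGenChain : groupCohomology.inhomogeneousCochains Ā ⟶ lcCochains 𝒰 A :=
  CochainComplex.ofHom (fun n => ModuleCat.ofHom (inflGenLin π hπ β n)) fun n => by
    ext f : 2
    simp only [lcCochains, CochainComplex.of_d]
    apply Subtype.ext
    exact d_pull β n f

@[simp]
lemma inflGenChain_f (n : ℕ) :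
    (inflGenChain π hπ β).f n = ModuleCat.ofHom (inflGenLin π hπ β n) := rfl

/-- **generalised inflation** `Hⁿ(Q, Ā) ⟶ Hlc 𝒰 A n` -/
def HinflGen (n : ℕ) : groupCohomology Ā n ⟶ Hlc 𝒰 A n :=
  HomologicalComplex.homologyMap (inflGenChain π hπ β) n

lemma inflGenChain_comp_lcCochainsι :
    inflGenChain π hπ β ≫ lcCochainsι 𝒰 A = groupCohomology.cochainsMap π β := by
  ext n f : 3
  rfl

/-- followed by the comparison map, generalised inflation is Mathlib's `groupCohomology.map` -/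
theorem HinflGen_comp_HlcToH (n : ℕ) :
    HinflGen π hπ β n ≫ HlcToH 𝒰 A n = groupCohomology.map π β n := by
  have h := HomologicalComplex.homologyMap_comp (inflGenChain π hπ β) (lcCochainsι 𝒰 A) n
  rw [inflGenChain_comp_lcCochainsι] at h
  exact h.symm

end chain

/-! ### functoriality -/

section functoriality

variable (π : G →* Q) (hπ : IsOpenKer 𝒰 π) {Ā : Rep.{u} k Q} {A : Rep.{u} k G}
  (β : Rep.res π Ā ⟶ A) [IsDiscrete 𝒰 A]

/-- generalised inflation followed by a pull-back is a generalised inflation -/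
theorem inflGenChain_comp_lcPull {D : Type u} [Group D] {𝒱 : LevelSystem D} {f : D →* G}
    (hf : IsContHom 𝒱 𝒰 f) {B : Rep.{u} k D} [IsDiscrete 𝒱 B] (φ : Rep.res f A ⟶ B) :
    inflGenChain π hπ β ≫ lcPull hf φ =
      inflGenChain (π.comp f) (hπ.comp hf) (Ā := Ā) ((Rep.resFunctor f).map β ≫ φ) := by
  ext n x : 3
  rfl

theorem HinflGen_comp_HlcPull {D : Type u} [Group D] {𝒱 : LevelSystem D} {f : D →* G}
    (hf : IsContHom 𝒱 𝒰 f) {B : Rep.{u} k D} [IsDiscrete 𝒱 B] (φ : Rep.res f A ⟶ B) (n : ℕ) :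
    HinflGen π hπ β n ≫ HlcPull hf φ n =
      HinflGen (π.comp f) (hπ.comp hf) (Ā := Ā) ((Rep.resFunctor f).map β ≫ φ) n := by
  have h := HomologicalComplex.homologyMap_comp (inflGenChain π hπ β) (lcPull hf φ) n
  rw [inflGenChain_comp_lcPull] at h
  exact h.symm

/-- a map of abstract group cohomology followed by a generalised inflation is a generalised
inflation -/
theorem cochainsMap_comp_inflGenChain {Q' : Type u} [Group Q'] (ρ : Q →* Q')
    {Ā' : Rep.{u} k Q'} (γ : Rep.res ρ Ā' ⟶ Ā) :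
    groupCohomology.cochainsMap ρ γ ≫ inflGenChain π hπ β =
      inflGenChain (ρ.comp π) (hπ.comp_left ρ) (Ā := Ā') ((Rep.resFunctor π).map γ ≫ β) := by
  ext n x : 3
  rfl

theorem map_comp_HinflGen {Q' : Type u} [Group Q'] (ρ : Q →* Q')
    {Ā' : Rep.{u} k Q'} (γ : Rep.res ρ Ā' ⟶ Ā) (n : ℕ) :
    groupCohomology.map ρ γ n ≫ HinflGen π hπ β n =
      HinflGen (ρ.comp π) (hπ.comp_left ρ) (Ā := Ā') ((Rep.resFunctor π).map γ ≫ β) n := by
  have h := HomologicalComplex.homologyMap_comp (groupCohomology.cochainsMap ρ γ)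
    (inflGenChain π hπ β) n
  rw [cochainsMap_comp_inflGenChain] at h
  exact h.symm

/-- generalised inflation only depends on the underlying maps -/
theorem HinflGen_congr {π π' : G →* Q} (hπ : IsOpenKer 𝒰 π) (hπ' : IsOpenKer 𝒰 π')
    {Ā : Rep.{u} k Q} {A : Rep.{u} k G} [IsDiscrete 𝒰 A]
    (β : Rep.res π Ā ⟶ A) (β' : Rep.res π' Ā ⟶ A) (h : π = π')
    (hβ : ∀ x : Ā, β.hom x = β'.hom x) (n : ℕ) :
    HinflGen π hπ β n = HinflGen π' hπ' β' n := by
  subst h
  have : β = β' := by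
    ext x
    exact hβ x
  subst this
  rfl

/-- naturality in the coefficients -/
theorem HinflGen_naturality {Ā' : Rep.{u} k Q} {A' : Rep.{u} k G} [IsDiscrete 𝒰 A']
    (β' : Rep.res π Ā' ⟶ A') (ᾱ : Ā ⟶ Ā') (α : A ⟶ A')
    (hsq : ∀ x : Ā, β'.hom (ᾱ.hom x) = α.hom (β.hom x)) (n : ℕ) :
    groupCohomology.map (MonoidHom.id Q) ᾱ n ≫ HinflGen π hπ β' n =
      HinflGen π hπ β n ≫ HlcMap 𝒰 α n := by
  have h1 := map_comp_HinflGen π hπ β' (MonoidHom.id Q) (Ā' := Ā) ᾱ n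
  have h2 := HinflGen_comp_HlcPull π hπ β (IsContHom.id 𝒰) (B := A') α n
  rw [HlcPull_id_eq_HlcMap] at h2
  rw [h1, h2]
  exact HinflGen_congr _ _ _ _ rfl (fun x => hsq x) n

end functoriality

end Fermat.Agent.GC.Prof
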