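/-
GATE-C / C1 (PROFCOH) leaf (L8) CONE part 7, helper10: functoriality of `HlcC` in the coefficients
and naturality of the three maps of the long exact sequence; injectivity of
`HlcC¹(M) → HlcC¹(M₁)` for a short exact sequence `0 → M → M₁ → Q → 0` (covering trick input).
-/
import Fermat.Agent.GC.Prof.ConeLC

set_option autoImplicit false

open CategoryTheory

noncomputable section

namespace Fermat.Agent.GC.Prof.Cone

open Fermat.Agent.GC.Prof.Elt

universe u

variable {k G : Type u} [CommRing k] [Group G] {𝒰 : LevelSystem G} (L : LocalData 𝒰)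

section Functoriality

variable {M M₁ M₂ : Rep.{u} k G} [IsDiscrete 𝒰 M] [IsDiscrete 𝒰 M₁] [IsDiscrete 𝒰 M₂]

/-- The map induced on compactly supported cohomology by a morphism of coefficients. -/
def HlcCMap (φ : M ⟶ M₁) (n : ℕ) : HlcC L M n ⟶ HlcC L M₁ n :=
  HomologicalComplex.homologyMap (coneCMap L φ) n

lemma HlcCMap_eq_HcMap (φ : M ⟶ M₁) (n : ℕ) :
    HlcCMap L φ n = HcMap (lcMap 𝒰 φ) (piMap (locMap L φ)) (resTot_comp_piMap L φ) n := rfl

lemma HlcCMap_id (n : ℕ) : HlcCMap L (𝟙 M) n = 𝟙 (HlcC L M n) := by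
  unfold HlcCMap
  rw [coneCMap_id, HomologicalComplex.homologyMap_id]

lemma HlcCMap_comp (φ : M ⟶ M₁) (ψ : M₁ ⟶ M₂) (n : ℕ) :
    HlcCMap L (φ ≫ ψ) n = HlcCMap L φ n ≫ HlcCMap L ψ n := by
  unfold HlcCMap
  rw [coneCMap_comp, HomologicalComplex.homologyMap_comp]

/-- Naturality of the forgetful map. -/
theorem HlcCMap_comp_HlcCToH (φ : M ⟶ M₁) (n : ℕ) :
    HlcCMap L φ n ≫ HlcCToH L M₁ n = HlcCToH L M n ≫ HlcMap 𝒰 φ n :=
  HcMap_comp_HcToH (lcMap 𝒰 φ) (piMap (locMap L φ)) (resTot_comp_piMap L φ) n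

theorem HlcCToH_HlcCMap (φ : M ⟶ M₁) (n : ℕ) (x : HlcC L M n) :
    HlcCToH L M₁ n (HlcCMap L φ n x) = HlcMap 𝒰 φ n (HlcCToH L M n x) :=
  congr($(HlcCMap_comp_HlcCToH L φ n) x)

/-- Naturality of the localisation map. -/
theorem locRes_HlcMap (φ : M ⟶ M₁) (n : ℕ) (x : Hlc 𝒰 M n) (v : L.ι) :
    locRes L M₁ n (HlcMap 𝒰 φ n x) v =
      HlcMap (L.𝒰v v) ((Rep.resFunctor (L.r v)).map φ) n (locRes L M n x v) := by
  rw [locRes_apply, locRes_apply]
  exact congr($(HlcMap_comp_HlcRes (L.cont v) φ n) x)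

/-- Naturality of the boundary map. -/
theorem HlcCMap_HlcCBdry (φ : M ⟶ M₁) (n : ℕ)
    (b : ∀ v, Hlc (L.𝒰v v) (Rep.res (L.r v) M) n) :
    HlcCMap L φ (n + 1) (HlcCBdry L M n b) =
      HlcCBdry L M₁ n fun v => HlcMap (L.𝒰v v) ((Rep.resFunctor (L.r v)).map φ) n (b v) := by
  have h := congr($(homologyMap_comp_HToHc (lcMap 𝒰 φ) (piMap (locMap L φ))
    (resTot_comp_piMap L φ) n) ((piHomologyEquiv (locC L M) n).symm b))
  refine h.symm.trans ?_
  show HToHc (resTot L M₁) n (HomologicalComplex.homologyMap (piMap (locMap L φ)) n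
    ((piHomologyEquiv (locC L M) n).symm b)) = HToHc (resTot L M₁) n
      ((piHomologyEquiv (locC L M₁) n).symm fun v =>
        HlcMap (L.𝒰v v) ((Rep.resFunctor (L.r v)).map φ) n (b v))
  congr 1
  rw [LinearEquiv.eq_symm_apply]
  funext v
  rw [piHomologyEquiv_homologyMap_piMap, LinearEquiv.apply_symm_apply]
  rfl

end Functoriality

section Covering

variable {X : ShortComplex (Rep.{u} k G)}
  [IsDiscrete 𝒰 X.X₁] [IsDiscrete 𝒰 X.X₂] [IsDiscrete 𝒰 X.X₃]

/-- The connecting homomorphism of `HlcC` for a short exact sequence of coefficients. -/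
def HlcCδ (hX : X.ShortExact) (i j : ℕ) (hij : i + 1 = j) : HlcC L X.X₃ i ⟶ HlcC L X.X₁ j :=
  (coneCSC_shortExact L hX).δ i j hij

lemma HlcC_exact₁ (hX : X.ShortExact) (i j : ℕ) (hij : i + 1 = j) :
    Function.Exact (HlcCδ L hX i j hij).hom (HlcCMap L X.f j).hom :=
  (ShortComplex.ShortExact.moduleCat_exact_iff_function_exact _).1
    ((coneCSC_shortExact L hX).homology_exact₁ i j hij)

lemma HlcC_exact₂ (hX : X.ShortExact) (i : ℕ) :
    Function.Exact (HlcCMap L X.f i).hom (HlcCMap L X.g i).hom :=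
  (ShortComplex.ShortExact.moduleCat_exact_iff_function_exact _).1
    ((coneCSC_shortExact L hX).homology_exact₂ i)

lemma HlcC_exact₃ (hX : X.ShortExact) (i j : ℕ) (hij : i + 1 = j) :
    Function.Exact (HlcCMap L X.g i).hom (HlcCδ L hX i j hij).hom :=
  (ShortComplex.ShortExact.moduleCat_exact_iff_function_exact _).1
    ((coneCSC_shortExact L hX).homology_exact₃ i j hij)

/-- For a short exact sequence `0 → M → M₁ → Q → 0` of discrete representations and at least
one place, `HlcC¹(M) → HlcC¹(M₁)` is injective (because `HlcC⁰(Q) = 0`). -/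
theorem HlcCMap_one_injective [Nonempty L.ι] (hX : X.ShortExact) :
    Function.Injective (HlcCMap L X.f 1).hom := by
  rw [← LinearMap.ker_eq_bot, LinearMap.ker_eq_bot']
  intro x hx
  obtain ⟨y, rfl⟩ := (HlcC_exact₁ L hX 0 1 rfl x).1 hx
  have := HlcC_zero_subsingleton L X.X₃
  rw [Subsingleton.elim y 0, map_zero]

end Covering

end Fermat.Agent.GC.Prof.Cone
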