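/-
GATE-C / C1 leaf (L7) CUP, part 6 (helper2): COHOMOLOGY-level formulas for helper10's cone cup
products `Cone.coneCupData`, `Cone.piCupData`, `Cone.coneCCupData`:
* `coneCupData_forget`  : `forget (x ∪ y) = (forget x) ∪ y`;
* `coneCupData_bdry`    : `(∂ b) ∪ y = ∂ (b ∪' ψ y)`                     (cone boundary formula);
* `piCupData_cupH`      : the cup product on a product of complexes is componentwise on cohomology;
* `HlcCToH_cupH`        : `HlcCToH (x ∪ y) = HlcCup (HlcCToH x) y`       on `coneC L M`;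
* `HlcCBdry_cupH`  (E8) : `(HlcCBdry b) ∪ y = HlcCBdry (v ↦ b_v ∪ res_v y)` on `coneC L M`.
namespace Fermat.Agent.GC.Prof.ConeCupH.
-/
import Fermat.Agent.GC.Prof.ConeCupLC

set_option autoImplicit false
set_option linter.unusedSectionVars false

open CategoryTheory

noncomputable section

namespace Fermat.Agent.GC.Prof.ConeCupH

open Fermat.Agent.GC.Prof Fermat.Agent.GC.Prof.Cone Fermat.Agent.GC.Prof.CupAbs
  Fermat.Agent.GC.Prof.Elt
open Fermat.Agent.GC.Prof.Cup (Equivariant)

universe u v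

section abstract

variable {k : Type u} [CommRing k]
variable {C D B B' E E' : CochainComplex (ModuleCat.{v} k) ℕ}
  {φ : C ⟶ D} {ψ : B ⟶ B'} {θ : E ⟶ E'}
  (c : CupData C B E) (c' : CupData D B' E') (hm : CupData.IsMap c c' φ ψ θ)

/-- forgetting supports: `forget (x ∪ y) = (forget x) ∪ y` -/
theorem coneCupData_forget {i j n : ℕ} (h : i + j = n) (x : Hc φ i) (y : B.homology j) :
    HcToH θ n ((coneCupData c c' hm).cupH h x y) = c.cupH h (HcToH φ i x) y := by
  have := CupData.cupH_map (isMap_coneCupData_π c c' hm) h x y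
  rw [HomologicalComplex.homologyMap_id] at this
  exact this

/-- **cone boundary formula**: `(∂ x) ∪ y = ∂ (x ∪' ψ y)` for `x ∈ H^i(D)`, `y ∈ H^j(B)`. -/
theorem coneCupData_bdry {i j n : ℕ} (h : i + j = n) (x : D.homology i) (y : B.homology j) :
    (coneCupData c c' hm).cupH (show i + 1 + j = n + 1 by omega) (HToHc φ i x) y =
      HToHc θ n (c'.cupH h x (HomologicalComplex.homologyMap ψ j y)) := by
  obtain ⟨z, rfl⟩ := hMk_surjective D i x
  obtain ⟨b, rfl⟩ := hMk_surjective B j y
  rw [HToHc_hMk, homologyMap_hMk, CupData.cupH_hMk, HToHc_hMk]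
  unfold HcMk
  rw [CupData.cupH_hMk]
  congr 1
  apply Subtype.ext
  have := coneCupData_cup_succ c c' hm i j n (by omega) (0 : C.X (i + 1)) z.1 b.1
  refine this.trans ?_
  show (coneXEquiv θ (n + 1)).symm (c.cup (i + 1) j (n + 1) _ 0 b.1, _) =
    (coneXEquiv θ (n + 1)).symm (0, _)
  rw [map_zero, LinearMap.zero_apply]
  rfl

end abstract

section pi

variable {k : Type u} [CommRing k] {ι : Type v}
  {Dw Bw Ew : ι → CochainComplex (ModuleCat.{v} k) ℕ} (c : ∀ w, CupData (Dw w) (Bw w) (Ew w))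

lemma isMap_piProj (w : ι) :
    CupData.IsMap (piCupData c) (c w) (piProj Dw w) (piProj Bw w) (piProj Ew w) := by
  intro i j n h x y
  rfl

/-- the cup product on a product of complexes is componentwise on cohomology -/
theorem piCupData_cupH {i j n : ℕ} (h : i + j = n) (x : (piComplex Dw).homology i)
    (y : (piComplex Bw).homology j) (w : ι) :
    piHomologyEquiv Ew n ((piCupData c).cupH h x y) w =
      (c w).cupH h (piHomologyEquiv Dw i x w) (piHomologyEquiv Bw j y w) := by
  rw [piHomologyEquiv_apply, piHomologyEquiv_apply, piHomologyEquiv_apply]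
  exact CupData.cupH_map (isMap_piProj c w) h x y

end pi

section concrete

variable {k G : Type u} [CommRing k] [Group G] {𝒰 : LevelSystem G} (L : LocalData 𝒰)
variable {M N P : Rep.{u} k G} [IsDiscrete 𝒰 M] [IsDiscrete 𝒰 N] [IsDiscrete 𝒰 P]
  {B : M →ₗ[k] N →ₗ[k] P} (hB : Equivariant M.ρ N.ρ P.ρ B)

/-- forgetting supports on `coneC`: `HlcCToH (x ∪ y) = (HlcCToH x) ∪ y` -/
theorem HlcCToH_cupH {i j n : ℕ} (h : i + j = n) (x : HlcC L M i) (y : Hlc 𝒰 N j) :
    HlcCToH L P n ((coneCCupData L hB).cupH h x y) =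
      HlcCup 𝒰 B hB h (HlcCToH L M i x) y :=
  coneCupData_forget (lcCupData 𝒰 B hB) (locCupData L hB) (isMap_resTot L hB) h x y

/-- **(E8)** the boundary formula on `coneC`:
`(∂ (b_v)_v) ∪ y = ∂ ((b_v ∪_v res_v y)_v)`. -/
theorem HlcCBdry_cupH {i j n : ℕ} (h : i + j = n)
    (b : ∀ v, Hlc (L.𝒰v v) (Rep.res (L.r v) M) i) (y : Hlc 𝒰 N j) :
    (coneCCupData L hB).cupH (show i + 1 + j = n + 1 by omega) (HlcCBdry L M i b) y =
      HlcCBdry L P n (fun v => HlcCup (L.𝒰v v) (locB L B v) (equivariant_locB L hB v) h (b v)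
        (locRes L N j y v)) := by
  show (coneCCupData L hB).cupH _
      (HToHc (resTot L M) i ((piHomologyEquiv (locC L M) i).symm b)) y =
    HToHc (resTot L P) n ((piHomologyEquiv (locC L P) n).symm (fun v =>
      HlcCup (L.𝒰v v) (locB L B v) (equivariant_locB L hB v) h (b v) (locRes L N j y v)))
  have key := coneCupData_bdry (lcCupData 𝒰 B hB) (locCupData L hB) (isMap_resTot L hB) h
    ((piHomologyEquiv (locC L M) i).symm b) y
  refine key.trans ?_
  congr 1
  rw [LinearEquiv.eq_symm_apply]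
  funext v
  have h1 := piCupData_cupH (fun v => lcCupData (L.𝒰v v) (locB L B v) (equivariant_locB L hB v)) h
    ((piHomologyEquiv (locC L M) i).symm b)
    (HomologicalComplex.homologyMap (resTot L N) j y) v
  refine h1.trans ?_
  rw [LinearEquiv.apply_symm_apply, piHomologyEquiv_homologyMap_piLift]
  rfl

end concrete

end Fermat.Agent.GC.Prof.ConeCupH
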