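/-
GATE-C / C1 (PROFCOH), leaf COR-FIN part 2 (helper20): the corestriction `HlcCor` on level-constant
cohomology versus the corestriction of a finite (or any discrete) quotient, under generalised
inflation.

`π : G →* Q` surjective with open kernel, `Sq ≤ Q` of finite index, `S ≤ G` with `π⁻¹ Sq = S`
(given abstractly: `πS : S →* Sq` with `πS s = π s` and `π g ∈ Sq → g ∈ S`), `Ā : Rep k Q`,
`A : Rep k G` discrete, `β : Res_π Ā ⟶ A`.  Then
  `HlcCor A ∘ HinflGen πS (Res β) = HinflGen π β ∘ Tate.cor Sq Ā`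
(`Tate.cor` = helper52's corestriction on Mathlib's `groupCohomology`).
Also: `HlcCor` is natural in the coefficients.
-/
import Fermat.Agent.GC.Prof.InflGen
import Fermat.Agent.GC.Prof.CupShapiro
import Fermat.Agent.GC.Tate.CorRes

set_option autoImplicit false
set_option linter.unusedSectionVars false

open CategoryTheory

noncomputable section

namespace Fermat.Agent.GC.Prof

open Fermat.Agent.GC.Tate

universe u

variable {k G Q : Type u} [CommRing k] [Group G] [Group Q] {𝒰 : LevelSystem G}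

/-! ### naturality of `HlcCor` in the coefficients -/

section naturality

variable {S : Subgroup G} [S.FiniteIndex]

/-- the trace is natural -/
lemma coindTrace_natural {A B : Rep.{u} k G} (φ : A ⟶ B) :
    Rep.coindMap S.subtype ((Rep.resFunctor S.subtype).map φ) ≫ coindTrace S B =
      coindTrace S A ≫ φ := by
  ext f
  show (coindTrace S B).hom ((Rep.coindMap S.subtype ((Rep.resFunctor S.subtype).map φ)).hom f) =
    φ.hom ((coindTrace S A).hom f)
  rw [coindTrace_hom_apply, coindTrace_hom_apply, map_sum]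
  refine Finset.sum_congr rfl fun q _ => ?_
  unfold twistFun
  exact (Rep.hom_comm_apply φ _ _).symm

variable (hS : IsOpenSub 𝒰 S) {A B : Rep.{u} k G} [IsDiscrete 𝒰 A] [IsDiscrete 𝒰 B]
  [IsDiscrete (𝒰.comap S.subtype) (Rep.res S.subtype A)]
  [IsDiscrete (𝒰.comap S.subtype) (Rep.res S.subtype B)]
  [IsDiscrete 𝒰 (Rep.coind S.subtype (Rep.res S.subtype A))]
  [IsDiscrete 𝒰 (Rep.coind S.subtype (Rep.res S.subtype B))]

/-- **`HlcCor` is natural in the coefficients** -/
theorem HlcCor_naturality (φ : A ⟶ B) (n : ℕ) :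
    HlcCor A hS n ≫ HlcMap 𝒰 φ n =
      HlcMap (𝒰.comap S.subtype) ((Rep.resFunctor S.subtype).map φ) n ≫ HlcCor B hS n := by
  unfold HlcCor
  rw [Category.assoc, ← HlcMap_comp, ← coindTrace_natural φ, HlcMap_comp, ← Category.assoc,
    ← Category.assoc]
  congr 1
  rw [Iso.inv_comp_eq, ← Category.assoc, Iso.eq_comp_inv, HlcShapiroIso_hom, HlcShapiroIso_hom]
  exact HlcShapiro_naturality (𝒰 := 𝒰) (S := S) ((Rep.resFunctor S.subtype).map φ) n

theorem HlcCor_naturality_apply (φ : A ⟶ B) (n : ℕ)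
    (y : Hlc (𝒰.comap S.subtype) (Rep.res S.subtype A) n) :
    HlcMap 𝒰 φ n (HlcCor A hS n y) =
      HlcCor B hS n (HlcMap (𝒰.comap S.subtype) ((Rep.resFunctor S.subtype).map φ) n y) :=
  congr($(HlcCor_naturality hS φ n) y)

end naturality

/-! ### the comparison data -/

section data

variable (π : G →* Q) {S : Subgroup G} {Sq : Subgroup Q} (πS : S →* Sq)
  (hπS : ∀ s : S, ((πS s : Sq) : Q) = π s)
  {Ā : Rep.{u} k Q} {A : Rep.{u} k G} (β : Rep.res π Ā ⟶ A)

/-- `β` on the restrictions to the subgroups -/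
def inflResHom : Rep.res πS (Rep.res Sq.subtype Ā) ⟶ Rep.res S.subtype A :=
  Rep.ofHom ⟨β.hom.toLinearMap, fun s => by
    ext x
    show β.hom (Ā.ρ ((πS s : Sq) : Q) x) = A.ρ (s : G) (β.hom x)
    rw [hπS s]
    exact Rep.hom_comm_apply β (s : G) x⟩

@[simp]
lemma inflResHom_apply (x : Ā) : (inflResHom π πS hπS β).hom x = β.hom x := rfl

/-- `β` on the coinduced modules: `f̄ ↦ (g ↦ β (f̄ (π g)))` -/
def inflCoindHom : Rep.res π (Rep.coind Sq.subtype (Rep.res Sq.subtype Ā)) ⟶
    Rep.coind S.subtype (Rep.res S.subtype A) :=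
  Rep.ofHom
    ⟨{ toFun := fun f => ⟨fun g => β.hom (f.1 (π g)), fun s g => by
          show β.hom (f.1 (π ((s : G) * g))) = A.ρ (s : G) (β.hom (f.1 (π g)))
          have h1 : π ((s : G) * g) = ((πS s : Sq) : Q) * π g := by rw [map_mul, hπS s]
          have h2 : f.1 (((πS s : Sq) : Q) * π g) = Ā.ρ ((πS s : Sq) : Q) (f.1 (π g)) :=
            f.2 (πS s) (π g)
          rw [h1, h2, hπS s]
          exact Rep.hom_comm_apply β (s : G) _⟩
       map_add' := fun f f' => by
         apply Subtype.ext; funext g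
         show β.hom ((f + f').1 (π g)) = β.hom (f.1 (π g)) + β.hom (f'.1 (π g))
         rw [← map_add]; rfl
       map_smul' := fun c f => by
         apply Subtype.ext; funext g
         show β.hom ((c • f).1 (π g)) = c • β.hom (f.1 (π g))
         rw [← map_smul]; rfl },
     fun x => by
       ext f g
       show β.hom (f.1 (π g * π x)) = β.hom (f.1 (π (g * x)))
       rw [map_mul]⟩

@[simp]
lemma inflCoindHom_apply (f : Rep.coind Sq.subtype (Rep.res Sq.subtype Ā)) (g : G) :
    ((inflCoindHom π πS hπS β).hom f).1 g = β.hom (f.1 (π g)) := rfl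

variable [S.FiniteIndex] [Sq.FiniteIndex]

attribute [local instance] Subgroup.fintypeQuotientOfFiniteIndex

/-- the map `G ⧸ S → Q ⧸ Sq` induced by `π` -/
def cosetMapOfSurj (q : G ⧸ S) : Q ⧸ Sq := QuotientGroup.mk (π q.out)

include hπS in
lemma cosetMapOfSurj_bijective (hsurj : Function.Surjective π)
    (hfull : ∀ g : G, π g ∈ Sq → g ∈ S) :
    Function.Bijective (cosetMapOfSurj (S := S) (Sq := Sq) π) := by
  constructor
  · intro a b hab
    unfold cosetMapOfSurj at hab
    rw [QuotientGroup.eq, ← map_inv, ← map_mul] at hab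
    rw [← QuotientGroup.out_eq' a, ← QuotientGroup.out_eq' b]
    exact QuotientGroup.eq.2 (hfull _ hab)
  · intro q
    induction q using QuotientGroup.induction_on with | H x => ?_
    obtain ⟨g, rfl⟩ := hsurj x
    refine ⟨QuotientGroup.mk g, ?_⟩
    unfold cosetMapOfSurj
    rw [QuotientGroup.eq]
    obtain ⟨s, hs⟩ := QuotientGroup.mk_out_eq_mul S g
    rw [hs, map_mul, mul_inv_rev, inv_mul_cancel_right, ← hπS s]
    exact Sq.inv_mem (πS s).2

include hπS in
/-- the traces are compatible: `tr_S^G (β ∘ f̄ ∘ π) = β (tr_{Sq}^Q f̄)` -/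
theorem coindTrace_inflCoindHom (hsurj : Function.Surjective π)
    (hfull : ∀ g : G, π g ∈ Sq → g ∈ S)
    (f : Rep.coind Sq.subtype (Rep.res Sq.subtype Ā)) :
    (coindTrace S A).hom ((inflCoindHom π πS hπS β).hom f) =
      β.hom ((coindTrace Sq Ā).hom f) := by
  rw [coindTrace_hom_apply, coindTrace_hom_apply, map_sum]
  refine Fintype.sum_bijective (cosetMapOfSurj (S := S) (Sq := Sq) π)
    (cosetMapOfSurj_bijective π πS hπS hsurj hfull) _ _ ?_
  intro q
  show twistFun S A ((inflCoindHom π πS hπS β).hom f) q.out =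
    β.hom (twistFun Sq Ā f (QuotientGroup.mk (π q.out) : Q ⧸ Sq).out)
  rw [twistFun_out]
  unfold twistFun
  rw [inflCoindHom_apply, map_inv]
  exact (Rep.hom_comm_apply β q.out _).symm

end data

/-! ### the comparison theorem -/

section main

variable (π : G →* Q) (hπ : IsOpenKer 𝒰 π) {S : Subgroup G} {Sq : Subgroup Q} (πS : S →* Sq)
  (hπS : ∀ s : S, ((πS s : Sq) : Q) = π s)
  {Ā : Rep.{u} k Q} {A : Rep.{u} k G} (β : Rep.res π Ā ⟶ A)

include hπ hπS in
lemma isOpenKer_sub : IsOpenKer (𝒰.comap S.subtype) πS := by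
  obtain ⟨U, hU, hUk⟩ := hπ
  refine ⟨U.comap S.subtype, ⟨U, hU, rfl⟩, fun s hs => MonoidHom.mem_ker.2 ?_⟩
  apply Subtype.ext
  rw [hπS s]
  exact MonoidHom.mem_ker.1 (hUk hs)

include hπ hπS in
lemma isOpenSub_of_isOpenKer (hfull : ∀ g : G, π g ∈ Sq → g ∈ S) : IsOpenSub 𝒰 S := by
  obtain ⟨U, hU, hUk⟩ := hπ
  refine ⟨U, hU, fun g hg => hfull g ?_⟩
  rw [MonoidHom.mem_ker.1 (hUk hg)]
  exact Sq.one_mem

variable [IsDiscrete 𝒰 A] [IsDiscrete (𝒰.comap S.subtype) (Rep.res S.subtype A)]
  [IsDiscrete 𝒰 (Rep.coind S.subtype (Rep.res S.subtype A))]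

/-- generalised inflation commutes with the Shapiro maps -/
theorem shapiro_comp_HinflGen (n : ℕ) :
    shapiro Sq (Rep.res Sq.subtype Ā) n ≫
        HinflGen πS (isOpenKer_sub π hπ πS hπS) (inflResHom π πS hπS β) n =
      HinflGen π hπ (inflCoindHom π πS hπS β) n ≫
        HlcShapiro 𝒰 S (Rep.res S.subtype A) n := by
  unfold shapiro HlcShapiro
  rw [map_comp_HinflGen, HinflGen_comp_HlcPull]
  refine HinflGen_congr _ _ _ _ ?_ ?_ n
  · ext s
    exact hπS s
  · intro f
    show β.hom (f.1 1) = β.hom (f.1 (π 1))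
    rw [map_one]

variable [S.FiniteIndex] [Sq.FiniteIndex]

/-- **COR-FIN**: the corestriction on level-constant cohomology of a generalised inflation is the
generalised inflation of the corestriction of the quotient. -/
theorem HlcCor_HinflGen (hS : IsOpenSub 𝒰 S) (hsurj : Function.Surjective π)
    (hfull : ∀ g : G, π g ∈ Sq → g ∈ S) (n : ℕ)
    (y : groupCohomology (Rep.res Sq.subtype Ā) n) :
    HlcCor A hS n
        (HinflGen πS (isOpenKer_sub π hπ πS hπS) (inflResHom π πS hπS β) n y) =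
      HinflGen π hπ β n (cor Sq Ā n y) := by
  obtain ⟨Y, rfl⟩ := (shapiro_bijective Sq n (Rep.res Sq.subtype Ā)).2 y
  have e1 : HinflGen πS (isOpenKer_sub π hπ πS hπS) (inflResHom π πS hπS β) n
        (shapiro Sq (Rep.res Sq.subtype Ā) n Y) =
      HlcShapiro 𝒰 S (Rep.res S.subtype A) n
        (HinflGen π hπ (inflCoindHom π πS hπS β) n Y) :=
    congr($(shapiro_comp_HinflGen π hπ πS hπS β n) Y)
  rw [e1, HlcCor_HlcShapiro]
  have e2 : cor Sq Ā n (shapiro Sq (Rep.res Sq.subtype Ā) n Y) = corCoind Sq Ā n Y := by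
    unfold cor
    have := congr($((shapiroIso Sq (Rep.res Sq.subtype Ā) n).hom_inv_id) Y)
    rw [shapiroIso_hom] at this
    simp only [ModuleCat.hom_comp, LinearMap.comp_apply] at this ⊢
    rw [this]
    rfl
  rw [e2]
  unfold corCoind
  have e3 := HinflGen_naturality π hπ (inflCoindHom π πS hπS β) β (coindTrace Sq Ā)
    (coindTrace S A) (fun f => (coindTrace_inflCoindHom π πS hπS β hsurj hfull f).symm) n
  exact (congr($e3 Y)).symm

/-- **(COR-INJ) transfer**: if the corestriction of the quotient is injective on a class `y` ... in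
the contrapositive-free form: `HlcCor` of an inflated class vanishes iff the inflation of the
corestriction vanishes. -/
theorem HlcCor_HinflGen_eq_zero_iff (hS : IsOpenSub 𝒰 S) (hsurj : Function.Surjective π)
    (hfull : ∀ g : G, π g ∈ Sq → g ∈ S) (n : ℕ)
    (y : groupCohomology (Rep.res Sq.subtype Ā) n) :
    HlcCor A hS n
        (HinflGen πS (isOpenKer_sub π hπ πS hπS) (inflResHom π πS hπS β) n y) = 0 ↔
      HinflGen π hπ β n (cor Sq Ā n y) = 0 := by
  rw [HlcCor_HinflGen π hπ πS hπS β hS hsurj hfull n y]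

end main

end Fermat.Agent.GC.Prof
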