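/-
GATE-C / C1 leaf (L7) CUP, part 5 (helper2): cup products on helper10's shifted mapping cone
(`Cone.cone φ`, degree `n` = `Cⁿ × Dⁿ⁻¹`, `d (a, b) = (d a, φ a - d b)`), i.e. on cohomology with
compact supports.

For cup data `c : C × D → E`, `c₁ : C₁ × D₁ → E₁` and morphisms `φ : C ⟶ C₁`, `ψ : D ⟶ D₁`,
`θ : E ⟶ E₁` compatible with the cups (`CupData.IsMap c c₁ φ ψ θ`):
* `coneCupL : CupData (cone φ) D (cone θ)`,   `(a, a₁) ∪ b = (a ∪ b, a₁ ∪₁ ψ b)`;
* `coneCupR : CupData C (cone ψ) (cone θ)`,   `a ∪ (b, b₁) = (a ∪ b, (-1)^i • φ a ∪₁ b₁)`;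
hence `H^i_c × H^j → H^{i+j}_c` and `H^i × H^j_c → H^{i+j}_c`, with Leibniz, so that ALL results of
`CupAbs` (naturality, δ-compatibilities) apply.  Moreover
* `coneCupL_forget`, `coneCupR_forget` : compatibility with the forgetful maps `Hc → H`;
* `coneCupL_bdry`                     : `∂ b ∪ y = ∂ (b ∪₁ ψ y)` (cone boundary formula);
* `coneCup_adjoint`                   : `(forget x) ∪ y = x ∪ (forget y)` for `x ∈ H^i_c`, `y ∈ H^j_c`.
namespace Fermat.Agent.GC.Prof.CupCone.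
-/
import Fermat.Agent.GC.Prof.ConeMap
import Fermat.Agent.GC.Prof.CupAbs

set_option autoImplicit false

open CategoryTheory

noncomputable section

namespace Fermat.Agent.GC.Prof.CupCone

open Fermat.Agent.GC.Prof.Cone Fermat.Agent.GC.Prof.CupAbs Fermat.Agent.GC.Prof.Elt

universe v u

variable {k : Type u} [CommRing k]
variable {C C₁ D D₁ E E₁ : CochainComplex (ModuleCat.{v} k) ℕ}

/-! ### the shifted cup products -/

/-- `C₁^{i-1} × D₁^j → E₁^{n-1}` (`i + j = n`), zero for `i = 0` -/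
def shCupL (c₁ : CupData C₁ D₁ E₁) :
    ∀ i j n : ℕ, i + j = n → (shX C₁ i →ₗ[k] D₁.X j →ₗ[k] shX E₁ n)
  | 0, _, _, _ => 0
  | i + 1, _, 0, h => absurd h (by omega)
  | i + 1, j, n + 1, h => c₁.cup i j n (by omega)

lemma shCupL_zero (c₁ : CupData C₁ D₁ E₁) (j n : ℕ) (h : 0 + j = n) :
    shCupL c₁ 0 j n h = 0 := by
  unfold shCupL
  rfl

lemma shCupL_succ (c₁ : CupData C₁ D₁ E₁) (i j n : ℕ) (h : i + 1 + j = n + 1) :
    shCupL c₁ (i + 1) j (n + 1) h = c₁.cup i j n (by omega) := rfl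

lemma d_comm_apply {K L : CochainComplex (ModuleCat.{v} k) ℕ} (f : K ⟶ L) (n : ℕ) (x : K.X n) :
    (L.d n (n + 1)).hom ((f.f n).hom x) = (f.f (n + 1)).hom ((K.d n (n + 1)).hom x) := by
  have := congr($(f.comm n (n + 1)) x)
  simp only [ModuleCat.hom_comp, LinearMap.comp_apply] at this
  exact this

/-- the identity `shX D (n + 1) = D.X n` as a linear map (to keep statements well-typed) -/
def shOut (D : CochainComplex (ModuleCat.{v} k) ℕ) (n : ℕ) : shX D (n + 1) →ₗ[k] D.X n :=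
  LinearMap.id

lemma shOut_apply (D : CochainComplex (ModuleCat.{v} k) ℕ) (n : ℕ) (x : D.X n) :
    shOut D n x = x := rfl

/-- Leibniz rule for the shifted cup product (differential `shDX = -d`). -/
lemma shCupL_leibniz (c₁ : CupData C₁ D₁ E₁) (i j n : ℕ) (h : i + j = n) (a₁ : shX C₁ i)
    (y : D₁.X j) :
    shDX E₁ n (shCupL c₁ i j n h a₁ y) =
      c₁.cup i j n h (shDX C₁ i a₁) y +
        (-1 : k) ^ i • shOut E₁ n
          (shCupL c₁ i (j + 1) (n + 1) (by omega) a₁ ((D₁.d j (j + 1)).hom y)) := by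
  cases i with
  | zero =>
    rw [shCupL_zero, shCupL_zero, shDX_zero]
    simp
    try rfl
  | succ i' =>
    cases n with
    | zero => omega
    | succ n' =>
      change C₁.X i' at a₁
      show -((E₁.d n' (n' + 1)).hom (c₁.cup i' j n' (by omega) a₁ y)) =
        c₁.cup (i' + 1) j (n' + 1) h (-((C₁.d i' (i' + 1)).hom a₁)) y +
          (-1 : k) ^ (i' + 1) • c₁.cup i' (j + 1) (n' + 1) (by omega) a₁ ((D₁.d j (j + 1)).hom y)
      rw [c₁.leibniz i' j n' (by omega) a₁ y]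
      simp only [map_neg, LinearMap.neg_apply, pow_succ, mul_neg, mul_one, neg_smul, neg_add]

/-! ### the left cone cup product `H^i_c × H^j → H^{i+j}_c` -/

section left

variable (c : CupData C D E) (c₁ : CupData C₁ D₁ E₁) (φ : C ⟶ C₁) (ψ : D ⟶ D₁) (θ : E ⟶ E₁)

/-- `(a, a₁) ∪ b = (a ∪ b, a₁ ∪₁ ψ b)` -/
def coneCupLLin (i j n : ℕ) (h : i + j = n) :
    (C.X i × shX C₁ i) →ₗ[k] D.X j →ₗ[k] (E.X n × shX E₁ n) :=
  LinearMap.mk₂ k (fun x b => (c.cup i j n h x.1 b, shCupL c₁ i j n h x.2 ((ψ.f j).hom b)))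
    (fun x x' b => by simp) (fun r x b => by simp) (fun x b b' => by simp) (fun r x b => by simp)

@[simp]
lemma coneCupLLin_apply (i j n : ℕ) (h : i + j = n) (x : C.X i × shX C₁ i) (b : D.X j) :
    coneCupLLin c c₁ ψ i j n h x b =
      (c.cup i j n h x.1 b, shCupL c₁ i j n h x.2 ((ψ.f j).hom b)) := rfl

variable {c c₁ φ ψ θ}

/-- the Leibniz rule for the left cone cup, in terms of `coneDLin` -/
lemma coneCupLLin_leibniz (hm : CupData.IsMap c c₁ φ ψ θ) (i j n : ℕ) (h : i + j = n)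
    (x : C.X i × shX C₁ i) (b : D.X j) :
    coneDLin θ n (coneCupLLin c c₁ ψ i j n h x b) =
      coneCupLLin c c₁ ψ (i + 1) j (n + 1) (by omega) (coneDLin φ i x) b +
        (-1 : k) ^ i • coneCupLLin c c₁ ψ i (j + 1) (n + 1) (by omega) x
          ((D.d j (j + 1)).hom b) := by
  obtain ⟨a, a₁⟩ := x
  rw [coneCupLLin_apply, coneCupLLin_apply, coneCupLLin_apply, coneDLin_apply, coneDLin_apply]
  refine Prod.ext ?_ ?_
  · exact c.leibniz i j n h a b
  · have key := shCupL_leibniz c₁ i j n h a₁ ((ψ.f j).hom b)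
    have hθ : (θ.f n).hom (c.cup i j n h a b) =
        c₁.cup i j n h ((φ.f i).hom a) ((ψ.f j).hom b) := hm i j n h a b
    have hψ := d_comm_apply ψ j b
    show (θ.f n).hom (c.cup i j n h a b) + shDX E₁ n (shCupL c₁ i j n h a₁ ((ψ.f j).hom b)) =
      c₁.cup i j n h ((φ.f i).hom a + shDX C₁ i a₁) ((ψ.f j).hom b) +
        (-1 : k) ^ i • shOut E₁ n (shCupL c₁ i (j + 1) (n + 1) (by omega) a₁
          ((ψ.f (j + 1)).hom ((D.d j (j + 1)).hom b)))
    rw [hθ, key, hψ, map_add, LinearMap.add_apply, add_assoc]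

variable (c c₁ φ ψ θ) in
/-- **the left cone cup product** `cone φ × D → cone θ`, `(a, a₁) ∪ b = (a ∪ b, a₁ ∪₁ ψ b)` -/
def coneCupL (hm : CupData.IsMap c c₁ φ ψ θ) : CupData (cone φ) D (cone θ) where
  cup i j n h := coneCupLLin c c₁ ψ i j n h
  leibniz i j n h x b := by
    rw [cone_d, cone_d]
    exact coneCupLLin_leibniz hm i j n h x b

end left

/-! ### forgetful map and boundary map for the left cone cup -/

section leftcompat

variable {c : CupData C D E} {c₁ : CupData C₁ D₁ E₁} {φ : C ⟶ C₁} {ψ : D ⟶ D₁} {θ : E ⟶ E₁}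
  (hm : CupData.IsMap c c₁ φ ψ θ)

lemma coneCupL_isMap_π : CupData.IsMap (coneCupL c c₁ φ ψ θ hm) c (π φ) (𝟙 D) (π θ) := by
  intro i j n h x b
  rfl

/-- forgetting supports: `forget (x ∪ y) = (forget x) ∪ y` -/
theorem coneCupL_forget {i j n : ℕ} (h : i + j = n) (x : Hc φ i) (y : D.homology j) :
    HcToH θ n ((coneCupL c c₁ φ ψ θ hm).cupH h x y) = c.cupH h (HcToH φ i x) y := by
  have := CupData.cupH_map (coneCupL_isMap_π hm) h x y
  rw [HomologicalComplex.homologyMap_id] at this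
  exact this

/-- **cone boundary formula**: `(∂ x) ∪ y = ∂ (x ∪₁ ψ y)` for `x ∈ H^i(C₁)`, `y ∈ H^j(D)`. -/
theorem coneCupL_bdry {i j n : ℕ} (h : i + j = n) (x : C₁.homology i) (y : D.homology j) :
    (coneCupL c c₁ φ ψ θ hm).cupH (show i + 1 + j = n + 1 by omega) (HToHc φ i x) y =
      HToHc θ n (c₁.cupH h x (HomologicalComplex.homologyMap ψ j y)) := by
  obtain ⟨z, rfl⟩ := hMk_surjective C₁ i x
  obtain ⟨b, rfl⟩ := hMk_surjective D j y
  rw [HToHc_hMk, homologyMap_hMk, CupData.cupH_hMk, HToHc_hMk]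
  unfold HcMk
  rw [CupData.cupH_hMk]
  congr 1
  apply Subtype.ext
  show coneCupLLin c c₁ ψ (i + 1) j (n + 1) _ ((0 : C.X (i + 1)), z.1) b.1 = _
  rw [coneCupLLin_apply]
  refine Prod.ext ?_ rfl
  show c.cup (i + 1) j (n + 1) _ 0 b.1 = 0
  simp

end leftcompat

/-! ### the right cone cup product `H^i × H^j_c → H^{i+j}_c` -/

/-- `C₁^i × D₁^{j-1} → E₁^{n-1}` (`i + j = n`), zero for `j = 0` -/
def shCupR (c₁ : CupData C₁ D₁ E₁) :
    ∀ i j n : ℕ, i + j = n → (C₁.X i →ₗ[k] shX D₁ j →ₗ[k] shX E₁ n)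
  | _, 0, _, _ => 0
  | _, j + 1, 0, h => absurd h (by omega)
  | i, j + 1, n + 1, h => c₁.cup i j n (by omega)

lemma shCupR_zero (c₁ : CupData C₁ D₁ E₁) (i n : ℕ) (h : i + 0 = n) :
    shCupR c₁ i 0 n h = 0 := by
  unfold shCupR
  rfl

lemma shCupR_succ (c₁ : CupData C₁ D₁ E₁) (i j n : ℕ) (h : i + (j + 1) = n + 1) :
    shCupR c₁ i (j + 1) (n + 1) h = c₁.cup i j n (by omega) := rfl

/-- Leibniz rule for the right shifted cup product. -/
lemma shCupR_leibniz (c₁ : CupData C₁ D₁ E₁) (i j n : ℕ) (h : i + j = n) (u : C₁.X i)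
    (y₁ : shX D₁ j) :
    shDX E₁ n (shCupR c₁ i j n h u y₁) =
      -shOut E₁ n (shCupR c₁ (i + 1) j (n + 1) (by omega) ((C₁.d i (i + 1)).hom u) y₁) +
        (-1 : k) ^ i • c₁.cup i j n h u (shDX D₁ j y₁) := by
  cases j with
  | zero =>
    rw [shCupR_zero, shCupR_zero, shDX_zero]
    simp
    try rfl
  | succ j' =>
    cases n with
    | zero => omega
    | succ n' =>
      change D₁.X j' at y₁
      show -((E₁.d n' (n' + 1)).hom (c₁.cup i j' n' (by omega) u y₁)) =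
        -(c₁.cup (i + 1) j' (n' + 1) (by omega) ((C₁.d i (i + 1)).hom u) y₁) +
          (-1 : k) ^ i • c₁.cup i (j' + 1) (n' + 1) h u (-((D₁.d j' (j' + 1)).hom y₁))
      rw [c₁.leibniz i j' n' (by omega) u y₁]
      simp only [map_neg, smul_neg, neg_add]

section right

variable (c : CupData C D E) (c₁ : CupData C₁ D₁ E₁) (φ : C ⟶ C₁) (ψ : D ⟶ D₁) (θ : E ⟶ E₁)

/-- `a ∪ (b, b₁) = (a ∪ b, (-1)^i • φ a ∪₁ b₁)` -/
def coneCupRLin (i j n : ℕ) (h : i + j = n) :
    C.X i →ₗ[k] (D.X j × shX D₁ j) →ₗ[k] (E.X n × shX E₁ n) :=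
  LinearMap.mk₂ k (fun a y => (c.cup i j n h a y.1,
      (-1 : k) ^ i • shCupR c₁ i j n h ((φ.f i).hom a) y.2))
    (fun a a' y => by simp) (fun r a y => by simp [smul_comm ((-1 : k) ^ i) r])
    (fun a y y' => by simp) (fun r a y => by simp [smul_comm ((-1 : k) ^ i) r])

@[simp]
lemma coneCupRLin_apply (i j n : ℕ) (h : i + j = n) (a : C.X i) (y : D.X j × shX D₁ j) :
    coneCupRLin c c₁ φ i j n h a y =
      (c.cup i j n h a y.1, (-1 : k) ^ i • shCupR c₁ i j n h ((φ.f i).hom a) y.2) := rfl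

variable {c c₁ φ ψ θ}

lemma coneCupRLin_leibniz (hm : CupData.IsMap c c₁ φ ψ θ) (i j n : ℕ) (h : i + j = n)
    (a : C.X i) (y : D.X j × shX D₁ j) :
    coneDLin θ n (coneCupRLin c c₁ φ i j n h a y) =
      coneCupRLin c c₁ φ (i + 1) j (n + 1) (by omega) ((C.d i (i + 1)).hom a) y +
        (-1 : k) ^ i • coneCupRLin c c₁ φ i (j + 1) (n + 1) (by omega) a (coneDLin ψ j y) := by
  obtain ⟨b, b₁⟩ := y
  rw [coneCupRLin_apply, coneCupRLin_apply, coneCupRLin_apply, coneDLin_apply, coneDLin_apply]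
  refine Prod.ext ?_ ?_
  · exact c.leibniz i j n h a b
  · have key := shCupR_leibniz c₁ i j n h ((φ.f i).hom a) b₁
    have hθ : (θ.f n).hom (c.cup i j n h a b) =
        c₁.cup i j n h ((φ.f i).hom a) ((ψ.f j).hom b) := hm i j n h a b
    have hφ := d_comm_apply φ i a
    have e : ((-1 : k) ^ i * (-1 : k) ^ i) = 1 := by
      rw [← pow_add, ← two_mul, pow_mul]; simp
    show (θ.f n).hom (c.cup i j n h a b) +
        shDX E₁ n ((-1 : k) ^ i • shCupR c₁ i j n h ((φ.f i).hom a) b₁) =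
      (-1 : k) ^ (i + 1) • shOut E₁ n (shCupR c₁ (i + 1) j (n + 1) (by omega)
          ((φ.f (i + 1)).hom ((C.d i (i + 1)).hom a)) b₁) +
        (-1 : k) ^ i • ((-1 : k) ^ i • c₁.cup i j n h ((φ.f i).hom a)
          ((ψ.f j).hom b + shDX D₁ j b₁))
    rw [hθ, map_smul, key, ← hφ, smul_smul, e, one_smul, map_add, smul_add, smul_neg, smul_smul, e,
      one_smul, pow_succ, mul_neg_one, neg_smul]
    abel

variable (c c₁ φ ψ θ) in
/-- **the right cone cup product** `C × cone ψ → cone θ`,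
`a ∪ (b, b₁) = (a ∪ b, (-1)^i • φ a ∪₁ b₁)` -/
def coneCupR (hm : CupData.IsMap c c₁ φ ψ θ) : CupData C (cone ψ) (cone θ) where
  cup i j n h := coneCupRLin c c₁ φ i j n h
  leibniz i j n h a y := by
    rw [cone_d, cone_d]
    exact coneCupRLin_leibniz hm i j n h a y

lemma coneCupR_isMap_π (hm : CupData.IsMap c c₁ φ ψ θ) :
    CupData.IsMap (coneCupR c c₁ φ ψ θ hm) c (𝟙 C) (π ψ) (π θ) := by
  intro i j n h x b
  rfl

/-- forgetting supports: `forget (x ∪ y) = x ∪ (forget y)` -/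
theorem coneCupR_forget (hm : CupData.IsMap c c₁ φ ψ θ) {i j n : ℕ} (h : i + j = n)
    (x : C.homology i) (y : Hc ψ j) :
    HcToH θ n ((coneCupR c c₁ φ ψ θ hm).cupH h x y) = c.cupH h x (HcToH ψ j y) := by
  have := CupData.cupH_map (coneCupR_isMap_π hm) h x y
  rw [HomologicalComplex.homologyMap_id] at this
  exact this

end right

/-! ### adjointness of the two forgetful maps -/

/-- `C₁^{i-1} × D₁^{j-1} → E₁^{m-1}`, `i + j = m + 1` -/
def shCupLR (c₁ : CupData C₁ D₁ E₁) :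
    ∀ i j m : ℕ, i + j = m + 1 → (shX C₁ i →ₗ[k] shX D₁ j →ₗ[k] shX E₁ m)
  | 0, _, _, _ => 0
  | _ + 1, 0, _, _ => 0
  | _ + 1, _ + 1, 0, h => absurd h (by omega)
  | i + 1, j + 1, m + 1, h => c₁.cup i j m (by omega)

lemma shCupLR_zero_left (c₁ : CupData C₁ D₁ E₁) (j m : ℕ) (h : 0 + j = m + 1) :
    shCupLR c₁ 0 j m h = 0 := by
  unfold shCupLR
  rfl

lemma shCupLR_zero_right (c₁ : CupData C₁ D₁ E₁) (i m : ℕ) (h : i + 1 + 0 = m + 1) :
    shCupLR c₁ (i + 1) 0 m h = 0 := by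
  unfold shCupLR
  rfl

lemma shCupLR_leibniz (c₁ : CupData C₁ D₁ E₁) (i j m : ℕ) (h : i + j = m + 1) (a₁ : shX C₁ i)
    (b₁ : shX D₁ j) :
    shDX E₁ m (shCupLR c₁ i j m h a₁ b₁) =
      shOut E₁ m (shCupR c₁ i j (m + 1) h (shDX C₁ i a₁) b₁) -
        (-1 : k) ^ i • shOut E₁ m (shCupL c₁ i j (m + 1) h a₁ (shDX D₁ j b₁)) := by
  cases i with
  | zero =>
    rw [shCupLR_zero_left, shCupL_zero, shDX_zero]
    simp
    try rfl
  | succ i' =>
    cases j with
    | zero =>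
      rw [shCupLR_zero_right, shCupR_zero, shDX_zero]
      simp
      try rfl
    | succ j' =>
      cases m with
      | zero => omega
      | succ m' =>
        change C₁.X i' at a₁
        change D₁.X j' at b₁
        show -((E₁.d m' (m' + 1)).hom (c₁.cup i' j' m' (by omega) a₁ b₁)) =
          c₁.cup (i' + 1) j' (m' + 1) (by omega) (-((C₁.d i' (i' + 1)).hom a₁)) b₁ -
            (-1 : k) ^ (i' + 1) • c₁.cup i' (j' + 1) (m' + 1) (by omega) a₁
              (-((D₁.d j' (j' + 1)).hom b₁))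
        rw [c₁.leibniz i' j' m' (by omega) a₁ b₁]
        simp only [map_neg, LinearMap.neg_apply, smul_neg, pow_succ, mul_neg_one, neg_smul,
          neg_neg, neg_add]
        abel

section adjoint

variable {c : CupData C D E} {c₁ : CupData C₁ D₁ E₁} {φ : C ⟶ C₁} {ψ : D ⟶ D₁} {θ : E ⟶ E₁}
  (hm : CupData.IsMap c c₁ φ ψ θ)

/-- **adjointness of the forgetful maps**: for `x ∈ H^i_c(φ)`, `y ∈ H^j_c(ψ)`,
`(forget x) ∪ y = x ∪ (forget y)` in `H^{i+j}_c(θ)`. -/
theorem coneCup_adjoint {i j n : ℕ} (h : i + j = n) (x : Hc φ i) (y : Hc ψ j) :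
    (coneCupR c c₁ φ ψ θ hm).cupH h (HcToH φ i x) y =
      (coneCupL c c₁ φ ψ θ hm).cupH h x (HcToH ψ j y) := by
  obtain ⟨a, a₁, ha, rfl⟩ := Hc_exists_mk φ i x
  obtain ⟨b, b₁, hb, rfl⟩ := Hc_exists_mk ψ j y
  rw [HcToH_mk, HcToH_mk]
  unfold HcMk
  rw [CupData.cupH_hMk, CupData.cupH_hMk, ← sub_eq_zero, ← map_sub]
  have ha2 : shDX C₁ i a₁ = -((φ.f i).hom a) := by
    have := ha.2
    exact (eq_neg_of_add_eq_zero_right this)
  have hb2 : shDX D₁ j b₁ = -((ψ.f j).hom b) := by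
    have := hb.2
    exact (eq_neg_of_add_eq_zero_right this)
  cases n with
  | zero =>
    obtain rfl : i = 0 := by omega
    obtain rfl : j = 0 := by omega
    rw [hMk_eq_zero_iff_zero, sub_eq_zero]
    apply Subtype.ext
    refine Prod.ext rfl ?_
    exact Subsingleton.elim (α := PUnit) _ _
  | succ n' =>
    rw [hMk_eq_zero_iff_succ]
    refine ⟨(coneXEquiv θ n').symm (0, -((-1 : k) ^ i • shCupLR c₁ i j n' h a₁ b₁)), ?_⟩
    apply (coneXEquiv θ (n' + 1)).injective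
    rw [coneXEquiv_d, LinearEquiv.apply_symm_apply, coneDLin_apply]
    have key := shCupLR_leibniz c₁ i j n' h a₁ b₁
    rw [ha2, hb2] at key
    refine Prod.ext ?_ ?_
    · show (E.d n' (n' + 1)).hom 0 = c.cup i j (n' + 1) h a b - c.cup i j (n' + 1) h a b
      rw [map_zero, sub_self]
    · show (θ.f n').hom 0 + shDX E₁ n' (-((-1 : k) ^ i • shCupLR c₁ i j n' h a₁ b₁)) =
        shOut E₁ n' ((-1 : k) ^ i • shCupR c₁ i j (n' + 1) h ((φ.f i).hom a) b₁) -
          shOut E₁ n' (shCupL c₁ i j (n' + 1) h a₁ ((ψ.f j).hom b))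
      have e : ((-1 : k) ^ i * (-1 : k) ^ i) = 1 := by
        rw [← pow_add, ← two_mul, pow_mul]; simp
      rw [map_zero, zero_add, map_neg, map_smul, key]
      simp only [map_neg, map_smul, LinearMap.neg_apply, smul_sub, smul_neg, smul_smul, e,
        one_smul]
      abel

end adjoint

end Fermat.Agent.GC.Prof.CupCone
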