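/-
GATE-C / C1 leaf (L7) CUP, part 7 (helper2): the LOW-DEGREE DICTIONARY between the general cup
product `CupN.cupC` / `lcCup` on `Fin`-tuples and the plain-function cup products `Cup.cup_ij` of
`Cup.lean` (the shapes used by helper1's `SwapCore` and helper78's `Low.lean`):
* (A) `cupC_ij`       : evaluation of `cupC B ρN (h : i + j = n) a b` on `![…]`, all `i + j ≤ 3`;
* (B) `lcEquiv_lcCup_ij` : `lcEquiv_n (lcCup 𝒰 B h a b) = cup_ij B N.ρ (lcEquiv_i a) (lcEquiv_j b)`;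
* (C) `lcEquiv_lcD_n` : `lcEquiv_{n+1} (lcD n f) = Cup.d_n M.ρ (lcEquiv_n f)`, `n = 0, 1, 2`.
namespace Fermat.Agent.GC.Prof.
-/
import Fermat.Agent.GC.Prof.CupLC
import Fermat.Agent.GC.Prof.Low

set_option autoImplicit false
set_option linter.unusedSectionVars false

open CategoryTheory

noncomputable section

namespace Fermat.Agent.GC.Prof

open Cup CupN groupCohomology

universe u

/-! ### (A) evaluation of `cupC` in low degrees -/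

section plain

variable {k G M N P : Type*} [CommRing k] [Group G]
  [AddCommGroup M] [Module k M] [AddCommGroup N] [Module k N] [AddCommGroup P] [Module k P]
  (B : M →ₗ[k] N →ₗ[k] P) (ρN : Representation k G N)

lemma CupN.cupC_00 (h : 0 + 0 = 0) (a : (Fin 0 → G) → M) (b : (Fin 0 → G) → N) (x : Fin 0 → G) :
    cupC B ρN h a b x = B (a default) (b default) := by
  rw [cupC_apply, cupF_apply]
  have h1 : (fun t : Fin 0 => (x ∘ Fin.cast h) (Fin.castAdd 0 t)) = default :=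
    Subsingleton.elim _ _
  have h2 : (fun t : Fin 0 => (x ∘ Fin.cast h) (Fin.natAdd 0 t)) = default :=
    Subsingleton.elim _ _
  rw [h1, h2]
  simp [pr]

lemma CupN.cupC_01 (h : 0 + 1 = 1) (a : (Fin 0 → G) → M) (b : (Fin 1 → G) → N) (g : G) :
    cupC B ρN h a b (fun _ => g) = B (a default) (b fun _ => g) := by
  rw [cupC_apply, cupF_apply]
  have h1 : (fun t : Fin 0 => ((fun _ : Fin 1 => g) ∘ Fin.cast h) (Fin.castAdd 1 t)) = default :=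
    Subsingleton.elim _ _
  have h2 : (fun t : Fin 1 => ((fun _ : Fin 1 => g) ∘ Fin.cast h) (Fin.natAdd 0 t)) =
      fun _ => g := rfl
  rw [h1, h2]
  simp [pr]

lemma CupN.cupC_10 (h : 1 + 0 = 1) (a : (Fin 1 → G) → M) (b : (Fin 0 → G) → N) (g : G) :
    cupC B ρN h a b (fun _ => g) = B (a fun _ => g) (ρN g (b default)) := by
  rw [cupC_apply, cupF_apply]
  have h1 : (fun t : Fin 1 => ((fun _ : Fin 1 => g) ∘ Fin.cast h) (Fin.castAdd 0 t)) =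
      fun _ => g := rfl
  have h2 : (fun t : Fin 0 => ((fun _ : Fin 1 => g) ∘ Fin.cast h) (Fin.natAdd 1 t)) = default :=
    Subsingleton.elim _ _
  have h3 : pr (ext ((fun _ : Fin 1 => g) ∘ Fin.cast h)) 0 1 = g := by simp [pr, ext]
  rw [h1, h2, h3]

lemma CupN.cupC_11 (h : 1 + 1 = 2) (a : (Fin 1 → G) → M) (b : (Fin 1 → G) → N) (g g' : G) :
    cupC B ρN h a b ![g, g'] = B (a fun _ => g) (ρN g (b fun _ => g')) := by
  rw [cupC_apply, cupF_apply]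
  have h1 : (fun t : Fin 1 => (![g, g'] ∘ Fin.cast h) (Fin.castAdd 1 t)) = fun _ => g := by
    funext t; fin_cases t; rfl
  have h2 : (fun t : Fin 1 => (![g, g'] ∘ Fin.cast h) (Fin.natAdd 1 t)) = fun _ => g' := by
    funext t; fin_cases t; rfl
  have h3 : pr (ext (![g, g'] ∘ Fin.cast h)) 0 1 = g := by simp [pr, ext]
  rw [h1, h2, h3]

lemma CupN.cupC_02 (h : 0 + 2 = 2) (a : (Fin 0 → G) → M) (b : (Fin 2 → G) → N) (g g' : G) :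
    cupC B ρN h a b ![g, g'] = B (a default) (b ![g, g']) := by
  rw [cupC_apply, cupF_apply]
  have h1 : (fun t : Fin 0 => (![g, g'] ∘ Fin.cast h) (Fin.castAdd 2 t)) = default :=
    Subsingleton.elim _ _
  have h2 : (fun t : Fin 2 => (![g, g'] ∘ Fin.cast h) (Fin.natAdd 0 t)) = ![g, g'] := by
    funext t; fin_cases t <;> rfl
  rw [h1, h2]
  simp [pr]

lemma CupN.cupC_20 (h : 2 + 0 = 2) (a : (Fin 2 → G) → M) (b : (Fin 0 → G) → N) (g g' : G) :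
    cupC B ρN h a b ![g, g'] = B (a ![g, g']) (ρN (g * g') (b default)) := by
  rw [cupC_apply, cupF_apply]
  have h1 : (fun t : Fin 2 => (![g, g'] ∘ Fin.cast h) (Fin.castAdd 0 t)) = ![g, g'] := by
    funext t; fin_cases t <;> rfl
  have h2 : (fun t : Fin 0 => (![g, g'] ∘ Fin.cast h) (Fin.natAdd 2 t)) = default :=
    Subsingleton.elim _ _
  have h3 : pr (ext (![g, g'] ∘ Fin.cast h)) 0 2 = g * g' := by simp [pr, ext]
  rw [h1, h2, h3]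

lemma CupN.cupC_03 (h : 0 + 3 = 3) (a : (Fin 0 → G) → M) (b : (Fin 3 → G) → N) (g g' g'' : G) :
    cupC B ρN h a b ![g, g', g''] = B (a default) (b ![g, g', g'']) := by
  rw [cupC_apply, cupF_apply]
  have h1 : (fun t : Fin 0 => (![g, g', g''] ∘ Fin.cast h) (Fin.castAdd 3 t)) = default :=
    Subsingleton.elim _ _
  have h2 : (fun t : Fin 3 => (![g, g', g''] ∘ Fin.cast h) (Fin.natAdd 0 t)) = ![g, g', g''] := by
    funext t; fin_cases t <;> rfl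
  rw [h1, h2]
  simp [pr]

lemma CupN.cupC_12 (h : 1 + 2 = 3) (a : (Fin 1 → G) → M) (b : (Fin 2 → G) → N) (g g' g'' : G) :
    cupC B ρN h a b ![g, g', g''] = B (a fun _ => g) (ρN g (b ![g', g''])) := by
  rw [cupC_apply, cupF_apply]
  have h1 : (fun t : Fin 1 => (![g, g', g''] ∘ Fin.cast h) (Fin.castAdd 2 t)) = fun _ => g := by
    funext t; fin_cases t; rfl
  have h2 : (fun t : Fin 2 => (![g, g', g''] ∘ Fin.cast h) (Fin.natAdd 1 t)) = ![g', g''] := by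
    funext t; fin_cases t <;> rfl
  have h3 : pr (ext (![g, g', g''] ∘ Fin.cast h)) 0 1 = g := by simp [pr, ext]
  rw [h1, h2, h3]

lemma CupN.cupC_21 (h : 2 + 1 = 3) (a : (Fin 2 → G) → M) (b : (Fin 1 → G) → N) (g g' g'' : G) :
    cupC B ρN h a b ![g, g', g''] = B (a ![g, g']) (ρN (g * g') (b fun _ => g'')) := by
  rw [cupC_apply, cupF_apply]
  have h1 : (fun t : Fin 2 => (![g, g', g''] ∘ Fin.cast h) (Fin.castAdd 1 t)) = ![g, g'] := by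
    funext t; fin_cases t <;> rfl
  have h2 : (fun t : Fin 1 => (![g, g', g''] ∘ Fin.cast h) (Fin.natAdd 2 t)) = fun _ => g'' := by
    funext t; fin_cases t; rfl
  have h3 : pr (ext (![g, g', g''] ∘ Fin.cast h)) 0 2 = g * g' := by simp [pr, ext]
  rw [h1, h2, h3]

lemma CupN.cupC_30 (h : 3 + 0 = 3) (a : (Fin 3 → G) → M) (b : (Fin 0 → G) → N) (g g' g'' : G) :
    cupC B ρN h a b ![g, g', g''] = B (a ![g, g', g'']) (ρN (g * g' * g'') (b default)) := by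
  rw [cupC_apply, cupF_apply]
  have h1 : (fun t : Fin 3 => (![g, g', g''] ∘ Fin.cast h) (Fin.castAdd 0 t)) = ![g, g', g''] := by
    funext t; fin_cases t <;> rfl
  have h2 : (fun t : Fin 0 => (![g, g', g''] ∘ Fin.cast h) (Fin.natAdd 3 t)) = default :=
    Subsingleton.elim _ _
  have h3 : pr (ext (![g, g', g''] ∘ Fin.cast h)) 0 3 = g * g' * g'' := by simp [pr, ext]
  rw [h1, h2, h3]

end plain

/-! ### (B) `lcCup` in the plain-function shapes of `Low.lean` -/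

section lc

variable {k G : Type u} [CommRing k] [Group G] (𝒰 : LevelSystem G)
variable {M N P : Rep.{u} k G} [IsDiscrete 𝒰 N] (B : M →ₗ[k] N →ₗ[k] P)

lemma lcEquiv_lcCup_00 (h : 0 + 0 = 0) (a : lcSub 𝒰 M 0) (b : lcSub 𝒰 N 0) :
    lcEquiv₀ 𝒰 P (lcCup 𝒰 B h a b) = cup00 B (lcEquiv₀ 𝒰 M a) (lcEquiv₀ 𝒰 N b) := by
  simp only [lcEquiv₀_apply, lcCup_coe, cup00_apply]
  exact CupN.cupC_00 B N.ρ h a.1 b.1 default

lemma lcEquiv_lcCup_01 (h : 0 + 1 = 1) (a : lcSub 𝒰 M 0) (b : lcSub 𝒰 N 1) :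
    (lcEquiv₁ 𝒰 P (lcCup 𝒰 B h a b) : G → P) =
      cup01 B (lcEquiv₀ 𝒰 M a) (lcEquiv₁ 𝒰 N b : G → N) := by
  funext g
  simp only [lcEquiv₀_apply, lcEquiv₁_apply, lcCup_coe, cup01_apply]
  exact CupN.cupC_01 B N.ρ h a.1 b.1 g

lemma lcEquiv_lcCup_10 (h : 1 + 0 = 1) (a : lcSub 𝒰 M 1) (b : lcSub 𝒰 N 0) :
    (lcEquiv₁ 𝒰 P (lcCup 𝒰 B h a b) : G → P) =
      cup10 B N.ρ (lcEquiv₁ 𝒰 M a : G → M) (lcEquiv₀ 𝒰 N b) := by
  funext g
  simp only [lcEquiv₀_apply, lcEquiv₁_apply, lcCup_coe, cup10_apply]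
  exact CupN.cupC_10 B N.ρ h a.1 b.1 g

lemma lcEquiv_lcCup_11 (h : 1 + 1 = 2) (a : lcSub 𝒰 M 1) (b : lcSub 𝒰 N 1) :
    (lcEquiv₂ 𝒰 P (lcCup 𝒰 B h a b) : G × G → P) =
      cup11 B N.ρ (lcEquiv₁ 𝒰 M a : G → M) (lcEquiv₁ 𝒰 N b : G → N) := by
  funext ⟨g, g'⟩
  simp only [lcEquiv₁_apply, lcEquiv₂_apply, lcCup_coe, cup11_apply]
  exact CupN.cupC_11 B N.ρ h a.1 b.1 g g'

lemma lcEquiv_lcCup_02 (h : 0 + 2 = 2) (a : lcSub 𝒰 M 0) (b : lcSub 𝒰 N 2) :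
    (lcEquiv₂ 𝒰 P (lcCup 𝒰 B h a b) : G × G → P) =
      cup02 B (lcEquiv₀ 𝒰 M a) (lcEquiv₂ 𝒰 N b : G × G → N) := by
  funext ⟨g, g'⟩
  simp only [lcEquiv₀_apply, lcEquiv₂_apply, lcCup_coe, cup02_apply]
  exact CupN.cupC_02 B N.ρ h a.1 b.1 g g'

lemma lcEquiv_lcCup_20 (h : 2 + 0 = 2) (a : lcSub 𝒰 M 2) (b : lcSub 𝒰 N 0) :
    (lcEquiv₂ 𝒰 P (lcCup 𝒰 B h a b) : G × G → P) =
      cup20 B N.ρ (lcEquiv₂ 𝒰 M a : G × G → M) (lcEquiv₀ 𝒰 N b) := by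
  funext ⟨g, g'⟩
  simp only [lcEquiv₀_apply, lcEquiv₂_apply, lcCup_coe, cup20_apply]
  exact CupN.cupC_20 B N.ρ h a.1 b.1 g g'

lemma lcEquiv_lcCup_03 (h : 0 + 3 = 3) (a : lcSub 𝒰 M 0) (b : lcSub 𝒰 N 3) :
    (lcEquiv₃ 𝒰 P (lcCup 𝒰 B h a b) : G × G × G → P) =
      cup03 B (lcEquiv₀ 𝒰 M a) (lcEquiv₃ 𝒰 N b : G × G × G → N) := by
  funext ⟨g, g', g''⟩
  simp only [lcEquiv₀_apply, lcEquiv₃_apply, lcCup_coe, cup03_apply]
  exact CupN.cupC_03 B N.ρ h a.1 b.1 g g' g''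

lemma lcEquiv_lcCup_12 (h : 1 + 2 = 3) (a : lcSub 𝒰 M 1) (b : lcSub 𝒰 N 2) :
    (lcEquiv₃ 𝒰 P (lcCup 𝒰 B h a b) : G × G × G → P) =
      cup12 B N.ρ (lcEquiv₁ 𝒰 M a : G → M) (lcEquiv₂ 𝒰 N b : G × G → N) := by
  funext ⟨g, g', g''⟩
  simp only [lcEquiv₁_apply, lcEquiv₂_apply, lcEquiv₃_apply, lcCup_coe, cup12_apply]
  exact CupN.cupC_12 B N.ρ h a.1 b.1 g g' g''

lemma lcEquiv_lcCup_21 (h : 2 + 1 = 3) (a : lcSub 𝒰 M 2) (b : lcSub 𝒰 N 1) :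
    (lcEquiv₃ 𝒰 P (lcCup 𝒰 B h a b) : G × G × G → P) =
      cup21 B N.ρ (lcEquiv₂ 𝒰 M a : G × G → M) (lcEquiv₁ 𝒰 N b : G → N) := by
  funext ⟨g, g', g''⟩
  simp only [lcEquiv₁_apply, lcEquiv₂_apply, lcEquiv₃_apply, lcCup_coe, cup21_apply]
  exact CupN.cupC_21 B N.ρ h a.1 b.1 g g' g''

lemma lcEquiv_lcCup_30 (h : 3 + 0 = 3) (a : lcSub 𝒰 M 3) (b : lcSub 𝒰 N 0) :
    (lcEquiv₃ 𝒰 P (lcCup 𝒰 B h a b) : G × G × G → P) =
      cup30 B N.ρ (lcEquiv₃ 𝒰 M a : G × G × G → M) (lcEquiv₀ 𝒰 N b) := by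
  funext ⟨g, g', g''⟩
  simp only [lcEquiv₀_apply, lcEquiv₃_apply, lcCup_coe, cup30_apply]
  exact CupN.cupC_30 B N.ρ h a.1 b.1 g g' g''

end lc

/-! ### (C) the differentials in the plain shapes of `Cup.lean` -/

section d

variable {k G : Type u} [CommRing k] [Group G] (𝒰 : LevelSystem G)
variable (M : Rep.{u} k G) [IsDiscrete 𝒰 M]

lemma d₀₁_eq_d0 (m : M) : ((d₀₁ M).hom m : G → M) = d0 M.ρ m := by
  funext g
  simp [d0]

lemma d₁₂_eq_d1 (f : G → M) : ((d₁₂ M).hom f : G × G → M) = d1 M.ρ f := by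
  funext ⟨g, h⟩
  simp [d1]

lemma d₂₃_eq_d2 (f : G × G → M) : ((d₂₃ M).hom f : G × G × G → M) = d2 M.ρ f := by
  funext ⟨g, h, j⟩
  simp [d2]

lemma lcEquiv_lcD_0 (f : lcSub 𝒰 M 0) :
    (lcEquiv₁ 𝒰 M (lcD 𝒰 M 0 f) : G → M) = d0 M.ρ (lcEquiv₀ 𝒰 M f) :=
  (lcEquiv₁_lcD 𝒰 M f).trans (d₀₁_eq_d0 M _)

lemma lcEquiv_lcD_1 (f : lcSub 𝒰 M 1) :
    (lcEquiv₂ 𝒰 M (lcD 𝒰 M 1 f) : G × G → M) = d1 M.ρ (lcEquiv₁ 𝒰 M f : G → M) :=
  (lcEquiv₂_lcD 𝒰 M f).trans (d₁₂_eq_d1 M _)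

lemma lcEquiv_lcD_2 (f : lcSub 𝒰 M 2) :
    (lcEquiv₃ 𝒰 M (lcD 𝒰 M 2 f) : G × G × G → M) = d2 M.ρ (lcEquiv₂ 𝒰 M f : G × G → M) :=
  (lcEquiv₃_lcD 𝒰 M f).trans (d₂₃_eq_d2 M _)

end d

end Fermat.Agent.GC.Prof
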