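/-
GATE-C / C1 (L13) RETRACT (helper7).  On top of helper52's `GC/Tate/Cor.lean`
(`coindUnit`, `coindTrace`, `coindUnit ≫ coindTrace = [G:S] • 𝟙`).

`S ≤ G` of finite index with `[G:S]` invertible in `k`: every `A : Rep k G` is a direct summand
of `Coind_S^G Res_S A`, naturally in `A`.

* `incl S A = coindUnit S A : A ⟶ Coind Res A`, `a ↦ (g ↦ g a)`;
* `retr S c A = c • coindTrace S A : Coind Res A ⟶ A`, `f ↦ c • ∑_{gS} g f(g⁻¹)`;
* `incl_comp_retr : (S.index : k) * c = 1 → incl S A ≫ retr S c A = 𝟙 A`;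
* `incl_naturality`, `retr_naturality` : both are natural in `A` (w.r.t. `coindMap (resMap φ)`);
* `exists_retract`, `exists_retract_zmod` : existence forms.
-/
import Mathlib
import Fermat.Agent.GC.Tate.Cor

set_option autoImplicit false

namespace Fermat.Agent.GC.Prof.Retract

open CategoryTheory Rep Fermat.Agent.GC.Tate

universe u

variable {k G : Type u} [CommRing k] [Group G] (S : Subgroup G)

/-- `Coind_S^G Res_S` on morphisms. -/
noncomputable abbrev coindResMap {A B : Rep.{u} k G} (φ : A ⟶ B) :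
    coind S.subtype (res S.subtype A) ⟶ coind S.subtype (res S.subtype B) :=
  coindMap S.subtype ((resFunctor S.subtype).map φ)

lemma coindResMap_hom_apply {A B : Rep.{u} k G} (φ : A ⟶ B)
    (f : coind S.subtype (res S.subtype A)) (g : G) :
    ((coindResMap S φ).hom f).1 g = φ.hom (f.1 g) := rfl

/-- The inclusion `A ⟶ Coind_S^G Res_S A`, `a ↦ (g ↦ g a)`. -/
noncomputable abbrev incl (A : Rep.{u} k G) : A ⟶ coind S.subtype (res S.subtype A) :=
  coindUnit S A

/-- The inclusion is natural in `A`. -/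
theorem incl_naturality {A B : Rep.{u} k G} (φ : A ⟶ B) :
    incl S A ≫ coindResMap S φ = φ ≫ incl S B := by
  ext a g
  change φ.hom (A.ρ g a) = B.ρ g (φ.hom a)
  exact Rep.hom_comm_apply φ g a

theorem incl_injective (A : Rep.{u} k G) : Function.Injective (incl S A).hom := by
  intro a b h
  have h1 : ((coindUnit S A).hom a).1 (1 : G) = ((coindUnit S A).hom b).1 (1 : G) := by
    rw [h]
  rw [coindUnit_hom_apply, coindUnit_hom_apply] at h1
  simpa using h1

section FiniteIndex

variable [S.FiniteIndex]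

/-- The trace is natural in `A`. -/
theorem coindTrace_naturality {A B : Rep.{u} k G} (φ : A ⟶ B) :
    coindResMap S φ ≫ coindTrace S B = coindTrace S A ≫ φ := by
  ext f
  change (coindTrace S B).hom ((coindResMap S φ).hom f) = φ.hom ((coindTrace S A).hom f)
  rw [coindTrace_hom_apply, coindTrace_hom_apply, map_sum]
  refine Finset.sum_congr rfl fun q _ => ?_
  unfold twistFun
  rw [coindResMap_hom_apply]
  exact (Rep.hom_comm_apply φ _ _).symm

/-- The retraction `Coind_S^G Res_S A ⟶ A`, `f ↦ c • ∑_{gS ∈ G/S} g f(g⁻¹)`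
(to be used with `c = [G:S]⁻¹`). -/
noncomputable def retr (c : k) (A : Rep.{u} k G) : coind S.subtype (res S.subtype A) ⟶ A :=
  c • coindTrace S A

theorem retr_hom_apply (c : k) (A : Rep.{u} k G) (f : coind S.subtype (res S.subtype A)) :
    (retr S c A).hom f = c • (coindTrace S A).hom f := rfl

/-- `A` is a retract of `Coind_S^G Res_S A` when `[G:S]` is invertible in `k`. -/
theorem incl_comp_retr (c : k) (hc : (S.index : k) * c = 1) (A : Rep.{u} k G) :
    incl S A ≫ retr S c A = 𝟙 A := by
  ext a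
  change c • (coindTrace S A).hom ((coindUnit S A).hom a) = a
  rw [coindTrace_coindUnit_apply, ← Nat.cast_smul_eq_nsmul k, smul_smul, mul_comm, hc, one_smul]

/-- The retraction is natural in `A`. -/
theorem retr_naturality (c : k) {A B : Rep.{u} k G} (φ : A ⟶ B) :
    coindResMap S φ ≫ retr S c B = retr S c A ≫ φ := by
  ext f
  change c • (coindTrace S B).hom ((coindResMap S φ).hom f) = φ.hom (c • (coindTrace S A).hom f)
  rw [map_smul]
  congr 1
  exact congrArg (fun ψ => ψ.hom f) (coindTrace_naturality S φ)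

/-- Existence form of (L13): if `[G:S]` is a unit of `k`, every `A : Rep k G` is a direct summand
of `Coind_S^G Res_S A`. -/
theorem exists_retract (hS : IsUnit (S.index : k)) (A : Rep.{u} k G) :
    ∃ (i : A ⟶ coind S.subtype (res S.subtype A)) (r : coind S.subtype (res S.subtype A) ⟶ A),
      i ≫ r = 𝟙 A := by
  obtain ⟨c, hc⟩ := hS.exists_right_inv
  exact ⟨incl S A, retr S c A, incl_comp_retr S c hc A⟩

end FiniteIndex

/-- In `ZMod p`, an index prime to `p` is invertible. -/
theorem exists_inv_index_zmod {G : Type} [Group G] (S : Subgroup G) (p : ℕ) [Fact p.Prime]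
    (hp : ¬ p ∣ S.index) : ∃ c : ZMod p, (S.index : ZMod p) * c = 1 := by
  have h : (S.index : ZMod p) ≠ 0 := by
    rw [Ne, ZMod.natCast_eq_zero_iff]
    exact hp
  exact ⟨(S.index : ZMod p)⁻¹, mul_inv_cancel₀ h⟩

/-- (L13) for `k = ZMod p`: `A` is a retract of `Coind_S^G Res_S A` when `p ∤ [G:S]`. -/
theorem exists_retract_zmod {G : Type} [Group G] (S : Subgroup G) [S.FiniteIndex]
    (p : ℕ) [Fact p.Prime] (hp : ¬ p ∣ S.index) (A : Rep.{0} (ZMod p) G) :
    ∃ (i : A ⟶ coind S.subtype (res S.subtype A)) (r : coind S.subtype (res S.subtype A) ⟶ A),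
      i ≫ r = 𝟙 A := by
  obtain ⟨c, hc⟩ := exists_inv_index_zmod S p hp
  exact ⟨incl S A, retr S c A, incl_comp_retr S c hc A⟩

end Fermat.Agent.GC.Prof.Retract
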